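/-
Fermat/Agent/N4F/E/TorsionCongruence.lean  (helper3, block E: E-tors ABSTRACT)

Abstract "torsion" Eichler–Shimura congruence.  From the norm-reduction hypothesis
`NormReduction A π N ℓ g` (for every integral `y` with nonzero reduction the norm `N_α(β y)` is
`a / b` with `a`, `b` integral with nonzero reductions and `ā = (g • ȳ) (g⁻¹ • ȳ)^ℓ b̄`) we deduce

* `mapDomain_heckeDivBar_of_mem_integral` : the congruence
  `r_* (T_ℓ D) = g • r_* D + ℓ • g⁻¹ • r_* D` for `D` an integral principal divisor,
* `mapDomain_heckeDivBar_of_zsmul_mem_principal` : the same for every `D` a nonzero multiple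
  of which is principal,
* `reductionPic0Along_heckePic0Bar_of_torsion` : the `Pic⁰` form for torsion classes.

Prelude + Mathlib only.
-/
import Mathlib
import Fermat.Prelude.Def_ModularCurve_HeckeOperator
import Fermat.Prelude.Def_ModularCurve_ReductionModL

set_option autoImplicit false
set_option linter.unusedSectionVars false
set_option linter.style.haveILetI false

open AlgebraicCurve ModularCurve HahnSeries

namespace Fermat.Agent.N4F.E.TorsionCongruence

section Generic

variable {L : Type*} [Field L] [Algebra ℚ L] {A : ValuationSubring L} {k : Type*} [Field k]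
  {π : A →+* k} {N : ℕ}

/-- An additive map out of the divisor group which kills the integral principal divisors kills
every principal divisor (given `PrincipalGeneratedByIntegral`). -/
theorem eq_zero_of_mem_principal {G : Type*} [AddCommGroup G]
    (Δ : Divisor L (laurentBaseChange L (modularFunctionFieldFull N)) →+ G)
    (hΔ : ∀ D ∈ integralPrincipalDivisors A π N, Δ D = 0)
    (hgen : PrincipalGeneratedByIntegral A π N)
    {D : Divisor L (laurentBaseChange L (modularFunctionFieldFull N))}
    (hD : D ∈ Divisor.principal (K := L) (F := laurentBaseChange L (modularFunctionFieldFull N))) :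
    Δ D = 0 := by
  have hD' := hgen hD
  clear hD
  induction hD' using AddSubgroup.closure_induction with
  | mem E hE => exact hΔ E hE
  | zero => exact map_zero Δ
  | add E E' _ _ hE hE' => rw [map_add, hE, hE', add_zero]
  | neg E _ hE => rw [map_neg, hE, neg_zero]

/-- ... and hence every divisor with a principal nonzero multiple, when the target is
torsion-free. -/
theorem eq_zero_of_zsmul_mem_principal {ι : Type*}
    (Δ : Divisor L (laurentBaseChange L (modularFunctionFieldFull N)) →+ (ι →₀ ℤ))
    (hΔ : ∀ D ∈ integralPrincipalDivisors A π N, Δ D = 0)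
    (hgen : PrincipalGeneratedByIntegral A π N)
    {D : Divisor L (laurentBaseChange L (modularFunctionFieldFull N))} {m : ℤ} (hm : m ≠ 0)
    (hD : m • D ∈ Divisor.principal (K := L)
      (F := laurentBaseChange L (modularFunctionFieldFull N))) :
    Δ D = 0 := by
  have h1 := eq_zero_of_mem_principal Δ hΔ hgen hD
  rw [map_zsmul] at h1
  exact (smul_eq_zero.mp h1).resolve_left hm

/-- `ord` of a natural power. -/
theorem ord_pow {K F : Type*} [Field K] [Field F] [Algebra K F] (v : Place K F) (f : F) (n : ℕ) :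
    v.ord (f ^ n) = n * v.ord f := by
  have h := v.ord_zpow f n
  rwa [zpow_natCast] at h

/-- `coeffMap` along the inclusion of a subring is injective. -/
theorem coeffMap_subtype_injective : Function.Injective (coeffMap A.subtype) := by
  intro x y h
  ext n
  have := congrArg (fun z => z.coeff n) h
  simp only [coeffMap_coeff] at this
  exact this

end Generic

section Main

variable {L : Type*} [Field L] [Algebra ℚ L] (A : ValuationSubring L) {k : Type*} [Field k]
  (π : A →+* k) (N ℓ : ℕ) [NeZero N] [NeZero ℓ]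

/-- The norm-reduction hypothesis (produced, for `L = ℚ̄`, `π = residue`, `g = Frobenius`, from the
Eichler–Shimura/Kronecker congruence on the Gauss valuation ring):
for every integral `y` with nonzero reduction `ȳ`, the norm `N_α(β y)` can be written `a / b` with
`a, b` integral with nonzero reductions, and `ā = (g • ȳ) · (g⁻¹ • ȳ)^ℓ · b̄`. -/
def NormReduction (g : SemilinearAut k (modularFunctionFieldFullC k N)) : Prop :=
  ∀ (y : LaurentSeries A)
    (hy : coeffMap A.subtype y ∈ laurentBaseChange L (modularFunctionFieldFull N))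
    (hyk : coeffMap π y ∈ modularFunctionFieldFullC k N),
    coeffMap π y ≠ 0 →
    ∃ (a b : LaurentSeries A)
      (ha : coeffMap A.subtype a ∈ laurentBaseChange L (modularFunctionFieldFull N))
      (hb : coeffMap A.subtype b ∈ laurentBaseChange L (modularFunctionFieldFull N))
      (hak : coeffMap π a ∈ modularFunctionFieldFullC k N)
      (hbk : coeffMap π b ∈ modularFunctionFieldFullC k N),
      coeffMap π a ≠ 0 ∧ coeffMap π b ≠ 0 ∧
      (letI := algebraAlong (heckeAlphaBar L N ℓ)
       Algebra.norm (laurentBaseChange L (modularFunctionFieldFull N))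
        (heckeBetaBar L N ℓ ⟨coeffMap A.subtype y, hy⟩)) *
          (⟨coeffMap A.subtype b, hb⟩ : laurentBaseChange L (modularFunctionFieldFull N))
        = ⟨coeffMap A.subtype a, ha⟩ ∧
      (⟨coeffMap π a, hak⟩ : modularFunctionFieldFullC k N) =
        (g • (⟨coeffMap π y, hyk⟩ : modularFunctionFieldFullC k N)) *
          (g⁻¹ • (⟨coeffMap π y, hyk⟩ : modularFunctionFieldFullC k N)) ^ ℓ *
          ⟨coeffMap π b, hbk⟩

variable {A π N ℓ}
variable (hα : HeckeAlphaBarIntegral L N ℓ) (hβ : HeckeBetaBarIntegral L N ℓ)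
variable [HasPrincipalDivisors L (laurentBaseChange L (modularFunctionFieldFull (N * ℓ)))]

/-- The Hecke correspondence of a principal divisor `div f` is `div (N_α (β f))`. -/
theorem heckeDivBar_apply_eq_ord_norm
    (hfin : FiniteAlong L (heckeAlphaBar L N ℓ))
    (hNF : NormFormulaAlong L (heckeAlphaBar L N ℓ) hfin)
    {f : laurentBaseChange L (modularFunctionFieldFull N)} (hf : f ≠ 0)
    {D : Divisor L (laurentBaseChange L (modularFunctionFieldFull N))}
    (hD : ∀ P, D P = P.ord f)
    (v : Place L (laurentBaseChange L (modularFunctionFieldFull N))) :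
    heckeDivBar hα hβ D v =
      v.ord (letI := algebraAlong (heckeAlphaBar L N ℓ)
        Algebra.norm (laurentBaseChange L (modularFunctionFieldFull N))
          (heckeBetaBar L N ℓ f)) := by
  have hE : ∀ w, Divisor.pullbackAlong (heckeBetaBar L N ℓ) hβ D w
      = w.ord (heckeBetaBar L N ℓ f) := by
    intro w
    letI := algebraAlong (heckeBetaBar L N ℓ)
    haveI := isScalarTower_along (heckeBetaBar L N ℓ)
    haveI := isIntegral_along (heckeBetaBar L N ℓ) hβ
    exact Divisor.pullback_apply_eq_ord hD w
  have hβf : heckeBetaBar L N ℓ f ≠ 0 := (map_ne_zero _).mpr hf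
  letI := algebraAlong (heckeAlphaBar L N ℓ)
  haveI := isScalarTower_along (heckeAlphaBar L N ℓ)
  haveI : Module.Finite (laurentBaseChange L (modularFunctionFieldFull N))
    (laurentBaseChange L (modularFunctionFieldFull (N * ℓ))) := hfin
  exact hNF _ hβf _ hE v


variable [HasPrincipalDivisors L (laurentBaseChange L (modularFunctionFieldFull N))]

set_option maxHeartbeats 1000000 in
/-- The congruence on the divisor of an integral function with nonzero reduction. -/
theorem mapDomain_heckeDivBar_of_mem_integral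
    (hfin : FiniteAlong L (heckeAlphaBar L N ℓ))
    (hNF : NormFormulaAlong L (heckeAlphaBar L N ℓ) hfin)
    {r : Place L (laurentBaseChange L (modularFunctionFieldFull N)) →
      Place k (modularFunctionFieldFullC k N)}
    (hr : IsPlaceReductionAlong A π N r)
    {g : SemilinearAut k (modularFunctionFieldFullC k N)}
    (hnorm : NormReduction A π N ℓ g)
    {D : Divisor L (laurentBaseChange L (modularFunctionFieldFull N))}
    (hD : D ∈ integralPrincipalDivisors A π N) :
    Finsupp.mapDomain r (heckeDivBar hα hβ D) =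
      g • Finsupp.mapDomain r D + ℓ • (g⁻¹ • Finsupp.mapDomain r D) := by
  obtain ⟨y, hy, hyk, hne, hDy⟩ := hD
  obtain ⟨a, b, ha, hb, hak, hbk, hane, hbne, hNab, hred⟩ := hnorm y hy hyk hne
  -- nonvanishing upstairs
  have hnz : ∀ z : LaurentSeries A, coeffMap π z ≠ 0 → coeffMap A.subtype z ≠ 0 := by
    intro z hz h0
    apply hz
    have : z = 0 := coeffMap_subtype_injective (by rw [h0, map_zero])
    rw [this, map_zero]
  have hf : (⟨coeffMap A.subtype y, hy⟩ : laurentBaseChange L (modularFunctionFieldFull N)) ≠ 0 :=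
    fun h => hnz y hne (congrArg Subtype.val h)
  have hfa : (⟨coeffMap A.subtype a, ha⟩ : laurentBaseChange L (modularFunctionFieldFull N)) ≠ 0 :=
    fun h => hnz a hane (congrArg Subtype.val h)
  have hfb : (⟨coeffMap A.subtype b, hb⟩ : laurentBaseChange L (modularFunctionFieldFull N)) ≠ 0 :=
    fun h => hnz b hbne (congrArg Subtype.val h)
  -- nonvanishing downstairs
  have hyk0 : (⟨coeffMap π y, hyk⟩ : modularFunctionFieldFullC k N) ≠ 0 :=
    fun h => hne (congrArg Subtype.val h)
  have hbk0 : (⟨coeffMap π b, hbk⟩ : modularFunctionFieldFullC k N) ≠ 0 :=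
    fun h => hbne (congrArg Subtype.val h)
  -- divisors of `a` and `b`
  obtain ⟨Da, hDa, -⟩ := HasPrincipalDivisors.exists_divisor (K := L) _ hfa
  obtain ⟨Db, hDb, -⟩ := HasPrincipalDivisors.exists_divisor (K := L) _ hfb
  -- the Hecke image of `D` is `Da - Db`
  have hT : heckeDivBar hα hβ D = Da - Db := by
    ext v
    rw [heckeDivBar_apply_eq_ord_norm hα hβ hfin hNF hf hDy v, Finsupp.sub_apply, hDa, hDb,
      ← hNab]
    have hNm : (letI := algebraAlong (heckeAlphaBar L N ℓ)
       Algebra.norm (laurentBaseChange L (modularFunctionFieldFull N))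
        (heckeBetaBar L N ℓ ⟨coeffMap A.subtype y, hy⟩)) ≠ 0 := by
      intro h0
      apply hfa
      rw [← hNab, h0, zero_mul]
    rw [Place.ord_mul _ hNm hfb]
    ring
  rw [hT, Finsupp.mapDomain_sub]
  ext Q
  have e1 : Finsupp.mapDomain r Da Q = Q.ord (⟨coeffMap π a, hak⟩ : modularFunctionFieldFullC k N) :=
    hr.2 a ha hak hane Da hDa Q
  have e2 : Finsupp.mapDomain r Db Q = Q.ord (⟨coeffMap π b, hbk⟩ : modularFunctionFieldFullC k N) :=
    hr.2 b hb hbk hbne Db hDb Q
  have e3 : (g • Finsupp.mapDomain r D) Q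
      = (g⁻¹ • Q).ord (⟨coeffMap π y, hyk⟩ : modularFunctionFieldFullC k N) := by
    rw [SemilinearAut.divisor_smul_apply]
    exact hr.2 y hy hyk hne D hDy (g⁻¹ • Q)
  have e4 : (g⁻¹ • Finsupp.mapDomain r D) Q
      = (g • Q).ord (⟨coeffMap π y, hyk⟩ : modularFunctionFieldFullC k N) := by
    rw [SemilinearAut.divisor_smul_apply, inv_inv]
    exact hr.2 y hy hyk hne D hDy (g • Q)
  have hgy : g • (⟨coeffMap π y, hyk⟩ : modularFunctionFieldFullC k N) ≠ 0 :=
    (smul_ne_zero_iff_ne g).mpr hyk0
  have hgy' : g⁻¹ • (⟨coeffMap π y, hyk⟩ : modularFunctionFieldFullC k N) ≠ 0 :=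
    (smul_ne_zero_iff_ne g⁻¹).mpr hyk0
  have e5 : Q.ord (⟨coeffMap π a, hak⟩ : modularFunctionFieldFullC k N)
      = Q.ord (g • (⟨coeffMap π y, hyk⟩ : modularFunctionFieldFullC k N))
        + (ℓ : ℤ) * Q.ord (g⁻¹ • (⟨coeffMap π y, hyk⟩ : modularFunctionFieldFullC k N))
        + Q.ord (⟨coeffMap π b, hbk⟩ : modularFunctionFieldFullC k N) := by
    rw [congrArg Q.ord hred, Place.ord_mul Q (mul_ne_zero hgy (pow_ne_zero ℓ hgy')) hbk0,
      Place.ord_mul Q hgy (pow_ne_zero ℓ hgy'), ord_pow]
  have h1 := SemilinearAut.ord_smul g (g⁻¹ • Q) (⟨coeffMap π y, hyk⟩ : modularFunctionFieldFullC k N)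
  have h2 := SemilinearAut.ord_smul g⁻¹ (g • Q) (⟨coeffMap π y, hyk⟩ : modularFunctionFieldFullC k N)
  rw [smul_inv_smul] at h1
  rw [inv_smul_smul] at h2
  rw [Finsupp.sub_apply, e1, e2, Finsupp.add_apply, Finsupp.smul_apply, e3, e4, e5, h1, h2,
    nsmul_eq_mul]
  ring


/-- **Torsion Eichler–Shimura congruence, divisor form.** If a nonzero multiple of `D` is
principal then `r_* (T_ℓ D) = g • r_* D + ℓ • g⁻¹ • r_* D`. -/
theorem mapDomain_heckeDivBar_of_zsmul_mem_principal
    (hfin : FiniteAlong L (heckeAlphaBar L N ℓ))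
    (hNF : NormFormulaAlong L (heckeAlphaBar L N ℓ) hfin)
    {r : Place L (laurentBaseChange L (modularFunctionFieldFull N)) →
      Place k (modularFunctionFieldFullC k N)}
    (hr : IsPlaceReductionAlong A π N r)
    (hgen : PrincipalGeneratedByIntegral A π N)
    {g : SemilinearAut k (modularFunctionFieldFullC k N)}
    (hnorm : NormReduction A π N ℓ g)
    (D : Divisor L (laurentBaseChange L (modularFunctionFieldFull N)))
    (hD : ∃ m : ℤ, m ≠ 0 ∧ m • D ∈ Divisor.principal (K := L)
      (F := laurentBaseChange L (modularFunctionFieldFull N))) :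
    Finsupp.mapDomain r (heckeDivBar hα hβ D) =
      g • Finsupp.mapDomain r D + ℓ • (g⁻¹ • Finsupp.mapDomain r D) := by
  obtain ⟨m, hm, hmD⟩ := hD
  let R : Divisor L (laurentBaseChange L (modularFunctionFieldFull N)) →+
      Divisor k (modularFunctionFieldFullC k N) := Finsupp.mapDomain.addMonoidHom r
  let Δ : Divisor L (laurentBaseChange L (modularFunctionFieldFull N)) →+
      (Place k (modularFunctionFieldFullC k N) →₀ ℤ) :=
    R.comp (heckeDivBar hα hβ) -
      ((DistribSMul.toAddMonoidHom (Divisor k (modularFunctionFieldFullC k N)) g).comp R +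
        (nsmulAddMonoidHom ℓ).comp
          ((DistribSMul.toAddMonoidHom (Divisor k (modularFunctionFieldFullC k N)) g⁻¹).comp R))
  have hΔ : ∀ E ∈ integralPrincipalDivisors A π N, Δ E = 0 := by
    intro E hE
    have key := mapDomain_heckeDivBar_of_mem_integral hα hβ hfin hNF hr hnorm hE
    show Finsupp.mapDomain r (heckeDivBar hα hβ E) -
      (g • Finsupp.mapDomain r E + ℓ • (g⁻¹ • Finsupp.mapDomain r E)) = 0
    rw [key, sub_self]
  have h0 : Δ D = 0 := eq_zero_of_zsmul_mem_principal Δ hΔ hgen hm hmD
  have h1 : Finsupp.mapDomain r (heckeDivBar hα hβ D) -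
      (g • Finsupp.mapDomain r D + ℓ • (g⁻¹ • Finsupp.mapDomain r D)) = 0 := h0
  exact sub_eq_zero.mp h1

set_option maxHeartbeats 1000000 in
/-- **Torsion Eichler–Shimura congruence, `Pic⁰` form.** -/
theorem reductionPic0Along_heckePic0Bar_of_torsion
    (hFI : FundamentalIdentityAlong L (heckeBetaBar L N ℓ) hβ)
    (hfin : FiniteAlong L (heckeAlphaBar L N ℓ))
    (hNF : NormFormulaAlong L (heckeAlphaBar L N ℓ) hfin)
    {r : Place L (laurentBaseChange L (modularFunctionFieldFull N)) →
      Place k (modularFunctionFieldFullC k N)}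
    (hr : IsPlaceReductionAlong A π N r)
    (hgen : PrincipalGeneratedByIntegral A π N)
    {g : SemilinearAut k (modularFunctionFieldFullC k N)}
    (hnorm : NormReduction A π N ℓ g)
    (x : Pic0 L (laurentBaseChange L (modularFunctionFieldFull N)))
    (hx : ∃ m : ℤ, m ≠ 0 ∧ m • x = 0) :
    reductionPic0Along r hr hgen (heckePic0Bar hα hβ hFI hfin hNF x) =
      g • reductionPic0Along r hr hgen x + ℓ • (g⁻¹ • reductionPic0Along r hr hgen x) := by
  obtain ⟨m, hm, hmx⟩ := hx
  obtain ⟨D, rfl⟩ := Pic0.mk_surjective x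
  have hmD : m • (D : Divisor L (laurentBaseChange L (modularFunctionFieldFull N))) ∈
      Divisor.principal (K := L) (F := laurentBaseChange L (modularFunctionFieldFull N)) := by
    have h1 : Pic0.mk (m • D) = 0 := by
      rw [← hmx]
      exact QuotientAddGroup.mk_zsmul _ D m
    have h2 := (QuotientAddGroup.eq_zero_iff (m • D)).mp h1
    rw [AddSubgroup.mem_addSubgroupOf, AddSubgroup.coe_zsmul] at h2
    exact h2
  have key := mapDomain_heckeDivBar_of_zsmul_mem_principal hα hβ hfin hNF hr hgen hnorm
    (D : Divisor L (laurentBaseChange L (modularFunctionFieldFull N))) ⟨m, hm, hmD⟩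
  have hL : reductionPic0Along r hr hgen (heckePic0Bar hα hβ hFI hfin hNF (Pic0.mk D)) =
      Pic0.mk (reductionDegZeroAlong r hr.1
        (Pic0.degZeroCorrespondence (heckeBetaBar L N ℓ) (heckeAlphaBar L N ℓ) hβ hα hFI D)) :=
    rfl
  have hR : g • reductionPic0Along r hr hgen (Pic0.mk D) +
      ℓ • (g⁻¹ • reductionPic0Along r hr hgen (Pic0.mk D)) =
      Pic0.mk (SemilinearAut.degZeroSMulHom g (reductionDegZeroAlong r hr.1 D) +
        ℓ • SemilinearAut.degZeroSMulHom g⁻¹ (reductionDegZeroAlong r hr.1 D)) := by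
    rw [reductionPic0Along_mk, SemilinearAut.pic0_smul_mk, SemilinearAut.pic0_smul_mk,
      Pic0.mk_add]
    rfl
  rw [hL, hR]
  refine congrArg Pic0.mk (Subtype.ext ?_)
  rw [coe_reductionDegZeroAlong, AddSubgroup.coe_add,
    AddSubgroup.coe_nsmul, SemilinearAut.coe_degZeroSMulHom, SemilinearAut.coe_degZeroSMulHom,
    coe_reductionDegZeroAlong]
  exact key

end Main

end Fermat.Agent.N4F.E.TorsionCongruence
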