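/-
N4-FULL, block E, row E1 (helper12): the degrees of the two degeneracy maps.

For a field `K` of characteristic zero embedded in `ℂ` (or algebraic over `ℚ`), `N, m ≥ 1`:

* `alphaF K N m, betaF K N m : FF K N →ₐ[K] FF K (N * m)` — the inclusion and `f(q) ↦ f(q^m)`;
* `finrank_FF_jNF` : `[FF K N : K(j_N)] = ψ(N)` (from the symmetry of `Φ_N`);
* `psi_mul_finrank_alphaF`, `psi_mul_finrank_betaF` :
  `ψ(N) · [FF K (N m) : α(FF K N)] = ψ(N m) = ψ(N) · [FF K (N m) : β(FF K N)]`;
* `finrank_alphaF_prime`, `finrank_betaF_prime` : both degrees are `ℓ + 1` for a prime `ℓ ∤ N`;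
* the same for the prelude's `heckeAlphaBar`, `heckeBetaBar` over `Q̄`.
-/
import Mathlib
import Fermat.Agent.N4.ModPolySetting
import Fermat.Agent.N4.ModPolyShape
import Fermat.Agent.S24.FFBasics
import Fermat.Prelude.Def_ModularCurve_HeckeOperator

set_option autoImplicit false
set_option linter.style.haveILetI false
set_option linter.unusedSectionVars false

namespace Fermat.Agent.N4F.E.DegreeLevelRaise

open ModularCurve Polynomial IntermediateField
open Fermat.Agent.N4.Setting Fermat.Agent.N4.ModPolyDescent Fermat.Agent.N4.Kronecker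
open Fermat.Agent.N4.FunctionFieldGen Fermat.Agent.N4.ModPolySetting Fermat.Agent.N4.ModPolyShape
open Fermat.Agent.N4.IntClosure Fermat.Agent.N4.TwistSeries

/-! ### Generic lemmas -/

section Generic

variable {K F F' : Type*} [Field K] [Field F] [Field F'] [Algebra K F] [Algebra K F']

/-- **Degree from a minimal two-variable relation.** If `F = K(a)(b)` with `a` transcendental,
`P(a, b) = 0` for a polynomial `P ∈ K[Y][X]` monic in `X`, and no nonzero polynomial of smaller
`X`-degree kills `(a, b)`, then `[F : K(a)] = deg_X P`. -/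
theorem finrank_of_minimal (a b : F) (ha : Transcendental K a) (htop : K⟮a⟯⟮b⟯ = ⊤)
    (P : K[X][X]) (hP : P.Monic) (hroot : ev2 a b P = 0)
    (hmin : ∀ R₀ : K[X][X], R₀.natDegree < P.natDegree → ev2 a b R₀ = 0 → R₀ = 0) :
    Module.finrank K⟮a⟯ F = P.natDegree := by
  letI := algPolyTop (O := K) a
  letI := algPolyMid (O := K) (K := K) a
  haveI := isScalarTower_poly (O := K) (K := K) a
  haveI := isFractionRing_poly (O := K) (K := K) a ha
  haveI : IsIntegrallyClosed K[X] := isIntegrallyClosed_polynomial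
  have haeval : ∀ Q : K[X][X], aeval b Q = ev2 a b Q := fun Q => rfl
  have hint : IsIntegral K[X] b := ⟨P, hP, hroot⟩
  have hint' : IsIntegral K⟮a⟯ b := hint.tower_top
  have hmp := minpoly.isIntegrallyClosed_eq_field_fractions' K⟮a⟯ hint
  have hdeg : (minpoly K[X] b).natDegree = P.natDegree := by
    apply le_antisymm
    · exact natDegree_le_natDegree (minpoly.min K[X] b hP ((haeval _).trans hroot))
    · by_contra hlt
      have h0 := hmin (minpoly K[X] b) (not_le.mp hlt) ((haeval _).symm.trans (minpoly.aeval _ _))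
      exact minpoly.ne_zero hint h0
  rw [← IntermediateField.finrank_top', ← htop, adjoin.finrank hint', hmp,
    (minpoly.monic hint).natDegree_map, hdeg]

/-- **Tower law along an embedding**: `[F' : K(φ x)] = [F : K(x)] · [F' : φ(F)]`. -/
theorem finrank_adjoin_map (φ : F →ₐ[K] F') (x : F) :
    Module.finrank K⟮φ x⟯ F' = Module.finrank K⟮x⟯ F * Module.finrank φ.fieldRange F' := by
  letI : Algebra F F' := φ.toRingHom.toAlgebra
  haveI : IsScalarTower K F F' := IsScalarTower.of_algebraMap_eq fun c => (φ.commutes c).symm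
  have h1 := Module.finrank_mul_finrank K⟮x⟯ F F'
  have h2 : Module.finrank F F' = Module.finrank φ.fieldRange F' := by
    refine Algebra.finrank_eq_of_equiv_equiv φ.equivFieldRange.toRingEquiv (RingEquiv.refl F') ?_
    ext y
    rfl
  have hmap : (K⟮x⟯).map φ = K⟮φ x⟯ := by
    rw [IntermediateField.adjoin_map, Set.image_singleton]
  have h3 : Module.finrank K⟮x⟯ F' = Module.finrank K⟮φ x⟯ F' := by
    refine Algebra.finrank_eq_of_equiv_equiv
      (((K⟮x⟯).equivMap φ).trans (IntermediateField.equivOfEq hmap)).toRingEquiv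
      (RingEquiv.refl F') ?_
    ext y
    rfl
  rw [← h3, ← h1, h2]

/-- The degree over the range of `φ` equals the degree for any algebra structure given by `φ`. -/
theorem finrank_eq_finrank_fieldRange (φ : F →ₐ[K] F') [Algebra F F']
    (h : algebraMap F F' = φ.toRingHom) :
    Module.finrank F F' = Module.finrank φ.fieldRange F' := by
  refine Algebra.finrank_eq_of_equiv_equiv φ.equivFieldRange.toRingEquiv (RingEquiv.refl F') ?_
  rw [h]
  ext y
  rfl

end Generic

/-! ### The swapped pair `(j_N, j)` -/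

section SwapK

variable {k : Type*} [CommRing k]

theorem ev2_swap {A : Type*} [CommRing A] [Algebra k A] (a b : A) (P : k[X][X]) :
    ev2 a b (Bivariate.swap P) = ev2 b a P := by
  induction P using Polynomial.induction_on' with
  | add p q hp hq => rw [map_add, map_add, map_add, hp, hq]
  | monomial n f =>
    induction f using Polynomial.induction_on' with
    | add p q hp hq => rw [map_add, map_add, map_add, map_add, hp, hq]
    | monomial m r =>
      rw [Bivariate.swap_monomial_monomial, ev2_monomial_monomial, ev2_monomial_monomial]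
      ring

theorem swap_map {k' : Type*} [CommRing k'] (f : k →+* k') (P : k[X][X]) :
    Bivariate.swap (P.map (mapRingHom f)) = (Bivariate.swap P).map (mapRingHom f) := by
  ext i j
  rw [coeff_coeff_swap, coeff_map, coeff_map, coe_mapRingHom, coeff_map, coeff_map,
    coeff_coeff_swap]

end SwapK

section Swapped

variable (K : Type) [Field K] (N : ℕ) [NeZero N]

theorem transcendental_jNF : Transcendental K (jNF K N) := by
  intro halg
  have h1 : IsAlgebraic K (qExpand K N (jqModC K)) :=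
    (isAlgebraic_algHom_iff (modularFunctionFieldFullC K N).val
      (modularFunctionFieldFullC K N).val.injective).mpr halg
  obtain ⟨P, hP0, hP⟩ := h1
  rw [← qExpand_aeval] at hP
  have h2 : aeval (jqModC K) P = 0 := qExpand_injective N (by rw [hP, map_zero])
  exact aeval_jqModC_ne_zero hP0 h2

/-- `Φ_N(j_N, j) = 0` in `FF K N`. -/
theorem evZ_swap_modPoly_FF : evZ (jNF K N) (jF K N) (modPoly N) = 0 := by
  apply Subtype.val_injective
  have h := map_evZ ((modularFunctionFieldFullC K N).val : FF K N →+* LaurentSeries K)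
    (jNF K N) (jF K N) (modPoly N)
  have h0 := evZ_modPoly_swap N K 1
  rw [qExpand_one_apply, qExpand_one_apply] at h0
  exact h.trans h0

theorem ev2_swap_modPolyK : ev2 (jNF K N) (jF K N) (modPolyK K N) = 0 := by
  rw [modPolyK, ev2_map_intCast (k := K) (jNF K N) (jF K N) (modPoly N), ← evZ_eq_ev2]
  exact evZ_swap_modPoly_FF K N

theorem swap_modPolyK :
    ∃ ε : K, ε ≠ 0 ∧ Bivariate.swap (modPolyK K N) = C (C ε) * modPolyK K N := by
  obtain ⟨ε, hε, h⟩ := swap_modPoly N
  refine ⟨(ε : K) * (ε : K) * (ε : K), ?_, ?_⟩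
  · have h1 : (ε : K) * (ε : K) = 1 := by
      rcases hε with rfl | rfl <;> norm_num
    rw [h1, one_mul]
    intro h0
    rw [h0, mul_zero] at h1
    exact zero_ne_one h1
  · have h1 : (ε : K) * (ε : K) = 1 := by
      rcases hε with rfl | rfl <;> norm_num
    rw [h1, one_mul, modPolyK, swap_map, h, Polynomial.map_mul, Polynomial.map_C, coe_mapRingHom,
      Polynomial.map_C]
    rfl

/-- **Minimality for the swapped pair**: a polynomial `R ∈ K[Y][X]` of `X`-degree `< ψ(N)` with
`R(j_N, j) = 0` is zero. -/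
theorem eq_zero_of_ev2_swap_FF_eq_zero (ι : K →+* ℂ) (R₀ : K[X][X])
    (hdeg : R₀.natDegree < dedekindPsi N) (h : ev2 (jNF K N) (jF K N) R₀ = 0) : R₀ = 0 := by
  obtain ⟨ε, hε, hsw⟩ := swap_modPolyK K N
  set Φ := modPolyK K N with hΦ
  have hm : Φ.Monic := modPolyK_monic K N
  have hdegΦ : Φ.natDegree = dedekindPsi N := modPolyK_natDegree K N
  have hne1 : Φ ≠ 1 := by
    intro h1
    have := Fermat.Agent.N4.ModPolyShape.dedekindPsi_pos N
    rw [← hdegΦ, h1, natDegree_one] at this
    exact lt_irrefl _ this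
  set T := Bivariate.swap R₀ with hT
  have hdiv := modByMonic_add_div T Φ
  have hR : T %ₘ Φ = 0 := by
    apply eq_zero_of_ev2_FF_eq_zero K N ι
    · rw [← hdegΦ]
      exact natDegree_modByMonic_lt T hm hne1
    · have h1 : ev2 (jF K N) (jNF K N) T = 0 := by
        rw [hT, ev2_swap]
        exact h
      have h2 := congrArg (ev2 (jF K N) (jNF K N)) hdiv
      rw [map_add, map_mul, h1, ev2_modPolyK K N, zero_mul, add_zero] at h2
      exact h2
  rw [hR, zero_add] at hdiv
  have hR₀ : R₀ = Φ * (C (C ε) * Bivariate.swap (T /ₘ Φ)) := by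
    have := congrArg Bivariate.swap hdiv
    rw [map_mul, hT, Bivariate.swap_swap_apply, hsw] at this
    rw [← this]
    ring
  by_contra hne
  have hq : C (C ε) * Bivariate.swap (T /ₘ Φ) ≠ 0 := by
    intro h0
    rw [h0, mul_zero] at hR₀
    exact hne hR₀
  have := hm.natDegree_mul' hq
  rw [← hR₀] at this
  omega

variable [CharZero K]

theorem adjoin_simple_jF_eq_top : K⟮jNF K N⟯⟮jF K N⟯ = ⊤ := by
  apply IntermediateField.restrictScalars_injective K
  rw [IntermediateField.restrictScalars_top, IntermediateField.adjoin_simple_adjoin_simple,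
    Set.pair_comm]
  exact adjoin_jF_jNF_eq_top K N

/-- **`[FF K N : K(j_N)] = ψ(N)`** (the degree of `K(j, j_N)` over `K(j_N)`). -/
theorem finrank_FF_jNF (ι : K →+* ℂ) : Module.finrank K⟮jNF K N⟯ (FF K N) = dedekindPsi N := by
  rw [finrank_of_minimal (jNF K N) (jF K N) (transcendental_jNF K N) (adjoin_simple_jF_eq_top K N)
    (modPolyK K N) (modPolyK_monic K N) (ev2_swap_modPolyK K N) ?_, modPolyK_natDegree]
  intro R₀ hdeg h
  rw [modPolyK_natDegree] at hdeg
  exact eq_zero_of_ev2_swap_FF_eq_zero K N ι R₀ hdeg h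

end Swapped

/-! ### The degeneracy maps `α, β : FF K N → FF K (N m)` -/

section LevelMaps

variable (K : Type) [Field K]

/-- The inclusion `FF K M → FF K M'` for `M ∣ M'`. -/
noncomputable def inclF {M M' : ℕ} [NeZero M] [NeZero M'] (h : M ∣ M') : FF K M →ₐ[K] FF K M' :=
  IntermediateField.inclusion (full_degeneracyC_le K h)

@[simp] theorem coe_inclF {M M' : ℕ} [NeZero M] [NeZero M'] (h : M ∣ M') (x : FF K M) :
    ((inclF K h x : FF K M') : LaurentSeries K) = x :=
  IntermediateField.coe_inclusion _ x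

theorem inclF_jF {M M' : ℕ} [NeZero M] [NeZero M'] (h : M ∣ M') :
    inclF K h (jF K M) = jF K M' := by
  apply Subtype.ext
  rw [coe_inclF, coe_jF, coe_jF]

theorem inclF_jdF {M M' : ℕ} [NeZero M] [NeZero M'] (h : M ∣ M') {d : ℕ} [NeZero d]
    (hd : d ∣ M) : inclF K h (jdF K M hd) = jdF K M' (hd.trans h) := by
  apply Subtype.ext
  rw [coe_inclF, coe_jdF, coe_jdF]

variable (N m : ℕ) [NeZero N] [NeZero m]

instance neZero_mul : NeZero (N * m) := ⟨Nat.mul_ne_zero (NeZero.ne N) (NeZero.ne m)⟩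

/-- `α : FF K N → FF K (N m)`, the inclusion. -/
noncomputable def alphaF : FF K N →ₐ[K] FF K (N * m) := inclF K (dvd_mul_right N m)

@[simp] theorem coe_alphaF (x : FF K N) :
    ((alphaF K N m x : FF K (N * m)) : LaurentSeries K) = x :=
  coe_inclF K _ x

/-- `β : FF K N → FF K (N m)`, `f(q) ↦ f(q^m)`. -/
noncomputable def betaF : FF K N →ₐ[K] FF K (N * m) :=
  ((qExpandAlgHomC K m).comp (modularFunctionFieldFullC K N).val).codRestrict
    (modularFunctionFieldFullC K (N * m)).toSubalgebra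
    (fun x => full_degeneracyC_map_le K N m ⟨x, x.2, rfl⟩)

@[simp] theorem coe_betaF (x : FF K N) :
    ((betaF K N m x : FF K (N * m)) : LaurentSeries K) = qExpand K m (x : LaurentSeries K) :=
  rfl

theorem alphaF_jF : alphaF K N m (jF K N) = jF K (N * m) := inclF_jF K _

theorem alphaF_jdF {d : ℕ} [NeZero d] (hd : d ∣ N) :
    alphaF K N m (jdF K N hd) = jdF K (N * m) (hd.trans (dvd_mul_right N m)) :=
  inclF_jdF K _ hd

theorem betaF_jdF {d : ℕ} [NeZero d] (hd : d ∣ N) :
    haveI : NeZero (m * d) := ⟨Nat.mul_ne_zero (NeZero.ne m) (NeZero.ne d)⟩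
    betaF K N m (jdF K N hd) =
      jdF K (N * m) (d := m * d) ((mul_dvd_mul_left m hd).trans (dvd_of_eq (mul_comm m N))) := by
  apply Subtype.ext
  rw [coe_betaF, coe_jdF, coe_jdF, qExpand_qExpand]

theorem betaF_jF : betaF K N m (jF K N) = jdF K (N * m) (dvd_mul_left m N) := by
  apply Subtype.ext
  rw [coe_betaF, coe_jdF, coe_jF]

end LevelMaps

/-! ### The degrees -/

section Degrees

variable (K : Type) [Field K] [CharZero K] (N m : ℕ) [NeZero N] [NeZero m]

/-- `ψ(N) · [FF K (N m) : α(FF K N)] = ψ(N m)`. -/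
theorem psi_mul_finrank_alphaF (ι : K →+* ℂ) :
    dedekindPsi N * Module.finrank (alphaF K N m).fieldRange (FF K (N * m)) =
      dedekindPsi (N * m) := by
  have h := finrank_adjoin_map (alphaF K N m) (jF K N)
  rw [alphaF_jF, finrank_FF K (N * m) ι, finrank_FF K N ι] at h
  exact h.symm

/-- `[FF K (N m) : K(j_m)] = ψ(N m)`. -/
theorem finrank_FF_jdF_right (ι : K →+* ℂ) :
    Module.finrank K⟮jdF K (N * m) (dvd_mul_left m N)⟯ (FF K (N * m)) = dedekindPsi (N * m) := by
  have h1 := finrank_adjoin_map (inclF K (dvd_mul_left m N)) (jF K m)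
  rw [inclF_jF, finrank_FF K (N * m) ι, finrank_FF K m ι] at h1
  have h2 := finrank_adjoin_map (inclF K (dvd_mul_left m N)) (jNF K m)
  rw [inclF_jdF, finrank_FF_jNF K m ι] at h2
  rw [h2, ← h1]

/-- `ψ(N) · [FF K (N m) : β(FF K N)] = ψ(N m)`. -/
theorem psi_mul_finrank_betaF (ι : K →+* ℂ) :
    dedekindPsi N * Module.finrank (betaF K N m).fieldRange (FF K (N * m)) =
      dedekindPsi (N * m) := by
  have h := finrank_adjoin_map (betaF K N m) (jF K N)
  rw [betaF_jF, finrank_FF_jdF_right K N m ι, finrank_FF K N ι] at h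
  exact h.symm

theorem finrank_alphaF_pos (ι : K →+* ℂ) : 0 < Module.finrank (alphaF K N m).fieldRange (FF K (N * m)) := by
  have h := psi_mul_finrank_alphaF K N m ι
  have hp := Fermat.Agent.N4.ModPolyShape.dedekindPsi_pos (N * m)
  rcases Nat.eq_zero_or_pos (Module.finrank (alphaF K N m).fieldRange (FF K (N * m))) with h0 | h0
  · rw [h0, mul_zero] at h
    omega
  · exact h0

theorem finrank_betaF_pos (ι : K →+* ℂ) : 0 < Module.finrank (betaF K N m).fieldRange (FF K (N * m)) := by
  have h := psi_mul_finrank_betaF K N m ι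
  have hp := Fermat.Agent.N4.ModPolyShape.dedekindPsi_pos (N * m)
  rcases Nat.eq_zero_or_pos (Module.finrank (betaF K N m).fieldRange (FF K (N * m))) with h0 | h0
  · rw [h0, mul_zero] at h
    omega
  · exact h0

theorem finiteDimensional_alphaF (ι : K →+* ℂ) :
    FiniteDimensional (alphaF K N m).fieldRange (FF K (N * m)) :=
  Module.finite_of_finrank_pos (finrank_alphaF_pos K N m ι)

theorem finiteDimensional_betaF (ι : K →+* ℂ) :
    FiniteDimensional (betaF K N m).fieldRange (FF K (N * m)) :=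
  Module.finite_of_finrank_pos (finrank_betaF_pos K N m ι)

end Degrees

section Prime

variable (K : Type) [Field K] [CharZero K] (N : ℕ) [NeZero N] (ℓ : ℕ) [Fact ℓ.Prime]

instance neZero_prime : NeZero ℓ := ⟨(Fact.out : ℓ.Prime).ne_zero⟩

theorem dedekindPsi_mul_prime (hℓN : ¬ ℓ ∣ N) :
    dedekindPsi (N * ℓ) = dedekindPsi N * (ℓ + 1) := by
  have hℓ : ℓ.Prime := Fact.out
  have hc : N.Coprime ℓ := ((Nat.Prime.coprime_iff_not_dvd hℓ).mpr hℓN).symm
  rw [Fermat.Agent.M2.P1.dedekindPsi_mul hc, dedekindPsi_prime ℓ]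

/-- **`[FF K (N ℓ) : α(FF K N)] = ℓ + 1`** for a prime `ℓ ∤ N`. -/
theorem finrank_alphaF_prime (ι : K →+* ℂ) (hℓN : ¬ ℓ ∣ N) :
    Module.finrank (alphaF K N ℓ).fieldRange (FF K (N * ℓ)) = ℓ + 1 := by
  have h := psi_mul_finrank_alphaF K N ℓ ι
  rw [dedekindPsi_mul_prime N ℓ hℓN] at h
  exact Nat.eq_of_mul_eq_mul_left (Fermat.Agent.N4.ModPolyShape.dedekindPsi_pos N) h

/-- **`[FF K (N ℓ) : β(FF K N)] = ℓ + 1`** for a prime `ℓ ∤ N`. -/
theorem finrank_betaF_prime (ι : K →+* ℂ) (hℓN : ¬ ℓ ∣ N) :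
    Module.finrank (betaF K N ℓ).fieldRange (FF K (N * ℓ)) = ℓ + 1 := by
  have h := psi_mul_finrank_betaF K N ℓ ι
  rw [dedekindPsi_mul_prime N ℓ hℓN] at h
  exact Nat.eq_of_mul_eq_mul_left (Fermat.Agent.N4.ModPolyShape.dedekindPsi_pos N) h

/-- The same for any algebra structure `FF K N → FF K (N ℓ)` given by `β`. -/
theorem finrank_of_algebraMap_eq_betaF (ι : K →+* ℂ) (hℓN : ¬ ℓ ∣ N) [Algebra (FF K N) (FF K (N * ℓ))]
    (h : algebraMap (FF K N) (FF K (N * ℓ)) = (betaF K N ℓ).toRingHom) :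
    Module.finrank (FF K N) (FF K (N * ℓ)) = ℓ + 1 := by
  rw [finrank_eq_finrank_fieldRange (betaF K N ℓ) h, finrank_betaF_prime K N ℓ ι hℓN]

/-- The same for any algebra structure `FF K N → FF K (N ℓ)` given by `α`. -/
theorem finrank_of_algebraMap_eq_alphaF (ι : K →+* ℂ) (hℓN : ¬ ℓ ∣ N) [Algebra (FF K N) (FF K (N * ℓ))]
    (h : algebraMap (FF K N) (FF K (N * ℓ)) = (alphaF K N ℓ).toRingHom) :
    Module.finrank (FF K N) (FF K (N * ℓ)) = ℓ + 1 := by
  rw [finrank_eq_finrank_fieldRange (alphaF K N ℓ) h, finrank_alphaF_prime K N ℓ ι hℓN]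

end Prime

/-! ### Transport to arbitrary presentations of the two function fields, and the prelude's maps -/

section Transport

variable (K : Type) [Field K] [CharZero K] (N m : ℕ) [NeZero N] [NeZero m]

theorem psi_mul_finrank_of_coe_eq_qExpand (ι : K →+* ℂ)
    {E E' : IntermediateField K (LaurentSeries K)} (hE : E = modularFunctionFieldFullC K N)
    (hE' : E' = modularFunctionFieldFullC K (N * m)) (φ : E →ₐ[K] E')
    (hφ : ∀ x : E, ((φ x : E') : LaurentSeries K) = qExpand K m (x : LaurentSeries K)) :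
    dedekindPsi N * Module.finrank φ.fieldRange E' = dedekindPsi (N * m) := by
  subst hE
  subst hE'
  have h : φ = betaF K N m := AlgHom.ext fun x => Subtype.ext (hφ x)
  rw [h]
  exact psi_mul_finrank_betaF K N m ι

theorem psi_mul_finrank_of_coe_eq (ι : K →+* ℂ)
    {E E' : IntermediateField K (LaurentSeries K)} (hE : E = modularFunctionFieldFullC K N)
    (hE' : E' = modularFunctionFieldFullC K (N * m)) (φ : E →ₐ[K] E')
    (hφ : ∀ x : E, ((φ x : E') : LaurentSeries K) = (x : LaurentSeries K)) :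
    dedekindPsi N * Module.finrank φ.fieldRange E' = dedekindPsi (N * m) := by
  subst hE
  subst hE'
  have h : φ = alphaF K N m := AlgHom.ext fun x => Subtype.ext ((hφ x).trans (coe_alphaF K N m x).symm)
  rw [h]
  exact psi_mul_finrank_alphaF K N m ι

end Transport

section Bar

variable (L : Type) [Field L] [Algebra ℚ L] (N : ℕ) [NeZero N]

/-- `L · F_N = L(j(q^d) : d ∣ N)`: the prelude's two presentations agree. -/
theorem laurentBaseChange_full_eq :
    laurentBaseChange L (modularFunctionFieldFull N) = modularFunctionFieldFullC L N :=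
  Fermat.Agent.S24.FFBasics.laurentBaseChange_full L N

variable (m : ℕ) [NeZero m]

theorem psi_mul_finrank_heckeAlphaBar (ι : L →+* ℂ) :
    dedekindPsi N * Module.finrank (heckeAlphaBar L N m).fieldRange
      (laurentBaseChange L (modularFunctionFieldFull (N * m))) = dedekindPsi (N * m) := by
  haveI : CharZero L := charZero_of_injective_algebraMap (algebraMap ℚ L).injective
  exact psi_mul_finrank_of_coe_eq L N m ι (laurentBaseChange_full_eq L N)
    (laurentBaseChange_full_eq L (N * m)) (heckeAlphaBar L N m) (coe_heckeAlphaBar N m)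

theorem psi_mul_finrank_heckeBetaBar (ι : L →+* ℂ) :
    dedekindPsi N * Module.finrank (heckeBetaBar L N m).fieldRange
      (laurentBaseChange L (modularFunctionFieldFull (N * m))) = dedekindPsi (N * m) := by
  haveI : CharZero L := charZero_of_injective_algebraMap (algebraMap ℚ L).injective
  exact psi_mul_finrank_of_coe_eq_qExpand L N m ι (laurentBaseChange_full_eq L N)
    (laurentBaseChange_full_eq L (N * m)) (heckeBetaBar L N m) (coe_heckeBetaBar N m)

end Bar

section BarPrime

variable (L : Type) [Field L] [Algebra ℚ L] (N : ℕ) [NeZero N] (ℓ : ℕ) [Fact ℓ.Prime]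

/-- **`[L·F_{Nℓ} : α(L·F_N)] = ℓ + 1`** for the prelude's `heckeAlphaBar`, `ℓ ∤ N` prime. -/
theorem finrank_heckeAlphaBar_prime (ι : L →+* ℂ) (hℓN : ¬ ℓ ∣ N) :
    Module.finrank (heckeAlphaBar L N ℓ).fieldRange
      (laurentBaseChange L (modularFunctionFieldFull (N * ℓ))) = ℓ + 1 := by
  have h := psi_mul_finrank_heckeAlphaBar L N ℓ ι
  rw [dedekindPsi_mul_prime N ℓ hℓN] at h
  exact Nat.eq_of_mul_eq_mul_left (Fermat.Agent.N4.ModPolyShape.dedekindPsi_pos N) h

/-- **`[L·F_{Nℓ} : β(L·F_N)] = ℓ + 1`** for the prelude's `heckeBetaBar`, `ℓ ∤ N` prime. -/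
theorem finrank_heckeBetaBar_prime (ι : L →+* ℂ) (hℓN : ¬ ℓ ∣ N) :
    Module.finrank (heckeBetaBar L N ℓ).fieldRange
      (laurentBaseChange L (modularFunctionFieldFull (N * ℓ))) = ℓ + 1 := by
  have h := psi_mul_finrank_heckeBetaBar L N ℓ ι
  rw [dedekindPsi_mul_prime N ℓ hℓN] at h
  exact Nat.eq_of_mul_eq_mul_left (Fermat.Agent.N4.ModPolyShape.dedekindPsi_pos N) h

/-- An embedding into `ℂ` of a field algebraic over `ℚ`. -/
noncomputable def iotaOfAlgebraic (K : Type) [Field K] [CharZero K] [Algebra.IsAlgebraic ℚ K] :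
    K →+* ℂ :=
  ((IsAlgClosed.lift (R := ℚ) (M := ℂ) (S := K) : K →ₐ[ℚ] ℂ) : K →+* ℂ)

/-- An embedding `Q̄ → ℂ`. -/
noncomputable def iotaQbar : AlgebraicClosure ℚ →+* ℂ :=
  haveI : Algebra.IsAlgebraic ℚ (AlgebraicClosure ℚ) := AlgebraicClosure.isAlgebraic ℚ
  ((IsAlgClosed.lift (R := ℚ) (M := ℂ) (S := AlgebraicClosure ℚ) : AlgebraicClosure ℚ →ₐ[ℚ] ℂ) :
    AlgebraicClosure ℚ →+* ℂ)

/-- Over `Q̄`: `[Q̄·F_{Nℓ} : β(Q̄·F_N)] = ℓ + 1`. -/
theorem finrank_heckeBetaBar_Qbar (hℓN : ¬ ℓ ∣ N) :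
    Module.finrank (heckeBetaBar (AlgebraicClosure ℚ) N ℓ).fieldRange
      (modularFunctionFieldBar (N * ℓ)) = ℓ + 1 :=
  finrank_heckeBetaBar_prime (AlgebraicClosure ℚ) N ℓ iotaQbar hℓN

/-- Over `Q̄`: `[Q̄·F_{Nℓ} : α(Q̄·F_N)] = ℓ + 1`. -/
theorem finrank_heckeAlphaBar_Qbar (hℓN : ¬ ℓ ∣ N) :
    Module.finrank (heckeAlphaBar (AlgebraicClosure ℚ) N ℓ).fieldRange
      (modularFunctionFieldBar (N * ℓ)) = ℓ + 1 :=
  finrank_heckeAlphaBar_prime (AlgebraicClosure ℚ) N ℓ iotaQbar hℓN

end BarPrime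

end Fermat.Agent.N4F.E.DegreeLevelRaise
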