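/-
N4-FULL, block E, node (E-desc), generic part (helper29): norm, trace and characteristic polynomial
commute with a linearly disjoint base change.

Setting: finite field extension `F₁ / F`, another extension `F₁' / F'`, ring homomorphisms
`lev : F →+* F'`, `lev₁ : F₁ →+* F₁'` compatible with the algebra maps, such that `lev₁ F₁` spans
`F₁'` over `F'` and `[F₁' : F'] = [F₁ : F]`.  Then every `F`-basis of `F₁` is mapped by `lev₁` to an
`F'`-basis of `F₁'`, the matrix of multiplication by `lev₁ x` is the image under `lev` of the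
matrix of multiplication by `x`, and hence `lev (N x) = N (lev₁ x)` etc.
-/
import Mathlib
import Fermat.Prelude.Def_AlgebraicCurve_Correspondence

set_option autoImplicit false
set_option linter.style.haveILetI false
set_option linter.unusedSectionVars false

namespace Fermat.Agent.N4F.E.NormDescent

open Module

section generic

variable {F F₁ F' F₁' : Type*} [Field F] [Field F₁] [Field F'] [Field F₁']
  [Algebra F F₁] [Algebra F' F₁'] [FiniteDimensional F F₁]
  (lev : F →+* F') (lev₁ : F₁ →+* F₁')
  (hcomp : ∀ x : F, lev₁ (algebraMap F F₁ x) = algebraMap F' F₁' (lev x))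

include hcomp in
theorem lev₁_smul (c : F) (x : F₁) : lev₁ (c • x) = lev c • lev₁ x := by
  rw [Algebra.smul_def, Algebra.smul_def, map_mul, hcomp]

include hcomp in
theorem lev₁_sum_smul {ι : Type*} (s : Finset ι) (c : ι → F) (b : ι → F₁) :
    lev₁ (∑ i ∈ s, c i • b i) = ∑ i ∈ s, lev (c i) • lev₁ (b i) := by
  rw [map_sum]
  exact Finset.sum_congr rfl fun i _ => lev₁_smul lev lev₁ hcomp _ _

variable (hspan : Submodule.span F' (Set.range lev₁) = ⊤)
  (hdeg : finrank F' F₁' = finrank F F₁)

include hcomp hspan in
theorem span_range_comp_basis {ι : Type*} [Fintype ι] (b : Basis ι F F₁) :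
    Submodule.span F' (Set.range (lev₁ ∘ b)) = ⊤ := by
  rw [eq_top_iff, ← hspan, Submodule.span_le]
  rintro _ ⟨x, rfl⟩
  have hx : x = ∑ i, b.repr x i • b i := (b.sum_repr x).symm
  rw [hx, lev₁_sum_smul lev lev₁ hcomp]
  refine Submodule.sum_mem _ fun i _ => Submodule.smul_mem _ _ (Submodule.subset_span ⟨i, rfl⟩)

include hcomp hspan hdeg in
/-- The image of an `F`-basis of `F₁` is an `F'`-basis of `F₁'`. -/
noncomputable def mapBasis {ι : Type*} [Fintype ι] (b : Basis ι F F₁) : Basis ι F' F₁' :=
  basisOfTopLeSpanOfCardEqFinrank (lev₁ ∘ b)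
    (span_range_comp_basis lev lev₁ hcomp hspan b).ge
    (by rw [hdeg, finrank_eq_card_basis b])

@[simp]
theorem mapBasis_apply {ι : Type*} [Fintype ι] (b : Basis ι F F₁) (i : ι) :
    mapBasis lev lev₁ hcomp hspan hdeg b i = lev₁ (b i) := by
  simp [mapBasis]

/-- Coordinates are mapped by `lev`. -/
theorem mapBasis_repr {ι : Type*} [Fintype ι] (b : Basis ι F F₁) (x : F₁) (i : ι) :
    (mapBasis lev lev₁ hcomp hspan hdeg b).repr (lev₁ x) i = lev (b.repr x i) := by
  have hx : lev₁ x = ∑ j, lev (b.repr x j) • mapBasis lev lev₁ hcomp hspan hdeg b j := by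
    conv_lhs => rw [← b.sum_repr x]
    rw [lev₁_sum_smul lev lev₁ hcomp]
    exact Finset.sum_congr rfl fun j _ => by rw [mapBasis_apply]
  rw [hx, Basis.repr_sum_self]

/-- The matrix of multiplication by `lev₁ x` in the image basis. -/
theorem leftMulMatrix_mapBasis {ι : Type*} [Fintype ι] [DecidableEq ι] (b : Basis ι F F₁)
    (x : F₁) :
    Algebra.leftMulMatrix (mapBasis lev lev₁ hcomp hspan hdeg b) (lev₁ x)
      = (Algebra.leftMulMatrix b x).map lev := by
  ext i j
  rw [Algebra.leftMulMatrix_eq_repr_mul, Matrix.map_apply, Algebra.leftMulMatrix_eq_repr_mul,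
    mapBasis_apply, ← map_mul, mapBasis_repr]

include hcomp hspan hdeg in
/-- **Norm descent.** -/
theorem norm_map (x : F₁) : lev (Algebra.norm F x) = Algebra.norm F' (lev₁ x) := by
  classical
  let b := Module.finBasis F F₁
  rw [Algebra.norm_eq_matrix_det b, Algebra.norm_eq_matrix_det (mapBasis lev lev₁ hcomp hspan hdeg b),
    leftMulMatrix_mapBasis, RingHom.map_det]
  rfl

include hcomp hspan hdeg in
/-- **Trace descent.** -/
theorem trace_map (x : F₁) : lev (Algebra.trace F F₁ x) = Algebra.trace F' F₁' (lev₁ x) := by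
  classical
  let b := Module.finBasis F F₁
  rw [Algebra.trace_eq_matrix_trace b,
    Algebra.trace_eq_matrix_trace (mapBasis lev lev₁ hcomp hspan hdeg b),
    leftMulMatrix_mapBasis, Matrix.trace, Matrix.trace, map_sum]
  rfl

include hcomp hspan hdeg in
theorem finiteDimensional_top : FiniteDimensional F' F₁' :=
  Module.Finite.of_basis (mapBasis lev lev₁ hcomp hspan hdeg (Module.finBasis F F₁))

include hcomp hspan hdeg in
/-- **Characteristic polynomial descent.** -/
theorem charpoly_map [FiniteDimensional F' F₁'] (x : F₁) :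
    ((Algebra.lmul F F₁ x).charpoly).map lev = (Algebra.lmul F' F₁' (lev₁ x)).charpoly := by
  classical
  let b := Module.finBasis F F₁
  have h1 : (Algebra.lmul F F₁ x).charpoly = (Algebra.leftMulMatrix b x).charpoly :=
    (LinearMap.charpoly_toMatrix (Algebra.lmul F F₁ x) b).symm
  have h2 : (Algebra.lmul F' F₁' (lev₁ x)).charpoly
      = (Algebra.leftMulMatrix (mapBasis lev lev₁ hcomp hspan hdeg b) (lev₁ x)).charpoly :=
    (LinearMap.charpoly_toMatrix (Algebra.lmul F' F₁' (lev₁ x)) _).symm
  rw [h1, h2, leftMulMatrix_mapBasis, Matrix.charpoly_map]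

end generic

section span

variable {F₁ F' F₁' : Type*} [Field F₁] [Field F'] [Field F₁'] [Algebra F' F₁']
  [Algebra.IsAlgebraic F' F₁'] (lev₁ : F₁ →+* F₁')

/-- If `lev₁ F₁` generates `F₁'` as a field over `F'` (algebraic), it spans it. -/
theorem span_eq_top_of_adjoin (h : IntermediateField.adjoin F' (Set.range lev₁) = ⊤) :
    Submodule.span F' (Set.range lev₁) = ⊤ := by
  have h1 : (IntermediateField.adjoin F' (Set.range lev₁)).toSubalgebra
      = Algebra.adjoin F' (Set.range lev₁) :=
    IntermediateField.adjoin_toSubalgebra_of_isAlgebraic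
      fun x _ => Algebra.IsAlgebraic.isAlgebraic x
  have h2 : Algebra.adjoin F' (Set.range lev₁) = ⊤ := by
    rw [← h1, h, IntermediateField.top_toSubalgebra]
  have h3 : (Submonoid.closure (Set.range lev₁) : Set F₁') = Set.range lev₁ := by
    apply le_antisymm
    · have : Submonoid.closure (Set.range lev₁) ≤ lev₁.rangeS.toSubmonoid :=
        Submonoid.closure_le.mpr fun x hx => hx
      exact this
    · exact Submonoid.subset_closure
  have h4 := Algebra.adjoin_eq_span F' (Set.range lev₁)
  rw [h2, h3] at h4
  rw [← h4]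
  rfl

/-- Variant: generation over a smaller field `K' ⊂ F'`. -/
theorem span_eq_top_of_adjoin' {K' : Type*} [Field K'] [Algebra K' F'] [Algebra K' F₁']
    [IsScalarTower K' F' F₁']
    (h : IntermediateField.adjoin K' (Set.range lev₁) = ⊤) :
    Submodule.span F' (Set.range lev₁) = ⊤ := by
  apply span_eq_top_of_adjoin
  rw [eq_top_iff]
  intro x _
  have hx : x ∈ IntermediateField.adjoin K' (Set.range lev₁) := by rw [h]; trivial
  have hle : IntermediateField.adjoin K' (Set.range lev₁)
      ≤ (IntermediateField.adjoin F' (Set.range lev₁)).restrictScalars K' := by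
    rw [IntermediateField.adjoin_le_iff]
    intro y hy
    exact IntermediateField.subset_adjoin F' _ hy
  exact hle hx

end span

section along

open AlgebraicCurve

variable {K K' F F₁ F' F₁' : Type*} [Field K] [Field K'] [Field F] [Field F₁] [Field F'] [Field F₁']
  [Algebra K F] [Algebra K F₁] [Algebra K' F'] [Algebra K' F₁']
  (a : F →ₐ[K] F₁) (a' : F' →ₐ[K'] F₁') (lev : F →+* F') (lev₁ : F₁ →+* F₁')
  (hcomp : ∀ x : F, lev₁ (a x) = a' (lev x)) (hfin : FiniteAlong K a)
  (hspan : letI := algebraAlong a'; Submodule.span F' (Set.range lev₁) = ⊤)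
  (hdeg : finrankAlong K' a' = finrankAlong K a)

include hcomp hfin hspan hdeg in
/-- `Along`-form: the upper homomorphism is finite. -/
theorem finiteAlong_top : FiniteAlong K' a' := by
  letI := algebraAlong a
  letI := algebraAlong a'
  haveI : FiniteDimensional F F₁ := hfin
  exact finiteDimensional_top lev lev₁ hcomp hspan hdeg

include hcomp hfin hspan hdeg in
/-- **Norm descent**, `Along`-form. -/
theorem norm_map_along (x : F₁) :
    lev (letI := algebraAlong a; Algebra.norm F x)
      = (letI := algebraAlong a'; Algebra.norm F' (lev₁ x)) := by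
  letI := algebraAlong a
  letI := algebraAlong a'
  haveI : FiniteDimensional F F₁ := hfin
  exact norm_map lev lev₁ hcomp hspan hdeg x

include hcomp hfin hspan hdeg in
/-- **Trace descent**, `Along`-form. -/
theorem trace_map_along (x : F₁) :
    lev (letI := algebraAlong a; Algebra.trace F F₁ x)
      = (letI := algebraAlong a'; Algebra.trace F' F₁' (lev₁ x)) := by
  letI := algebraAlong a
  letI := algebraAlong a'
  haveI : FiniteDimensional F F₁ := hfin
  exact trace_map lev lev₁ hcomp hspan hdeg x

include hcomp hfin hspan hdeg in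
/-- **Characteristic polynomial descent**, `Along`-form. -/
theorem charpoly_map_along (hfin' : FiniteAlong K' a') (x : F₁) :
    (letI := algebraAlong a; haveI : FiniteDimensional F F₁ := hfin
        (Algebra.lmul F F₁ x).charpoly).map lev
      = (letI := algebraAlong a'; haveI : FiniteDimensional F' F₁' := hfin'
          (Algebra.lmul F' F₁' (lev₁ x)).charpoly) := by
  letI := algebraAlong a
  letI := algebraAlong a'
  haveI : FiniteDimensional F F₁ := hfin
  haveI : FiniteDimensional F' F₁' := hfin'
  exact charpoly_map lev lev₁ hcomp hspan hdeg x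

end along

end Fermat.Agent.N4F.E.NormDescent
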