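/-
N4-FULL, block E (helper26): EVALUATION at a rational place of a function field
(prelude `AlgebraicCurve.Place`).

For a place `w` of `F/K` whose residue field is `K` (`Function.Bijective (algebraMap K κ(w))`, e.g.
`K` algebraically closed and `κ(w)` finite over `K`), `evalAt w hw : O_w →ₐ[K] K` is the value map
`f ↦ f(w)`.
-/
import Mathlib
import Fermat.Prelude.Def_AlgebraicCurve_DivisorClassGroup

set_option autoImplicit false
set_option linter.style.haveILetI false

open AlgebraicCurve IsLocalRing

namespace Fermat.Agent.N4F.E.EvalAt

variable {K F : Type*} [Field K] [Field F] [Algebra K F]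

/-- Over an algebraically closed field, a place with finite residue field is rational. -/
theorem bijective_algebraMap_residueField [IsAlgClosed K] (w : Place K F)
    (hw : Module.Finite K w.ResidueField) : Function.Bijective (algebraMap K w.ResidueField) := by
  haveI := hw
  haveI : Algebra.IsIntegral K w.ResidueField := Algebra.IsIntegral.of_finite K w.ResidueField
  exact IsAlgClosed.algebraMap_bijective_of_isIntegral

/-- The residue field of a rational place, identified with `K`. -/
noncomputable def residueEquivBase (w : Place K F)
    (hw : Function.Bijective (algebraMap K w.ResidueField)) : K ≃ₐ[K] w.ResidueField :=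
  AlgEquiv.ofBijective (Algebra.ofId K w.ResidueField) hw

/-- **The value of a function at a rational place.** -/
noncomputable def evalAt (w : Place K F) (hw : Function.Bijective (algebraMap K w.ResidueField)) :
    w.toValuationSubring →ₐ[K] K :=
  ((residueEquivBase w hw).symm : w.ResidueField →ₐ[K] K).comp
    (IsScalarTower.toAlgHom K w.toValuationSubring w.ResidueField)

variable (w : Place K F) (hw : Function.Bijective (algebraMap K w.ResidueField))

theorem algebraMap_evalAt (x : w.toValuationSubring) :
    algebraMap K w.ResidueField (evalAt w hw x) = residue w.toValuationSubring x := by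
  show (residueEquivBase w hw) ((residueEquivBase w hw).symm (residue w.toValuationSubring x)) = _
  exact (residueEquivBase w hw).apply_symm_apply _

@[simp]
theorem evalAt_algebraMap (c : K) : evalAt w hw (algebraMap K w.toValuationSubring c) = c :=
  (evalAt w hw).commutes c

theorem evalAt_eq_zero_iff (x : w.toValuationSubring) :
    evalAt w hw x = 0 ↔ x ∈ maximalIdeal w.toValuationSubring := by
  rw [← residue_eq_zero_iff, ← algebraMap_evalAt w hw x]
  constructor
  · intro h
    rw [h, map_zero]
  · intro h
    exact hw.1 (by rw [h, map_zero])

/-- `f - f(w)` vanishes at `w`. -/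
theorem sub_evalAt_mem (x : w.toValuationSubring) :
    x - algebraMap K w.toValuationSubring (evalAt w hw x) ∈ maximalIdeal w.toValuationSubring := by
  rw [← evalAt_eq_zero_iff w hw, map_sub, evalAt_algebraMap, sub_self]

theorem evalAt_eq_iff (x : w.toValuationSubring) (c : K) :
    evalAt w hw x = c ↔
      x - algebraMap K w.toValuationSubring c ∈ maximalIdeal w.toValuationSubring := by
  rw [← evalAt_eq_zero_iff w hw, map_sub, evalAt_algebraMap, sub_eq_zero]

theorem evalAt_surjective : Function.Surjective (evalAt w hw) :=
  fun c => ⟨algebraMap K w.toValuationSubring c, evalAt_algebraMap w hw c⟩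

/-- Uniqueness: every `K`-algebra homomorphism `O_w → K` is the evaluation. -/
theorem eq_evalAt (φ : w.toValuationSubring →ₐ[K] K) : φ = evalAt w hw := by
  have hker : ∀ x : w.toValuationSubring, x ∈ maximalIdeal w.toValuationSubring → φ x = 0 := by
    intro x hx
    by_contra h
    have hu : IsUnit (φ x) := isUnit_iff_ne_zero.mpr h
    -- `x - φ x` is a unit (as `φ x` is a unit constant and `x ∈ 𝔪`), but `φ` kills it
    have h1 : IsUnit (algebraMap K w.toValuationSubring (φ x)) := hu.map _
    have h2 : IsUnit (x - algebraMap K w.toValuationSubring (φ x)) := by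
      rw [← IsLocalRing.notMem_maximalIdeal]
      intro hmem
      have h4 : algebraMap K w.toValuationSubring (φ x) ∈ maximalIdeal w.toValuationSubring := by
        have := sub_mem hx hmem
        rwa [sub_sub_cancel] at this
      exact (IsLocalRing.notMem_maximalIdeal.mpr h1) h4
    have h3 : φ (x - algebraMap K w.toValuationSubring (φ x)) = 0 := by
      rw [map_sub, AlgHom.commutes, Algebra.algebraMap_self, RingHom.id_apply, sub_self]
    exact (h2.map φ).ne_zero h3
  refine AlgHom.ext fun x => ?_
  have h := hker _ (sub_evalAt_mem w hw x)
  rw [map_sub, AlgHom.commutes, Algebra.algebraMap_self, RingHom.id_apply, sub_eq_zero] at h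
  exact h

end Fermat.Agent.N4F.E.EvalAt
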