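import Mathlib
import Fermat.Prelude.Def_AlgebraicCurve_BaseChangeGalois
import Fermat.Agent.N4F.E.EvalAt
import Fermat.Agent.N4F.C.CoeffAut

/-!
# N4-FULL block E (node E4): values of functions at rational places and semilinear automorphisms

`K` a field, `F / K` a function field in the prelude's `Place` language.  A place `v` is rational
if `K → κ(v)` is bijective; helper26's `EvalAt.evalAt v hv : O_v →ₐ[K] K` is the evaluation.  Here:

* `valueAt v hv g hg : K` : the `F`-level form (`g : F`, `hg : g ∈ O_v`), with
  `valueAt_eq_iff : valueAt v hv g hg = c ↔ g - c ∈ m_v` and the ring-hom lemmas;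
* `bijective_smul` : `σ • v` is rational if `v` is (`σ` a semilinear automorphism);
* `valueAt_smul : valueAt (σ • v) (σ • g) = baseAut σ (valueAt v g)` and the variant
  `valueAt_smul' : valueAt v (σ • g) = baseAut σ (valueAt (σ⁻¹ • v) g)`.
-/

set_option autoImplicit false

open AlgebraicCurve IsLocalRing

namespace Fermat.Agent.N4F.E.PlaceValue

open Fermat.Agent.N4F.E.EvalAt Fermat.Agent.N4F.C.CoeffAut

variable {K F : Type*} [Field K] [Field F] [Algebra K F]

/-- `F`-level evaluation at a rational place. -/
noncomputable def valueAt (v : Place K F) (hv : Function.Bijective (algebraMap K v.ResidueField))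
    (g : F) (hg : g ∈ v.toValuationSubring) : K :=
  evalAt v hv ⟨g, hg⟩

theorem valueAt_def (v : Place K F) (hv : Function.Bijective (algebraMap K v.ResidueField))
    (g : F) (hg : g ∈ v.toValuationSubring) : valueAt v hv g hg = evalAt v hv ⟨g, hg⟩ := rfl

theorem valueAt_coe (v : Place K F) (hv : Function.Bijective (algebraMap K v.ResidueField))
    (g : v.toValuationSubring) : valueAt v hv (g : F) g.2 = evalAt v hv g := rfl

/-- Characterisation: `g(v) = c ↔ g - c ∈ m_v`. -/
theorem valueAt_eq_iff (v : Place K F) (hv : Function.Bijective (algebraMap K v.ResidueField))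
    (g : F) (hg : g ∈ v.toValuationSubring) (c : K) :
    valueAt v hv g hg = c ↔ g - algebraMap K F c ∈ v.toValuationSubring.nonunits := by
  rw [valueAt, evalAt_eq_iff, ← ValuationSubring.coe_mem_nonunits_iff]
  rfl

theorem sub_valueAt_mem (v : Place K F) (hv : Function.Bijective (algebraMap K v.ResidueField))
    (g : F) (hg : g ∈ v.toValuationSubring) :
    g - algebraMap K F (valueAt v hv g hg) ∈ v.toValuationSubring.nonunits :=
  (valueAt_eq_iff v hv g hg _).mp rfl

theorem valueAt_eq_zero_iff (v : Place K F)
    (hv : Function.Bijective (algebraMap K v.ResidueField)) (g : F)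
    (hg : g ∈ v.toValuationSubring) :
    valueAt v hv g hg = 0 ↔ g ∈ v.toValuationSubring.nonunits := by
  rw [valueAt_eq_iff, map_zero, sub_zero]

theorem valueAt_congr (v : Place K F) (hv : Function.Bijective (algebraMap K v.ResidueField))
    {g g' : F} (h : g = g') (hg : g ∈ v.toValuationSubring) :
    valueAt v hv g hg = valueAt v hv g' (h ▸ hg) := by
  subst h; rfl

theorem valueAt_algebraMap (v : Place K F)
    (hv : Function.Bijective (algebraMap K v.ResidueField)) (c : K) :
    valueAt v hv (algebraMap K F c) (v.algebraMap_mem' c) = c :=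
  evalAt_algebraMap v hv c

theorem valueAt_add (v : Place K F) (hv : Function.Bijective (algebraMap K v.ResidueField))
    {g h : F} (hg : g ∈ v.toValuationSubring) (hh : h ∈ v.toValuationSubring) :
    valueAt v hv (g + h) (add_mem hg hh) = valueAt v hv g hg + valueAt v hv h hh :=
  map_add (evalAt v hv) ⟨g, hg⟩ ⟨h, hh⟩

theorem valueAt_mul (v : Place K F) (hv : Function.Bijective (algebraMap K v.ResidueField))
    {g h : F} (hg : g ∈ v.toValuationSubring) (hh : h ∈ v.toValuationSubring) :
    valueAt v hv (g * h) (mul_mem hg hh) = valueAt v hv g hg * valueAt v hv h hh :=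
  map_mul (evalAt v hv) ⟨g, hg⟩ ⟨h, hh⟩

theorem valueAt_pow (v : Place K F) (hv : Function.Bijective (algebraMap K v.ResidueField))
    {g : F} (hg : g ∈ v.toValuationSubring) (n : ℕ) :
    valueAt v hv (g ^ n) (pow_mem hg n) = valueAt v hv g hg ^ n :=
  map_pow (evalAt v hv) ⟨g, hg⟩ n

/-! ### Semilinear automorphisms -/

section Semilinear

variable (σ : SemilinearAut K F)

/-- `σ • v` is rational if `v` is. -/
theorem bijective_smul {v : Place K F} (hv : Function.Bijective (algebraMap K v.ResidueField)) :
    Function.Bijective (algebraMap K (σ • v).ResidueField) := by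
  have h : (algebraMap K (σ • v).ResidueField : K → _) =
      (SemilinearAut.smulResidueRingEquiv σ v) ∘ (algebraMap K v.ResidueField) ∘
        (SemilinearAut.baseAut σ).symm := by
    funext a
    simp only [Function.comp_apply]
    rw [SemilinearAut.smulResidueRingEquiv_algebraMap, RingEquiv.apply_symm_apply]
  rw [h]
  exact (SemilinearAut.smulResidueRingEquiv σ v).bijective.comp
    (hv.comp (SemilinearAut.baseAut σ).symm.bijective)

theorem smul_mem_smul {v : Place K F} {g : F} (hg : g ∈ v.toValuationSubring) :
    σ • g ∈ (σ • v).toValuationSubring :=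
  (smul_mem_smul_place_iff σ v g).mpr hg

theorem smul_mem_of_mem_inv_smul {v : Place K F} {g : F}
    (hg : g ∈ (σ⁻¹ • v).toValuationSubring) : σ • g ∈ v.toValuationSubring := by
  have := smul_mem_smul σ hg
  rwa [smul_inv_smul] at this

theorem inv_smul_mem_of_mem_smul {v : Place K F} {g : F}
    (hg : g ∈ (σ • v).toValuationSubring) : σ⁻¹ • g ∈ v.toValuationSubring :=
  (mem_smul_place_iff σ v g).mp hg

/-- **Values and semilinear automorphisms**: `(σ g)(σ v) = σ(g(v))`. -/
theorem valueAt_smul {v : Place K F} (hv : Function.Bijective (algebraMap K v.ResidueField))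
    {g : F} (hg : g ∈ v.toValuationSubring) :
    valueAt (σ • v) (bijective_smul σ hv) (σ • g) (smul_mem_smul σ hg) =
      SemilinearAut.baseAut σ (valueAt v hv g hg) := by
  rw [valueAt_eq_iff]
  have h := sub_valueAt_mem v hv g hg
  have h2 := (smul_mem_nonunits_smul_place_iff σ v _).mpr h
  rwa [smul_sub, SemilinearAut.smul_algebraMap] at h2

/-- The same with the place on the other side: `(σ g)(v) = σ(g(σ⁻¹ v))`. -/
theorem valueAt_smul' {v : Place K F} (hv : Function.Bijective (algebraMap K v.ResidueField))
    {g : F} (hg : g ∈ (σ⁻¹ • v).toValuationSubring) :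
    valueAt v hv (σ • g) (smul_mem_of_mem_inv_smul σ hg) =
      SemilinearAut.baseAut σ (valueAt (σ⁻¹ • v) (bijective_smul σ⁻¹ hv) g hg) := by
  rw [valueAt_eq_iff]
  have h := sub_valueAt_mem (σ⁻¹ • v) (bijective_smul σ⁻¹ hv) g hg
  have h2 := (smul_mem_nonunits_smul_place_iff σ (σ⁻¹ • v) _).mpr h
  rwa [smul_sub, SemilinearAut.smul_algebraMap, smul_inv_smul] at h2

/-- `(σ⁻¹ g)(v) = σ⁻¹(g(σ v))`. -/
theorem valueAt_inv_smul {v : Place K F} (hv : Function.Bijective (algebraMap K v.ResidueField))
    {g : F} (hg : g ∈ (σ • v).toValuationSubring) :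
    valueAt v hv (σ⁻¹ • g) (inv_smul_mem_of_mem_smul σ hg) =
      (SemilinearAut.baseAut σ).symm (valueAt (σ • v) (bijective_smul σ hv) g hg) := by
  rw [valueAt_eq_iff]
  have h := sub_valueAt_mem (σ • v) (bijective_smul σ hv) g hg
  have h2 := (mem_nonunits_smul_place_iff σ v _).mp h
  rwa [smul_sub, SemilinearAut.smul_algebraMap] at h2

end Semilinear

end Fermat.Agent.N4F.E.PlaceValue
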