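/-
Fermat/Agent/N4F/E/TorsionCongruenceBar.lean  (helper3, block E: E-tors over `ℚ̄`)

Clause (iii) of `N4F/CoreTors.ESCoreTors`, i.e. the hypothesis `hES` of
`N4F/ESAssembly.esCoreTors_of_parts`, from the norm-reduction hypothesis
`TorsionCongruence.NormReduction A π N ℓ Fr` over `L = ℚ̄`:

  `R (heckeOperatorBar N ⟨ℓ, hℓ⟩ x) = Fr • R x + ℓ • (Fr⁻¹ • R x)`   for torsion `x`,

`R := reductionPic0Along r hr hgen`, for ANY place map `r` with the prelude's spec.
-/
import Mathlib
import Fermat.Prelude.Def_ModularCurve_ReductionModL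
import Fermat.Prelude.Def_ModularCurve_HeckeModule
import Fermat.Agent.N4F.A.HeckeInputsFinal
import Fermat.Agent.N4F.E.TorsionCongruence

set_option autoImplicit false
set_option linter.style.haveILetI false
set_option linter.unusedSectionVars false

open AlgebraicCurve ModularCurve

namespace Fermat.Agent.N4F.E.TorsionCongruenceBar

open Fermat.Agent.N4F.A.LevelMaps Fermat.Agent.N4F.A.HeckeInputs
  Fermat.Agent.N4F.A.HeckeInputsFinal Fermat.Agent.N4F.E.TorsionCongruence

local notation "Qbar" => AlgebraicClosure ℚ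

/-- **E-tors on `JZero N`, for the prelude's operator `heckeOperatorAlong`.** -/
theorem reductionPic0Along_heckeOperatorAlong_of_torsion (N : ℕ) [NeZero N] (ℓ : ℕ) [NeZero ℓ]
    {A : ValuationSubring Qbar} {κ : Type*} [Field κ] {π : A →+* κ}
    (r : Place Qbar (modularFunctionFieldBar N) → Place κ (modularFunctionFieldFullC κ N))
    (hr : IsPlaceReductionAlong A π N r) (hgen : PrincipalGeneratedByIntegral A π N)
    (Fr : SemilinearAut κ (modularFunctionFieldFullC κ N))
    (hnorm : NormReduction A π N ℓ Fr)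
    (x : JZero N) (hx : ∃ m : ℤ, m ≠ 0 ∧ m • x = 0) :
    reductionPic0Along r hr hgen (heckeOperatorAlong Qbar N ℓ x) =
      Fr • reductionPic0Along r hr hgen x + ℓ • (Fr⁻¹ • reductionPic0Along r hr hgen x) := by
  haveI := hasPrincipalDivisors_bar (N * ℓ)
  haveI := hasPrincipalDivisors_bar N
  rw [heckeOperatorAlong_eq_heckePic0Bar N ℓ]
  exact reductionPic0Along_heckePic0Bar_of_torsion (heckeAlphaBarIntegral N ℓ)
    (heckeBetaBarIntegral N ℓ) (fundamentalIdentityAlong_heckeBetaBar N ℓ)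
    (finiteAlong_heckeAlphaBar N ℓ) (normFormulaAlong_heckeAlphaBar N ℓ) hr hgen hnorm x hx

/-- **Clause (iii) of `Core.ESCoreTors`** (the hypothesis `hES` of
`ESAssembly.esCoreTors_of_parts`, with `Fr := coeffAut (Kap A) N φ`) from `NormReduction`. -/
theorem reductionPic0Along_heckeOperatorBar_of_torsion (N : ℕ) [NeZero N] (ℓ : ℕ) (hℓ : ℓ.Prime)
    {A : ValuationSubring Qbar} {κ : Type*} [Field κ] {π : A →+* κ}
    (r : Place Qbar (modularFunctionFieldBar N) → Place κ (modularFunctionFieldFullC κ N))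
    (hr : IsPlaceReductionAlong A π N r) (hgen : PrincipalGeneratedByIntegral A π N)
    (Fr : SemilinearAut κ (modularFunctionFieldFullC κ N))
    (hnorm : haveI : NeZero ℓ := ⟨hℓ.ne_zero⟩
      NormReduction A π N ℓ Fr)
    (x : JZero N) (hx : ∃ m : ℕ, m ≠ 0 ∧ m • x = 0) :
    reductionPic0Along r hr hgen (heckeOperatorBar N ⟨ℓ, hℓ⟩ x) =
      Fr • reductionPic0Along r hr hgen x + ℓ • (Fr⁻¹ • reductionPic0Along r hr hgen x) := by
  haveI : NeZero ℓ := ⟨hℓ.ne_zero⟩
  obtain ⟨m, hm, hmx⟩ := hx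
  refine reductionPic0Along_heckeOperatorAlong_of_torsion N ℓ r hr hgen Fr hnorm x
    ⟨(m : ℤ), Int.natCast_ne_zero.mpr hm, ?_⟩
  rw [natCast_zsmul, hmx]

end Fermat.Agent.N4F.E.TorsionCongruenceBar
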