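/-
N4-FULL / block E (helper15), node CP: **characteristic polynomials and fibres**.

* `charpoly_piMap` : the characteristic polynomial of a block-diagonal endomorphism of a finite
  product of finite free modules is the product of the characteristic polynomials.
* `charpoly_map_eq_prod` : **Lemma CP (target form).**  `A → κ` a ring map to a field, `B` a finite
  free `A`-algebra, `D i` finitely many finite `κ`-algebras with `A`-algebra maps `π i : B → D i`
  such that `κ ⊗_A B → ∏ D i` is bijective.  Then the characteristic polynomial of `b ∈ B` over `A`,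
  mapped to `κ[X]`, is the product of the characteristic polynomials of the `π i b` over `κ`.
  (`theta_bijective_of_surjective` : bijectivity from surjectivity + a dimension count.)
* `charpoly_map_eq_mul`, `theta₂_surjective`, `theta₂_bijective_of_surjective` : the same with two
  factors `D₁ × D₂` of arbitrary (different) types.
* `charpoly_lmul_of_isNilpotent_sub` : local factor when `d - μ` is nilpotent : `(X - μ) ^ rank`.
* `charpoly_lmul_of_pow_eq` : purely inseparable local factor : `X ^ p - c` when `d ^ p = c`.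
-/
import Mathlib

set_option autoImplicit false

namespace Fermat.Agent.N4F.E.CharpolyFibre

open Polynomial TensorProduct

universe u v w

section Pi


variable {R : Type u} [CommRing R]

theorem charpoly_of_subsingleton [Nontrivial R] {M : Type v} [AddCommGroup M] [Module R M]
    [Module.Free R M] [Module.Finite R M] [Subsingleton M] (f : M →ₗ[R] M) : f.charpoly = 1 := by
  have h1 : f.charpoly.natDegree = 0 := by
    rw [LinearMap.charpoly_natDegree, Module.finrank_zero_of_subsingleton]
  have h2 := f.charpoly_monic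
  exact Polynomial.eq_one_of_monic_natDegree_zero h2 h1

def PiStatement (R : Type u) [CommRing R] (ι : Type w) [Fintype ι] : Prop :=
  ∀ (M : ι → Type v) [∀ i, AddCommGroup (M i)] [∀ i, Module R (M i)]
    [∀ i, Module.Free R (M i)] [∀ i, Module.Finite R (M i)]
    (f : ∀ i, M i →ₗ[R] M i), (LinearMap.piMap f).charpoly = ∏ i, (f i).charpoly

theorem piStatement_of_equiv {α β : Type w} [Fintype β] (e : α ≃ β)
    (h : @PiStatement.{u, v, w} R _ α (Fintype.ofEquiv β e.symm)) : PiStatement.{u, v, w} R β := by
  let _ : Fintype α := Fintype.ofEquiv β e.symm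
  intro M _ _ _ _ f
  have key := h (fun a => M (e a)) (fun a => f (e a))
  have hconj : (LinearEquiv.piCongrLeft R M e).conj (LinearMap.piMap fun a => f (e a))
      = LinearMap.piMap f := by
    apply LinearMap.ext
    intro g
    funext b
    obtain ⟨a, rfl⟩ := e.surjective b
    rw [LinearEquiv.conj_apply_apply]
    show (Equiv.piCongrLeft M e) _ (e a) = _
    rw [Equiv.piCongrLeft_apply_apply]
    simp only [LinearMap.coe_piMap, Pi.map_apply]
    congr 1
  rw [← hconj, LinearEquiv.charpoly_conj, key]
  exact Fintype.prod_equiv e _ _ (fun _ => rfl)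

theorem piStatement_pempty [Nontrivial R] : PiStatement.{u, v, w} R PEmpty := by
  intro M _ _ _ _ f
  rw [charpoly_of_subsingleton, Finset.univ_eq_empty, Finset.prod_empty]

theorem piStatement_option {α : Type w} [Fintype α] (h : PiStatement.{u, v, w} R α) :
    PiStatement.{u, v, w} R (Option α) := by
  intro M _ _ _ _ f
  have key := h (fun a => M (some a)) (fun a => f (some a))
  have hconj : (LinearEquiv.piOptionEquivProd (R := R) (M := M)).symm.conj
      ((f none).prodMap (LinearMap.piMap fun a => f (some a))) = LinearMap.piMap f := by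
    apply LinearMap.ext
    intro g
    funext b
    rw [LinearEquiv.conj_apply_apply, LinearEquiv.symm_symm]
    cases b <;> rfl
  rw [← hconj, LinearEquiv.charpoly_conj, LinearMap.charpoly_prodMap, key, Fintype.prod_option]

theorem charpoly_piMap [Nontrivial R] {ι : Type w} [Fintype ι] (M : ι → Type v)
    [∀ i, AddCommGroup (M i)] [∀ i, Module R (M i)]
    [∀ i, Module.Free R (M i)] [∀ i, Module.Finite R (M i)]
    (f : ∀ i, M i →ₗ[R] M i) : (LinearMap.piMap f).charpoly = ∏ i, (f i).charpoly := by
  have : PiStatement.{u, v, w} R ι := by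
    refine Fintype.induction_empty_option (P := fun α _ => PiStatement.{u, v, w} R α)
      ?_ ?_ ?_ ι
    · intro α β _ e h
      exact piStatement_of_equiv e h
    · exact piStatement_pempty
    · intro α _ h
      exact piStatement_option h
  exact this M f

end Pi

section Main

variable {A : Type*} [CommRing A] {κ : Type*} [Field κ] [Algebra A κ]
  {B : Type*} [CommRing B] [Algebra A B]
  {ι : Type*} (D : ι → Type*) [∀ i, CommRing (D i)] [∀ i, Algebra κ (D i)]
  [∀ i, Algebra A (D i)] [∀ i, IsScalarTower A κ (D i)]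
  (π : ∀ i, B →ₐ[A] D i)

variable (κ) in
/-- The comparison map `κ ⊗_A B → ∏ D i`. -/
noncomputable def theta : κ ⊗[A] B →ₐ[κ] ∀ i, D i :=
  AlgHom.pi fun i =>
    Algebra.TensorProduct.lift (Algebra.ofId κ (D i)) (π i) fun _ _ => Commute.all _ _

theorem theta_tmul (x : κ) (b : B) (i : ι) : theta κ D π (x ⊗ₜ b) i = x • π i b := by
  simp [theta, Algebra.ofId_apply, Algebra.smul_def]

/-- Chinese remainder theorem: `θ` is surjective if the `π i` are surjective with pairwise
coprime kernels. -/
theorem theta_surjective [Fintype ι] (hπ : ∀ i, Function.Surjective (π i))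
    (hcop : Pairwise fun i j => IsCoprime (RingHom.ker (π i)) (RingHom.ker (π j))) :
    Function.Surjective (theta κ D π) := by
  intro y
  choose b hb using fun i => hπ i (y i)
  obtain ⟨x, hx⟩ := Ideal.quotientInfToPiQuotient_surj hcop
    (fun i => Ideal.Quotient.mk (RingHom.ker (π i)) (b i))
  obtain ⟨c, rfl⟩ := Ideal.Quotient.mk_surjective x
  refine ⟨(1 : κ) ⊗ₜ[A] c, ?_⟩
  funext i
  rw [theta_tmul, one_smul, ← hb i]
  have h := congrFun hx i
  rw [Ideal.quotientInfToPiQuotient_mk', Ideal.Quotient.eq, RingHom.mem_ker, map_sub,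
    sub_eq_zero] at h
  exact h

variable [Fintype ι] [Module.Free A B] [Module.Finite A B] [∀ i, Module.Finite κ (D i)]

/-- `θ` is bijective as soon as it is surjective and the dimensions match. -/
theorem theta_bijective_of_surjective
    (hs : Function.Surjective (theta κ D π))
    (hdim : Module.finrank A B = ∑ i, Module.finrank κ (D i)) :
    Function.Bijective (theta κ D π) := by
  have : Nontrivial A := (algebraMap A κ).domain_nontrivial
  have h1 : Module.finrank κ (κ ⊗[A] B) = Module.finrank κ (∀ i, D i) := by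
    rw [Module.finrank_baseChange, Module.finrank_pi_fintype, hdim]
  have h2 := LinearMap.injective_iff_surjective_of_finrank_eq_finrank h1
    (f := (theta κ D π).toLinearMap)
  exact ⟨h2.mpr hs, hs⟩

/-- **Lemma CP (target form).** -/
theorem charpoly_map_eq_prod (hθ : Function.Bijective (theta κ D π)) (b : B) :
    ((Algebra.lmul A B b).charpoly).map (algebraMap A κ) =
      ∏ i, (Algebra.lmul κ (D i) (π i b)).charpoly := by
  rw [← LinearMap.charpoly_baseChange]
  let e : κ ⊗[A] B ≃ₗ[κ] ∀ i, D i := LinearEquiv.ofBijective (theta κ D π).toLinearMap hθ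
  have hconj : e.conj ((Algebra.lmul A B b).baseChange κ) =
      LinearMap.piMap fun i => Algebra.lmul κ (D i) (π i b) := by
    apply LinearMap.ext
    intro g
    obtain ⟨t, rfl⟩ := e.surjective g
    rw [LinearEquiv.conj_apply_apply, LinearEquiv.symm_apply_apply]
    have h1 : (Algebra.lmul A B b).baseChange κ t = ((1 : κ) ⊗ₜ[A] b) * t := by
      induction t using TensorProduct.induction_on with
      | zero => simp
      | tmul x y => simp [Algebra.TensorProduct.tmul_mul_tmul]
      | add x y hx hy => rw [map_add, hx, hy, mul_add]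
    rw [h1]
    show theta κ D π (((1 : κ) ⊗ₜ[A] b) * t) = _
    rw [map_mul]
    funext i
    simp [theta_tmul]
    rfl
  rw [← LinearEquiv.charpoly_conj e, hconj, charpoly_piMap]

end Main

section Binary


variable {A : Type*} [CommRing A] {κ : Type*} [Field κ] [Algebra A κ]
  {B : Type*} [CommRing B] [Algebra A B]
  (D₁ D₂ : Type*) [CommRing D₁] [CommRing D₂] [Algebra κ D₁] [Algebra κ D₂]
  [Algebra A D₁] [Algebra A D₂] [IsScalarTower A κ D₁] [IsScalarTower A κ D₂]
  (π₁ : B →ₐ[A] D₁) (π₂ : B →ₐ[A] D₂)

variable (κ) in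
/-- The comparison map `κ ⊗_A B → D₁ × D₂`. -/
noncomputable def theta₂ : κ ⊗[A] B →ₐ[κ] D₁ × D₂ :=
  AlgHom.prod
    (Algebra.TensorProduct.lift (Algebra.ofId κ D₁) π₁ fun _ _ => Commute.all _ _)
    (Algebra.TensorProduct.lift (Algebra.ofId κ D₂) π₂ fun _ _ => Commute.all _ _)

theorem theta₂_tmul (x : κ) (b : B) :
    theta₂ κ D₁ D₂ π₁ π₂ (x ⊗ₜ b) = (x • π₁ b, x • π₂ b) := by
  simp [theta₂, Algebra.ofId_apply, Algebra.smul_def]

theorem theta₂_surjective (h₁ : Function.Surjective π₁) (h₂ : Function.Surjective π₂)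
    (hcop : IsCoprime (RingHom.ker π₁) (RingHom.ker π₂)) :
    Function.Surjective (theta₂ κ D₁ D₂ π₁ π₂) := by
  rintro ⟨y₁, y₂⟩
  obtain ⟨b₁, rfl⟩ := h₁ y₁
  obtain ⟨b₂, rfl⟩ := h₂ y₂
  obtain ⟨u, hu, v, hv, huv⟩ := Ideal.isCoprime_iff_exists.mp hcop
  refine ⟨(1 : κ) ⊗ₜ[A] (v * b₁ + u * b₂), ?_⟩
  rw [theta₂_tmul, one_smul, one_smul]
  rw [RingHom.mem_ker] at hu hv
  have hu' : π₁ u = 0 := hu
  have hv' : π₂ v = 0 := hv
  have e1 : π₁ v = 1 := by
    have := congrArg π₁ huv
    rwa [map_add, hu', zero_add, map_one] at this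
  have e2 : π₂ u = 1 := by
    have := congrArg π₂ huv
    rwa [map_add, hv', add_zero, map_one] at this
  simp [e1, e2, hu', hv']

variable [Module.Free A B] [Module.Finite A B] [Module.Finite κ D₁] [Module.Finite κ D₂]

theorem theta₂_bijective_of_surjective
    (hs : Function.Surjective (theta₂ κ D₁ D₂ π₁ π₂))
    (hdim : Module.finrank A B = Module.finrank κ D₁ + Module.finrank κ D₂) :
    Function.Bijective (theta₂ κ D₁ D₂ π₁ π₂) := by
  have : Nontrivial A := (algebraMap A κ).domain_nontrivial
  have h1 : Module.finrank κ (κ ⊗[A] B) = Module.finrank κ (D₁ × D₂) := by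
    rw [Module.finrank_baseChange, Module.finrank_prod, hdim]
  have h2 := LinearMap.injective_iff_surjective_of_finrank_eq_finrank h1
    (f := (theta₂ κ D₁ D₂ π₁ π₂).toLinearMap)
  exact ⟨h2.mpr hs, hs⟩

/-- **Lemma CP, two factors.** -/
theorem charpoly_map_eq_mul (hθ : Function.Bijective (theta₂ κ D₁ D₂ π₁ π₂)) (b : B) :
    ((Algebra.lmul A B b).charpoly).map (algebraMap A κ) =
      (Algebra.lmul κ D₁ (π₁ b)).charpoly * (Algebra.lmul κ D₂ (π₂ b)).charpoly := by
  rw [← LinearMap.charpoly_baseChange]
  let e : κ ⊗[A] B ≃ₗ[κ] D₁ × D₂ :=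
    LinearEquiv.ofBijective (theta₂ κ D₁ D₂ π₁ π₂).toLinearMap hθ
  have hconj : e.conj ((Algebra.lmul A B b).baseChange κ) =
      (Algebra.lmul κ D₁ (π₁ b)).prodMap (Algebra.lmul κ D₂ (π₂ b)) := by
    apply LinearMap.ext
    intro g
    obtain ⟨t, rfl⟩ := e.surjective g
    rw [LinearEquiv.conj_apply_apply, LinearEquiv.symm_apply_apply]
    have h1 : (Algebra.lmul A B b).baseChange κ t = ((1 : κ) ⊗ₜ[A] b) * t := by
      induction t using TensorProduct.induction_on with
      | zero => simp
      | tmul x y => simp [Algebra.TensorProduct.tmul_mul_tmul]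
      | add x y hx hy => rw [map_add, hx, hy, mul_add]
    rw [h1]
    show theta₂ κ D₁ D₂ π₁ π₂ (((1 : κ) ⊗ₜ[A] b) * t) = _
    rw [map_mul, theta₂_tmul, one_smul, one_smul]
    rfl
  rw [← LinearEquiv.charpoly_conj e, hconj, LinearMap.charpoly_prodMap]

end Binary

section Local


/-- If `d - μ` is nilpotent in a finite free commutative `R`-algebra `D`, the characteristic
polynomial of multiplication by `d` is `(X - μ) ^ rank`. -/
theorem charpoly_lmul_of_isNilpotent_sub {R D : Type*} [CommRing R] [IsDomain R] [CommRing D]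
    [Algebra R D] [Module.Free R D] [Module.Finite R D] (d : D) (μ : R)
    (h : IsNilpotent (d - algebraMap R D μ)) :
    (Algebra.lmul R D d).charpoly = (X - C μ) ^ Module.finrank R D := by
  set f := Algebra.lmul R D d with hf
  have h1 : f - μ • (1 : Module.End R D) = Algebra.lmul R D (d - algebraMap R D μ) := by
    rw [map_sub, hf, Algebra.lmul_algebraMap]
    congr 1
  have h2 : IsNilpotent (f - μ • (1 : Module.End R D)) := by
    rw [h1]
    exact h.map (Algebra.lmul R D)
  have h3 := LinearMap.charpoly_sub_smul f μ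
  rw [IsNilpotent.charpoly_eq_X_pow_finrank h2] at h3
  have h4 := congrArg (fun p : R[X] => p.comp (X - C μ)) h3
  simp only [comp_assoc, add_comp, X_comp, C_comp, sub_add_cancel, comp_X, pow_comp] at h4
  exact h4.symm

/-- Purely inseparable case: in characteristic `p`, if the domain `D` has rank `p` over `κ` and
`d ^ p = c ∈ κ`, the characteristic polynomial of multiplication by `d` is `X ^ p - c`. -/
theorem charpoly_lmul_of_pow_eq {κ D : Type*} [Field κ] [CommRing D] [IsDomain D] [Algebra κ D]
    [Module.Finite κ D] (p : ℕ) [hp : Fact p.Prime] [CharP κ p]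
    (hrank : Module.finrank κ D = p) (d : D) (c : κ) (h : d ^ p = algebraMap κ D c) :
    (Algebra.lmul κ D d).charpoly = X ^ p - C c := by
  have hinj : Function.Injective (algebraMap κ D) := (algebraMap κ D).injective
  have : CharP D p := charP_of_injective_algebraMap hinj p
  have : CharP (D ⊗[κ] D) p :=
    charP_of_injective_algebraMap (FaithfulSMul.algebraMap_injective D (D ⊗[κ] D)) p
  apply Polynomial.map_injective (algebraMap κ D) hinj
  rw [← LinearMap.charpoly_baseChange]
  have h1 : (Algebra.lmul κ D d).baseChange D = Algebra.lmul D (D ⊗[κ] D) ((1 : D) ⊗ₜ[κ] d) := by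
    apply LinearMap.ext
    intro t
    induction t using TensorProduct.induction_on with
    | zero => simp
    | tmul x y => simp [Algebra.TensorProduct.tmul_mul_tmul]
    | add x y hx hy => rw [map_add, hx, hy, map_add]
  have h2 : IsNilpotent (((1 : D) ⊗ₜ[κ] d) - algebraMap D (D ⊗[κ] D) d) := by
    refine ⟨p, ?_⟩
    rw [sub_pow_char, Algebra.TensorProduct.algebraMap_apply, Algebra.TensorProduct.tmul_pow,
      Algebra.TensorProduct.tmul_pow, Algebra.algebraMap_self, RingHom.id_apply,
      h, Algebra.algebraMap_eq_smul_one, TensorProduct.tmul_smul, ← TensorProduct.smul_tmul',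
      one_pow, sub_self]
  rw [h1, charpoly_lmul_of_isNilpotent_sub _ d h2, Module.finrank_baseChange, hrank,
    Polynomial.map_sub, Polynomial.map_pow, map_X, map_C, sub_pow_char, ← C_pow, h]


/-- Rank one local factor. -/
theorem charpoly_lmul_of_finrank_eq_one {R D : Type*} [CommRing R] [IsDomain R] [CommRing D]
    [Algebra R D] [Module.Free R D] [Module.Finite R D] (h1 : Module.finrank R D = 1) (d : D)
    (μ : R) (hd : d = algebraMap R D μ) : (Algebra.lmul R D d).charpoly = X - C μ := by
  rw [charpoly_lmul_of_isNilpotent_sub d μ (by rw [hd, sub_self]; exact IsNilpotent.zero), h1,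
    pow_one]

end Local

end Fermat.Agent.N4F.E.CharpolyFibre
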