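/-
N4-FULL, block E, node E3 (helper2): **THE GENERIC FIBRE** — nodes (G1), (G2) of board #980/#986.

`F'/F` a finite separable extension of function fields over `K`, `v` a place of `F`,
`O_v` its valuation ring, `B_v` the integral closure of `O_v` in `F'`
(`PlaceFiber.Bv F' v`).

* pure commutative algebra (`section Pure`):
  `finrank_quotient_pow_ramificationIdx'` : `dim_k B ⧸ P ^ e = e` when both residue fields are `k`;
  `charpoly_map_eq_prod_pow` : `A` a `k`-algebra with a point `φ : A →ₐ[k] k` of kernel `p`, `B` a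
  Dedekind domain finite free over `A`, `Q i` the primes of `B` over `p` (all with residue field `k`,
  evaluation maps `ψ i`) : `χ_b mod p = ∏ i, (X - ψ i b) ^ e i`.
* **(G1)** `charpoly_lmul_eq_map` : for `b ∈ B_v`, the characteristic polynomial of `b` over `F` is
  the image of its characteristic polynomial over `O_v`.
* **(G2)** `charpoly_map_evalAt` : if `v` and all `w ∣ v` are rational,
  `χ_b(v) = ∏_{w ∣ v} (X - b(w)) ^ e_w` in `K[X]` (`EvalAt.evalAt` of helper26 is the value map).
* `exists_charpoly_lmul_eq` : (G1) + (G2) packaged.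
-/
import Mathlib
import Fermat.Agent.N4F.A.PlaceFiber
import Fermat.Agent.N4F.E.CharpolyFibre
import Fermat.Agent.N4F.E.EvalAt

set_option autoImplicit false
set_option linter.deprecated false
set_option linter.style.haveILetI false
set_option linter.unusedSectionVars false
set_option linter.unusedVariables false

namespace Fermat.Agent.N4F.E.GenericFibre

open Polynomial

/-! ### Pure commutative algebra -/

section Pure

variable {k A B : Type*} [Field k] [CommRing A] [CommRing B]
  [Algebra k A] [Algebra A B] [Algebra k B] [IsScalarTower k A B]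

attribute [local instance] Ideal.Quotient.field

theorem algebraMap_quotient_eq (p : Ideal A) (I : Ideal B) [Algebra (A ⧸ p) (B ⧸ I)]
    (hI : ∀ a : A, algebraMap (A ⧸ p) (B ⧸ I) (Ideal.Quotient.mk p a) =
      Ideal.Quotient.mk I (algebraMap A B a)) (c : k) :
    algebraMap k (B ⧸ I) c = algebraMap (A ⧸ p) (B ⧸ I) (algebraMap k (A ⧸ p) c) := by
  rw [IsScalarTower.algebraMap_apply k A (A ⧸ p), Ideal.Quotient.algebraMap_eq, hI,
    IsScalarTower.algebraMap_apply k B (B ⧸ I), Ideal.Quotient.algebraMap_eq,
    IsScalarTower.algebraMap_apply k A B]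

variable [IsDedekindDomain B]

/-- `dim_k B ⧸ P ^ e = e` when the residue fields of `p` and `P` are both `k`. -/
theorem finrank_quotient_pow_ramificationIdx' (p : Ideal A) [p.IsMaximal] (P : Ideal B)
    [P.IsMaximal] (hP0 : P ≠ ⊥) (he : p.ramificationIdx' P ≠ 0)
    (hkA : Function.Surjective (algebraMap k (A ⧸ p)))
    (hkB : Function.Surjective (algebraMap k (B ⧸ P))) :
    Module.finrank k (B ⧸ P ^ p.ramificationIdx' P) = p.ramificationIdx' P := by
  have h1 := Ideal.finrank_prime_pow_ramificationIdx p P hP0 he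
  let : NeZero (p.ramificationIdx' P) := ⟨he⟩
  let : Algebra (A ⧸ p) (B ⧸ P) := Ideal.Quotient.algebraQuotientOfRamificationIdxNeZero p P
  have h2 : Module.finrank (A ⧸ p) (B ⧸ P) = 1 := by
    rw [finrank_eq_one_iff_of_nonzero' (1 : B ⧸ P) one_ne_zero]
    intro y
    obtain ⟨c, rfl⟩ := hkB y
    refine ⟨algebraMap k (A ⧸ p) c, ?_⟩
    rw [Algebra.smul_def, mul_one]
    exact (algebraMap_quotient_eq p P (fun a => rfl) c).symm
  rw [h2, mul_one] at h1
  refine Eq.trans ?_ h1
  have hbij : Function.Bijective (algebraMap k (A ⧸ p)) := ⟨(algebraMap k (A ⧸ p)).injective, hkA⟩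
  have h3 := rank_eq_of_equiv_equiv (R := k) (R' := A ⧸ p)
    (M := B ⧸ P ^ p.ramificationIdx' P) (M₁ := B ⧸ P ^ p.ramificationIdx' P)
    (algebraMap k (A ⧸ p)) (AddEquiv.refl _) hbij (by
      intro c m
      rw [AddEquiv.refl_apply, AddEquiv.refl_apply, Algebra.smul_def, Algebra.smul_def,
        algebraMap_quotient_eq p (P ^ p.ramificationIdx' P) (fun a => rfl) c])
  unfold Module.finrank
  rw [h3]

variable [Module.Finite A B] [Module.Free A B]

/-- The local quotients `B ⧸ Q i ^ e i`. -/
abbrev Dq (p : Ideal A) {ι : Type*} (Q : ι → Ideal B) (i : ι) : Type _ :=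
  B ⧸ Q i ^ p.ramificationIdx' (Q i)

open Fermat.Agent.N4F.E.CharpolyFibre in
/-- **The generic fibre formula, pure form.**  `A` a `k`-algebra with a `k`-point `φ` of kernel
`p`; `B` a Dedekind domain, finite free over `A`; `Q i` pairwise distinct maximal ideals of `B`
with `k`-points `ψ i` of kernel `Q i`, and `∑ e i = rank_A B` (so the `Q i` are all the primes over
`p`).  Then `χ_b mod p = ∏ i, (X - ψ i b) ^ e i`. -/
theorem charpoly_map_eq_prod_pow (p : Ideal A) [p.IsMaximal]
    (φ : A →ₐ[k] k) (hφ : RingHom.ker (φ : A →+* k) = p)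
    {ι : Type*} [Fintype ι] (Q : ι → Ideal B) [∀ i, (Q i).IsMaximal] (hQ0 : ∀ i, Q i ≠ ⊥)
    (hQinj : Function.Injective Q)
    (ψ : ∀ i, B →ₐ[k] k) (hψ : ∀ i, RingHom.ker (ψ i : B →+* k) = Q i)
    (he0 : ∀ i, p.ramificationIdx' (Q i) ≠ 0)
    (hsum : ∑ i, p.ramificationIdx' (Q i) = Module.finrank A B) (b : B) :
    (Algebra.lmul A B b).charpoly.map (φ : A →+* k) =
      ∏ i, (X - C (ψ i b)) ^ p.ramificationIdx' (Q i) := by
  classical
  letI algAk : Algebra A k := (φ : A →+* k).toAlgebra
  have halg : ∀ a : A, algebraMap A k a = φ a := fun a => rfl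
  have hmemA : ∀ a : A, a - algebraMap k A (φ a) ∈ p := by
    intro a
    rw [← hφ, RingHom.mem_ker, map_sub]
    simp
  have hmemB : ∀ (i : ι) (b : B), b - algebraMap k B (ψ i b) ∈ Q i := by
    intro i b
    rw [← hψ i, RingHom.mem_ker, map_sub]
    simp
  have hkA : Function.Surjective (algebraMap k (A ⧸ p)) := by
    intro x
    obtain ⟨a, rfl⟩ := Ideal.Quotient.mk_surjective x
    refine ⟨φ a, ?_⟩
    rw [IsScalarTower.algebraMap_apply k A (A ⧸ p), Ideal.Quotient.algebraMap_eq, eq_comm,
      Ideal.Quotient.eq]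
    exact hmemA a
  have hkB : ∀ i, Function.Surjective (algebraMap k (B ⧸ Q i)) := by
    intro i x
    obtain ⟨a, rfl⟩ := Ideal.Quotient.mk_surjective x
    refine ⟨ψ i a, ?_⟩
    rw [IsScalarTower.algebraMap_apply k B (B ⧸ Q i), Ideal.Quotient.algebraMap_eq, eq_comm,
      Ideal.Quotient.eq]
    exact hmemB i a
  haveI : ∀ i, IsScalarTower A k (Dq p Q i) := fun i => IsScalarTower.of_algebraMap_eq fun a => by
    rw [halg, IsScalarTower.algebraMap_apply k B (Dq p Q i),
      IsScalarTower.algebraMap_apply k A B, IsScalarTower.algebraMap_apply A B (Dq p Q i),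
      Ideal.Quotient.algebraMap_eq, Ideal.Quotient.eq, ← map_sub]
    exact Ideal.le_pow_ramificationIdx' (Ideal.mem_map_of_mem _ (hmemA a))
  let π : ∀ i, B →ₐ[A] Dq p Q i := fun i => Ideal.Quotient.mkₐ A _
  haveI : ∀ i, Module.Finite A (Dq p Q i) := fun i =>
    Module.Finite.of_surjective (π i).toLinearMap (Ideal.Quotient.mkₐ_surjective A _)
  haveI : ∀ i, Module.Finite k (Dq p Q i) := fun i =>
    Module.Finite.of_restrictScalars_finite A k (Dq p Q i)
  have hsurj : Function.Surjective (theta k (Dq p Q) π) :=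
    theta_surjective (Dq p Q) π (fun i => Ideal.Quotient.mkₐ_surjective A _) (by
      intro i j hij
      have hker : ∀ I : Ideal B, RingHom.ker (Ideal.Quotient.mkₐ A I) = I := fun I => by
        ext x
        rw [RingHom.mem_ker, Ideal.Quotient.mkₐ_eq_mk, Ideal.Quotient.eq_zero_iff_mem]
      show IsCoprime (RingHom.ker (Ideal.Quotient.mkₐ A _)) (RingHom.ker (Ideal.Quotient.mkₐ A _))
      rw [hker, hker]
      apply IsCoprime.pow
      rw [Ideal.isCoprime_iff_sup_eq]
      exact Ideal.IsMaximal.coprime_of_ne inferInstance inferInstance (hQinj.ne hij))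
  have hfin : ∀ i, Module.finrank k (Dq p Q i) = p.ramificationIdx' (Q i) := fun i =>
    finrank_quotient_pow_ramificationIdx' p (Q i) (hQ0 i) (he0 i) hkA (hkB i)
  have hθ := theta_bijective_of_surjective (Dq p Q) π hsurj (by
    rw [← hsum]
    exact Finset.sum_congr rfl fun i _ => (hfin i).symm)
  have key := charpoly_map_eq_prod (Dq p Q) π hθ b
  rw [show (φ : A →+* k) = algebraMap A k from rfl, key]
  refine Finset.prod_congr rfl fun i _ => ?_
  rw [charpoly_lmul_of_isNilpotent_sub (π i b) (ψ i b) ?_, hfin i]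
  refine ⟨p.ramificationIdx' (Q i), ?_⟩
  show (Ideal.Quotient.mk _ b - algebraMap k (Dq p Q i) (ψ i b)) ^ _ = 0
  rw [IsScalarTower.algebraMap_apply k B (Dq p Q i), Ideal.Quotient.algebraMap_eq, ← map_sub,
    ← map_pow, Ideal.Quotient.eq_zero_iff_mem]
  exact Ideal.pow_mem_pow (hmemB i b) _

end Pure

/-! ### Places -/

open AlgebraicCurve IsLocalRing
open Fermat.Agent.N4F.A.PlaceFiber Fermat.Agent.N4F.E.EvalAt

section PlaceForm

variable {K F F' : Type*} [Field K] [Field F] [Field F']
  [Algebra K F] [Algebra K F'] [Algebra F F'] [IsScalarTower K F F']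

/-- A rational place has degree one. -/
theorem deg_eq_one_of_bijective (w : Place K F)
    (hw : Function.Bijective (algebraMap K w.ResidueField)) : w.deg = 1 := by
  unfold Place.deg
  rw [finrank_eq_one_iff_of_nonzero' (1 : w.ResidueField) one_ne_zero]
  intro y
  obtain ⟨c, rfl⟩ := hw.2 y
  exact ⟨c, by rw [Algebra.smul_def, mul_one]⟩

/-- A rational place has inertia degree one over any subfield. -/
theorem inertiaDeg_eq_one_of_bijective [Algebra.IsAlgebraic F F'] (w : Place K F')
    (hw : Function.Bijective (algebraMap K w.ResidueField)) : w.inertiaDeg F = 1 := by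
  have h := w.deg_restrict_mul_inertiaDeg (F := F)
  rw [deg_eq_one_of_bijective w hw] at h
  exact Nat.eq_one_of_mul_eq_one_left h

theorem ker_evalAt (v : Place K F) (hv : Function.Bijective (algebraMap K v.ResidueField)) :
    RingHom.ker (evalAt v hv : v.toValuationSubring →+* K) = maximalIdeal v.toValuationSubring := by
  ext a
  rw [RingHom.mem_ker, ← evalAt_eq_zero_iff v hv]
  rfl

variable [FiniteDimensional F F'] [Algebra.IsSeparable F F']

/-- **(G1)** The characteristic polynomial over `F` of an element of `B_v` has coefficients in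
`O_v`: it is the image of its characteristic polynomial over `O_v`. -/
theorem charpoly_lmul_eq_map (v : Place K F) (b : Bv F' v) :
    (Algebra.lmul F F' (b : F')).charpoly =
      ((Algebra.lmul v.toValuationSubring (Bv F' v) b).charpoly).map
        (algebraMap v.toValuationSubring F) := by
  classical
  let bas := Module.Free.chooseBasis v.toValuationSubring (Bv F' v)
  haveI : IsLocalization (Algebra.algebraMapSubmonoid (Bv F' v)
      (nonZeroDivisors v.toValuationSubring)) F' :=
    IsIntegralClosure.isLocalization v.toValuationSubring F F' (Bv F' v)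
  let bas' := bas.localizationLocalization F (nonZeroDivisors v.toValuationSubring) F'
  rw [← LinearMap.charpoly_toMatrix _ bas', ← LinearMap.charpoly_toMatrix _ bas,
    ← Algebra.leftMulMatrix_apply, ← Algebra.leftMulMatrix_apply, ← Matrix.charpoly_map]
  congr 1
  exact (Algebra.map_leftMulMatrix_localization v.toValuationSubring
    (nonZeroDivisors v.toValuationSubring) bas b).symm

/-- The value at a rational place `w` above `v` of an element of `B_v`, as a `K`-algebra map. -/
noncomputable def evalBv {v : Place K F} {w : Place K F'} (hw : w.restrict F = v)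
    (hwr : Function.Bijective (algebraMap K w.ResidueField)) : Bv F' v →ₐ[K] K :=
  (evalAt w hwr).comp (toPlaceHom w (Bv_le hw))

theorem evalBv_apply {v : Place K F} {w : Place K F'} (hw : w.restrict F = v)
    (hwr : Function.Bijective (algebraMap K w.ResidueField)) (b : Bv F' v) :
    evalBv hw hwr b = evalAt w hwr ⟨(b : F'), Bv_le hw b⟩ := rfl

theorem ker_evalBv {v : Place K F} {w : Place K F'} (hw : w.restrict F = v)
    (hwr : Function.Bijective (algebraMap K w.ResidueField)) :
    RingHom.ker (evalBv hw hwr : Bv F' v →+* K) = centerAt hw := by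
  ext b
  rw [RingHom.mem_ker, mem_centerAt_iff hw b, ← evalAt_eq_zero_iff w hwr]
  rfl

variable [HasPrincipalDivisors K F']

/-- **(G2)** The generic fibre formula: if `v` and all places `w` of `F'` above `v` are rational,
the characteristic polynomial of `b ∈ B_v` over `O_v`, evaluated at `v`, is
`∏_{w ∣ v} (X - b(w)) ^ e_w`. -/
theorem charpoly_map_evalAt (v : Place K F)
    (hv : Function.Bijective (algebraMap K v.ResidueField))
    (hF' : ∀ w ∈ v.fiber F', Function.Bijective (algebraMap K w.ResidueField))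
    (b : Bv F' v) :
    ((Algebra.lmul v.toValuationSubring (Bv F' v) b).charpoly).map
        (evalAt v hv : v.toValuationSubring →+* K) =
      ∏ w ∈ (v.fiber F').attach,
        (X - C (evalAt w.1 (hF' w.1 w.2) ⟨(b : F'), Bv_le (Place.mem_fiber.mp w.2) b⟩)) ^
          (w.1.ramificationIndex F) := by
  classical
  set p : Ideal v.toValuationSubring := maximalIdeal v.toValuationSubring with hp
  have hp0 : p ≠ ⊥ := maximalIdeal_ne_bot v
  let Q : {w // w ∈ v.fiber F'} → Ideal (Bv F' v) := fun w => centerAt (Place.mem_fiber.mp w.2)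
  haveI : ∀ w, (Q w).IsMaximal := fun w => centerAt_isMaximal (Place.mem_fiber.mp w.2)
  have he : ∀ w : {w // w ∈ v.fiber F'}, p.ramificationIdx' (Q w) = w.1.ramificationIndex F := by
    intro w
    haveI : (Q w).LiesOver p := centerAt_liesOver (Place.mem_fiber.mp w.2)
    rw [Ideal.ramificationIdx'_eq_ramificationIdx p (Q w) hp0,
      ramificationIndex_eq (Place.mem_fiber.mp w.2)]
  have hsum : ∑ w, p.ramificationIdx' (Q w) = Module.finrank v.toValuationSubring (Bv F' v) := by
    rw [finrank_Bv]
    have h1 := sum_ramificationIndex_mul_inertiaDeg (F' := F') v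
    rw [← Finset.sum_attach] at h1
    have h2 : ∑ w ∈ (v.fiber F').attach, (w.1.ramificationIndex F : ℤ) * (w.1.inertiaDeg F : ℤ) =
        ((∑ w : {w // w ∈ v.fiber F'}, p.ramificationIdx' (Q w) : ℕ) : ℤ) := by
      rw [Finset.univ_eq_attach]
      push_cast
      refine Finset.sum_congr rfl fun w _ => ?_
      rw [he w, inertiaDeg_eq_one_of_bijective w.1 (hF' w.1 w.2), Nat.cast_one, mul_one]
    rw [h2] at h1
    exact_mod_cast h1
  have key := charpoly_map_eq_prod_pow (k := K) p (evalAt v hv) (ker_evalAt v hv) Q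
    (fun w => centerAt_ne_bot (Place.mem_fiber.mp w.2))
    (fun w w' h => Subtype.ext
      (eq_of_centerAt_eq (Place.mem_fiber.mp w.2) (Place.mem_fiber.mp w'.2) h))
    (fun w => evalBv (Place.mem_fiber.mp w.2) (hF' w.1 w.2))
    (fun w => ker_evalBv (Place.mem_fiber.mp w.2) (hF' w.1 w.2))
    (fun w => by rw [he w]; exact (w.1.ramificationIndex_pos (F := F)).ne')
    hsum b
  rw [key, Finset.univ_eq_attach]
  refine Finset.prod_congr rfl fun w _ => ?_
  rw [he w]
  rfl

/-- (G1) + (G2) packaged: for `g ∈ F'` integral over `O_v`, the characteristic polynomial of `g`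
over `F` is the image of a monic `P ∈ O_v[X]` with `P(v) = ∏_{w ∣ v} (X - g(w)) ^ e_w`. -/
theorem exists_charpoly_lmul_eq (v : Place K F)
    (hv : Function.Bijective (algebraMap K v.ResidueField))
    (hF' : ∀ w ∈ v.fiber F', Function.Bijective (algebraMap K w.ResidueField))
    (g : F') (hg : IsIntegral v.toValuationSubring g) :
    ∃ P : v.toValuationSubring[X], P.Monic ∧
      (Algebra.lmul F F' g).charpoly = P.map (algebraMap v.toValuationSubring F) ∧
      P.map (evalAt v hv : v.toValuationSubring →+* K) =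
        ∏ w ∈ (v.fiber F').attach,
          (X - C (evalAt w.1 (hF' w.1 w.2)
            ⟨g, Bv_le (Place.mem_fiber.mp w.2) (⟨g, hg⟩ : Bv F' v)⟩)) ^
            (w.1.ramificationIndex F) :=
  ⟨(Algebra.lmul v.toValuationSubring (Bv F' v) ⟨g, hg⟩).charpoly, LinearMap.charpoly_monic _,
    charpoly_lmul_eq_map v ⟨g, hg⟩, charpoly_map_evalAt v hv hF' ⟨g, hg⟩⟩

end PlaceForm

end Fermat.Agent.N4F.E.GenericFibre
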