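/-
N4-FULL, block E (helper26), node E3 part (G0 compat) + (G3): evaluation at rational places is
compatible with restriction of places (instance form and `Along` form), inertia degrees of rational
places are `1`, and the correspondence attached to a pair `φ ψ : F →ₐ[K] F'` sends a rational place
`P` to `∑_{Q ↦ P} e(Q/P) • (Q ∘ ψ)`.

(G3a) THE GENERIC FIBRE in `Along` form (on helper2's `GenericFibre.charpoly_lmul_eq_map` (G1) and
`GenericFibre.charpoly_map_evalAt` (G2)): for `β α : F →ₐ[K] F'`, `β` finite, `K` of characteristic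
zero, `P` a rational place of `F` all of whose preimages `Q` under `β` are rational, and `h : F`
regular at every `Q ∘ α`: every lift `χ ∈ O_P[X]` of
`Ψ_h := charpolyAlong β hfin (α h)` (the characteristic polynomial of `α h` over `F` via `β`)
satisfies `χ(P) = ∏_Q (X - h(Q ∘ α)) ^ e(Q)`.
-/
import Mathlib
import Fermat.Prelude.Def_AlgebraicCurve_Correspondence
import Fermat.Agent.N4F.E.EvalAt
import Fermat.Agent.N4F.A.PlaceFiber
import Fermat.Agent.N4F.E.GenericFibre

set_option autoImplicit false
set_option linter.style.haveILetI false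

open AlgebraicCurve IsLocalRing

namespace Fermat.Agent.N4F.E.GenericFibreAlong

open Fermat.Agent.N4F.E.EvalAt

section Rational

variable {K F : Type*} [Field K] [Field F] [Algebra K F]

/-- A rational place has degree one. -/
theorem deg_eq_one_of_bijective (w : Place K F)
    (hw : Function.Bijective (algebraMap K w.ResidueField)) : w.deg = 1 := by
  unfold Place.deg
  rw [← (residueEquivBase w hw).toLinearEquiv.finrank_eq, Module.finrank_self]

/-- A place of degree one is rational. -/
theorem bijective_of_deg_eq_one (w : Place K F) (hw : w.deg = 1) :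
    Function.Bijective (algebraMap K w.ResidueField) := by
  refine ⟨(algebraMap K w.ResidueField).injective, ?_⟩
  have h1 : Module.finrank K w.ResidueField = 1 := hw
  intro x
  obtain ⟨c, hc⟩ := (finrank_eq_one_iff_of_nonzero' (1 : w.ResidueField) one_ne_zero).mp h1 x
  exact ⟨c, by rw [Algebra.algebraMap_eq_smul_one, hc]⟩

end Rational

section InstanceForm

variable {K F F' : Type*} [Field K] [Field F] [Field F']
  [Algebra K F] [Algebra K F'] [Algebra F F'] [IsScalarTower K F F']
  [Algebra.IsIntegral F F']

/-- The restriction of a rational place is rational. -/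
theorem bijective_restrict (w : Place K F')
    (hw : Function.Bijective (algebraMap K w.ResidueField)) :
    Function.Bijective (algebraMap K (w.restrict F).ResidueField) := by
  refine ⟨(algebraMap K (w.restrict F).ResidueField).injective, ?_⟩
  intro x
  obtain ⟨c, hc⟩ := hw.2 (algebraMap (w.restrict F).ResidueField w.ResidueField x)
  refine ⟨c, (algebraMap (w.restrict F).ResidueField w.ResidueField).injective ?_⟩
  rw [← hc, ← IsScalarTower.algebraMap_apply]

/-- Rational places have inertia degree one. -/
theorem inertiaDeg_eq_one (w : Place K F')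
    (hw : Function.Bijective (algebraMap K w.ResidueField)) : w.inertiaDeg F = 1 := by
  have h := w.deg_restrict_mul_inertiaDeg (F := F)
  rw [deg_eq_one_of_bijective w hw] at h
  exact Nat.eq_one_of_mul_eq_one_left h

/-- `restrictInclusion` as a `K`-algebra homomorphism. -/
noncomputable def restrictInclusionAlgHom (w : Place K F') :
    (w.restrict F).toValuationSubring →ₐ[K] w.toValuationSubring :=
  { Place.restrictInclusion F w with
    commutes' := fun c => Subtype.ext (by
      show algebraMap F F' (algebraMap K F c) = algebraMap K F' c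
      rw [← IsScalarTower.algebraMap_apply]) }

/-- **Evaluation is compatible with restriction of places**: `(g|_{F'})(w) = g(w|_F)`. -/
theorem evalAt_restrictInclusion (w : Place K F')
    (hw : Function.Bijective (algebraMap K w.ResidueField))
    (g : (w.restrict F).toValuationSubring) :
    evalAt w hw (Place.restrictInclusion F w g)
      = evalAt (w.restrict F) (bijective_restrict w hw) g := by
  have h := eq_evalAt (w.restrict F) (bijective_restrict w hw)
    ((evalAt w hw).comp (restrictInclusionAlgHom w))
  exact DFunLike.congr_fun h g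

/-- Variant with an explicit place `v = w.restrict F` below. -/
theorem evalAt_algebraMap_of_restrict_eq {v : Place K F} {w : Place K F'} (h : w.restrict F = v)
    (hv : Function.Bijective (algebraMap K v.ResidueField))
    (hw : Function.Bijective (algebraMap K w.ResidueField))
    (g : F) (hg : g ∈ v.toValuationSubring) :
    evalAt w hw ⟨algebraMap F F' g, by subst h; exact hg⟩ = evalAt v hv ⟨g, hg⟩ := by
  subst h
  exact evalAt_restrictInclusion w hw ⟨g, hg⟩

end InstanceForm

section AlongForm

variable {K F F' : Type*} [Field K] [Field F] [Field F'] [Algebra K F] [Algebra K F']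

theorem mem_restrictAlong_iff (φ : F →ₐ[K] F') (hφ : φ.toRingHom.IsIntegral) (Q : Place K F')
    (g : F) : g ∈ (Q.restrictAlong φ hφ).toValuationSubring ↔ φ g ∈ Q.toValuationSubring :=
  Iff.rfl

/-- The restriction along `φ` of a rational place is rational. -/
theorem bijective_restrictAlong (φ : F →ₐ[K] F') (hφ : φ.toRingHom.IsIntegral) (Q : Place K F')
    (hQ : Function.Bijective (algebraMap K Q.ResidueField)) :
    Function.Bijective (algebraMap K (Q.restrictAlong φ hφ).ResidueField) := by
  letI := algebraAlong φ
  haveI := isScalarTower_along φ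
  haveI := isIntegral_along φ hφ
  exact bijective_restrict Q hQ

/-- Rational places have inertia degree one (`Along` form). -/
theorem inertiaDegAlong_eq_one (φ : F →ₐ[K] F') (hφ : φ.toRingHom.IsIntegral) (Q : Place K F')
    (hQ : Function.Bijective (algebraMap K Q.ResidueField)) : Q.inertiaDegAlong φ hφ = 1 := by
  letI := algebraAlong φ
  haveI := isScalarTower_along φ
  haveI := isIntegral_along φ hφ
  exact inertiaDeg_eq_one Q hQ

/-- **Evaluation is compatible with restriction along `φ`**: `(φ g)(Q) = g(Q ∘ φ)`. -/
theorem evalAt_restrictAlong (φ : F →ₐ[K] F') (hφ : φ.toRingHom.IsIntegral) (Q : Place K F')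
    (hQ : Function.Bijective (algebraMap K Q.ResidueField))
    (g : F) (hg : g ∈ (Q.restrictAlong φ hφ).toValuationSubring) :
    evalAt Q hQ ⟨φ g, (mem_restrictAlong_iff φ hφ Q g).mp hg⟩
      = evalAt (Q.restrictAlong φ hφ) (bijective_restrictAlong φ hφ Q hQ) ⟨g, hg⟩ := by
  letI := algebraAlong φ
  haveI := isScalarTower_along φ
  haveI := isIntegral_along φ hφ
  exact evalAt_restrictInclusion Q hQ ⟨g, hg⟩

/-- Variant with an explicit place `P = Q ∘ φ` below. -/
theorem evalAt_of_restrictAlong_eq (φ : F →ₐ[K] F') (hφ : φ.toRingHom.IsIntegral)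
    {P : Place K F} {Q : Place K F'} (h : Q.restrictAlong φ hφ = P)
    (hP : Function.Bijective (algebraMap K P.ResidueField))
    (hQ : Function.Bijective (algebraMap K Q.ResidueField))
    (g : F) (hg : g ∈ P.toValuationSubring) :
    evalAt Q hQ ⟨φ g, by subst h; exact (mem_restrictAlong_iff φ hφ Q g).mp hg⟩
      = evalAt P hP ⟨g, hg⟩ := by
  subst h
  exact evalAt_restrictAlong φ hφ Q hQ g hg

variable [HasPrincipalDivisors K F']

/-- The correspondence `ψ_* ∘ φ^*` on a single place, in general. -/
theorem correspondence_single (φ ψ : F →ₐ[K] F') (hφ : φ.toRingHom.IsIntegral)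
    (hψ : ψ.toRingHom.IsIntegral) (P : Place K F) (n : ℤ) :
    Divisor.correspondence φ ψ hφ hψ (Finsupp.single P n)
      = ∑ Q ∈ Place.fiberAlong φ hφ P,
          Finsupp.single (Q.restrictAlong ψ hψ)
            (n * Q.ramificationIndexAlong φ * Q.inertiaDegAlong ψ hψ) := by
  rw [Divisor.correspondence_apply, Divisor.pullbackAlong_single, map_sum]
  exact Finset.sum_congr rfl fun Q _ => Divisor.pushforwardAlong_single ψ hψ Q _

/-- **The correspondence on a place all of whose preimages are rational**:
`ψ_* φ^* (n P) = ∑_{Q ↦ P} (n e(Q/P)) • (Q ∘ ψ)`. -/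
theorem correspondence_single_of_rational (φ ψ : F →ₐ[K] F') (hφ : φ.toRingHom.IsIntegral)
    (hψ : ψ.toRingHom.IsIntegral) (P : Place K F) (n : ℤ)
    (hQ : ∀ Q ∈ Place.fiberAlong φ hφ P, Function.Bijective (algebraMap K Q.ResidueField)) :
    Divisor.correspondence φ ψ hφ hψ (Finsupp.single P n)
      = ∑ Q ∈ Place.fiberAlong φ hφ P,
          Finsupp.single (Q.restrictAlong ψ hψ) (n * Q.ramificationIndexAlong φ) := by
  rw [correspondence_single]
  refine Finset.sum_congr rfl fun Q hQm => ?_
  rw [inertiaDegAlong_eq_one ψ hψ Q (hQ Q hQm), Nat.cast_one, mul_one]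

/-- Over an algebraically closed constant field with finite residue fields every place is
rational, so the formula holds for every place. -/
theorem correspondence_single_of_isAlgClosed [IsAlgClosed K]
    (hfin : ∀ Q : Place K F', Module.Finite K Q.ResidueField)
    (φ ψ : F →ₐ[K] F') (hφ : φ.toRingHom.IsIntegral)
    (hψ : ψ.toRingHom.IsIntegral) (P : Place K F) (n : ℤ) :
    Divisor.correspondence φ ψ hφ hψ (Finsupp.single P n)
      = ∑ Q ∈ Place.fiberAlong φ hφ P,
          Finsupp.single (Q.restrictAlong ψ hψ) (n * Q.ramificationIndexAlong φ) :=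
  correspondence_single_of_rational φ ψ hφ hψ P n
    fun Q _ => bijective_algebraMap_residueField Q (hfin Q)

end AlongForm

/-! ### (G3a) the generic fibre -/

section InstanceFibre

open Fermat.Agent.N4F.A.PlaceFiber Fermat.Agent.S24 IsDedekindDomain Polynomial

variable {K F F' : Type*} [Field K] [Field F] [Field F'] [Algebra K F] [Algebra K F']
  [Algebra F F'] [IsScalarTower K F F'] [FiniteDimensional F F'] [Algebra.IsSeparable F F']
  [HasPrincipalDivisors K F']

/-- An element of `F'` regular at every place above `v` is integral over `O_v`. -/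
theorem mem_Bv_of_forall_mem (v : Place K F) {b : F'}
    (hb : ∀ w ∈ v.fiber F', b ∈ w.toValuationSubring) : b ∈ Bv F' v := by
  have h := HeightOneSpectrum.mem_integers_of_valuation_le_one (R := Bv F' v) F' b ?_
  · obtain ⟨y, hy⟩ := h
    rw [← hy]
    exact y.2
  · intro Q
    have hQ : placeOfPrime v Q ∈ v.fiber F' := Place.mem_fiber.mpr (restrict_placeOfPrime v Q)
    exact (mem_ofHeightOneSpectrum_iff (K := K) Q b).mp (hb _ hQ)

theorem mem_Bv_iff (v : Place K F) {b : F'} :
    b ∈ Bv F' v ↔ ∀ w ∈ v.fiber F', b ∈ w.toValuationSubring :=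
  ⟨fun hb _ hw => Bv_le (Place.mem_fiber.mp hw) ⟨b, hb⟩, mem_Bv_of_forall_mem v⟩

variable (v : Place K F) (hv : Function.Bijective (algebraMap K v.ResidueField))
  (hF' : ∀ w ∈ v.fiber F', Function.Bijective (algebraMap K w.ResidueField))

/-- (G3a), instance form, existence: the characteristic polynomial of a function regular above
`v` has coefficients in `O_v`, and its value at `v` is `∏_w (X - b(w)) ^ e(w)`. -/
theorem charpoly_fibre (b : F') (hb : ∀ w ∈ v.fiber F', b ∈ w.toValuationSubring) :
    ∃ χ : Polynomial v.toValuationSubring,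
      χ.map (algebraMap v.toValuationSubring F) = (Algebra.lmul F F' b).charpoly ∧
      χ.map (evalAt v hv : v.toValuationSubring →+* K) =
        ∏ w ∈ (v.fiber F').attach,
          (X - C (evalAt w.1 (hF' w.1 w.2) ⟨b, hb w.1 w.2⟩)) ^ (w.1.ramificationIndex F) :=
  ⟨_, (GenericFibre.charpoly_lmul_eq_map v ⟨b, mem_Bv_of_forall_mem v hb⟩).symm,
    GenericFibre.charpoly_map_evalAt v hv hF' ⟨b, mem_Bv_of_forall_mem v hb⟩⟩

/-- (G3a), instance form, for ANY lift `χ ∈ O_v[X]` of the characteristic polynomial. -/
theorem map_evalAt_eq_prod (b : F') (hb : ∀ w ∈ v.fiber F', b ∈ w.toValuationSubring)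
    (χ : Polynomial v.toValuationSubring)
    (hχ : χ.map (algebraMap v.toValuationSubring F) = (Algebra.lmul F F' b).charpoly) :
    χ.map (evalAt v hv : v.toValuationSubring →+* K) =
      ∏ w ∈ (v.fiber F').attach,
        (X - C (evalAt w.1 (hF' w.1 w.2) ⟨b, hb w.1 w.2⟩)) ^ (w.1.ramificationIndex F) := by
  obtain ⟨χ', h1, h2⟩ := charpoly_fibre v hv hF' b hb
  have hinj : Function.Injective (Polynomial.map (algebraMap v.toValuationSubring F)) :=
    Polynomial.map_injective _ (FaithfulSMul.algebraMap_injective _ _)
  rw [hinj (hχ.trans h1.symm)]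
  exact h2

end InstanceFibre

section AlongFibre

open Fermat.Agent.N4F.A.PlaceFiber Polynomial

variable {K F F' : Type*} [Field K] [Field F] [Field F'] [Algebra K F] [Algebra K F']

/-- `Ψ`: the characteristic polynomial, over `F` via `φ`, of multiplication by `g` on `F'`. -/
noncomputable def charpolyAlong (φ : F →ₐ[K] F') (hfin : FiniteAlong K φ) (g : F') :
    Polynomial F :=
  letI := algebraAlong φ
  haveI : Module.Finite F F' := hfin
  (Algebra.lmul F F' g).charpoly

theorem charpolyAlong_def (φ : F →ₐ[K] F') (hfin : FiniteAlong K φ) (g : F') :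
    charpolyAlong φ hfin g =
      (letI := algebraAlong φ
       haveI : Module.Finite F F' := hfin
       (Algebra.lmul F F' g).charpoly) := rfl

theorem charpolyAlong_monic (φ : F →ₐ[K] F') (hfin : FiniteAlong K φ) (g : F') :
    (charpolyAlong φ hfin g).Monic := by
  letI := algebraAlong φ
  haveI : Module.Finite F F' := hfin
  exact LinearMap.charpoly_monic _

theorem charpolyAlong_natDegree (φ : F →ₐ[K] F') (hfin : FiniteAlong K φ) (g : F') :
    (charpolyAlong φ hfin g).natDegree = finrankAlong K φ := by
  letI := algebraAlong φ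
  haveI : Module.Finite F F' := hfin
  exact LinearMap.charpoly_natDegree _

variable [CharZero K] [HasPrincipalDivisors K F']

/-- **(G3a) The generic fibre, `Along` form**: `Ψ_h(P) = ∏_{Q ↦ P} (X - h(Q ∘ α)) ^ e(Q)`, for
every lift `χ ∈ O_P[X]` of `Ψ_h = charpolyAlong β hfin (α h)`. -/
theorem charpolyAlong_fibre (β α : F →ₐ[K] F') (hfin : FiniteAlong K β)
    (hβ : β.toRingHom.IsIntegral) (hα : α.toRingHom.IsIntegral)
    (P : Place K F) (hP : Function.Bijective (algebraMap K P.ResidueField))
    (hQ : ∀ Q ∈ Place.fiberAlong β hβ P, Function.Bijective (algebraMap K Q.ResidueField))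
    (h : F) (hh : ∀ Q ∈ Place.fiberAlong β hβ P, h ∈ (Q.restrictAlong α hα).toValuationSubring)
    (χ : Polynomial P.toValuationSubring)
    (hχ : χ.map (algebraMap P.toValuationSubring F) = charpolyAlong β hfin (α h)) :
    χ.map (evalAt P hP : P.toValuationSubring →+* K) =
      ∏ Q ∈ (Place.fiberAlong β hβ P).attach,
        (X - C (evalAt (Q.1.restrictAlong α hα) (bijective_restrictAlong α hα Q.1 (hQ Q.1 Q.2))
          ⟨h, hh Q.1 Q.2⟩)) ^ Q.1.ramificationIndexAlong β := by
  letI := algebraAlong β
  haveI := isScalarTower_along β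
  haveI : Module.Finite F F' := hfin
  haveI : CharZero F := charZero_of_algebra K F
  haveI : Algebra.IsSeparable F F' := inferInstance
  have hb : ∀ w ∈ P.fiber F', α h ∈ w.toValuationSubring := fun w hw =>
    (mem_restrictAlong_iff α hα w h).mp (hh w hw)
  have key := map_evalAt_eq_prod P hP hQ (α h) hb χ hχ
  rw [key]
  refine Finset.prod_congr rfl fun Q _ => ?_
  rw [evalAt_restrictAlong α hα Q.1 (hQ Q.1 Q.2) h (hh Q.1 Q.2)]
  rfl

/-- (G3a), existence of the integral lift: `Ψ_h` has coefficients in `O_P`. -/
theorem exists_charpolyAlong_lift (β α : F →ₐ[K] F') (hfin : FiniteAlong K β)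
    (hβ : β.toRingHom.IsIntegral) (hα : α.toRingHom.IsIntegral)
    (P : Place K F) (hP : Function.Bijective (algebraMap K P.ResidueField))
    (hQ : ∀ Q ∈ Place.fiberAlong β hβ P, Function.Bijective (algebraMap K Q.ResidueField))
    (h : F) (hh : ∀ Q ∈ Place.fiberAlong β hβ P, h ∈ (Q.restrictAlong α hα).toValuationSubring) :
    ∃ χ : Polynomial P.toValuationSubring,
      χ.map (algebraMap P.toValuationSubring F) = charpolyAlong β hfin (α h) := by
  letI := algebraAlong β
  haveI := isScalarTower_along β
  haveI : Module.Finite F F' := hfin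
  haveI : CharZero F := charZero_of_algebra K F
  haveI : Algebra.IsSeparable F F' := inferInstance
  have hb : ∀ w ∈ P.fiber F', α h ∈ w.toValuationSubring := fun w hw =>
    (mem_restrictAlong_iff α hα w h).mp (hh w hw)
  obtain ⟨χ, h1, -⟩ := charpoly_fibre P hP hQ (α h) hb
  exact ⟨χ, h1⟩

end AlongFibre

end Fermat.Agent.N4F.E.GenericFibreAlong
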