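import Mathlib

/-!
# N4-FULL block E (node E4): the multiset lemma

`k` a field, `R` a commutative `k`-algebra.  Two finite multisets of `k`-points of `R`
(`k`-algebra homomorphisms `R → k`) such that `∏ (X - b(y))` agree for all `b : R` are equal.

* `exists_separating` : for finitely many `k`-points and one of them `y₀` there is `b : R` with
  `y₀ b = 0` and `y b = 1` for the others;
* `eq_of_prod_X_sub_C_eq` : the multiset lemma for `Multiset (R →ₐ[k] k)`;
* `eq_of_prod_X_sub_C_eq_of_injOn` : the same for a multiset of indices `ι` with an evaluation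
  `ev : ι → R →ₐ[k] k` injective on the supports.
-/

set_option autoImplicit false

open Polynomial

namespace Fermat.Agent.N4F.E.MultisetLemma

variable {k : Type*} [Field k] {R : Type*} [CommRing R] [Algebra k R]

/-- Two distinct `k`-points are separated by a function: `y b = 0`, `y₀ b = 1`. -/
theorem exists_apply_eq_zero_one {y₀ y : R →ₐ[k] k} (h : y ≠ y₀) :
    ∃ b : R, y b = 0 ∧ y₀ b = 1 := by
  have : ∃ a : R, y a ≠ y₀ a := by
    by_contra hcon
    push Not at hcon
    exact h (AlgHom.ext hcon)
  obtain ⟨a, ha⟩ := this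
  have hne : y₀ a - y a ≠ 0 := sub_ne_zero.mpr (Ne.symm ha)
  refine ⟨(y₀ a - y a)⁻¹ • (a - algebraMap k R (y a)), ?_, ?_⟩
  · rw [map_smul, map_sub, AlgHom.commutes]
    simp
  · rw [map_smul, map_sub, AlgHom.commutes]
    simp [hne]

/-- For a finite set `S` of `k`-points and `y₀` there is `b` with `y₀ b = 0` and `y b = 1` for all
`y ∈ S`, `y ≠ y₀`. -/
theorem exists_separating (S : Finset (R →ₐ[k] k)) (y₀ : R →ₐ[k] k) :
    ∃ b : R, y₀ b = 0 ∧ ∀ y ∈ S, y ≠ y₀ → y b = 1 := by
  classical
  choose! d hd0 hd1 using fun (y : R →ₐ[k] k) (h : y ≠ y₀) => exists_apply_eq_zero_one h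
  refine ⟨1 - ∏ y ∈ S.erase y₀, d y, ?_, fun y hy hne => ?_⟩
  · rw [map_sub, map_one, map_prod, sub_eq_zero]
    symm
    apply Finset.prod_eq_one
    intro y hy
    exact hd1 y (Finset.ne_of_mem_erase hy)
  · rw [map_sub, map_one, map_prod]
    have : ∏ y' ∈ S.erase y₀, y (d y') = 0 :=
      Finset.prod_eq_zero (Finset.mem_erase.mpr ⟨hne, hy⟩) (hd0 y hne)
    rw [this, sub_zero]

/-- **Multiset lemma**, indexed form: `ev` injective on the supports. -/
theorem eq_of_prod_X_sub_C_eq_of_injOn {ι : Type*} (ev : ι → R →ₐ[k] k) (M M' : Multiset ι)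
    (hinj : ∀ y ∈ M + M', ∀ y' ∈ M + M', ev y = ev y' → y = y')
    (h : ∀ b : R, (M.map fun y => X - C (ev y b)).prod = (M'.map fun y => X - C (ev y b)).prod) :
    M = M' := by
  classical
  -- equality of the multisets of values
  have hval : ∀ b : R, M.map (fun y => ev y b) = M'.map (fun y => ev y b) := by
    intro b
    have h1 := congrArg Polynomial.roots (h b)
    have e : ∀ L : Multiset ι, (L.map fun y => X - C (ev y b)) =
        (L.map fun y => ev y b).map (fun a => X - C a) := by
      intro L
      rw [Multiset.map_map]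
      rfl
    rw [e M, e M', Polynomial.roots_multiset_prod_X_sub_C,
      Polynomial.roots_multiset_prod_X_sub_C] at h1
    exact h1
  ext y₀
  by_cases hy₀ : y₀ ∈ M + M'
  · obtain ⟨b, hb0, hb1⟩ := exists_separating (((M + M').map ev).toFinset) (ev y₀)
    have hcount : ∀ L : Multiset ι, L ≤ M + M' →
        Multiset.count (0 : k) (L.map fun y => ev y b) = Multiset.count y₀ L := by
      intro L hL
      rw [Multiset.count_map, Multiset.count_eq_card_filter_eq]
      congr 1
      apply Multiset.filter_congr
      intro y hy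
      have hyM : y ∈ M + M' := Multiset.mem_of_le hL hy
      constructor
      · intro h0
        by_contra hne
        have hne' : ev y ≠ ev y₀ := fun he => hne (hinj y₀ hy₀ y hyM he.symm)
        have h1 := hb1 (ev y) (Multiset.mem_toFinset.mpr (Multiset.mem_map_of_mem ev hyM)) hne'
        rw [← h0] at h1
        exact zero_ne_one h1
      · intro he
        rw [← he, hb0]
    rw [← hcount M (Multiset.le_add_right M M'), ← hcount M' (Multiset.le_add_left M' M), hval b]
  · rw [Multiset.mem_add, not_or] at hy₀
    rw [Multiset.count_eq_zero_of_notMem hy₀.1, Multiset.count_eq_zero_of_notMem hy₀.2]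

/-- **Multiset lemma**: two multisets of `k`-points of `R` with the same `∏ (X - b(y))` for all
`b : R` are equal. -/
theorem eq_of_prod_X_sub_C_eq (M M' : Multiset (R →ₐ[k] k))
    (h : ∀ b : R, (M.map fun y => X - C (y b)).prod = (M'.map fun y => X - C (y b)).prod) :
    M = M' :=
  eq_of_prod_X_sub_C_eq_of_injOn (fun y => y) M M' (fun _ _ _ _ h => h) h

end Fermat.Agent.N4F.E.MultisetLemma
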