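/-
N4-FULL, block E (helper26), node E5 (abstract form): THE EICHLER–SHIMURA CONGRUENCE IN DIVISOR FORM
for an abstract place map `r`, with every input an explicit hypothesis (structure `ChartHyp`).

SETTING.  `Qb` a field of characteristic zero, `A ⊂ Qb` a valuation ring with a ring hom
`res : A →+* κ`; `Fb`, `Fb'` function fields over `Qb` (all places rational), `β α : Fb →ₐ[Qb] Fb'`
with `β` finite (`T := α_* β^*`); `Ft` a function field over `κ` (all places rational),
`Fr : SemilinearAut κ Ft` with `baseAut Fr a = a ^ l`, `φ g = (Fr⁻¹ • g) ^ l` (`κ` of char. `l`);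
`r : Place Qb Fb → Place κ Ft`.

A CHART is `(R', θ, Sg, InChart)`: a subring `R' ⊂ Fb` with a ring hom `θ : R' →+* Ft` (reduction),
a `κ`-subalgebra `Sg ⊂ Ft` (the functions of the special fibre regular on the chart) and a
predicate `InChart` on places of `Fb`, such that (`ChartHyp`):
* `spec`  (block C, (T1)/(C1)): for `P` in the chart every `g ∈ R'` is regular at `P` with value
  `c ∈ A`, and `θ g` is regular at `r P` with value `res c`;
* `stab`  (E2'): `P` in the chart ⇒ `Q ∘ α` in the chart for every `Q ↦ P` under `β`;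
* `kron`  (E2 + E2', the generalised Kronecker congruence): every `b ∈ Sg` is `θ h` for some
  `h ∈ R'` whose `Ψ_h = charpolyAlong β hfin (α h)` has a lift `χ ∈ R'[X]` with
  `θ(χ) = (X^l - Fr b) (X - φ b)`;
* `frob_stable`: `Fr^{±1} Sg ⊆ Sg`;  `sep`: `Sg` separates the places at which it is regular.

RESULTS.
* `ChartHyp.prod_eq` : `∏_Q (X - b(r(Q∘α)))^{e(Q)} = (X - b(Fr⁻¹ r P))^l (X - b(Fr r P))`, `b ∈ Sg`;
* `ChartHyp.sum_single_eq` : `∑_Q e(Q) [r(Q∘α)] = [Fr r P] + l [Fr⁻¹ r P]`;
* `ChartHyp.mapDomain_correspondence_single`, and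
* `mapDomain_correspondence` : if every place lies in some chart,
  `r_* (T D) = Fr • r_* D + l • Fr⁻¹ • r_* D` for every divisor `D`.
-/
import Mathlib
import Fermat.Prelude.Def_AlgebraicCurve_Correspondence
import Fermat.Agent.N4F.E.EvalAt
import Fermat.Agent.N4F.E.PlaceValue
import Fermat.Agent.N4F.E.MultisetLemma
import Fermat.Agent.N4F.E.GenericFibreAlong

set_option autoImplicit false
set_option linter.style.haveILetI false
set_option linter.unusedSectionVars false

open AlgebraicCurve IsLocalRing Polynomial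

namespace Fermat.Agent.N4F.E.TheoremE

open Fermat.Agent.N4F.E.EvalAt Fermat.Agent.N4F.E.PlaceValue Fermat.Agent.N4F.E.GenericFibreAlong

/-! ### Values of `Fr g` and `φ g` at rational places (abstract Frobenius) -/

section FrobValues

variable {κ Ft : Type*} [Field κ] [Field Ft] [Algebra κ Ft] {l : ℕ}
  (Fr : SemilinearAut κ Ft) (hFr : ∀ a : κ, SemilinearAut.baseAut Fr a = a ^ l)
  (φ : Ft → Ft) (hφ : ∀ g, φ g = (Fr⁻¹ • g) ^ l)

include hFr in
/-- `(Fr g)(x) = g(Fr⁻¹ x)^l`. -/
theorem valueAt_frob {x : Place κ Ft} (hx : Function.Bijective (algebraMap κ x.ResidueField))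
    {g : Ft} (hg : g ∈ (Fr⁻¹ • x).toValuationSubring) :
    valueAt x hx (Fr • g) (smul_mem_of_mem_inv_smul Fr hg) =
      valueAt (Fr⁻¹ • x) (bijective_smul Fr⁻¹ hx) g hg ^ l := by
  rw [valueAt_smul', hFr]

include hφ in
theorem phi_mem {x : Place κ Ft} {g : Ft} (hg : g ∈ (Fr • x).toValuationSubring) :
    φ g ∈ x.toValuationSubring := by
  rw [hφ]
  exact pow_mem (inv_smul_mem_of_mem_smul Fr hg) l

include hFr hφ in
/-- `(φ g)(x) = g(Fr x)`. -/
theorem valueAt_phi {x : Place κ Ft} (hx : Function.Bijective (algebraMap κ x.ResidueField))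
    {g : Ft} (hg : g ∈ (Fr • x).toValuationSubring) :
    valueAt x hx (φ g) (phi_mem Fr φ hφ hg) =
      valueAt (Fr • x) (bijective_smul Fr hx) g hg := by
  have hmem : Fr⁻¹ • g ∈ x.toValuationSubring := inv_smul_mem_of_mem_smul Fr hg
  have h2 : valueAt x hx (φ g) (phi_mem Fr φ hφ hg) =
      valueAt x hx ((Fr⁻¹ • g) ^ l) (pow_mem hmem l) :=
    valueAt_congr x hx (hφ g) _
  rw [h2, valueAt_pow x hx hmem, valueAt_inv_smul Fr hx hg, ← hFr, RingEquiv.apply_symm_apply]

end FrobValues

/-! ### The abstract chart hypotheses -/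

section Main

variable {Qb Fb Fb' κ Ft : Type*} [Field Qb] [Field Fb] [Field Fb'] [Field κ] [Field Ft]
  [Algebra Qb Fb] [Algebra Qb Fb'] [Algebra κ Ft] [CharZero Qb] [HasPrincipalDivisors Qb Fb']

/-- The hypotheses of the abstract Theorem E in one chart. -/
structure ChartHyp (A : ValuationSubring Qb) (res : A →+* κ)
    (β α : Fb →ₐ[Qb] Fb') (hfin : FiniteAlong Qb β) (hβ : β.toRingHom.IsIntegral)
    (hα : α.toRingHom.IsIntegral) (l : ℕ) (Fr : SemilinearAut κ Ft) (φ : Ft → Ft)
    (r : Place Qb Fb → Place κ Ft) (R' : Subring Fb) (θ : R' →+* Ft) (Sg : Subalgebra κ Ft)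
    (InChart : Place Qb Fb → Prop) : Prop where
  rat : ∀ P : Place Qb Fb, Function.Bijective (algebraMap Qb P.ResidueField)
  rat' : ∀ Q : Place Qb Fb', Function.Bijective (algebraMap Qb Q.ResidueField)
  ratt : ∀ y : Place κ Ft, Function.Bijective (algebraMap κ y.ResidueField)
  frob_base : ∀ a : κ, SemilinearAut.baseAut Fr a = a ^ l
  phi_eq : ∀ g, φ g = (Fr⁻¹ • g) ^ l
  spec : ∀ P, InChart P → ∀ g : R', ∃ c : A,
    (g : Fb) - algebraMap Qb Fb (c : Qb) ∈ P.toValuationSubring.nonunits ∧
      θ g - algebraMap κ Ft (res c) ∈ (r P).toValuationSubring.nonunits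
  stab : ∀ P, InChart P → ∀ Q ∈ Place.fiberAlong β hβ P, InChart (Q.restrictAlong α hα)
  kron : ∀ b ∈ Sg, ∃ h : R', θ h = b ∧ ∃ χ : Polynomial R',
    χ.map R'.subtype = charpolyAlong β hfin (α h) ∧
      χ.map θ = (X ^ l - C (Fr • b)) * (X - C (φ b))
  frob_stable : ∀ b ∈ Sg, Fr • b ∈ Sg ∧ Fr⁻¹ • b ∈ Sg
  sep : ∀ y y' : Place κ Ft, (∀ b ∈ Sg, b ∈ y.toValuationSubring) →
    (∀ b ∈ Sg, b ∈ y'.toValuationSubring) →
    (∀ b ∈ Sg, b ∈ y.toValuationSubring.nonunits → b ∈ y'.toValuationSubring.nonunits) → y = y'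

variable {A : ValuationSubring Qb} {res : A →+* κ}
  {β α : Fb →ₐ[Qb] Fb'} {hfin : FiniteAlong Qb β} {hβ : β.toRingHom.IsIntegral}
  {hα : α.toRingHom.IsIntegral} {l : ℕ} {Fr : SemilinearAut κ Ft} {φ : Ft → Ft}
  {r : Place Qb Fb → Place κ Ft} {R' : Subring Fb} {θ : R' →+* Ft} {Sg : Subalgebra κ Ft}
  {InChart : Place Qb Fb → Prop}

namespace ChartHyp

variable (H : ChartHyp A res β α hfin hβ hα l Fr φ r R' θ Sg InChart)

/-- a difference with a constant lying in the maximal ideal forces membership -/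
theorem mem_of_sub_mem {K F : Type*} [Field K] [Field F] [Algebra K F] (v : Place K F) {g : F}
    {c : K} (h : g - algebraMap K F c ∈ v.toValuationSubring.nonunits) :
    g ∈ v.toValuationSubring := by
  have h1 : g - algebraMap K F c ∈ v.toValuationSubring :=
    ValuationSubring.nonunits_le h
  have h2 := add_mem h1 (v.algebraMap_mem' c)
  rwa [sub_add_cancel] at h2

include H in
theorem mem_P {P : Place Qb Fb} (hP : InChart P) (g : R') : (g : Fb) ∈ P.toValuationSubring := by
  obtain ⟨c, hc, -⟩ := H.spec P hP g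
  exact mem_of_sub_mem P hc

include H in
theorem valueAt_mem {P : Place Qb Fb} (hP : InChart P) (g : R') :
    valueAt P (H.rat P) (g : Fb) (H.mem_P hP g) ∈ A := by
  obtain ⟨c, hc, -⟩ := H.spec P hP g
  rw [(valueAt_eq_iff P (H.rat P) (g : Fb) (H.mem_P hP g) c).mpr hc]
  exact c.2

include H in
theorem theta_mem {P : Place Qb Fb} (hP : InChart P) (g : R') :
    θ g ∈ (r P).toValuationSubring := by
  obtain ⟨c, -, hc⟩ := H.spec P hP g
  exact mem_of_sub_mem (r P) hc

include H in
theorem valueAt_theta {P : Place Qb Fb} (hP : InChart P) (g : R') :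
    valueAt (r P) (H.ratt (r P)) (θ g) (H.theta_mem hP g) =
      res ⟨valueAt P (H.rat P) (g : Fb) (H.mem_P hP g), H.valueAt_mem hP g⟩ := by
  obtain ⟨c, hc1, hc2⟩ := H.spec P hP g
  rw [(valueAt_eq_iff (r P) (H.ratt (r P)) (θ g) (H.theta_mem hP g) (res c)).mpr hc2]
  congr 1
  apply Subtype.ext
  exact ((valueAt_eq_iff P (H.rat P) (g : Fb) (H.mem_P hP g) c).mpr hc1).symm

include H in
/-- The chart ring `Sg` is regular at `r P` for `P` in the chart. -/
theorem mem_chart {P : Place Qb Fb} (hP : InChart P) {b : Ft} (hb : b ∈ Sg) :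
    b ∈ (r P).toValuationSubring := by
  obtain ⟨h, rfl, -⟩ := H.kron b hb
  exact H.theta_mem hP h

include H in
theorem mem_frob_inv {P : Place Qb Fb} (hP : InChart P) {b : Ft} (hb : b ∈ Sg) :
    b ∈ (Fr⁻¹ • r P).toValuationSubring := by
  have h1 := H.mem_chart hP (H.frob_stable b hb).1
  have h2 := smul_mem_smul Fr⁻¹ h1
  rwa [inv_smul_smul] at h2

include H in
theorem mem_frob {P : Place Qb Fb} (hP : InChart P) {b : Ft} (hb : b ∈ Sg) :
    b ∈ (Fr • r P).toValuationSubring := by
  have h1 := H.mem_chart hP (H.frob_stable b hb).2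
  have h2 := smul_mem_smul Fr h1
  rwa [smul_inv_smul] at h2

/-- `R' → O_P`. -/
noncomputable def toP {P : Place Qb Fb} (hP : InChart P) : R' →+* P.toValuationSubring :=
  R'.subtype.codRestrict P.toValuationSubring (H.mem_P hP)

/-- `R' → A`, `g ↦ g(P)`. -/
noncomputable def evA {P : Place Qb Fb} (hP : InChart P) : R' →+* A :=
  (((evalAt P (H.rat P) : P.toValuationSubring →+* Qb)).comp (H.toP hP)).codRestrict A
    (fun g => H.valueAt_mem hP g)

/-- `R' → O_{r P}`, `g ↦ θ g`. -/
noncomputable def toRP {P : Place Qb Fb} (hP : InChart P) : R' →+* (r P).toValuationSubring :=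
  θ.codRestrict (r P).toValuationSubring (H.theta_mem hP)

theorem coe_evA {P : Place Qb Fb} (hP : InChart P) (g : R') :
    ((H.evA hP g : A) : Qb) = valueAt P (H.rat P) (g : Fb) (H.mem_P hP g) := rfl

theorem algebraMap_comp_toP {P : Place Qb Fb} (hP : InChart P) :
    (algebraMap P.toValuationSubring Fb).comp (H.toP hP) = R'.subtype := rfl

theorem subtype_comp_evA {P : Place Qb Fb} (hP : InChart P) :
    A.subtype.comp (H.evA hP) =
      ((evalAt P (H.rat P) : P.toValuationSubring →+* Qb)).comp (H.toP hP) := rfl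

theorem algebraMap_comp_toRP {P : Place Qb Fb} (hP : InChart P) :
    (algebraMap (r P).toValuationSubring Ft).comp (H.toRP hP) = θ := rfl

theorem evalAt_comp_toRP {P : Place Qb Fb} (hP : InChart P) :
    ((evalAt (r P) (H.ratt (r P)) : (r P).toValuationSubring →+* κ)).comp (H.toRP hP) =
      res.comp (H.evA hP) := by
  ext g
  exact H.valueAt_theta hP g

variable [Fact l.Prime] [CharP κ l]

include H in
/-- The first half: reduce the generic fibre `Ψ_h(P) = ∏_Q (X - h(Q∘α))^{e_Q}` modulo `𝔪_A`. -/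
theorem map_res_evA {P : Place Qb Fb} (hP : InChart P) (h : R') (χ : Polynomial R')
    (hχ1 : χ.map R'.subtype = charpolyAlong β hfin (α h)) :
    χ.map (res.comp (H.evA hP)) =
      ∏ Q ∈ (Place.fiberAlong β hβ P).attach,
        (X - C (valueAt (r (Q.1.restrictAlong α hα)) (H.ratt _) (θ h)
          (H.theta_mem (H.stab P hP Q.1 Q.2) h))) ^ Q.1.ramificationIndexAlong β := by
  have hh : ∀ Q ∈ Place.fiberAlong β hβ P,
      (h : Fb) ∈ (Q.restrictAlong α hα).toValuationSubring :=
    fun Q hQ => H.mem_P (H.stab P hP Q hQ) h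
  have key := charpolyAlong_fibre β α hfin hβ hα P (H.rat P) (fun Q _ => H.rat' Q) (h : Fb) hh
    (χ.map (H.toP hP)) (by rw [Polynomial.map_map, H.algebraMap_comp_toP hP, hχ1])
  rw [Polynomial.map_map, ← H.subtype_comp_evA hP, ← Polynomial.map_map] at key
  have key2 : (χ.map (H.evA hP)) =
      ∏ Q ∈ (Place.fiberAlong β hβ P).attach,
        (X - C (H.evA (H.stab P hP Q.1 Q.2) h)) ^ Q.1.ramificationIndexAlong β := by
    apply Polynomial.map_injective A.subtype Subtype.val_injective
    rw [key, Polynomial.map_prod]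
    refine Finset.prod_congr rfl fun Q _ => ?_
    rw [Polynomial.map_pow, Polynomial.map_sub, Polynomial.map_X, Polynomial.map_C]
    rfl
  rw [← Polynomial.map_map, key2, Polynomial.map_prod]
  refine Finset.prod_congr rfl fun Q _ => ?_
  rw [Polynomial.map_pow, Polynomial.map_sub, Polynomial.map_X, Polynomial.map_C,
    H.valueAt_theta (H.stab P hP Q.1 Q.2) h]
  rfl

include H in
/-- The second half: the Kronecker congruence evaluated at `x = r P`. -/
theorem map_res_evA' {P : Place Qb Fb} (hP : InChart P) {b : Ft} (hb : b ∈ Sg)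
    (χ : Polynomial R') (hχ2 : χ.map θ = (X ^ l - C (Fr • b)) * (X - C (φ b))) :
    χ.map (res.comp (H.evA hP)) =
      (X - C (valueAt (Fr⁻¹ • r P) (H.ratt _) b (H.mem_frob_inv hP hb))) ^ l *
        (X - C (valueAt (Fr • r P) (H.ratt _) b (H.mem_frob hP hb))) := by
  have m1 : Fr • b ∈ (r P).toValuationSubring :=
    smul_mem_of_mem_inv_smul Fr (H.mem_frob_inv hP hb)
  have m2 : φ b ∈ (r P).toValuationSubring := phi_mem Fr φ H.phi_eq (H.mem_frob hP hb)
  have e1 : χ.map (H.toRP hP) =
      (X ^ l - C (⟨Fr • b, m1⟩ : (r P).toValuationSubring)) *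
        (X - C (⟨φ b, m2⟩ : (r P).toValuationSubring)) := by
    apply Polynomial.map_injective (algebraMap (r P).toValuationSubring Ft)
      Subtype.val_injective
    rw [Polynomial.map_map, H.algebraMap_comp_toRP hP, hχ2, Polynomial.map_mul,
      Polynomial.map_sub, Polynomial.map_sub, Polynomial.map_pow, Polynomial.map_X,
      Polynomial.map_C, Polynomial.map_C]
    rfl
  rw [← H.evalAt_comp_toRP hP, ← Polynomial.map_map, e1, Polynomial.map_mul,
    Polynomial.map_sub, Polynomial.map_sub, Polynomial.map_pow, Polynomial.map_X,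
    Polynomial.map_C, Polynomial.map_C]
  have v1 : evalAt (r P) (H.ratt (r P)) ⟨Fr • b, m1⟩ =
      valueAt (Fr⁻¹ • r P) (H.ratt _) b (H.mem_frob_inv hP hb) ^ l :=
    valueAt_frob Fr H.frob_base (H.ratt (r P)) (H.mem_frob_inv hP hb)
  have v2 : evalAt (r P) (H.ratt (r P)) ⟨φ b, m2⟩ =
      valueAt (Fr • r P) (H.ratt _) b (H.mem_frob hP hb) :=
    valueAt_phi Fr H.frob_base φ H.phi_eq (H.ratt (r P)) (H.mem_frob hP hb)
  have v1' : ((evalAt (r P) (H.ratt (r P)) : (r P).toValuationSubring →+* κ))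
      ⟨Fr • b, m1⟩ = valueAt (Fr⁻¹ • r P) (H.ratt _) b (H.mem_frob_inv hP hb) ^ l := v1
  have v2' : ((evalAt (r P) (H.ratt (r P)) : (r P).toValuationSubring →+* κ))
      ⟨φ b, m2⟩ = valueAt (Fr • r P) (H.ratt _) b (H.mem_frob hP hb) := v2
  rw [v1', v2', sub_pow_char, ← Polynomial.C_pow]

include H in
/-- **The key polynomial identity** for every function `b` of the chart ring of the special
fibre. -/
theorem prod_eq {P : Place Qb Fb} (hP : InChart P) {b : Ft} (hb : b ∈ Sg) :
    ∏ Q ∈ (Place.fiberAlong β hβ P).attach,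
        (X - C (valueAt (r (Q.1.restrictAlong α hα)) (H.ratt _) b
          (H.mem_chart (H.stab P hP Q.1 Q.2) hb))) ^ Q.1.ramificationIndexAlong β
      = (X - C (valueAt (Fr⁻¹ • r P) (H.ratt _) b (H.mem_frob_inv hP hb))) ^ l *
          (X - C (valueAt (Fr • r P) (H.ratt _) b (H.mem_frob hP hb))) := by
  obtain ⟨h, hθ, χ, hχ1, hχ2⟩ := H.kron b hb
  subst hθ
  rw [← H.map_res_evA' hP hb χ hχ2, H.map_res_evA hP h χ hχ1]

end ChartHyp

/-! ### The multiset step -/

/-- The places of the special fibre at which the chart ring `Sg` is regular. -/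
def ChartPlace (Sg : Subalgebra κ Ft) : Type _ :=
  {y : Place κ Ft // ∀ b ∈ Sg, b ∈ y.toValuationSubring}

/-- `Sg → O_y` for a place `y` of the chart. -/
noncomputable def chartToPlace (y : ChartPlace Sg) : Sg →ₐ[κ] y.1.toValuationSubring where
  toFun b := ⟨b, y.2 b b.2⟩
  map_one' := rfl
  map_mul' _ _ := rfl
  map_zero' := rfl
  map_add' _ _ := rfl
  commutes' _ := rfl

/-- Evaluation of the chart ring at a place of the chart. -/
noncomputable def evChart (hratt : ∀ y : Place κ Ft, Function.Bijective (algebraMap κ y.ResidueField))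
    (y : ChartPlace Sg) : Sg →ₐ[κ] κ :=
  (evalAt y.1 (hratt y.1)).comp (chartToPlace y)

theorem evChart_apply
    (hratt : ∀ y : Place κ Ft, Function.Bijective (algebraMap κ y.ResidueField))
    (y : ChartPlace Sg) (b : Sg) :
    evChart hratt y b = valueAt y.1 (hratt y.1) (b : Ft) (y.2 b b.2) := rfl

namespace ChartHyp

variable (H : ChartHyp A res β α hfin hβ hα l Fr φ r R' θ Sg InChart)

include H in
theorem evChart_injective : Function.Injective (evChart (Sg := Sg) H.ratt) := by
  intro y y' hyy'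
  apply Subtype.ext
  refine H.sep y.1 y'.1 y.2 y'.2 fun b hb hm => ?_
  have h1 : evChart H.ratt y ⟨b, hb⟩ = 0 := by
    rw [evChart_apply]
    exact (valueAt_eq_zero_iff y.1 (H.ratt y.1) b (y.2 b hb)).mpr hm
  rw [hyy', evChart_apply] at h1
  exact (valueAt_eq_zero_iff y'.1 (H.ratt y'.1) b (y'.2 b hb)).mp h1

variable [Fact l.Prime] [CharP κ l]

include H in
/-- **Abstract Theorem E at a place of the chart**:
`∑_{Q ↦ P} e(Q) • [r(Q∘α)] = [Fr • r P] + l • [Fr⁻¹ • r P]`. -/
theorem sum_single_eq {P : Place Qb Fb} (hP : InChart P) :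
    ∑ Q ∈ Place.fiberAlong β hβ P,
        Finsupp.single (r (Q.restrictAlong α hα)) (Q.ramificationIndexAlong β : ℤ)
      = Finsupp.single (Fr • r P) (1 : ℤ) + Finsupp.single (Fr⁻¹ • r P) (l : ℤ) := by
  classical
  -- the two multisets of places of the chart
  let yQ : {Q // Q ∈ Place.fiberAlong β hβ P} → ChartPlace Sg := fun Q =>
    ⟨r (Q.1.restrictAlong α hα), fun b hb => H.mem_chart (H.stab P hP Q.1 Q.2) hb⟩
  let y1 : ChartPlace Sg := ⟨Fr⁻¹ • r P, fun b hb => H.mem_frob_inv hP hb⟩
  let y2 : ChartPlace Sg := ⟨Fr • r P, fun b hb => H.mem_frob hP hb⟩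
  let M : Multiset (ChartPlace Sg) := (Place.fiberAlong β hβ P).attach.val.bind
    fun Q => Multiset.replicate (Q.1.ramificationIndexAlong β) (yQ Q)
  let M' : Multiset (ChartPlace Sg) := Multiset.replicate l y1 + {y2}
  have hMM' : M = M' := by
    refine Fermat.Agent.N4F.E.MultisetLemma.eq_of_prod_X_sub_C_eq_of_injOn
      (evChart H.ratt) M M' (fun y _ y' _ h => H.evChart_injective h) fun b => ?_
    have h1 := H.prod_eq hP b.2
    simp only [M, M', Multiset.map_bind, Multiset.prod_bind, Multiset.map_replicate,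
      Multiset.prod_replicate, Multiset.map_add, Multiset.prod_add, Multiset.map_singleton,
      Multiset.prod_singleton]
    exact h1
  have h2 := congrArg (fun M : Multiset (ChartPlace Sg) =>
    (M.map fun y => Finsupp.single y.1 (1 : ℤ)).sum) hMM'
  simp only [M, M', Multiset.map_bind, Multiset.sum_bind, Multiset.map_replicate,
    Multiset.sum_replicate, Multiset.map_add, Multiset.sum_add, Multiset.map_singleton,
    Multiset.sum_singleton] at h2
  rw [← Finset.sum_attach, add_comm (Finsupp.single (Fr • r P) (1 : ℤ))]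
  have e1 : ∀ (n : ℕ) (y : Place κ Ft), n • Finsupp.single y (1 : ℤ) = Finsupp.single y (n : ℤ) := by
    intro n y
    rw [Finsupp.smul_single, nsmul_eq_mul, mul_one]
  have h3 : (∑ Q ∈ (Place.fiberAlong β hβ P).attach,
      Finsupp.single (r (Q.1.restrictAlong α hα)) (Q.1.ramificationIndexAlong β : ℤ)) =
      (Multiset.map (fun Q : {Q // Q ∈ Place.fiberAlong β hβ P} =>
        Q.1.ramificationIndexAlong β • Finsupp.single (yQ Q).1 (1 : ℤ))
        (Place.fiberAlong β hβ P).attach.val).sum := by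
    rw [Finset.sum_eq_multiset_sum]
    congr 1
    refine Multiset.map_congr rfl fun Q _ => ?_
    rw [e1]
  rw [h3, h2, e1]

include H in
/-- Abstract Theorem E on a single place, in terms of the correspondence `α_* β^*`. -/
theorem mapDomain_correspondence_single {P : Place Qb Fb} (hP : InChart P) (n : ℤ) :
    Finsupp.mapDomain r (Divisor.correspondence β α hβ hα (Finsupp.single P n)) =
      Fr • Finsupp.single (r P) n + (l : ℤ) • (Fr⁻¹ • Finsupp.single (r P) n) := by
  rw [correspondence_single_of_rational β α hβ hα P n (fun Q _ => H.rat' Q),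
    Finsupp.mapDomain_finsetSum]
  have h1 : ∀ Q ∈ Place.fiberAlong β hβ P,
      Finsupp.mapDomain r (Finsupp.single (Q.restrictAlong α hα)
        (n * (Q.ramificationIndexAlong β : ℤ))) =
      n • Finsupp.single (r (Q.restrictAlong α hα)) (Q.ramificationIndexAlong β : ℤ) := by
    intro Q _
    rw [Finsupp.mapDomain_single, Finsupp.smul_single, smul_eq_mul]
  rw [Finset.sum_congr rfl h1, ← Finset.smul_sum, H.sum_single_eq hP,
    SemilinearAut.smul_single, SemilinearAut.smul_single, smul_add, Finsupp.smul_single,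
    Finsupp.smul_single, Finsupp.smul_single, smul_eq_mul, smul_eq_mul, smul_eq_mul, mul_one,
    mul_comm n (l : ℤ)]

end ChartHyp

/-- **Abstract Theorem E (divisor form)**: if every place lies in a chart satisfying `ChartHyp`,
then `r_* ∘ T = (Fr + l Fr⁻¹) ∘ r_*` on all divisors, `T = α_* β^*`. -/
theorem mapDomain_correspondence [Fact l.Prime] [CharP κ l]
    (hall : ∀ P : Place Qb Fb, ∃ (R' : Subring Fb) (θ : R' →+* Ft) (Sg : Subalgebra κ Ft)
      (InChart : Place Qb Fb → Prop),
      ChartHyp A res β α hfin hβ hα l Fr φ r R' θ Sg InChart ∧ InChart P)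
    (D : Divisor Qb Fb) :
    Finsupp.mapDomain r (Divisor.correspondence β α hβ hα D) =
      Fr • Finsupp.mapDomain r D + (l : ℤ) • (Fr⁻¹ • Finsupp.mapDomain r D) := by
  induction D using Finsupp.induction_linear with
  | zero => simp
  | add D₁ D₂ h₁ h₂ =>
    rw [map_add, Finsupp.mapDomain_add, Finsupp.mapDomain_add, h₁, h₂, smul_add, smul_add,
      smul_add]
    abel
  | single P n =>
    obtain ⟨R', θ, Sg, InChart, H, hP⟩ := hall P
    rw [H.mapDomain_correspondence_single hP n, Finsupp.mapDomain_single]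

end Main

end Fermat.Agent.N4F.E.TheoremE
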