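/-
N4-FULL, block E (helper26): from the divisor form of the Eichler–Shimura congruence to the
statement (iii) of `N4F/Core.ESCore` on `JZero N`:

  `R (heckeOperatorBar N ℓ x) = Fr • R x + ℓ • (Fr⁻¹ • R x)`,  `R = reductionPic0Along r hr hgen`.

Input: the divisor identity `r_* (T_ℓ D) = Fr • r_* D + ℓ • Fr⁻¹ • r_* D` (output of
`N4F/E/TheoremE.mapDomain_correspondence`), for ANY place map `r` with the prelude's spec.
-/
import Mathlib
import Fermat.Prelude.Def_ModularCurve_ReductionModL
import Fermat.Prelude.Def_ModularCurve_HeckeModule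
import Fermat.Agent.N4F.A.HeckeInputsFinal
import Fermat.Agent.N4F.E.TheoremE

set_option autoImplicit false
set_option linter.style.haveILetI false
set_option linter.unusedSectionVars false

open AlgebraicCurve ModularCurve

namespace Fermat.Agent.N4F.E.TheoremEPic0

open Fermat.Agent.N4F.A.LevelMaps Fermat.Agent.N4F.A.HeckeInputs
  Fermat.Agent.N4F.A.HeckeInputsFinal

local notation "Qbar" => AlgebraicClosure ℚ

section Generic

variable {K F : Type*} [Field K] [Field F] [Algebra K F]

/-- The action of a semilinear automorphism on `Pic0`, as an additive automorphism. -/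
noncomputable def pic0AddEquiv (g : SemilinearAut K F) : Pic0 K F ≃+ Pic0 K F where
  toFun x := g • x
  invFun x := g⁻¹ • x
  left_inv x := inv_smul_smul g x
  right_inv x := smul_inv_smul g x
  map_add' x y := smul_add g x y

@[simp]
theorem pic0AddEquiv_apply (g : SemilinearAut K F) (x : Pic0 K F) : pic0AddEquiv g x = g • x := rfl

@[simp]
theorem pic0AddEquiv_symm_apply (g : SemilinearAut K F) (x : Pic0 K F) :
    (pic0AddEquiv g).symm x = g⁻¹ • x := rfl

end Generic

variable (N : ℕ) [NeZero N] (ℓ : ℕ) [NeZero ℓ]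
  {A : ValuationSubring Qbar} {κ : Type*} [Field κ] {π : A →+* κ}
  (r : Place Qbar (modularFunctionFieldBar N) → Place κ (modularFunctionFieldFullC κ N))
  (hr : IsPlaceReductionAlong A π N r) (hgen : PrincipalGeneratedByIntegral A π N)
  (Fr : SemilinearAut κ (modularFunctionFieldFullC κ N))

/-- **Theorem E on `Pic0`, `heckePic0Bar` form.** -/
theorem reductionPic0Along_heckePic0Bar
    [HasPrincipalDivisors Qbar (modularFunctionFieldBar (N * ℓ))]
    (hα : HeckeAlphaBarIntegral Qbar N ℓ) (hβ : HeckeBetaBarIntegral Qbar N ℓ)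
    (hFI : FundamentalIdentityAlong Qbar (heckeBetaBar Qbar N ℓ) hβ)
    (hfin : FiniteAlong Qbar (heckeAlphaBar Qbar N ℓ))
    (hNF : NormFormulaAlong Qbar (heckeAlphaBar Qbar N ℓ) hfin)
    (hdiv : ∀ D : Divisor Qbar (modularFunctionFieldBar N),
      Finsupp.mapDomain r (heckeDivBar hα hβ D) =
        Fr • Finsupp.mapDomain r D + (ℓ : ℤ) • (Fr⁻¹ • Finsupp.mapDomain r D))
    (x : JZero N) :
    reductionPic0Along r hr hgen (heckePic0Bar hα hβ hFI hfin hNF x) =
      Fr • reductionPic0Along r hr hgen x + ℓ • (Fr⁻¹ • reductionPic0Along r hr hgen x) := by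
  obtain ⟨D, rfl⟩ := Pic0.mk_surjective x
  have e1 : heckePic0Bar hα hβ hFI hfin hNF (Pic0.mk D) =
      Pic0.mk (Pic0.degZeroCorrespondence (heckeBetaBar Qbar N ℓ) (heckeAlphaBar Qbar N ℓ)
        hβ hα hFI D) := rfl
  rw [e1, reductionPic0Along_mk, reductionPic0Along_mk,
    SemilinearAut.pic0_smul_mk, SemilinearAut.pic0_smul_mk]
  have e2 : ∀ (n : ℕ) (E : Divisor.degZero (K := κ) (F := modularFunctionFieldFullC κ N)),
      n • Pic0.mk E = Pic0.mk (n • E) := fun n E => rfl
  rw [e2, ← Pic0.mk_add]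
  congr 1
  apply Subtype.ext
  have h := hdiv (D : Divisor Qbar (modularFunctionFieldBar N))
  rw [natCast_zsmul] at h
  exact h

/-- **Theorem E on `JZero N`, for the prelude's operator `heckeOperatorAlong`.** -/
theorem reductionPic0Along_heckeOperatorAlong
    (hdiv : haveI := hasPrincipalDivisors_bar (N * ℓ)
      ∀ D : Divisor Qbar (modularFunctionFieldBar N),
        Finsupp.mapDomain r
            (heckeDivBar (heckeAlphaBarIntegral N ℓ) (heckeBetaBarIntegral N ℓ) D) =
          Fr • Finsupp.mapDomain r D + (ℓ : ℤ) • (Fr⁻¹ • Finsupp.mapDomain r D))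
    (x : JZero N) :
    reductionPic0Along r hr hgen (heckeOperatorAlong Qbar N ℓ x) =
      Fr • reductionPic0Along r hr hgen x + ℓ • (Fr⁻¹ • reductionPic0Along r hr hgen x) := by
  haveI := hasPrincipalDivisors_bar (N * ℓ)
  rw [heckeOperatorAlong_eq_heckePic0Bar N ℓ]
  exact reductionPic0Along_heckePic0Bar N ℓ r hr hgen Fr _ _ _ _ _ hdiv x

end Fermat.Agent.N4F.E.TheoremEPic0

namespace Fermat.Agent.N4F.E.TheoremEPic0

open Fermat.Agent.N4F.A.LevelMaps

local notation "Qbar" => AlgebraicClosure ℚ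

/-- **Statement (iii) of `N4F/Core.ESCore`** from the divisor form of Theorem E: for the prelude's
`heckeOperatorBar N ⟨ℓ, hℓ⟩`, `R := reductionPic0Along r hr hgen` and `Φ := pic0AddEquiv Fr`. -/
theorem reductionPic0Along_heckeOperatorBar (N : ℕ) [NeZero N] (ℓ : ℕ) (hℓ : ℓ.Prime)
    {A : ValuationSubring Qbar} {κ : Type*} [Field κ] {π : A →+* κ}
    (r : Place Qbar (modularFunctionFieldBar N) → Place κ (modularFunctionFieldFullC κ N))
    (hr : IsPlaceReductionAlong A π N r) (hgen : PrincipalGeneratedByIntegral A π N)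
    (Fr : SemilinearAut κ (modularFunctionFieldFullC κ N))
    (hdiv : haveI : NeZero ℓ := ⟨hℓ.ne_zero⟩
      haveI := hasPrincipalDivisors_bar (N * ℓ)
      ∀ D : Divisor Qbar (modularFunctionFieldBar N),
        Finsupp.mapDomain r
            (heckeDivBar (heckeAlphaBarIntegral N ℓ) (heckeBetaBarIntegral N ℓ) D) =
          Fr • Finsupp.mapDomain r D + (ℓ : ℤ) • (Fr⁻¹ • Finsupp.mapDomain r D))
    (x : JZero N) :
    reductionPic0Along r hr hgen (heckeOperatorBar N ⟨ℓ, hℓ⟩ x) =
      pic0AddEquiv Fr (reductionPic0Along r hr hgen x) +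
        ℓ • (pic0AddEquiv Fr).symm (reductionPic0Along r hr hgen x) := by
  haveI : NeZero ℓ := ⟨hℓ.ne_zero⟩
  exact reductionPic0Along_heckeOperatorAlong N ℓ r hr hgen Fr hdiv x

open Fermat.Agent.N4F.E.TheoremE in
/-- **Statement (iii) of `ESCore` from charts**: if every place of `ℚ̄·F_N` lies in a chart
satisfying `TheoremE.ChartHyp` (for `β = heckeBetaBar`, `α = heckeAlphaBar`), then
`R ∘ T_ℓ = (Fr + ℓ Fr⁻¹) ∘ R` on `JZero N`. -/
theorem reductionPic0Along_heckeOperatorBar_of_charts (N : ℕ) [NeZero N] (ℓ : ℕ) (hℓ : ℓ.Prime)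
    {A : ValuationSubring Qbar} {κ : Type*} [Field κ] [CharP κ ℓ] {π : A →+* κ}
    (r : Place Qbar (modularFunctionFieldBar N) → Place κ (modularFunctionFieldFullC κ N))
    (hr : IsPlaceReductionAlong A π N r) (hgen : PrincipalGeneratedByIntegral A π N)
    (Fr : SemilinearAut κ (modularFunctionFieldFullC κ N))
    (φ : modularFunctionFieldFullC κ N → modularFunctionFieldFullC κ N)
    (hall : haveI : NeZero ℓ := ⟨hℓ.ne_zero⟩
      haveI := hasPrincipalDivisors_bar (N * ℓ)
      ∀ P : Place Qbar (modularFunctionFieldBar N),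
        ∃ (R' : Subring (modularFunctionFieldBar N))
          (θ : R' →+* modularFunctionFieldFullC κ N)
          (Sg : Subalgebra κ (modularFunctionFieldFullC κ N))
          (InChart : Place Qbar (modularFunctionFieldBar N) → Prop),
          ChartHyp A π (heckeBetaBar Qbar N ℓ) (heckeAlphaBar Qbar N ℓ)
            (finiteAlong_heckeBetaBar N ℓ) (heckeBetaBarIntegral N ℓ) (heckeAlphaBarIntegral N ℓ)
            ℓ Fr φ r R' θ Sg InChart ∧ InChart P)
    (x : JZero N) :
    reductionPic0Along r hr hgen (heckeOperatorBar N ⟨ℓ, hℓ⟩ x) =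
      pic0AddEquiv Fr (reductionPic0Along r hr hgen x) +
        ℓ • (pic0AddEquiv Fr).symm (reductionPic0Along r hr hgen x) := by
  haveI : NeZero ℓ := ⟨hℓ.ne_zero⟩
  haveI : Fact ℓ.Prime := ⟨hℓ⟩
  haveI := hasPrincipalDivisors_bar (N * ℓ)
  refine reductionPic0Along_heckeOperatorBar N ℓ hℓ r hr hgen Fr (fun D => ?_) x
  exact mapDomain_correspondence hall D

end Fermat.Agent.N4F.E.TheoremEPic0
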