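/-
N4-FULL, block E: the Gauss valuation ring of the function field `FF K M` over a discrete valuation
ring `O ⊆ K` is a discrete valuation ring.

`G_M := FibreEmbedding.gaussSubalgebra K M O ⊆ FF K M` (elements lying in the Gauss ring of `K((q))`)
with its reduction map `θ_M := FibreEmbedding.theta K M O : G_M → κ((q))`.

* `gaussVS K M O : ValuationSubring (FF K M)` with carrier `G_M`;
* units of `G_M` are the elements with nonzero reduction; `ker θ_M = (ϖ)` for a uniformiser `ϖ` of `O`;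
* `G_M` is a discrete valuation ring with uniformiser `ϖ` and fraction field `FF K M`;
* the level maps `α = alphaF`, `β = betaF : FF K N → FF K (N m)` satisfy `α⁻¹ G_{Nm} = G_N = β⁻¹ G_{Nm}`,
  `θ (α x) = θ x`, `θ (β x) = (θ x)(q^m)`.
-/
import Fermat.Agent.N4.FibreEmbedding
import Fermat.Agent.N4F.E.DegreeLevelRaise

set_option autoImplicit false
set_option linter.unusedSectionVars false
set_option linter.style.haveILetI false

open ModularCurve Fermat.Agent.S28.Gauss Fermat.Agent.N4.Setting Fermat.Agent.N4.FibreEmbedding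
open Fermat.Agent.N4F.E.DegreeLevelRaise

noncomputable section

namespace Fermat.Agent.N4F.E.GaussDVR

variable (K : Type) [Field K] (M : ℕ) (O : Subring K) [IsDiscreteValuationRing ↥O]
  [IsFractionRing ↥O K]

set_option quotPrecheck false in
local notation "κ" => IsLocalRing.ResidueField ↥O

/-! ### The Gauss valuation subring -/

theorem coe_ne_zero {x : FF K M} (hx : x ≠ 0) : (x : LaurentSeries K) ≠ 0 := fun h =>
  hx (Subtype.ext h)

theorem coe_inv' (x : FF K M) : ((x⁻¹ : FF K M) : LaurentSeries K) = (x : LaurentSeries K)⁻¹ :=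
  IntermediateField.coe_inv _ _

/-- `G_M` is a valuation subring: for `x ≠ 0`, `x ∈ G_M` or `x⁻¹ ∈ G_M` with zero reduction. -/
theorem mem_or_inv_mem (x : FF K M) (hx : x ≠ 0) :
    x ∈ gaussSubalgebra K M O ∨
      ∃ h : x⁻¹ ∈ gaussSubalgebra K M O, theta K M O ⟨x⁻¹, h⟩ = 0 := by
  rcases mem_gaussRing_or_inv (A := ↥O) (Q := K) (full_le_gaussField K M O x.2)
    (coe_ne_zero K M hx) with h | ⟨h, h0⟩
  · exact Or.inl h
  · right
    have hmem : x⁻¹ ∈ gaussSubalgebra K M O := by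
      rw [mem_gaussSubalgebra_iff, coe_inv']
      exact h
    refine ⟨hmem, ?_⟩
    rw [theta_apply, ← h0]
    congr 1

/-- The Gauss valuation subring of `FF K M`. -/
def gaussVS : ValuationSubring (FF K M) where
  toSubring := (gaussSubalgebra K M O).toSubring
  mem_or_inv_mem' x := by
    by_cases hx : x = 0
    · left
      rw [hx]
      exact (gaussSubalgebra K M O).zero_mem
    · rcases mem_or_inv_mem K M O x hx with h | ⟨h, -⟩
      · exact Or.inl h
      · exact Or.inr h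

theorem mem_gaussVS_iff {x : FF K M} : x ∈ gaussVS K M O ↔ x ∈ gaussSubalgebra K M O := Iff.rfl

/-! ### Units and the kernel of the reduction -/

/-- An element of `G_M` with nonzero reduction has its inverse in `G_M`. -/
theorem inv_mem_of_theta_ne_zero (x : gaussSubalgebra K M O) (h : theta K M O x ≠ 0) :
    (x : FF K M)⁻¹ ∈ gaussSubalgebra K M O := by
  rw [mem_gaussSubalgebra_iff, coe_inv']
  exact inv_mem_gaussRing_of_gaussRed_ne_zero (x := ⟨((x : FF K M) : LaurentSeries K), x.2⟩) h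

theorem isUnit_of_theta_ne_zero (x : gaussSubalgebra K M O) (h : theta K M O x ≠ 0) : IsUnit x := by
  have hx0 : (x : FF K M) ≠ 0 := by
    intro h0
    apply h
    have : x = 0 := Subtype.ext h0
    rw [this, map_zero]
  refine isUnit_iff_exists_inv.mpr ⟨⟨(x : FF K M)⁻¹, inv_mem_of_theta_ne_zero K M O x h⟩, ?_⟩
  exact Subtype.ext (mul_inv_cancel₀ hx0)

theorem theta_ne_zero_of_isUnit (x : gaussSubalgebra K M O) (h : IsUnit x) :
    theta K M O x ≠ 0 :=
  (h.map (theta K M O)).ne_zero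

theorem isUnit_iff (x : gaussSubalgebra K M O) : IsUnit x ↔ theta K M O x ≠ 0 :=
  ⟨theta_ne_zero_of_isUnit K M O x, isUnit_of_theta_ne_zero K M O x⟩

/-- The uniformiser of `O` as an element of `G_M`. -/
abbrev unif (ϖ : ↥O) : gaussSubalgebra K M O := algebraMap ↥O (gaussSubalgebra K M O) ϖ

theorem theta_unif {ϖ : ↥O} (hϖ : Irreducible ϖ) : theta K M O (unif K M O ϖ) = 0 := by
  rw [theta_algebraMap, residue_irreducible K O hϖ, map_zero]

theorem coe_unif (ϖ : ↥O) :
    (((unif K M O ϖ : gaussSubalgebra K M O) : FF K M) : LaurentSeries K) =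
      HahnSeries.C ((ϖ : ↥O) : K) := by
  have h := coe_algebraMap K M O ϖ
  rw [show emb ↥O K (HahnSeries.C ϖ) = HahnSeries.C (algebraMap ↥O K ϖ) from
    coeffMap_single (algebraMap ↥O K) 0 ϖ] at h
  exact h

/-- **The kernel of the reduction is generated by the uniformiser.** -/
theorem exists_eq_unif_mul {ϖ : ↥O} (hϖ : Irreducible ϖ) (x : gaussSubalgebra K M O)
    (h : theta K M O x = 0) : ∃ y : gaussSubalgebra K M O, x = unif K M O ϖ * y := by
  obtain ⟨a, b, hb, hx⟩ := x.2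
  have hred : red ↥O a = 0 := by
    have h1 := gaussRed_eq (⟨((x : FF K M) : LaurentSeries K), x.2⟩ : gaussRing ↥O K) hb hx
    rw [← theta_apply, h] at h1
    have h2 := h1.symm
    rw [div_eq_zero_iff] at h2
    exact h2.resolve_right hb
  obtain ⟨a', rfl⟩ := exists_smul_eq_of_red_eq_zero hϖ hred
  have hϖK : ((ϖ : ↥O) : K) ≠ 0 := fun h0 => hϖ.ne_zero (Subtype.ext h0)
  have hϖF : algebraMap ↥O (FF K M) ϖ ≠ 0 := algebraMap_ne_zero K M O hϖ.ne_zero
  have hC : (HahnSeries.C ((ϖ : ↥O) : K) : LaurentSeries K) ≠ 0 := by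
    intro h0
    exact hϖK (HahnSeries.C_injective (h0.trans (map_zero _).symm))
  obtain ⟨y, hy⟩ : ∃ y : FF K M, y = (algebraMap ↥O (FF K M) ϖ)⁻¹ * (x : FF K M) := ⟨_, rfl⟩
  have hycoe : (y : LaurentSeries K) =
      (HahnSeries.C ((ϖ : ↥O) : K))⁻¹ * ((x : FF K M) : LaurentSeries K) := by
    rw [hy, MulMemClass.coe_mul, coe_inv']
    congr 2
    exact coe_unif K M O ϖ
  have hymem : y ∈ gaussSubalgebra K M O := by
    rw [mem_gaussSubalgebra_iff]
    refine ⟨a', b, hb, ?_⟩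
    rw [hycoe, mul_assoc, hx, emb_smul, ← HahnSeries.C_mul_eq_smul,
      show algebraMap ↥O K ϖ = ((ϖ : ↥O) : K) from rfl, ← mul_assoc, inv_mul_cancel₀ hC, one_mul]
  refine ⟨⟨y, hymem⟩, Subtype.ext ?_⟩
  show (x : FF K M) = algebraMap ↥O (FF K M) ϖ * y
  rw [hy, ← mul_assoc, mul_inv_cancel₀ hϖF, one_mul]

theorem ker_theta {ϖ : ↥O} (hϖ : Irreducible ϖ) :
    RingHom.ker (theta K M O) = Ideal.span {unif K M O ϖ} := by
  ext x
  rw [RingHom.mem_ker, Ideal.mem_span_singleton']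
  constructor
  · intro h
    obtain ⟨y, rfl⟩ := exists_eq_unif_mul K M O hϖ x h
    exact ⟨y, mul_comm _ _⟩
  · rintro ⟨y, rfl⟩
    rw [map_mul, theta_unif K M O hϖ, mul_zero]

theorem unif_ne_zero {ϖ : ↥O} (hϖ : Irreducible ϖ) : unif K M O ϖ ≠ 0 := by
  intro h
  exact algebraMap_ne_zero K M O hϖ.ne_zero (congrArg Subtype.val h)

theorem irreducible_unif {ϖ : ↥O} (hϖ : Irreducible ϖ) : Irreducible (unif K M O ϖ) := by
  refine ⟨fun hu => theta_ne_zero_of_isUnit K M O _ hu (theta_unif K M O hϖ), fun a b hab => ?_⟩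
  by_cases ha : theta K M O a = 0
  · right
    obtain ⟨a', rfl⟩ := exists_eq_unif_mul K M O hϖ a ha
    have h1 : unif K M O ϖ * 1 = unif K M O ϖ * (a' * b) := by
      rw [mul_one, ← mul_assoc]
      exact hab
    have h2 := mul_left_cancel₀ (unif_ne_zero K M O hϖ) h1
    exact IsUnit.of_mul_eq_one a' (by rw [mul_comm]; exact h2.symm)
  · exact Or.inl (isUnit_of_theta_ne_zero K M O a ha)

/-- Every nonzero element of `G_M` is a power of the uniformiser times a unit. -/
theorem exists_eq_pow_mul {ϖ : ↥O} (hϖ : Irreducible ϖ) (x : gaussSubalgebra K M O)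
    (hx : x ≠ 0) : ∃ (n : ℕ) (u : gaussSubalgebra K M O), theta K M O u ≠ 0 ∧
      x = unif K M O ϖ ^ n * u := by
  obtain ⟨a, b, hb, hxab⟩ := x.2
  have hx0 : ((x : FF K M) : LaurentSeries K) ≠ 0 := fun h => hx (Subtype.ext (Subtype.ext h))
  have ha : a ≠ 0 := by
    rintro rfl
    rw [map_zero] at hxab
    rcases mul_eq_zero.mp hxab with h | h
    · exact hx0 h
    · exact red_ne_zero_imp_ne_zero hb ((emb_eq_zero_iff K).mp h)
  obtain ⟨n, a', rfl, ha'⟩ := exists_pow_smul_eq hϖ ha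
  have hϖF : algebraMap ↥O (FF K M) ϖ ≠ 0 := algebraMap_ne_zero K M O hϖ.ne_zero
  have hϖK : ((ϖ : ↥O) : K) ≠ 0 := fun h0 => hϖ.ne_zero (Subtype.ext h0)
  have hC : (HahnSeries.C ((ϖ : ↥O) : K) : LaurentSeries K) ≠ 0 := by
    intro h0
    exact hϖK (HahnSeries.C_injective (h0.trans (map_zero _).symm))
  obtain ⟨u, hu⟩ : ∃ u : FF K M, u = ((algebraMap ↥O (FF K M) ϖ) ^ n)⁻¹ * (x : FF K M) :=
    ⟨_, rfl⟩
  have hucoe : (u : LaurentSeries K) =
      ((HahnSeries.C ((ϖ : ↥O) : K)) ^ n)⁻¹ * ((x : FF K M) : LaurentSeries K) := by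
    rw [hu, MulMemClass.coe_mul, coe_inv', SubmonoidClass.coe_pow]
    congr 3
    exact coe_unif K M O ϖ
  have hrel : (u : LaurentSeries K) * emb ↥O K b = emb ↥O K a' := by
    rw [hucoe, mul_assoc, hxab, emb_smul, ← HahnSeries.C_mul_eq_smul, map_pow,
      show algebraMap ↥O K ϖ = ((ϖ : ↥O) : K) from rfl, map_pow, ← mul_assoc,
      inv_mul_cancel₀ (pow_ne_zero n hC), one_mul]
  have humem : u ∈ gaussSubalgebra K M O := by
    rw [mem_gaussSubalgebra_iff]
    exact ⟨a', b, hb, hrel⟩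
  refine ⟨n, ⟨u, humem⟩, ?_, Subtype.ext ?_⟩
  · have h1 := gaussRed_eq (⟨(u : LaurentSeries K), humem⟩ : gaussRing ↥O K) hb hrel
    show gaussRed (⟨(u : LaurentSeries K), humem⟩ : gaussRing ↥O K) ≠ 0
    rw [h1]
    exact div_ne_zero ha' hb
  · show (x : FF K M) = (algebraMap ↥O (FF K M) ϖ) ^ n * u
    rw [hu, ← mul_assoc, mul_inv_cancel₀ (pow_ne_zero n hϖF), one_mul]

instance isDomain_gauss : IsDomain (gaussSubalgebra K M O) :=
  inferInstanceAs (IsDomain (gaussSubalgebra K M O).toSubring)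

/-- **`G_M` is a discrete valuation ring.** -/
instance isDiscreteValuationRing_gauss : IsDiscreteValuationRing (gaussSubalgebra K M O) := by
  obtain ⟨ϖ, hϖ⟩ := IsDiscreteValuationRing.exists_irreducible ↥O
  refine IsDiscreteValuationRing.ofHasUnitMulPowIrreducibleFactorization
    ⟨unif K M O ϖ, irreducible_unif K M O hϖ, fun {x} hx => ?_⟩
  obtain ⟨n, u, hu, rfl⟩ := exists_eq_pow_mul K M O hϖ x hx
  refine ⟨n, ?_⟩
  exact ⟨(isUnit_of_theta_ne_zero K M O u hu).unit, rfl⟩

theorem maximalIdeal_eq_ker :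
    IsLocalRing.maximalIdeal (gaussSubalgebra K M O) = RingHom.ker (theta K M O) := by
  ext x
  rw [IsLocalRing.mem_maximalIdeal, mem_nonunits_iff, isUnit_iff, not_not, RingHom.mem_ker]

theorem maximalIdeal_eq_span {ϖ : ↥O} (hϖ : Irreducible ϖ) :
    IsLocalRing.maximalIdeal (gaussSubalgebra K M O) = Ideal.span {unif K M O ϖ} := by
  rw [maximalIdeal_eq_ker, ker_theta K M O hϖ]

instance isFractionRing_gauss : IsFractionRing (gaussSubalgebra K M O) (FF K M) :=
  inferInstanceAs (IsFractionRing (gaussVS K M O) (FF K M))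

/-! ### Elements of the Gauss valuation ring as fractions of chart elements -/

section Fractions

open Fermat.Agent.N4.Chart

variable {s : FF K M} (hs : s ∈ gaussSubalgebra K M O)

/-- **Every element of `G_M` is a fraction `a / b` of elements of the chart `chartAlg O (FF K M) {s}`
with `b` outside the fibre ideal** (when the fibre ideal is prime): the proof of
`FibreEmbedding.compat`, which only uses that the element lies in the Gauss ring. -/
theorem exists_frac_of_mem (htr : Transcendental κ (theta K M O ⟨s, hs⟩))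
    (hprime : (fibreIdeal K M O (chartAlg ↥O (FF K M) {s})).IsPrime)
    (hfrac : ∀ z : FF K M, ∃ b : ↥(Algebra.adjoin ↥O ({s} : Set (FF K M))), b ≠ 0 ∧
      (b : FF K M) * z ∈ chartAlg ↥O (FF K M) {s})
    (z : FF K M) (hzG : z ∈ gaussSubalgebra K M O) :
    ∃ a b : chartAlg ↥O (FF K M) {s}, b ∉ fibreIdeal K M O (chartAlg ↥O (FF K M) {s}) ∧
      z * (b : FF K M) = (a : FF K M) ∧
      thetaBar K M O hs (Ideal.Quotient.mk _ a) =
        theta K M O ⟨z, hzG⟩ * thetaBar K M O hs (Ideal.Quotient.mk _ b) := by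
  obtain ⟨ϖ, hϖ⟩ := IsDiscreteValuationRing.exists_irreducible ↥O
  set hS : ({s} : Set (FF K M)) ⊆ (gaussSubalgebra K M O : Set (FF K M)) :=
    Set.singleton_subset_iff.mpr hs
  have hker := ker_rho_eq K M O hs htr hprime
  obtain ⟨b₀, hb₀, hb₀z⟩ := hfrac z
  have hbmem : (b₀ : FF K M) ∈ (Polynomial.aeval (R := ↥O) s).range := by
    rw [← Algebra.adjoin_singleton_eq_range_aeval]
    exact b₀.2
  obtain ⟨P₀, hP₀⟩ := hbmem
  replace hP₀ : Polynomial.aeval s P₀ = (b₀ : FF K M) := hP₀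
  have hP₀ne : P₀ ≠ 0 := by
    rintro rfl
    rw [map_zero] at hP₀
    exact hb₀ (Subtype.ext hP₀.symm)
  obtain ⟨m, P₁, rfl, hP₁⟩ := exists_C_pow_mul_eq K O hϖ hP₀ne
  have hb₁A : Polynomial.aeval s P₁ ∈ Algebra.adjoin ↥O ({s} : Set (FF K M)) := by
    rw [Algebra.adjoin_singleton_eq_range_aeval]
    exact ⟨P₁, rfl⟩
  have hb₁R : Polynomial.aeval s P₁ ∈ chartAlg ↥O (FF K M) {s} := adjoin_le_chartAlg {s} hb₁A
  have hb₁G : Polynomial.aeval s P₁ ∈ gaussSubalgebra K M O :=
    chartAlg_le_gaussSubalgebra K M O hS hb₁R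
  have hθb : theta K M O ⟨Polynomial.aeval s P₁, hb₁G⟩ ≠ 0 := by
    have h1 : (⟨Polynomial.aeval s P₁, hb₁G⟩ : gaussSubalgebra K M O) =
        Polynomial.aeval (⟨s, hs⟩ : gaussSubalgebra K M O) P₁ := by
      apply Subtype.ext
      rw [Polynomial.aeval_subalgebra_coe]
    rw [h1, theta_aeval]
    exact fun h0 => hP₁ ((transcendental_iff.mp htr) _ h0)
  have hwG : Polynomial.aeval s P₁ * z ∈ gaussSubalgebra K M O :=
    (gaussSubalgebra K M O).mul_mem hb₁G hzG
  have hwR : Polynomial.aeval s P₁ * z ∈ chartAlg ↥O (FF K M) {s} := by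
    apply mem_chartAlg_of_pow_mul_mem K M O hs hker hϖ m _ hwG
    rw [← mul_assoc]
    rw [← hP₀, map_mul, Polynomial.aeval_C] at hb₀z
    exact hb₀z
  refine ⟨⟨_, hwR⟩, ⟨_, hb₁R⟩, ?_, mul_comm _ _, ?_⟩
  · rw [← hker]
    show ¬ rho K M O hS _ = 0
    rw [rho_eq_theta]
    exact hθb
  · rw [thetaBar_mk, thetaBar_mk, rho_eq_theta, rho_eq_theta, ← map_mul]
    congr 1
    exact Subtype.ext (mul_comm _ _)

end Fractions

section FractionsFin

variable [CharZero K]

/-- Every element of `G_N` is `a / b` with `a, b ∈ Rfin`, `b ∉ 𝔪_O Rfin`, and `θ a = θ z · θ b`. -/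
theorem exists_frac_Rfin (h : (fibreIdeal K M O (Rfin K M O)).IsPrime)
    (z : FF K M) (hzG : z ∈ gaussSubalgebra K M O) :
    ∃ a b : Rfin K M O, b ∉ fibreIdeal K M O (Rfin K M O) ∧
      z * (b : FF K M) = (a : FF K M) ∧
      thetaBar K M O (jF_mem_gaussSubalgebra K M O) (Ideal.Quotient.mk _ a) =
        theta K M O ⟨z, hzG⟩ *
          thetaBar K M O (jF_mem_gaussSubalgebra K M O) (Ideal.Quotient.mk _ b) := by
  refine exists_frac_of_mem K M O (jF_mem_gaussSubalgebra K M O) ?_ h ?_ z hzG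
  · rw [theta_jF]
    exact Fermat.Agent.S24.FFBasics.transcendental_jqModC _
  · exact Fermat.Agent.N4.FFAlgebraic.exists_mul_mem_chartAlg K M O _
      (Fermat.Agent.N4.FFAlgebraic.transcendental_jF K M)
      (Fermat.Agent.N4.FFAlgebraic.isAlgebraic_jF K M)

end FractionsFin

/-! ### The level maps and the Gauss rings -/

section Levels

variable (N m : ℕ) [NeZero N] [NeZero m]

theorem alphaF_mem_iff (x : FF K N) :
    alphaF K N m x ∈ gaussSubalgebra K (N * m) O ↔ x ∈ gaussSubalgebra K N O := by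
  rw [mem_gaussSubalgebra_iff, mem_gaussSubalgebra_iff, coe_alphaF]

theorem alphaF_mem {x : FF K N} (hx : x ∈ gaussSubalgebra K N O) :
    alphaF K N m x ∈ gaussSubalgebra K (N * m) O :=
  (alphaF_mem_iff K O N m x).mpr hx

/-- `θ (α x) = θ x`. -/
theorem theta_alphaF (x : gaussSubalgebra K N O) :
    theta K (N * m) O ⟨alphaF K N m x, alphaF_mem K O N m x.2⟩ = theta K N O x := by
  rw [theta_apply, theta_apply]
  congr 1

theorem emb_qExpand (a : LaurentSeries ↥O) :
    emb ↥O K (qExpand ↥O m a) = qExpand K m (emb ↥O K a) :=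
  coeffMap_qExpand _ m a

theorem red_qExpand (a : LaurentSeries ↥O) :
    red ↥O (qExpand ↥O m a) = qExpand κ m (red ↥O a) :=
  coeffMap_qExpand _ m a

theorem qExpand_mem_gaussRing {x : LaurentSeries K} (hx : x ∈ gaussRing ↥O K) :
    qExpand K m x ∈ gaussRing ↥O K := by
  obtain ⟨a, b, hb, h⟩ := hx
  refine ⟨qExpand ↥O m a, qExpand ↥O m b, ?_, ?_⟩
  · rw [red_qExpand]
    exact fun h0 => hb (qExpand_injective m (h0.trans (map_zero _).symm))
  · rw [emb_qExpand, emb_qExpand, ← map_mul, h]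

theorem gaussRed_qExpand (x : LaurentSeries K) (hx : x ∈ gaussRing ↥O K) :
    gaussRed (A := ↥O) (Q := K) ⟨qExpand K m x, qExpand_mem_gaussRing K O m hx⟩ =
      qExpand κ m (gaussRed (A := ↥O) (Q := K) ⟨x, hx⟩) := by
  obtain ⟨a, b, hb, h⟩ := hx
  have hb' : red ↥O (qExpand ↥O m b) ≠ 0 := by
    rw [red_qExpand]
    exact fun h0 => hb (qExpand_injective m (h0.trans (map_zero _).symm))
  have h' : qExpand K m x * emb ↥O K (qExpand ↥O m b) = emb ↥O K (qExpand ↥O m a) := by
    rw [emb_qExpand, emb_qExpand, ← map_mul, h]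
  have e1 := gaussRed_eq (⟨qExpand K m x, qExpand_mem_gaussRing K O m ⟨a, b, hb, h⟩⟩ :
    gaussRing ↥O K) hb' h'
  have e2 := gaussRed_eq (⟨x, ⟨a, b, hb, h⟩⟩ : gaussRing ↥O K) hb h
  rw [e1, e2, red_qExpand, red_qExpand]
  exact (map_div₀ (qExpand κ m) _ _).symm

theorem betaF_mem {x : FF K N} (hx : x ∈ gaussSubalgebra K N O) :
    betaF K N m x ∈ gaussSubalgebra K (N * m) O := by
  rw [mem_gaussSubalgebra_iff, coe_betaF]
  exact qExpand_mem_gaussRing K O m hx

/-- `θ (β x) = (θ x)(q^m)`. -/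
theorem theta_betaF (x : gaussSubalgebra K N O) :
    theta K (N * m) O ⟨betaF K N m x, betaF_mem K O N m x.2⟩ = qExpand κ m (theta K N O x) := by
  rw [theta_apply, theta_apply]
  exact gaussRed_qExpand K O m _ x.2

theorem betaF_mem_iff (x : FF K N) :
    betaF K N m x ∈ gaussSubalgebra K (N * m) O ↔ x ∈ gaussSubalgebra K N O := by
  refine ⟨fun h => ?_, betaF_mem K O N m⟩
  by_contra hx
  have hx0 : x ≠ 0 := by
    rintro rfl
    exact hx (gaussSubalgebra K N O).zero_mem
  rcases mem_or_inv_mem K N O x hx0 with h1 | ⟨h1, h0⟩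
  · exact hx h1
  · have h2 := theta_betaF K O N m ⟨x⁻¹, h1⟩
    rw [h0, map_zero] at h2
    have h3 : (⟨betaF K N m x, h⟩ : gaussSubalgebra K (N * m) O) *
        ⟨betaF K N m x⁻¹, betaF_mem K O N m h1⟩ = 1 := by
      apply Subtype.ext
      show betaF K N m x * betaF K N m x⁻¹ = 1
      rw [← map_mul, mul_inv_cancel₀ hx0, map_one]
    have h4 := congrArg (theta K (N * m) O) h3
    rw [map_mul, h2, mul_zero, map_one] at h4
    exact zero_ne_one h4

end Levels

end Fermat.Agent.N4F.E.GaussDVR
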