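/-
N4-FULL, block E (helper28): integrality along the two degeneracy maps, and the "not an `ℓ`-th
power" lemmas.

Level `(K, O)` (Setting language), `α := alphaF K N ℓ`, `β := betaF K N ℓ : FF K N →ₐ[K] FF K (N ℓ)`.

* `isIntegral_adjoin_of_evZ_eq_zero` : a monic two-variable relation `P(a, b) = 0` makes `b` integral
  over `R[a]`;
* `isIntegral_alphaF_jF`, `isIntegral_betaF_jF` : `α j` is integral over `O[β j]` and `β j` is
  integral over `O[α j]` (the modular equation `Φ_ℓ` and its swap);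
* (i) `isIntegral_alphaF_of_mem_Rfin`, `isIntegral_betaF_of_mem_Rfin` : for `x ∈ Rfin K N O`,
  `α x` is integral over `O[β j]` and `β x` is integral over `O[α j]`;
* (ii) `isIntegral_alphaF_map_gauss`, `isIntegral_betaF_map_gauss` : hence `α (Rfin)` is integral over
  `β (G_N)` and `β (Rfin)` over `α (G_N)`, `G_N` the Gauss subalgebra;
* (iii) `not_isPow`, `jqModC_not_mem_range_qExpand` : in characteristic `ℓ`, `j(q^d)` (`ℓ ∤ d`) is not
  an `ℓ`-th power in `κ((q))` and `j ∉ κ((q^ℓ))`.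
-/
import Mathlib
import Fermat.Agent.N4F.E.DegreeLevelRaise
import Fermat.Agent.N4.FibreEmbedding
import Fermat.Prelude.Thm_ModularCurve_coeff_jqModC_neg_one

set_option autoImplicit false
set_option linter.style.haveILetI false
set_option linter.unusedSectionVars false

namespace Fermat.Agent.N4F.E.Integrality

open ModularCurve Polynomial
open Fermat.Agent.N4.Setting Fermat.Agent.N4.Chart Fermat.Agent.N4.Kronecker
open Fermat.Agent.N4.ModPolyDescent Fermat.Agent.N4.ModPolyShape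
open Fermat.Agent.N4F.E.DegreeLevelRaise Fermat.Agent.N4.FibreEmbedding

/-! ### Generic integrality lemmas -/

section Generic

variable {R B : Type*} [CommRing R] [CommRing B] [Algebra R B]

/-- A two-variable relation `P(a, b) = 0`, `P ∈ ℤ[Y][X]` monic in `X`, makes `b` integral over
`R[a]`. -/
theorem isIntegral_adjoin_of_evZ_eq_zero (a b : B) (P : ℤ[X][X]) (hP : P.Monic)
    (h : evZ a b P = 0) : IsIntegral (Algebra.adjoin R {a}) b := by
  set S := Algebra.adjoin R {a} with hS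
  set a' : S := ⟨a, Algebra.self_mem_adjoin_singleton R a⟩ with ha'
  refine ⟨P.map (eval₂RingHom (Int.castRingHom S) a'), hP.map _, ?_⟩
  rw [eval₂_map, ← h, evZ_apply]
  congr 1
  refine Polynomial.ringHom_ext' (RingHom.ext_int _ _) ?_
  simp only [RingHom.comp_apply, coe_eval₂RingHom, eval₂_X]
  rfl

/-- Monotonicity of integrality in the base subalgebra. -/
theorem isIntegral_mono {S T : Subalgebra R B} (h : S ≤ T) {y : B} (hy : IsIntegral S y) :
    IsIntegral T y :=
  hy.map_of_comp_eq (Subalgebra.inclusion h).toRingHom (RingHom.id B) (by ext; rfl)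

/-- If every element of `S` is integral over `S'`, then integral over `S` implies integral over
`S'`. -/
theorem isIntegral_trans_subalgebra (S' S : Subalgebra R B) (hS : ∀ s ∈ S, IsIntegral S' s) {y : B}
    (hy : IsIntegral S y) : IsIntegral S' y := by
  set C : Subalgebra S' B := integralClosure S' B with hC
  let φ : S →+* C :=
    { toFun := fun s => ⟨s.1, hS s.1 s.2⟩
      map_one' := rfl
      map_mul' := fun _ _ => rfl
      map_zero' := rfl
      map_add' := fun _ _ => rfl }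
  have h1 : IsIntegral C y := hy.map_of_comp_eq φ (RingHom.id B) (by ext; rfl)
  exact isIntegral_trans y h1

/-- If `b` is integral over `R[a]`, so is every element of `R[b]`. -/
theorem isIntegral_of_mem_adjoin_singleton {a b : B} (hb : IsIntegral (Algebra.adjoin R {a}) b)
    {s : B} (hs : s ∈ Algebra.adjoin R {b}) : IsIntegral (Algebra.adjoin R {a}) s := by
  induction hs using Algebra.adjoin_induction with
  | mem x hx =>
    rw [Set.mem_singleton_iff] at hx
    rw [hx]
    exact hb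
  | algebraMap r =>
    have h1 : algebraMap R B r =
        algebraMap (Algebra.adjoin R {a}) B (algebraMap R (Algebra.adjoin R {a}) r) := rfl
    rw [h1]
    exact isIntegral_algebraMap
  | add x y _ _ hx hy => exact hx.add hy
  | mul x y _ _ hx hy => exact hx.mul hy

/-- Transitivity: `b` integral over `R[a]` and `y` integral over `R[b]` imply `y` integral over
`R[a]`. -/
theorem isIntegral_adjoin_trans {a b : B} (hb : IsIntegral (Algebra.adjoin R {a}) b) {y : B}
    (hy : IsIntegral (Algebra.adjoin R {b}) y) : IsIntegral (Algebra.adjoin R {a}) y :=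
  isIntegral_trans_subalgebra _ _ (fun _ hs => isIntegral_of_mem_adjoin_singleton hb hs) hy

/-- Integrality is transported by an algebra homomorphism: if `x` is integral over `R[a]` then
`φ x` is integral over `R[φ a]`. -/
theorem isIntegral_map_adjoin_singleton {B' : Type*} [CommRing B'] [Algebra R B'] (φ : B →ₐ[R] B')
    {a x : B} (hx : IsIntegral (Algebra.adjoin R {a}) x) :
    IsIntegral (Algebra.adjoin R {φ a}) (φ x) := by
  have hmap : (Algebra.adjoin R {a}).map φ = Algebra.adjoin R {φ a} := by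
    rw [AlgHom.map_adjoin, Set.image_singleton]
  let ψ : Algebra.adjoin R {a} →+* Algebra.adjoin R {φ a} :=
    { toFun := fun s => ⟨φ s.1, by
        rw [← hmap]
        exact ⟨s.1, s.2, rfl⟩⟩
      map_one' := Subtype.ext (map_one φ)
      map_mul' := fun _ _ => Subtype.ext (map_mul φ _ _)
      map_zero' := Subtype.ext (map_zero φ)
      map_add' := fun _ _ => Subtype.ext (map_add φ _ _) }
  exact hx.map_of_comp_eq ψ (φ : B →+* B') (by ext; rfl)

end Generic

/-! ### The modular equation between `α j` and `β j` -/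

section ModularEquation

variable (K : Type) [Field K] (N : ℕ) [NeZero N] (ℓ : ℕ) [NeZero ℓ]

/-- `Φ_ℓ(α j, β j) = 0` in `FF K (N ℓ)`. -/
theorem evZ_modPoly_alpha_beta :
    evZ (alphaF K N ℓ (jF K N)) (betaF K N ℓ (jF K N)) (modPoly ℓ) = 0 := by
  apply Subtype.val_injective
  have h := map_evZ ((modularFunctionFieldFullC K (N * ℓ)).val : FF K (N * ℓ) →+* LaurentSeries K)
    (alphaF K N ℓ (jF K N)) (betaF K N ℓ (jF K N)) (modPoly ℓ)
  have h0 := evZ_modPoly ℓ K 1
  rw [qExpand_one_apply, qExpand_one_apply] at h0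
  refine h.trans ?_
  have h1 : ((modularFunctionFieldFullC K (N * ℓ)).val : FF K (N * ℓ) →+* LaurentSeries K)
      (alphaF K N ℓ (jF K N)) = jqModC K := by
    show ((alphaF K N ℓ (jF K N) : FF K (N * ℓ)) : LaurentSeries K) = jqModC K
    rw [coe_alphaF, coe_jF]
  have h2 : ((modularFunctionFieldFullC K (N * ℓ)).val : FF K (N * ℓ) →+* LaurentSeries K)
      (betaF K N ℓ (jF K N)) = qExpand K ℓ (jqModC K) := by
    show ((betaF K N ℓ (jF K N) : FF K (N * ℓ)) : LaurentSeries K) = qExpand K ℓ (jqModC K)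
    rw [coe_betaF, coe_jF]
  rw [h1, h2]
  exact h0

/-- `Φ_ℓ(β j, α j) = 0` in `FF K (N ℓ)`. -/
theorem evZ_modPoly_beta_alpha :
    evZ (betaF K N ℓ (jF K N)) (alphaF K N ℓ (jF K N)) (modPoly ℓ) = 0 := by
  apply Subtype.val_injective
  have h := map_evZ ((modularFunctionFieldFullC K (N * ℓ)).val : FF K (N * ℓ) →+* LaurentSeries K)
    (betaF K N ℓ (jF K N)) (alphaF K N ℓ (jF K N)) (modPoly ℓ)
  have h0 := evZ_modPoly_swap ℓ K 1
  rw [qExpand_one_apply, qExpand_one_apply] at h0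
  refine h.trans ?_
  have h1 : ((modularFunctionFieldFullC K (N * ℓ)).val : FF K (N * ℓ) →+* LaurentSeries K)
      (alphaF K N ℓ (jF K N)) = jqModC K := by
    show ((alphaF K N ℓ (jF K N) : FF K (N * ℓ)) : LaurentSeries K) = jqModC K
    rw [coe_alphaF, coe_jF]
  have h2 : ((modularFunctionFieldFullC K (N * ℓ)).val : FF K (N * ℓ) →+* LaurentSeries K)
      (betaF K N ℓ (jF K N)) = qExpand K ℓ (jqModC K) := by
    show ((betaF K N ℓ (jF K N) : FF K (N * ℓ)) : LaurentSeries K) = qExpand K ℓ (jqModC K)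
    rw [coe_betaF, coe_jF]
  rw [h1, h2]
  exact h0

variable (O : Subring K)

/-- `β j` is integral over `O[α j]`. -/
theorem isIntegral_betaF_jF :
    IsIntegral (Algebra.adjoin ↥O {alphaF K N ℓ (jF K N)}) (betaF K N ℓ (jF K N)) :=
  isIntegral_adjoin_of_evZ_eq_zero _ _ (modPoly ℓ) (modPoly_monic ℓ)
    (evZ_modPoly_alpha_beta K N ℓ)

/-- `α j` is integral over `O[β j]`. -/
theorem isIntegral_alphaF_jF :
    IsIntegral (Algebra.adjoin ↥O {betaF K N ℓ (jF K N)}) (alphaF K N ℓ (jF K N)) :=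
  isIntegral_adjoin_of_evZ_eq_zero _ _ (modPoly ℓ) (modPoly_monic ℓ)
    (evZ_modPoly_beta_alpha K N ℓ)

/-- **(i)** for `x ∈ Rfin`, `α x` is integral over `O[α j]`. -/
theorem isIntegral_alphaF_of_mem_Rfin_self {x : FF K N} (hx : x ∈ Rfin K N O) :
    IsIntegral (Algebra.adjoin ↥O {alphaF K N ℓ (jF K N)}) (alphaF K N ℓ x) := by
  rw [mem_chartAlg_iff] at hx
  exact isIntegral_map_adjoin_singleton ((alphaF K N ℓ).restrictScalars ↥O) hx

/-- **(i)** for `x ∈ Rfin`, `β x` is integral over `O[β j]`. -/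
theorem isIntegral_betaF_of_mem_Rfin_self {x : FF K N} (hx : x ∈ Rfin K N O) :
    IsIntegral (Algebra.adjoin ↥O {betaF K N ℓ (jF K N)}) (betaF K N ℓ x) := by
  rw [mem_chartAlg_iff] at hx
  exact isIntegral_map_adjoin_singleton ((betaF K N ℓ).restrictScalars ↥O) hx

/-- **(i)** for `x ∈ Rfin`, `α x` is integral over `O[β j]`. -/
theorem isIntegral_alphaF_of_mem_Rfin {x : FF K N} (hx : x ∈ Rfin K N O) :
    IsIntegral (Algebra.adjoin ↥O {betaF K N ℓ (jF K N)}) (alphaF K N ℓ x) :=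
  isIntegral_adjoin_trans (isIntegral_alphaF_jF K N ℓ O)
    (isIntegral_alphaF_of_mem_Rfin_self K N ℓ O hx)

/-- **(i)** for `x ∈ Rfin`, `β x` is integral over `O[α j]`. -/
theorem isIntegral_betaF_of_mem_Rfin {x : FF K N} (hx : x ∈ Rfin K N O) :
    IsIntegral (Algebra.adjoin ↥O {alphaF K N ℓ (jF K N)}) (betaF K N ℓ x) :=
  isIntegral_adjoin_trans (isIntegral_betaF_jF K N ℓ O)
    (isIntegral_betaF_of_mem_Rfin_self K N ℓ O hx)

end ModularEquation

/-! ### Integrality over the images of the Gauss subalgebra -/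

section Gauss

variable (K : Type) [Field K] (N : ℕ) [NeZero N] (ℓ : ℕ) [NeZero ℓ] (O : Subring K)
  [IsDiscreteValuationRing ↥O] [IsFractionRing ↥O K]

/-- `β (G_N)`, the image of the Gauss subalgebra under `β`, as an `O`-subalgebra of `FF K (N ℓ)`. -/
noncomputable def betaGauss : Subalgebra ↥O (FF K (N * ℓ)) :=
  (gaussSubalgebra K N O).map ((betaF K N ℓ).restrictScalars ↥O)

/-- `α (G_N)`, the image of the Gauss subalgebra under `α`, as an `O`-subalgebra of `FF K (N ℓ)`. -/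
noncomputable def alphaGauss : Subalgebra ↥O (FF K (N * ℓ)) :=
  (gaussSubalgebra K N O).map ((alphaF K N ℓ).restrictScalars ↥O)

theorem mem_betaGauss_iff {y : FF K (N * ℓ)} :
    y ∈ betaGauss K N ℓ O ↔ ∃ x ∈ gaussSubalgebra K N O, betaF K N ℓ x = y := Iff.rfl

theorem mem_alphaGauss_iff {y : FF K (N * ℓ)} :
    y ∈ alphaGauss K N ℓ O ↔ ∃ x ∈ gaussSubalgebra K N O, alphaF K N ℓ x = y := Iff.rfl

theorem betaF_mem_betaGauss {x : FF K N} (hx : x ∈ gaussSubalgebra K N O) :
    betaF K N ℓ x ∈ betaGauss K N ℓ O := ⟨x, hx, rfl⟩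

theorem alphaF_mem_alphaGauss {x : FF K N} (hx : x ∈ gaussSubalgebra K N O) :
    alphaF K N ℓ x ∈ alphaGauss K N ℓ O := ⟨x, hx, rfl⟩

theorem adjoin_betaF_jF_le : Algebra.adjoin ↥O {betaF K N ℓ (jF K N)} ≤ betaGauss K N ℓ O :=
  Algebra.adjoin_le (Set.singleton_subset_iff.mpr
    (betaF_mem_betaGauss K N ℓ O (jF_mem_gaussSubalgebra K N O)))

theorem adjoin_alphaF_jF_le : Algebra.adjoin ↥O {alphaF K N ℓ (jF K N)} ≤ alphaGauss K N ℓ O :=
  Algebra.adjoin_le (Set.singleton_subset_iff.mpr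
    (alphaF_mem_alphaGauss K N ℓ O (jF_mem_gaussSubalgebra K N O)))

/-- **(ii)** `α (Rfin)` is integral over `β (G_N)`. -/
theorem isIntegral_alphaF_map_gauss {x : FF K N} (hx : x ∈ Rfin K N O) :
    IsIntegral (betaGauss K N ℓ O) (alphaF K N ℓ x) :=
  isIntegral_mono (adjoin_betaF_jF_le K N ℓ O) (isIntegral_alphaF_of_mem_Rfin K N ℓ O hx)

/-- **(ii)** `β (Rfin)` is integral over `α (G_N)`. -/
theorem isIntegral_betaF_map_gauss {x : FF K N} (hx : x ∈ Rfin K N O) :
    IsIntegral (alphaGauss K N ℓ O) (betaF K N ℓ x) :=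
  isIntegral_mono (adjoin_alphaF_jF_le K N ℓ O) (isIntegral_betaF_of_mem_Rfin K N ℓ O hx)

/-- `α (Rfin) ⊆ integralClosure (β G_N)`. -/
theorem alphaF_mem_integralClosure {x : FF K N} (hx : x ∈ Rfin K N O) :
    alphaF K N ℓ x ∈ integralClosure (betaGauss K N ℓ O) (FF K (N * ℓ)) :=
  isIntegral_alphaF_map_gauss K N ℓ O hx

/-- `β (Rfin) ⊆ integralClosure (α G_N)`. -/
theorem betaF_mem_integralClosure {x : FF K N} (hx : x ∈ Rfin K N O) :
    betaF K N ℓ x ∈ integralClosure (alphaGauss K N ℓ O) (FF K (N * ℓ)) :=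
  isIntegral_betaF_map_gauss K N ℓ O hx

end Gauss

/-! ### Not an `ℓ`-th power -/

section NotPow

variable (κ : Type*) [CommRing κ] [Nontrivial κ] (ℓ : ℕ) [Fact ℓ.Prime]

/-- The coefficient of `q^{-d}` in `j(q^d)` is `1`. -/
theorem coeff_qExpand_jqModC_neg (d : ℕ) [NeZero d] :
    (qExpand κ d (jqModC κ)).coeff (-(d : ℤ)) = 1 := by
  have h1 : (-(d : ℤ)) = (d : ℤ) * (-1) := by ring
  rw [h1, qExpand_coeff_mul, coeff_jqModC_neg_one]

/-- A series in `q^ℓ` has no `q^{-d}`-term for `ℓ ∤ d`. -/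
theorem qExpand_ne_qExpand_jqModC {d : ℕ} [NeZero d] (hd : ¬ ℓ ∣ d) (z : LaurentSeries κ) :
    qExpand κ ℓ z ≠ qExpand κ d (jqModC κ) := by
  haveI : NeZero ℓ := ⟨(Fact.out : ℓ.Prime).ne_zero⟩
  intro h
  have h1 : (qExpand κ ℓ z).coeff (-(d : ℤ)) = (qExpand κ d (jqModC κ)).coeff (-(d : ℤ)) := by
    rw [h]
  rw [coeff_qExpand_jqModC_neg, qExpand_coeff_of_not_dvd] at h1
  · exact zero_ne_one h1
  · rw [Int.dvd_neg]
    exact_mod_cast hd

/-- **(iii)** in characteristic `ℓ`, `j(q^d)` is not an `ℓ`-th power in `κ((q))` for `ℓ ∤ d`. -/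
theorem not_isPow [CharP κ ℓ] {d : ℕ} [NeZero d] (hd : ¬ ℓ ∣ d) (y : LaurentSeries κ) :
    y ^ ℓ ≠ qExpand κ d (jqModC κ) := by
  rw [pow_char_eq_qExpand ℓ y]
  exact qExpand_ne_qExpand_jqModC κ ℓ hd _

/-- **(iii)** `j ∉ κ((q^ℓ))`. -/
theorem jqModC_not_mem_range_qExpand :
    jqModC κ ∉ Set.range (qExpand κ ℓ) := by
  rintro ⟨z, hz⟩
  have h1 : ¬ ℓ ∣ 1 := fun h => (Fact.out : ℓ.Prime).one_lt.ne' (Nat.dvd_one.mp h)
  refine qExpand_ne_qExpand_jqModC κ ℓ (d := 1) h1 z ?_
  rw [hz, qExpand_one_apply]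

/-- **(iii)** in characteristic `ℓ`, `j` is not an `ℓ`-th power in `κ((q))`. -/
theorem jqModC_ne_pow [CharP κ ℓ] (y : LaurentSeries κ) : y ^ ℓ ≠ jqModC κ := by
  have h1 : ¬ ℓ ∣ 1 := fun h => (Fact.out : ℓ.Prime).one_lt.ne' (Nat.dvd_one.mp h)
  have h2 := not_isPow κ ℓ (d := 1) h1 y
  rwa [qExpand_one_apply] at h2

end NotPow

end Fermat.Agent.N4F.E.Integrality
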