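/-
N4-FULL, block E (helper27): small facts about the residue field of the Gauss valuation.

`(K, O)` a base (`O ⊆ K` a discrete valuation ring with fraction field `K`), `κ` its residue field,
`G_N = gaussSubalgebra K N O ⊆ FF K N` with the reduction `θ_N = theta K N O : G_N → κ((q))`.

* (S1) `theta_surjective`   : every element of `FF κ N = modularFunctionFieldFullC κ N` is `θ_N x`;
* (S2) `ringHom_ext_FF`     : ring homomorphisms `FF k N → D` into a field are determined by their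
                              values on the constants and on the `j(q^d)`, `d ∣ N`;
* (J)  `evZ_modPoly_alpha_beta_jdF` / `evZ_modPoly_beta_alpha_jdF` :
                              the modular equations `Φ_ℓ(α j_d, β j_d) = 0 = Φ_ℓ(β j_d, α j_d)`;
* (Q)  `qExpand_mem_full`   : for `CharP k ℓ` the substitution `q ↦ q^ℓ` preserves `FF k N`
                              (it is `j(q^d) ↦ j(q^d)^ℓ` on the generators);
* (P)  `charP_residueField` : `CharP κ ℓ` for a good base.
-/
import Fermat.Agent.N4F.E.GaussDVR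
import Fermat.Agent.N4F.E.Integrality
import Fermat.Agent.N4F.C.ChartReduction

set_option autoImplicit false
set_option linter.unusedSectionVars false

open ModularCurve Fermat.Agent.S28.Gauss Fermat.Agent.N4.Setting Fermat.Agent.N4.FibreEmbedding
open Fermat.Agent.N4F.E.DegreeLevelRaise Fermat.Agent.N4.Kronecker Fermat.Agent.N4.ModPolyShape
open Fermat.Agent.N4.ModPolyDescent

noncomputable section

namespace Fermat.Agent.N4F.E.GaussResidue

/-! ### (S2) ring homomorphisms out of `FF k N` -/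

section RingHomExt

variable (k : Type) [Field k] (N : ℕ) [NeZero N]

/-- **(S2)** Two ring homomorphisms `FF k N → D` into a field which agree on the constants and on
the `j(q^d)`, `d ∣ N`, are equal. -/
theorem ringHom_ext_FF {D : Type*} [Field D] (f g : FF k N →+* D)
    (hc : ∀ c : k, f (algebraMap k (FF k N) c) = g (algebraMap k (FF k N) c))
    (hj : ∀ (d : ℕ) [NeZero d] (hd : d ∣ N), f (jdF k N hd) = g (jdF k N hd)) : f = g := by
  ext ⟨x, hx⟩
  induction hx using IntermediateField.adjoin_induction with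
  | mem y hy =>
    obtain ⟨d, hd0, hd, rfl⟩ := hy
    exact hj d hd
  | algebraMap c => exact hc c
  | add x y hx hy ihx ihy =>
    have h : (⟨x + y, add_mem hx hy⟩ : FF k N) = ⟨x, hx⟩ + ⟨y, hy⟩ := rfl
    rw [h, map_add, map_add, ihx, ihy]
  | inv x hx ihx =>
    have h : (⟨x⁻¹, inv_mem hx⟩ : FF k N) = (⟨x, hx⟩ : FF k N)⁻¹ := rfl
    rw [h, map_inv₀, map_inv₀, ihx]
  | mul x y hx hy ihx ihy =>
    have h : (⟨x * y, mul_mem hx hy⟩ : FF k N) = ⟨x, hx⟩ * ⟨y, hy⟩ := rfl
    rw [h, map_mul, map_mul, ihx, ihy]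

end RingHomExt

/-! ### (Q) `q ↦ q^ℓ` in characteristic `ℓ` -/

section QExpand

variable (k : Type) [Field k] (N : ℕ) [NeZero N] (ℓ : ℕ) [Fact ℓ.Prime] [CharP k ℓ]

theorem neZero_of_fact_prime : NeZero ℓ := ⟨(Fact.out : ℓ.Prime).ne_zero⟩

attribute [local instance] neZero_of_fact_prime

/-- `j(q^ℓ) = j(q)^ℓ` in characteristic `ℓ`. -/
theorem qExpand_jqModC_eq_pow : qExpand k ℓ (jqModC k) = jqModC k ^ ℓ := by
  rw [pow_char_eq_qExpand ℓ (jqModC k), coeffMap_jqModC]

/-- `j(q^{dℓ}) = j(q^d)^ℓ` in characteristic `ℓ`. -/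
theorem qExpand_qExpand_jqModC_eq_pow (d : ℕ) [NeZero d] :
    qExpand k ℓ (qExpand k d (jqModC k)) = qExpand k d (jqModC k) ^ ℓ := by
  haveI : NeZero (ℓ * d) := ⟨Nat.mul_ne_zero (NeZero.ne ℓ) (NeZero.ne d)⟩
  haveI : NeZero (d * ℓ) := ⟨Nat.mul_ne_zero (NeZero.ne d) (NeZero.ne ℓ)⟩
  rw [qExpand_qExpand, qExpand_congr (mul_comm ℓ d), ← qExpand_qExpand, qExpand_jqModC_eq_pow,
    map_pow]

/-- **(Q)** In characteristic `ℓ` the substitution `q ↦ q^ℓ` preserves the function field
`FF k N`. -/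
theorem qExpand_mem_full {x : LaurentSeries k} (hx : x ∈ modularFunctionFieldFullC k N) :
    qExpand k ℓ x ∈ modularFunctionFieldFullC k N := by
  induction hx using IntermediateField.adjoin_induction with
  | mem y hy =>
    obtain ⟨d, hd0, hd, rfl⟩ := hy
    rw [qExpand_qExpand_jqModC_eq_pow]
    exact pow_mem (jqModCd_mem_full k N hd) ℓ
  | algebraMap c =>
    have h : qExpand k ℓ (algebraMap k (LaurentSeries k) c) = algebraMap k (LaurentSeries k) c :=
      (qExpandAlgHomC k ℓ).commutes c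
    rw [h]
    exact (modularFunctionFieldFullC k N).algebraMap_mem c
  | add x y _ _ ihx ihy =>
    rw [map_add]
    exact add_mem ihx ihy
  | inv x _ ihx =>
    rw [map_inv₀]
    exact inv_mem ihx
  | mul x y _ _ ihx ihy =>
    rw [map_mul]
    exact mul_mem ihx ihy

end QExpand

/-! ### (J) the modular equation for the `j(q^d)` -/

section ModularEquation

variable (K : Type) [Field K] (N : ℕ) [NeZero N] (ℓ : ℕ) [NeZero ℓ]

theorem coe_alphaF_jdF {d : ℕ} [NeZero d] (hd : d ∣ N) :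
    ((alphaF K N ℓ (jdF K N hd) : FF K (N * ℓ)) : LaurentSeries K) =
      qExpand K d (jqModC K) := by
  rw [coe_alphaF, coe_jdF]

theorem coe_betaF_jdF {d : ℕ} [NeZero d] (hd : d ∣ N) :
    ((betaF K N ℓ (jdF K N hd) : FF K (N * ℓ)) : LaurentSeries K) =
      qExpand K d (qExpand K ℓ (jqModC K)) := by
  haveI : NeZero (ℓ * d) := ⟨Nat.mul_ne_zero (NeZero.ne ℓ) (NeZero.ne d)⟩
  haveI : NeZero (d * ℓ) := ⟨Nat.mul_ne_zero (NeZero.ne d) (NeZero.ne ℓ)⟩
  rw [coe_betaF, coe_jdF, qExpand_qExpand, qExpand_qExpand, qExpand_congr (mul_comm ℓ d)]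

/-- **(J)** `Φ_ℓ(α j_d, β j_d) = 0` in `FF K (N ℓ)`, for every `d ∣ N`. -/
theorem evZ_modPoly_alpha_beta_jdF {d : ℕ} [NeZero d] (hd : d ∣ N) :
    evZ (alphaF K N ℓ (jdF K N hd)) (betaF K N ℓ (jdF K N hd)) (modPoly ℓ) = 0 := by
  apply Subtype.val_injective
  have h := map_evZ ((modularFunctionFieldFullC K (N * ℓ)).val : FF K (N * ℓ) →+* LaurentSeries K)
    (alphaF K N ℓ (jdF K N hd)) (betaF K N ℓ (jdF K N hd)) (modPoly ℓ)
  refine h.trans ?_
  have h1 : ((modularFunctionFieldFullC K (N * ℓ)).val : FF K (N * ℓ) →+* LaurentSeries K)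
      (alphaF K N ℓ (jdF K N hd)) = qExpand K d (jqModC K) := coe_alphaF_jdF K N ℓ hd
  have h2 : ((modularFunctionFieldFullC K (N * ℓ)).val : FF K (N * ℓ) →+* LaurentSeries K)
      (betaF K N ℓ (jdF K N hd)) = qExpand K d (qExpand K ℓ (jqModC K)) :=
    coe_betaF_jdF K N ℓ hd
  rw [h1, h2]
  exact evZ_modPoly ℓ K d

/-- **(J), swapped** `Φ_ℓ(β j_d, α j_d) = 0` in `FF K (N ℓ)`, for every `d ∣ N`. -/
theorem evZ_modPoly_beta_alpha_jdF {d : ℕ} [NeZero d] (hd : d ∣ N) :
    evZ (betaF K N ℓ (jdF K N hd)) (alphaF K N ℓ (jdF K N hd)) (modPoly ℓ) = 0 := by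
  apply Subtype.val_injective
  have h := map_evZ ((modularFunctionFieldFullC K (N * ℓ)).val : FF K (N * ℓ) →+* LaurentSeries K)
    (betaF K N ℓ (jdF K N hd)) (alphaF K N ℓ (jdF K N hd)) (modPoly ℓ)
  refine h.trans ?_
  have h1 : ((modularFunctionFieldFullC K (N * ℓ)).val : FF K (N * ℓ) →+* LaurentSeries K)
      (alphaF K N ℓ (jdF K N hd)) = qExpand K d (jqModC K) := coe_alphaF_jdF K N ℓ hd
  have h2 : ((modularFunctionFieldFullC K (N * ℓ)).val : FF K (N * ℓ) →+* LaurentSeries K)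
      (betaF K N ℓ (jdF K N hd)) = qExpand K d (qExpand K ℓ (jqModC K)) :=
    coe_betaF_jdF K N ℓ hd
  rw [h1, h2]
  exact evZ_modPoly_swap ℓ K d

end ModularEquation

/-! ### (S1) surjectivity of the reduction, (P) the residue characteristic -/

section Surjective

variable (K : Type) [Field K] [CharZero K] (N : ℕ) [NeZero N] (O : Subring K)
  [IsDiscreteValuationRing ↥O] [IsFractionRing ↥O K]

set_option quotPrecheck false in
local notation "κ" => IsLocalRing.ResidueField ↥O

open Fermat.Agent.N4F.C.ChartReduction Fermat.Agent.N4F.E.GaussDVR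

/-- **(S1)** The reduction `θ_N : G_N → κ((q))` is onto the function field `FF κ N`. -/
theorem theta_surjective {y : LaurentSeries κ} (hy : y ∈ modularFunctionFieldFullC κ N) :
    ∃ x : gaussSubalgebra K N O, theta K N O x = y := by
  induction hy using IntermediateField.adjoin_induction with
  | mem y hy =>
    obtain ⟨d, hd0, hd, rfl⟩ := hy
    exact ⟨⟨jdF K N hd, jdF_mem_gaussSubalgebra K N O hd⟩, theta_jdF K N O hd⟩
  | algebraMap c =>
    obtain ⟨a, rfl⟩ := IsLocalRing.residue_surjective c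
    refine ⟨algebraMap ↥O (gaussSubalgebra K N O) a, ?_⟩
    rw [theta_algebraMap, algebraMap_laurentSeries_eq_single]
    rfl
  | add x y _ _ ihx ihy =>
    obtain ⟨a, rfl⟩ := ihx
    obtain ⟨b, rfl⟩ := ihy
    exact ⟨a + b, map_add _ _ _⟩
  | inv x _ ihx =>
    obtain ⟨a, rfl⟩ := ihx
    by_cases h : theta K N O a = 0
    · exact ⟨0, by rw [h, inv_zero, map_zero]⟩
    · have ha0 : (a : FF K N) ≠ 0 := by
        intro h0
        apply h
        have : a = 0 := Subtype.ext h0
        rw [this, map_zero]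
      refine ⟨⟨(a : FF K N)⁻¹, inv_mem_of_theta_ne_zero K N O a h⟩, ?_⟩
      have h1 : (⟨(a : FF K N)⁻¹, inv_mem_of_theta_ne_zero K N O a h⟩ : gaussSubalgebra K N O) * a
          = 1 := Subtype.ext (inv_mul_cancel₀ ha0)
      have h2 := congrArg (theta K N O) h1
      rw [map_mul, map_one] at h2
      exact eq_inv_of_mul_eq_one_left h2
  | mul x y _ _ ihx ihy =>
    obtain ⟨a, rfl⟩ := ihx
    obtain ⟨b, rfl⟩ := ihy
    exact ⟨a * b, map_mul _ _ _⟩

/-- **(P)** The residue field of a good base has characteristic `ℓ`. -/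
theorem charP_residueField {ℓ : ℕ} (hG : GoodBase K N O ℓ) : CharP κ ℓ := by
  haveI : Fact ℓ.Prime := ⟨hG.prime⟩
  have h0 : ((ℓ : ℕ) : κ) = 0 := by
    have h1 : ((ℓ : ℕ) : ↥O) ∈ IsLocalRing.maximalIdeal ↥O :=
      (IsLocalRing.mem_maximalIdeal _).2 hG.not_isUnit
    have h2 := (IsLocalRing.residue_eq_zero_iff _).2 h1
    rwa [map_natCast] at h2
  exact (CharP.charP_iff_prime_eq_zero hG.prime).2 h0

end Surjective

end Fermat.Agent.N4F.E.GaussResidue
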