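/-
N4-FULL, block E (helper21): the modular equation at all the generators `j(q^d)` and the
stability of the residue function field under `q ↦ q^ℓ` and under the coefficientwise Frobenius.

* (J) `evZ_modPoly_alpha_beta_jdF`, `evZ_modPoly_beta_alpha_jdF` : `Φ_ℓ(α j_d, β j_d) = 0` and its
  swap in `FF K (N ℓ)` for every `d ∣ N` (`j_d = j(q^d)`; the case `d = 1` is
  `Integrality.evZ_modPoly_alpha_beta`);
* `qExpand_jd_eq_pow` : in characteristic `ℓ`, `j(q^{dℓ}) = j(q^d)^ℓ`;
* (Q) `qExpand_mem_full` : in characteristic `ℓ`, `f(q) ↦ f(q^ℓ)` maps `FF κ N` into itself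
  (no perfectness needed);
* `coeffMap_frobenius_mem_full` : the coefficientwise Frobenius maps `FF κ N` into itself;
* `qExpandFF`, `frobFF` : the two induced ring endomorphisms of `FF κ N`, with
  `qExpandFF_frobFF : qExpandFF (frobFF x) = x ^ ℓ`.
-/
import Mathlib
import Fermat.Agent.N4F.E.Integrality

set_option autoImplicit false
set_option linter.style.haveILetI false
set_option linter.unusedSectionVars false

namespace Fermat.Agent.N4F.E.GaussResidueQ

open ModularCurve Polynomial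
open Fermat.Agent.N4.Setting Fermat.Agent.N4.Kronecker
open Fermat.Agent.N4.ModPolyDescent Fermat.Agent.N4.ModPolyShape
open Fermat.Agent.N4F.E.DegreeLevelRaise

/-! ### (J) the modular equation at `j(q^d)` -/

section ModularEquation

variable (K : Type) [Field K] (N : ℕ) [NeZero N] (ℓ : ℕ) [NeZero ℓ]

theorem qExpand_comm {R : Type*} [CommRing R] (a b : ℕ) [NeZero a] [NeZero b]
    (f : LaurentSeries R) : qExpand R a (qExpand R b f) = qExpand R b (qExpand R a f) := by
  haveI : NeZero (a * b) := ⟨Nat.mul_ne_zero (NeZero.ne a) (NeZero.ne b)⟩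
  haveI : NeZero (b * a) := ⟨Nat.mul_ne_zero (NeZero.ne b) (NeZero.ne a)⟩
  rw [qExpand_qExpand, qExpand_qExpand]
  exact qExpand_congr (mul_comm a b) f

/-- **(J)** `Φ_ℓ(α j(q^d), β j(q^d)) = 0` in `FF K (N ℓ)`, for every `d ∣ N`. -/
theorem evZ_modPoly_alpha_beta_jdF {d : ℕ} [NeZero d] (hd : d ∣ N) :
    evZ (alphaF K N ℓ (jdF K N hd)) (betaF K N ℓ (jdF K N hd)) (modPoly ℓ) = 0 := by
  apply Subtype.val_injective
  have h := map_evZ ((modularFunctionFieldFullC K (N * ℓ)).val : FF K (N * ℓ) →+* LaurentSeries K)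
    (alphaF K N ℓ (jdF K N hd)) (betaF K N ℓ (jdF K N hd)) (modPoly ℓ)
  have h0 := evZ_modPoly ℓ K d
  refine h.trans ?_
  have h1 : ((modularFunctionFieldFullC K (N * ℓ)).val : FF K (N * ℓ) →+* LaurentSeries K)
      (alphaF K N ℓ (jdF K N hd)) = qExpand K d (jqModC K) := by
    show ((alphaF K N ℓ (jdF K N hd) : FF K (N * ℓ)) : LaurentSeries K) = qExpand K d (jqModC K)
    rw [coe_alphaF, coe_jdF]
  have h2 : ((modularFunctionFieldFullC K (N * ℓ)).val : FF K (N * ℓ) →+* LaurentSeries K)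
      (betaF K N ℓ (jdF K N hd)) = qExpand K d (qExpand K ℓ (jqModC K)) := by
    show ((betaF K N ℓ (jdF K N hd) : FF K (N * ℓ)) : LaurentSeries K) =
      qExpand K d (qExpand K ℓ (jqModC K))
    rw [coe_betaF, coe_jdF, qExpand_comm]
  rw [h1, h2]
  exact h0

/-- **(J, swapped)** `Φ_ℓ(β j(q^d), α j(q^d)) = 0` in `FF K (N ℓ)`, for every `d ∣ N`. -/
theorem evZ_modPoly_beta_alpha_jdF {d : ℕ} [NeZero d] (hd : d ∣ N) :
    evZ (betaF K N ℓ (jdF K N hd)) (alphaF K N ℓ (jdF K N hd)) (modPoly ℓ) = 0 := by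
  apply Subtype.val_injective
  have h := map_evZ ((modularFunctionFieldFullC K (N * ℓ)).val : FF K (N * ℓ) →+* LaurentSeries K)
    (betaF K N ℓ (jdF K N hd)) (alphaF K N ℓ (jdF K N hd)) (modPoly ℓ)
  have h0 := evZ_modPoly_swap ℓ K d
  refine h.trans ?_
  have h1 : ((modularFunctionFieldFullC K (N * ℓ)).val : FF K (N * ℓ) →+* LaurentSeries K)
      (alphaF K N ℓ (jdF K N hd)) = qExpand K d (jqModC K) := by
    show ((alphaF K N ℓ (jdF K N hd) : FF K (N * ℓ)) : LaurentSeries K) = qExpand K d (jqModC K)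
    rw [coe_alphaF, coe_jdF]
  have h2 : ((modularFunctionFieldFullC K (N * ℓ)).val : FF K (N * ℓ) →+* LaurentSeries K)
      (betaF K N ℓ (jdF K N hd)) = qExpand K d (qExpand K ℓ (jqModC K)) := by
    show ((betaF K N ℓ (jdF K N hd) : FF K (N * ℓ)) : LaurentSeries K) =
      qExpand K d (qExpand K ℓ (jqModC K))
    rw [coe_betaF, coe_jdF, qExpand_comm]
  rw [h1, h2]
  exact h0

end ModularEquation

/-! ### (Q) stability of `FF κ N` under `q ↦ q^ℓ` and under the coefficientwise Frobenius -/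

section Stability

variable (κ : Type*) [Field κ] (N : ℕ) [NeZero N] (ℓ : ℕ) [Fact ℓ.Prime] [CharP κ ℓ]

/-- The coefficientwise Frobenius fixes `j(q^d)`. -/
theorem coeffMap_frobenius_jd (d : ℕ) [NeZero d] :
    coeffMap (frobenius κ ℓ) (qExpand κ d (jqModC κ)) = qExpand κ d (jqModC κ) := by
  rw [coeffMap_qExpand, coeffMap_jqModC]

/-- In characteristic `ℓ`, `j(q^{dℓ}) = j(q^d)^ℓ`. -/
theorem qExpand_jd_eq_pow (d : ℕ) [NeZero d] :
    qExpand κ ℓ (qExpand κ d (jqModC κ)) = (qExpand κ d (jqModC κ)) ^ ℓ := by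
  rw [pow_char_eq_qExpand ℓ (qExpand κ d (jqModC κ)), coeffMap_frobenius_jd]

/-- **(Q)** in characteristic `ℓ`, `f(q) ↦ f(q^ℓ)` maps `FF κ N` into itself. -/
theorem qExpand_mem_full {x : LaurentSeries κ} (hx : x ∈ modularFunctionFieldFullC κ N) :
    qExpand κ ℓ x ∈ modularFunctionFieldFullC κ N := by
  have hle : modularFunctionFieldFullC κ N ≤
      (modularFunctionFieldFullC κ N).comap (qExpandAlgHomC κ ℓ) := by
    rw [modularFunctionFieldFullC, IntermediateField.adjoin_le_iff]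
    rintro y ⟨d, hne, hdvd, rfl⟩
    haveI := hne
    show qExpandAlgHomC κ ℓ (qExpand κ d (jqModC κ)) ∈ IntermediateField.adjoin κ _
    rw [qExpandAlgHomC_apply, qExpand_jd_eq_pow]
    exact pow_mem (jqModCd_mem_full κ N hdvd) ℓ
  exact hle hx

/-- The coefficientwise Frobenius maps `FF κ N` into itself. -/
theorem coeffMap_frobenius_mem_full {x : LaurentSeries κ}
    (hx : x ∈ modularFunctionFieldFullC κ N) :
    coeffMap (frobenius κ ℓ) x ∈ modularFunctionFieldFullC κ N := by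
  rw [modularFunctionFieldFullC] at hx
  induction hx using IntermediateField.adjoin_induction with
  | mem y hy =>
    obtain ⟨d, hne, hdvd, rfl⟩ := hy
    haveI := hne
    rw [coeffMap_frobenius_jd]
    exact jqModCd_mem_full κ N hdvd
  | algebraMap c =>
    rw [algebraMap_laurentSeries_eq_single, coeffMap_single, ← algebraMap_laurentSeries_eq_single]
    exact (modularFunctionFieldFullC κ N).algebraMap_mem _
  | add y z _ _ hy hz =>
    rw [map_add]
    exact add_mem hy hz
  | inv y _ hy =>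
    rw [map_inv₀]
    exact inv_mem hy
  | mul y z _ _ hy hz =>
    rw [map_mul]
    exact mul_mem hy hz

end Stability

/-! ### The induced endomorphisms of `FF κ N` -/

section Endomorphisms

variable (κ : Type) [Field κ] (N : ℕ) [NeZero N] (ℓ : ℕ) [Fact ℓ.Prime] [CharP κ ℓ]

/-- `f(q) ↦ f(q^ℓ)` as a ring endomorphism of `FF κ N` (characteristic `ℓ`). -/
noncomputable def qExpandFF : FF κ N →+* FF κ N where
  toFun x := ⟨qExpand κ ℓ x.1, qExpand_mem_full κ N ℓ x.2⟩
  map_one' := Subtype.ext (map_one _)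
  map_mul' _ _ := Subtype.ext (map_mul _ _ _)
  map_zero' := Subtype.ext (map_zero _)
  map_add' _ _ := Subtype.ext (map_add _ _ _)

@[simp] theorem coe_qExpandFF (x : FF κ N) :
    ((qExpandFF κ N ℓ x : FF κ N) : LaurentSeries κ) = qExpand κ ℓ (x : LaurentSeries κ) := rfl

/-- The coefficientwise Frobenius as a ring endomorphism of `FF κ N`. -/
noncomputable def frobFF : FF κ N →+* FF κ N where
  toFun x := ⟨coeffMap (frobenius κ ℓ) x.1, coeffMap_frobenius_mem_full κ N ℓ x.2⟩
  map_one' := Subtype.ext (map_one _)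
  map_mul' _ _ := Subtype.ext (map_mul _ _ _)
  map_zero' := Subtype.ext (map_zero _)
  map_add' _ _ := Subtype.ext (map_add _ _ _)

@[simp] theorem coe_frobFF (x : FF κ N) :
    ((frobFF κ N ℓ x : FF κ N) : LaurentSeries κ) =
      coeffMap (frobenius κ ℓ) (x : LaurentSeries κ) := rfl

/-- `x^ℓ = (Fr x)(q^ℓ)` in `FF κ N`. -/
theorem qExpandFF_frobFF (x : FF κ N) : qExpandFF κ N ℓ (frobFF κ N ℓ x) = x ^ ℓ := by
  apply Subtype.ext
  rw [coe_qExpandFF, coe_frobFF]
  exact (pow_char_eq_qExpand ℓ (x : LaurentSeries κ)).symm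

theorem frobFF_qExpandFF (x : FF κ N) : frobFF κ N ℓ (qExpandFF κ N ℓ x) = x ^ ℓ := by
  apply Subtype.ext
  rw [coe_frobFF, coe_qExpandFF, coeffMap_qExpand]
  exact (pow_char_eq_qExpand ℓ (x : LaurentSeries κ)).symm

theorem qExpandFF_jdF {d : ℕ} [NeZero d] (hd : d ∣ N) :
    qExpandFF κ N ℓ (jdF κ N hd) = jdF κ N hd ^ ℓ := by
  apply Subtype.ext
  rw [coe_qExpandFF, coe_jdF]
  exact qExpand_jd_eq_pow κ ℓ d

theorem frobFF_jdF {d : ℕ} [NeZero d] (hd : d ∣ N) :
    frobFF κ N ℓ (jdF κ N hd) = jdF κ N hd := by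
  apply Subtype.ext
  rw [coe_frobFF, coe_jdF]
  exact coeffMap_frobenius_jd κ ℓ d

theorem qExpandFF_algebraMap (c : κ) :
    qExpandFF κ N ℓ (algebraMap κ (FF κ N) c) = algebraMap κ (FF κ N) c := by
  apply Subtype.ext
  show qExpand κ ℓ (algebraMap κ (LaurentSeries κ) c) = algebraMap κ (LaurentSeries κ) c
  rw [algebraMap_laurentSeries_eq_single, qExpand_single, mul_zero]

theorem frobFF_algebraMap (c : κ) :
    frobFF κ N ℓ (algebraMap κ (FF κ N) c) = algebraMap κ (FF κ N) (c ^ ℓ) := by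
  apply Subtype.ext
  show coeffMap (frobenius κ ℓ) (algebraMap κ (LaurentSeries κ) c) =
    algebraMap κ (LaurentSeries κ) (c ^ ℓ)
  rw [algebraMap_laurentSeries_eq_single, coeffMap_single, algebraMap_laurentSeries_eq_single]
  rfl

end Endomorphisms

end Fermat.Agent.N4F.E.GaussResidueQ
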