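/-
N4-FULL / block E (helper3): **abstract generalised Kronecker congruence** (moonshots #27 §4, (E2)).

`A → κ` a surjection onto a field of characteristic `l`, `B` a finite free `A`-algebra of rank
`l + 1` with two residue maps `π₁ : B → D₁`, `π₂ : B → D₂` onto `κ`-algebras (domains) of degrees
`l` and `1` with coprime kernels.  If `(π₁ b) ^ l = c ∈ κ` and `π₂ b = μ ∈ κ`, then the
characteristic polynomial of `b` over `A` reduces to `(X ^ l - c) (X - μ)` in `κ[X]`.

(In block E: `A = O_v` acting through `β`, `κ = D₁ = D₂ = FF κ N`, the `κ`-structure of `D₁` is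
`φ = (q ↦ q ^ l)`, that of `D₂` is the identity, `b = α h`, `π₁ b = h̄`, `π₂ b = φ h̄`,
`c = Fr h̄`, `μ = φ h̄`.)
-/
import Fermat.Agent.N4F.E.CharpolyFibre

set_option autoImplicit false
set_option linter.unusedSectionVars false

namespace Fermat.Agent.N4F.E.KroneckerAbstract

open Polynomial TensorProduct Fermat.Agent.N4F.E.CharpolyFibre

variable {A : Type*} [CommRing A] {κ : Type*} [Field κ] [Algebra A κ]
  {B : Type*} [CommRing B] [Algebra A B] [Module.Free A B] [Module.Finite A B]
  (D₁ D₂ : Type*) [CommRing D₁] [IsDomain D₁] [CommRing D₂] [IsDomain D₂]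
  [Algebra κ D₁] [Algebra κ D₂] [Algebra A D₁] [Algebra A D₂] [IsScalarTower A κ D₁]
  [IsScalarTower A κ D₂] [Module.Finite κ D₁] [Module.Finite κ D₂]
  (π₁ : B →ₐ[A] D₁) (π₂ : B →ₐ[A] D₂)

/-- Two residue maps with coprime kernels and complementary degrees: the characteristic polynomial
reduces to the product of the two local characteristic polynomials (no Dedekind hypothesis). -/
theorem charpoly_map_eq_mul_of_coprime (h₁ : Function.Surjective π₁) (h₂ : Function.Surjective π₂)
    (hcop : IsCoprime (RingHom.ker π₁) (RingHom.ker π₂))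
    (hdim : Module.finrank A B = Module.finrank κ D₁ + Module.finrank κ D₂) (b : B) :
    ((Algebra.lmul A B b).charpoly).map (algebraMap A κ) =
      (Algebra.lmul κ D₁ (π₁ b)).charpoly * (Algebra.lmul κ D₂ (π₂ b)).charpoly :=
  charpoly_map_eq_mul D₁ D₂ π₁ π₂
    (theta₂_bijective_of_surjective D₁ D₂ π₁ π₂ (theta₂_surjective D₁ D₂ π₁ π₂ h₁ h₂ hcop) hdim) b

/-- **Abstract generalised Kronecker congruence.** -/
theorem charpoly_map_eq_kronecker (l : ℕ) [Fact l.Prime] [CharP κ l]
    (h₁ : Function.Surjective π₁) (h₂ : Function.Surjective π₂)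
    (hcop : IsCoprime (RingHom.ker π₁) (RingHom.ker π₂))
    (hrank : Module.finrank A B = l + 1) (hD₁ : Module.finrank κ D₁ = l)
    (hD₂ : Module.finrank κ D₂ = 1) (b : B) (c μ : κ)
    (hc : π₁ b ^ l = algebraMap κ D₁ c) (hμ : π₂ b = algebraMap κ D₂ μ) :
    ((Algebra.lmul A B b).charpoly).map (algebraMap A κ) = (X ^ l - C c) * (X - C μ) := by
  rw [charpoly_map_eq_mul_of_coprime D₁ D₂ π₁ π₂ h₁ h₂ hcop (by rw [hrank, hD₁, hD₂]) b,
    charpoly_lmul_of_pow_eq l hD₁ (π₁ b) c hc, charpoly_lmul_of_finrank_eq_one hD₂ (π₂ b) μ hμ]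

/-- Distinct maximal kernels are coprime (convenience for `hcop`). -/
theorem isCoprime_ker_of_ne {D₁' D₂' : Type*} [Field D₁'] [Field D₂'] [Algebra A D₁'] [Algebra A D₂']
    (π₁' : B →ₐ[A] D₁') (π₂' : B →ₐ[A] D₂') (h₁ : Function.Surjective π₁')
    (h₂ : Function.Surjective π₂') (hne : RingHom.ker π₁' ≠ RingHom.ker π₂') :
    IsCoprime (RingHom.ker π₁') (RingHom.ker π₂') := by
  have := RingHom.ker_isMaximal_of_surjective π₁' h₁
  have := RingHom.ker_isMaximal_of_surjective π₂' h₂
  exact Ideal.isCoprime_of_isMaximal hne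

end Fermat.Agent.N4F.E.KroneckerAbstract
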