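/-
N4-FULL / block E (helper3), row E3: **counting lemmas for primes over `p`** (Mathlib only; uses the
fundamental identity `Ideal.sum_ramification_inertia_eq_finrank` for a finite flat extension of a
domain, with Mathlib's `Ideal.ramificationIdx` / `Ideal.inertiaDeg`).

* `sum_le_finrank` : `∑_{q ∈ T} e_q f_q ≤ rank` for any finite set `T` of primes over `p`.
* `primesOver_eq_pair` : two primes `P₁ ≠ P₂` over `p` with `f₁ + f₂ ≥ rank` are the only primes over
  `p`, have `e = 1`, and `f₁ + f₂ = rank`.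
* `exists_other_prime` : if `rank = l + 1`, `l ≥ 2`, and `f(P₁) = l * m`, then `m = 1`, `e(P₁) = 1`, and
  there is exactly one more prime `P₂` over `p`, with `e(P₂) = f(P₂) = 1`.
(Translate with `Ideal.inertiaDeg_eq_of_isMaximal : q.inertiaDeg R = finrank (R ⧸ p) (S ⧸ q)`.)
* `liesOver_of_map_le`, `map_eq_inf_of_primesOver_eq_pair`, `exists_sub_mem_of_inertiaDeg_eq_one`.
* (T3) `exists_second_prime_of_isMaximal`, `exists_second_prime` (DVR base): rank `l + 1`, `l ∣ f(P₁)` ⇒
  exactly one more prime `P₂`, `𝔪 B = P₁ ⊓ P₂`, `f₁ = l`, `B = A + P₂`.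
* (T3') `dvd_finrank_of_pow_eq`, `dvd_finrank_quotient_of_pow_sub_mem`: `x ^ l ≡ t`, `t` not an `l`-th
  power ⇒ `l ∣ f`.
* (T5) `isIntegral_charpoly_coeff_of_aeval_eq_zero`, `isIntegral_charpoly_lmul_coeff`,
  `charpoly_coeff_mem_of_isIntegral`, `exists_monic_map_eq_charpoly`: the characteristic polynomial of
  an element integral over an integrally closed domain has coefficients in that domain.
* `integralClosure_structure`, `exists_second_prime_integralClosure`, `isMaximal_liesOver_ker`: (T3)+(T3')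
  packaged for the integral closure of a discrete valuation ring in a finite separable extension.
-/
import Mathlib

set_option autoImplicit false
set_option linter.unusedSectionVars false
set_option linter.style.haveILetI false

namespace Fermat.Agent.N4F.E.TwoPrimes

open Ideal

variable {R : Type*} [CommRing R] [IsDomain R] {S : Type*} [CommRing S] [Algebra R S]
  [Module.Finite R S] [Module.Flat R S] (p : Ideal R) [p.IsPrime]

/-- `e f` summed over any finite set of primes over `p` is at most the rank. -/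
theorem sum_le_finrank [Fintype (p.primesOver S)] (T : Finset (p.primesOver S)) :
    ∑ q ∈ T, q.1.ramificationIdx R * q.1.inertiaDeg R ≤ Module.finrank R S := by
  rw [← Ideal.sum_ramification_inertia_eq_finrank p S]
  exact Finset.sum_le_sum_of_subset (Finset.subset_univ T)

theorem one_le_mul (q : p.primesOver S) :
    1 ≤ q.1.ramificationIdx R * q.1.inertiaDeg R :=
  Nat.one_le_iff_ne_zero.mpr
    (Nat.mul_ne_zero (q.1.ramificationIdx_pos R).ne' (q.1.inertiaDeg_pos R).ne')

/-- **Counting lemma, two primes.** If two distinct primes `P₁ ≠ P₂` over `p` have residue degrees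
with `f₁ + f₂ ≥ rank`, then they are the only primes over `p`, both are unramified (`e = 1`), and
`f₁ + f₂ = rank`. -/
theorem primesOver_eq_pair (P₁ P₂ : Ideal S) [P₁.IsPrime] [P₁.LiesOver p] [P₂.IsPrime]
    [P₂.LiesOver p] (hne : P₁ ≠ P₂)
    (h : Module.finrank R S ≤ P₁.inertiaDeg R + P₂.inertiaDeg R) :
    p.primesOver S = {P₁, P₂} ∧ P₁.ramificationIdx R = 1 ∧ P₂.ramificationIdx R = 1 ∧
      P₁.inertiaDeg R + P₂.inertiaDeg R = Module.finrank R S := by
  classical
  have : Fintype (p.primesOver S) := (Algebra.QuasiFinite.finite_primesOver p).fintype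
  let x₁ : p.primesOver S := ⟨P₁, ‹_›, ‹_›⟩
  let x₂ : p.primesOver S := ⟨P₂, ‹_›, ‹_›⟩
  have hx : x₁ ≠ x₂ := fun h => hne (congrArg Subtype.val h)
  have he₁ := P₁.ramificationIdx_pos R
  have he₂ := P₂.ramificationIdx_pos R
  have hf₁ := P₁.inertiaDeg_pos R
  have hf₂ := P₂.inertiaDeg_pos R
  have h2 := sum_le_finrank p {x₁, x₂}
  rw [Finset.sum_pair hx] at h2
  have h2' : P₁.ramificationIdx R * P₁.inertiaDeg R + P₂.ramificationIdx R * P₂.inertiaDeg R ≤
      Module.finrank R S := h2
  have hA : P₁.inertiaDeg R ≤ P₁.ramificationIdx R * P₁.inertiaDeg R :=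
    Nat.le_mul_of_pos_left _ he₁
  have hB : P₂.inertiaDeg R ≤ P₂.ramificationIdx R * P₂.inertiaDeg R :=
    Nat.le_mul_of_pos_left _ he₂
  have hA' : P₁.ramificationIdx R * P₁.inertiaDeg R = P₁.inertiaDeg R := by omega
  have hB' : P₂.ramificationIdx R * P₂.inertiaDeg R = P₂.inertiaDeg R := by omega
  have e₁ : P₁.ramificationIdx R = 1 := by
    have := Nat.eq_of_mul_eq_mul_right hf₁ (hA'.trans (one_mul _).symm)
    exact this
  have e₂ : P₂.ramificationIdx R = 1 := by
    have := Nat.eq_of_mul_eq_mul_right hf₂ (hB'.trans (one_mul _).symm)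
    exact this
  refine ⟨?_, e₁, e₂, by omega⟩
  ext Q
  simp only [Set.mem_insert_iff, Set.mem_singleton_iff]
  constructor
  · intro hQ
    by_contra hcon
    push Not at hcon
    let y : p.primesOver S := ⟨Q, hQ⟩
    have hy₁ : y ≠ x₁ := fun h => hcon.1 (congrArg Subtype.val h)
    have hy₂ : y ≠ x₂ := fun h => hcon.2 (congrArg Subtype.val h)
    have h3 := sum_le_finrank p {y, x₁, x₂}
    rw [Finset.sum_insert (by simp [hy₁, hy₂]), Finset.sum_pair hx] at h3
    have h3' : y.1.ramificationIdx R * y.1.inertiaDeg R +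
        (P₁.ramificationIdx R * P₁.inertiaDeg R + P₂.ramificationIdx R * P₂.inertiaDeg R) ≤
        Module.finrank R S := h3
    have := one_le_mul p y
    omega
  · rintro (rfl | rfl)
    · exact ⟨‹_›, ‹_›⟩
    · exact ⟨‹_›, ‹_›⟩

/-- **Counting lemma, `rank = l + 1`.** If the rank is `l + 1` with `l ≥ 2` and a prime `P₁` over
`p` has residue degree `l * m`, then `m = 1`, `e(P₁) = 1`, and there is exactly one more prime `P₂`
over `p`, with `e(P₂) = f(P₂) = 1`. -/
theorem exists_other_prime {l m : ℕ} (hl : 2 ≤ l) (hn : Module.finrank R S = l + 1)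
    (P₁ : Ideal S) [P₁.IsPrime] [P₁.LiesOver p] (hf : P₁.inertiaDeg R = l * m) :
    m = 1 ∧ P₁.ramificationIdx R = 1 ∧ ∃ P₂ : Ideal S, P₂.IsPrime ∧ P₂.LiesOver p ∧ P₂ ≠ P₁ ∧
      P₂.ramificationIdx R = 1 ∧ P₂.inertiaDeg R = 1 ∧ p.primesOver S = {P₁, P₂} := by
  classical
  have : Fintype (p.primesOver S) := (Algebra.QuasiFinite.finite_primesOver p).fintype
  let x₁ : p.primesOver S := ⟨P₁, ‹_›, ‹_›⟩
  have he₁ := P₁.ramificationIdx_pos R
  have hf₁ := P₁.inertiaDeg_pos R
  have hm : 0 < m := by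
    rcases Nat.eq_zero_or_pos m with h | h
    · rw [h, mul_zero] at hf; omega
    · exact h
  have h1 := sum_le_finrank p {x₁}
  rw [Finset.sum_singleton, hn] at h1
  have h1' : P₁.ramificationIdx R * (l * m) ≤ l + 1 := by rw [← hf]; exact h1
  have hem : P₁.ramificationIdx R * m = 1 := by
    by_contra hcon
    have h2 : 2 ≤ P₁.ramificationIdx R * m := by
      have : 0 < P₁.ramificationIdx R * m := Nat.mul_pos he₁ hm
      omega
    have h3 : 2 * l ≤ P₁.ramificationIdx R * m * l := Nat.mul_le_mul_right l h2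
    have h4 : P₁.ramificationIdx R * m * l = P₁.ramificationIdx R * (l * m) := by ring
    omega
  have hm1 : m = 1 := Nat.eq_one_of_mul_eq_one_left hem
  have he1 : P₁.ramificationIdx R = 1 := Nat.eq_one_of_mul_eq_one_right hem
  refine ⟨hm1, he1, ?_⟩
  -- there is another prime
  have hex : ∃ y : p.primesOver S, y ≠ x₁ := by
    by_contra hcon
    push Not at hcon
    have huniv : (Finset.univ : Finset (p.primesOver S)) = {x₁} := by
      ext y; simp [hcon y]
    have := Ideal.sum_ramification_inertia_eq_finrank p S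
    rw [huniv, Finset.sum_singleton, hn] at this
    have h5 : P₁.ramificationIdx R * P₁.inertiaDeg R = l + 1 := this
    rw [he1, hf, hm1] at h5
    omega
  obtain ⟨y, hy⟩ := hex
  have hyP : y.1 ≠ P₁ := fun h => hy (Subtype.ext h)
  have : y.1.IsPrime := y.2.1
  have : y.1.LiesOver p := y.2.2
  have hfy := y.1.inertiaDeg_pos R
  obtain ⟨hpair, -, e₂, hsum⟩ := primesOver_eq_pair p P₁ y.1 (Ne.symm hyP)
    (by rw [hn, hf, hm1]; omega)
  refine ⟨y.1, y.2.1, y.2.2, hyP, e₂, ?_, hpair⟩
  rw [hn, hf, hm1] at hsum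
  omega

section Dedekind

variable {A : Type*} [CommRing A] [IsDomain A] {B : Type*} [CommRing B] [IsDedekindDomain B]
  [Algebra A B] [Module.Finite A B] [Module.Free A B]

/-- A prime containing `𝔪 B` lies over the maximal ideal `𝔪`. -/
theorem liesOver_of_map_le {A : Type*} [CommRing A] {B : Type*} [CommRing B] [Algebra A B]
    (𝔪 : Ideal A) [h𝔪 : 𝔪.IsMaximal] (P : Ideal B) (hP : P ≠ ⊤)
    (h : 𝔪.map (algebraMap A B) ≤ P) : P.LiesOver 𝔪 := by
  refine ⟨?_⟩
  apply h𝔪.eq_of_le
  · intro htop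
    apply hP
    rw [Ideal.eq_top_iff_one]
    have : (1 : A) ∈ P.under A := by rw [htop]; trivial
    simpa [Ideal.under_def] using this
  · exact Ideal.map_le_iff_le_comap.mp h

/-- If `𝔪 B` has exactly the two prime divisors `P₁ ≠ P₂`, both with ramification index one, then
`𝔪 B = P₁ ⊓ P₂`. -/
theorem map_eq_inf_of_primesOver_eq_pair (𝔪 : Ideal A) [𝔪.IsMaximal]
    (h0 : 𝔪.map (algebraMap A B) ≠ ⊥) (P₁ P₂ : Ideal B)
    [P₁.IsMaximal] [P₂.IsMaximal] [P₁.LiesOver 𝔪] [P₂.LiesOver 𝔪] (hne : P₁ ≠ P₂)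
    (hpair : 𝔪.primesOver B = {P₁, P₂}) (e₁ : P₁.ramificationIdx A = 1)
    (e₂ : P₂.ramificationIdx A = 1) : 𝔪.map (algebraMap A B) = P₁ ⊓ P₂ := by
  classical
  set I := 𝔪.map (algebraMap A B) with hI
  have hfac : UniqueFactorizationMonoid.normalizedFactors I = {P₁, P₂} := by
    ext Q
    by_cases hQ : Q ∈ UniqueFactorizationMonoid.normalizedFactors I
    · have hQprime : Q.IsPrime :=
        Ideal.isPrime_of_prime (UniqueFactorizationMonoid.prime_of_normalized_factor Q hQ)
      have hle : I ≤ Q := Ideal.le_of_dvd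
        (UniqueFactorizationMonoid.dvd_of_mem_normalizedFactors hQ)
      have hQlo : Q.LiesOver 𝔪 := liesOver_of_map_le 𝔪 Q hQprime.ne_top hle
      have hmem : Q ∈ 𝔪.primesOver B := ⟨hQprime, hQlo⟩
      rw [hpair] at hmem
      have hcount : Multiset.count Q (UniqueFactorizationMonoid.normalizedFactors I) =
          Q.ramificationIdx A :=
        (IsDedekindDomain.ramificationIdx_eq_normalizedFactors_count 𝔪 Q h0).symm
      rcases hmem with rfl | hmem
      · rw [hcount, e₁]
        simp [hne]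
      · rw [Set.mem_singleton_iff] at hmem
        subst hmem
        rw [hcount, e₂]
        simp [hne.symm]
    · rw [Multiset.count_eq_zero_of_notMem hQ]
      have h1 : Q ≠ P₁ := by
        rintro rfl
        have hcount := IsDedekindDomain.ramificationIdx_eq_normalizedFactors_count 𝔪 Q h0
        rw [Multiset.count_eq_zero_of_notMem hQ, e₁] at hcount
        exact one_ne_zero hcount
      have h2 : Q ≠ P₂ := by
        rintro rfl
        have hcount := IsDedekindDomain.ramificationIdx_eq_normalizedFactors_count 𝔪 Q h0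
        rw [Multiset.count_eq_zero_of_notMem hQ, e₂] at hcount
        exact one_ne_zero hcount
      symm
      rw [Multiset.count_eq_zero]
      simp [h1, h2]
  have hprod : (UniqueFactorizationMonoid.normalizedFactors I).prod = I :=
    associated_iff_eq.mp (UniqueFactorizationMonoid.prod_normalizedFactors h0)
  rw [← hprod, hfac]
  have : ({P₁, P₂} : Multiset (Ideal B)).prod = P₁ * P₂ := by
    simp [Multiset.insert_eq_cons]
  rw [this]
  exact Ideal.mul_eq_inf_of_isCoprime (Ideal.isCoprime_of_isMaximal hne)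

/-- `f = 1` means that every element is congruent to an element of the base ring. -/
theorem exists_sub_mem_of_inertiaDeg_eq_one (𝔪 : Ideal A) [𝔪.IsMaximal] (P : Ideal B)
    [P.IsMaximal] [P.LiesOver 𝔪] (hf : P.inertiaDeg A = 1) (b : B) :
    ∃ a : A, b - algebraMap A B a ∈ P := by
  rw [Ideal.inertiaDeg_eq_of_isMaximal 𝔪 P] at hf
  letI : Field (A ⧸ 𝔪) := Ideal.Quotient.field 𝔪
  letI : Field (B ⧸ P) := Ideal.Quotient.field P
  have htop : (⊥ : Subalgebra (A ⧸ 𝔪) (B ⧸ P)) = ⊤ := Subalgebra.bot_eq_top_of_finrank_eq_one hf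
  have hmem : Ideal.Quotient.mk P b ∈ (⊥ : Subalgebra (A ⧸ 𝔪) (B ⧸ P)) := by
    rw [htop]; trivial
  obtain ⟨c, hc⟩ := Algebra.mem_bot.mp hmem
  obtain ⟨a, rfl⟩ := Ideal.Quotient.mk_surjective c
  refine ⟨a, ?_⟩
  rw [← Ideal.Quotient.eq, ← hc]
  rfl

/-- **(T3), general base.** `A` a domain, `𝔪 ≠ ⊥` a maximal ideal, `B` a Dedekind domain, finite free
of rank `l + 1` over `A` (`l ≥ 2`), `P₁` a maximal ideal over `𝔪` whose residue degree is divisible
by `l`.  Then there is exactly one more prime `P₂` over `𝔪`; `𝔪 B = P₁ ⊓ P₂` (so `e₁ = e₂ = 1`),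
`f₁ = l`, `f₂ = 1`. -/
theorem exists_second_prime_of_isMaximal (𝔪 : Ideal A) [𝔪.IsMaximal] (h𝔪 : 𝔪 ≠ ⊥) {l : ℕ}
    (hl : 2 ≤ l) (hrank : Module.finrank A B = l + 1) (P₁ : Ideal B) [P₁.IsMaximal]
    [P₁.LiesOver 𝔪] (hf : l ∣ Module.finrank (A ⧸ 𝔪) (B ⧸ P₁)) :
    ∃ P₂ : Ideal B, P₂.IsMaximal ∧ P₂.LiesOver 𝔪 ∧ P₂ ≠ P₁ ∧ 𝔪.primesOver B = {P₁, P₂} ∧
      𝔪.map (algebraMap A B) = P₁ ⊓ P₂ ∧ (∀ b : B, ∃ a : A, b - algebraMap A B a ∈ P₂) ∧
      Module.finrank (A ⧸ 𝔪) (B ⧸ P₁) = l := by
  obtain ⟨m, hm⟩ := hf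
  have hf' : P₁.inertiaDeg A = l * m := by
    rw [Ideal.inertiaDeg_eq_of_isMaximal 𝔪 P₁, hm]
  obtain ⟨hm1, e₁, P₂, hP₂p, hP₂lo, hne, e₂, f₂, hpair⟩ := exists_other_prime 𝔪 hl hrank P₁ hf'
  have hP₂max : P₂.IsMaximal := Ideal.IsMaximal.of_liesOver_isMaximal P₂ 𝔪
  have hinj : Function.Injective (algebraMap A B) := by
    have : Nontrivial B := inferInstance
    exact FaithfulSMul.algebraMap_injective A B
  have h0 : 𝔪.map (algebraMap A B) ≠ ⊥ := by
    rw [Ne, Ideal.map_eq_bot_iff_of_injective hinj]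
    exact h𝔪
  refine ⟨P₂, hP₂max, hP₂lo, hne, hpair, ?_, ?_, ?_⟩
  · exact map_eq_inf_of_primesOver_eq_pair 𝔪 h0 P₁ P₂ hne.symm hpair e₁ e₂
  · exact exists_sub_mem_of_inertiaDeg_eq_one 𝔪 P₂ f₂
  · rw [hm, hm1, mul_one]

/-- **(T3), over a discrete valuation ring** (helper15's shape). -/
theorem exists_second_prime {A B : Type*} [CommRing A] [IsDomain A] [IsDiscreteValuationRing A]
    [CommRing B] [IsDedekindDomain B] [Algebra A B] [Module.Finite A B]
    [Module.Free A B] {l : ℕ} (hl : 2 ≤ l) (hrank : Module.finrank A B = l + 1) (P₁ : Ideal B)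
    [P₁.IsMaximal] [P₁.LiesOver (IsLocalRing.maximalIdeal A)]
    (hf : l ∣ Module.finrank (A ⧸ IsLocalRing.maximalIdeal A) (B ⧸ P₁)) :
    ∃ P₂ : Ideal B, P₂.IsMaximal ∧ P₂ ≠ P₁ ∧
      (IsLocalRing.maximalIdeal A).map (algebraMap A B) = P₁ ⊓ P₂ ∧
      (∀ b : B, ∃ a : A, b - algebraMap A B a ∈ P₂) ∧
      Module.finrank (A ⧸ IsLocalRing.maximalIdeal A) (B ⧸ P₁) = l := by
  obtain ⟨P₂, h1, -, h3, -, h5, h6, h7⟩ := exists_second_prime_of_isMaximal
    (IsLocalRing.maximalIdeal A) (IsDiscreteValuationRing.not_a_field A) hl hrank P₁ hf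
  exact ⟨P₂, h1, h3, h5, h6, h7⟩

end Dedekind


section Kummer

open Polynomial IntermediateField

/-- If `x ^ l = t` with `t ∈ κ` not an `l`-th power (`l` prime), then `l ∣ [E : κ]`. -/
theorem dvd_finrank_of_pow_eq {κ E : Type*} [Field κ] [Field E] [Algebra κ E] {l : ℕ}
    (hl : l.Prime) (x : E) (t : κ) (hx : x ^ l = algebraMap κ E t) (ht : ∀ a : κ, a ^ l ≠ t) :
    l ∣ Module.finrank κ E := by
  have hirr : Irreducible (X ^ l - C t : κ[X]) := X_pow_sub_C_irreducible_of_prime hl ht
  have hmonic : (X ^ l - C t : κ[X]).Monic := monic_X_pow_sub_C t hl.ne_zero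
  have hroot : aeval x (X ^ l - C t : κ[X]) = 0 := by
    simp [hx]
  have hmin : (X ^ l - C t : κ[X]) = minpoly κ x :=
    minpoly.eq_of_irreducible_of_monic hirr hroot hmonic
  have hint : IsIntegral κ x := ⟨_, hmonic, hroot⟩
  have h1 : Module.finrank κ κ⟮x⟯ = l := by
    rw [IntermediateField.adjoin.finrank hint, ← hmin, natDegree_X_pow_sub_C]
  have h2 := Module.finrank_mul_finrank κ κ⟮x⟯ E
  rw [h1] at h2
  exact ⟨_, h2.symm⟩

/-- **(T3')** how the divisibility `l ∣ f(P₁)` is produced: an element `x` of `B` with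
`x ^ l ≡ t mod P₁`, `t ∈ A` not an `l`-th power modulo `𝔪`. -/
theorem dvd_finrank_quotient_of_pow_sub_mem {A B : Type*} [CommRing A] [CommRing B] [Algebra A B]
    (𝔪 : Ideal A) [𝔪.IsMaximal] (P₁ : Ideal B) [P₁.IsMaximal] [P₁.LiesOver 𝔪] {l : ℕ}
    (hlp : l.Prime) (x : B) (t : A) (hx : x ^ l - algebraMap A B t ∈ P₁)
    (ht : ∀ a : A, a ^ l - t ∉ 𝔪) : l ∣ Module.finrank (A ⧸ 𝔪) (B ⧸ P₁) := by
  letI : Field (A ⧸ 𝔪) := Ideal.Quotient.field 𝔪
  letI : Field (B ⧸ P₁) := Ideal.Quotient.field P₁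
  refine dvd_finrank_of_pow_eq hlp (Ideal.Quotient.mk P₁ x) (Ideal.Quotient.mk 𝔪 t) ?_ ?_
  · rw [Ideal.Quotient.algebraMap_mk_of_liesOver, ← map_pow, Ideal.Quotient.eq]
    exact hx
  · intro c hc
    obtain ⟨a, rfl⟩ := Ideal.Quotient.mk_surjective c
    rw [← map_pow, Ideal.Quotient.eq] at hc
    exact ht a hc

end Kummer

section CharpolyIntegral

open Polynomial Module

section Integral

variable {R₀ F V : Type*} [CommRing R₀] [Field F] [Algebra R₀ F] [AddCommGroup V] [Module F V]
  [FiniteDimensional F V]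

/-- If an endomorphism `f` of a finite-dimensional `F`-vector space is killed by a monic polynomial
with coefficients in `R₀`, then all coefficients of its characteristic polynomial are integral over
`R₀`. -/
theorem isIntegral_charpoly_coeff_of_aeval_eq_zero (f : Module.End F V) (p : R₀[X]) (hp : p.Monic)
    (hpf : aeval f (p.map (algebraMap R₀ F)) = 0) (i : ℕ) :
    IsIntegral R₀ (f.charpoly.coeff i) := by
  let Ω := AlgebraicClosure F
  let fΩ : Module.End Ω (TensorProduct F Ω V) := f.baseChange Ω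
  have hch : fΩ.charpoly = f.charpoly.map (algebraMap F Ω) := LinearMap.charpoly_baseChange f Ω
  -- `fΩ` is killed by `p`
  have hpΩ : aeval fΩ (p.map (algebraMap R₀ Ω)) = 0 := by
    have h1 : fΩ = Module.End.baseChangeHom F Ω V f := rfl
    have h2 : p.map (algebraMap R₀ Ω) = (p.map (algebraMap R₀ F)).map (algebraMap F Ω) := by
      rw [Polynomial.map_map, ← IsScalarTower.algebraMap_eq]
    rw [h2, aeval_map_algebraMap, h1, aeval_algHom_apply, hpf, map_zero]
  have key : IsIntegral R₀ ((f.charpoly.map (algebraMap F Ω)).coeff i) := by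
    refine isIntegral_coeff_of_factors _ ?_ (IsAlgClosed.splits _) ?_ i
    · rw [(f.charpoly_monic.map _).leadingCoeff]
      exact isIntegral_one
    · intro x hx
      rw [← hch] at hx
      obtain ⟨v, hv⟩ := ((Module.End.hasEigenvalue_iff_isRoot_charpoly fΩ x).mpr hx).exists_hasEigenvector
      have h3 := Module.End.aeval_apply_of_hasEigenvector (p := p.map (algebraMap R₀ Ω)) hv
      rw [hpΩ, LinearMap.zero_apply] at h3
      have h4 : (p.map (algebraMap R₀ Ω)).eval x = 0 := by
        rcases smul_eq_zero.mp h3.symm with h | h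
        · exact h
        · exact absurd h hv.2
      refine ⟨p, hp, ?_⟩
      rw [← h4, eval_map]
  rw [coeff_map] at key
  exact (isIntegral_algebraMap_iff (FaithfulSMul.algebraMap_injective F Ω)).mp key

end Integral

section IntegrallyClosed

variable {R₀ F F' : Type*} [CommRing R₀] [IsDomain R₀] [IsIntegrallyClosed R₀] [Field F]
  [Algebra R₀ F] [IsFractionRing R₀ F] [CommRing F'] [Algebra F F'] [Algebra R₀ F']
  [IsScalarTower R₀ F F'] [FiniteDimensional F F']

omit [IsDomain R₀] [IsIntegrallyClosed R₀] [IsFractionRing R₀ F] in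
theorem isIntegral_charpoly_lmul_coeff (b : F') (hb : IsIntegral R₀ b) (i : ℕ) :
    IsIntegral R₀ ((Algebra.lmul F F' b).charpoly.coeff i) := by
  obtain ⟨p, hp, hpb⟩ := hb
  refine isIntegral_charpoly_coeff_of_aeval_eq_zero _ p hp ?_ i
  rw [aeval_algHom_apply, aeval_map_algebraMap, aeval_def, hpb, map_zero]

/-- **(T5)** `R₀` integrally closed with fraction field `F`, `F'` a finite `F`-algebra, `b ∈ F'`
integral over `R₀`: every coefficient of the characteristic polynomial of `b` lies in `R₀`. -/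
theorem charpoly_coeff_mem_of_isIntegral (b : F') (hb : IsIntegral R₀ b) (i : ℕ) :
    ∃ r : R₀, algebraMap R₀ F r = (Algebra.lmul F F' b).charpoly.coeff i :=
  IsIntegrallyClosed.isIntegral_iff.mp (isIntegral_charpoly_lmul_coeff b hb i)

/-- Polynomial form of (T5): the characteristic polynomial of an integral element is the image of
a monic polynomial over `R₀`. -/
theorem exists_monic_map_eq_charpoly (b : F') (hb : IsIntegral R₀ b) :
    ∃ q : R₀[X], q.Monic ∧ q.map (algebraMap R₀ F) = (Algebra.lmul F F' b).charpoly := by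
  have hlift : (Algebra.lmul F F' b).charpoly ∈ Polynomial.lifts (algebraMap R₀ F) := by
    rw [Polynomial.lifts_iff_coeff_lifts]
    intro n
    obtain ⟨r, hr⟩ := charpoly_coeff_mem_of_isIntegral (R₀ := R₀) (F := F) b hb n
    exact ⟨r, hr⟩
  obtain ⟨q, hq, -, hqm⟩ := Polynomial.lifts_and_degree_eq_and_monic hlift
    (LinearMap.charpoly_monic _)
  exact ⟨q, hqm, hq⟩

end IntegrallyClosed


end CharpolyIntegral

section IC

open IsLocalRing

section IntegralClosure

variable {A K L C : Type*} [CommRing A] [IsDomain A] [IsDiscreteValuationRing A] [Field K]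
  [Algebra A K] [IsFractionRing A K] [Field L] [Algebra K L] [Algebra A L] [IsScalarTower A K L]
  [FiniteDimensional K L] [Algebra.IsSeparable K L]
  [CommRing C] [IsDomain C] [Algebra C L] [Algebra A C] [IsScalarTower A C L]
  [IsIntegralClosure C A L]

variable (A K L C) in
/-- Structure of the integral closure of a discrete valuation ring in a finite separable
extension: Dedekind, finite free of rank `[L : K]`. -/
theorem integralClosure_structure :
    IsDedekindDomain C ∧ Module.Finite A C ∧ Module.Free A C ∧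
      Module.finrank A C = Module.finrank K L := by
  have hinj : Function.Injective (algebraMap A L) := by
    rw [IsScalarTower.algebraMap_eq A K L]
    exact (algebraMap K L).injective.comp (IsFractionRing.injective A K)
  have : Module.IsTorsionFree A L := by
    have : FaithfulSMul A L := (faithfulSMul_iff_algebraMap_injective A L).mpr hinj
    infer_instance
  exact ⟨IsIntegralClosure.isDedekindDomain A K L C, IsIntegralClosure.finite A K L C,
    IsIntegralClosure.module_free A K L C, IsIntegralClosure.rank A K L C⟩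

/-- **(T3) + (T3') for the integral closure `C` of a discrete valuation ring `A` in a finite
separable extension `L / K` of degree `l + 1`** (`l` prime): a maximal ideal `P₁` of `C` over `𝔪_A`
modulo which some `x ^ l` is congruent to `t ∈ A`, `t` not an `l`-th power modulo `𝔪_A`, has residue
degree `l`; there is exactly one more prime `P₂` over `𝔪_A`; `𝔪_A C = P₁ ⊓ P₂`; `C = A + P₂`. -/
theorem exists_second_prime_integralClosure {l : ℕ} (hlp : l.Prime)
    (hdeg : Module.finrank K L = l + 1) (P₁ : Ideal C) [P₁.IsMaximal]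
    [P₁.LiesOver (maximalIdeal A)] (x : C) (t : A) (hx : x ^ l - algebraMap A C t ∈ P₁)
    (ht : ∀ a : A, a ^ l - t ∉ maximalIdeal A) :
    ∃ P₂ : Ideal C, P₂.IsMaximal ∧ P₂.LiesOver (maximalIdeal A) ∧ P₂ ≠ P₁ ∧
      (maximalIdeal A).primesOver C = {P₁, P₂} ∧
      (maximalIdeal A).map (algebraMap A C) = P₁ ⊓ P₂ ∧
      (∀ b : C, ∃ a : A, b - algebraMap A C a ∈ P₂) ∧
      Module.finrank (A ⧸ maximalIdeal A) (C ⧸ P₁) = l := by
  obtain ⟨h1, h2, h3, h4⟩ := integralClosure_structure A K L C
  exact exists_second_prime_of_isMaximal (maximalIdeal A) (IsDiscreteValuationRing.not_a_field A)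
    hlp.two_le (h4.trans hdeg) P₁
    (dvd_finrank_quotient_of_pow_sub_mem (maximalIdeal A) P₁ hlp x t hx ht)

variable (K L) in
include K L in
/-- The kernel of a ring homomorphism from the integral closure `C` to a domain which kills `𝔪_A`
is a maximal ideal of `C` lying over `𝔪_A` (how `P₁` is produced from a reduction map). -/
theorem isMaximal_liesOver_ker {E : Type*} [CommRing E] [IsDomain E] (θ : C →+* E)
    (hθ : ∀ a ∈ maximalIdeal A, θ (algebraMap A C a) = 0) :
    (RingHom.ker θ).IsMaximal ∧ (RingHom.ker θ).LiesOver (maximalIdeal A) := by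
  obtain ⟨h1, h2, h3, h4⟩ := integralClosure_structure A K L C
  have hprime : (RingHom.ker θ).IsPrime := RingHom.ker_isPrime θ
  have hle : (maximalIdeal A).map (algebraMap A C) ≤ RingHom.ker θ := by
    rw [Ideal.map_le_iff_le_comap]
    intro a ha
    exact hθ a ha
  have hinj : Function.Injective (algebraMap A C) := by
    have hinj' : Function.Injective (algebraMap A L) := by
      rw [IsScalarTower.algebraMap_eq A K L]
      exact (algebraMap K L).injective.comp (IsFractionRing.injective A K)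
    rw [IsScalarTower.algebraMap_eq A C L] at hinj'
    exact Function.Injective.of_comp hinj'
  have hne : RingHom.ker θ ≠ ⊥ := by
    obtain ⟨ϖ, hϖ⟩ := IsDiscreteValuationRing.exists_irreducible A
    intro hbot
    have h5 : algebraMap A C ϖ ∈ RingHom.ker θ :=
      hθ ϖ ((IsDiscreteValuationRing.irreducible_iff_uniformizer ϖ).mp hϖ ▸
        Ideal.mem_span_singleton_self ϖ)
    rw [hbot, Ideal.mem_bot] at h5
    exact hϖ.ne_zero (hinj (h5.trans (map_zero _).symm))
  exact ⟨hprime.isMaximal hne, liesOver_of_map_le _ _ hprime.ne_top hle⟩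

end IntegralClosure


end IC

end Fermat.Agent.N4F.E.TwoPrimes
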