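/-
N4-FULL / block E (helper15): **the abstract one-sided theorem (T)** (moonshots #27 §2).

`A` a discrete valuation ring with fraction field `F`, `L / F` finite separable of degree `l + 1`
(`l` prime), `C` the integral closure of `A` in `L`, `Ω` a field of characteristic `l`,
`θ : A → Ω` a reduction map (killing `𝔪_A`), `φ : Ω → Ω` a ring endomorphism and
`π₁ : C → Ω` a ring homomorphism with `π₁ ∘ algebraMap = φ ∘ θ` (a place of `C` whose residue
extension is "twisted by `φ`").  Assume a *Kummer pair* `x₀ ∈ C`, `t₀ ∈ A` with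
`π₁ x₀ ^ l = φ (θ t₀)` and `θ t₀` not an `l`-th power in `θ A`.  Then

* (T1) there is a second place `π₂ : C → Ω` with `π₂ ∘ algebraMap = θ` and `ker π₂ ≠ ker π₁`;
* (T2) for every such `π₂`: the maximal ideals of `C` are exactly `ker π₁` and `ker π₂`, and
  `π₂` has residue degree one (`∀ b, ∃ a, π₂ b = θ a`, even `b - a ∈ ker π₂`);
* (T3) the generalised Kronecker congruence: for `b ∈ C` with `π₁ b ^ l = φ (θ c)` and
  `π₂ b = θ μ`, the characteristic polynomial of `b` over `F` is the image of a monic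
  `q ∈ A[X]` with `q.map θ = (X ^ l - C (θ c)) * (X - C (θ μ))`.

In block E this is used twice: for `L = FF K (N l)` over `FF K N` via `β` (with `π₁` the Gauss
reduction at level `N l`, `x₀ = α j`, `t₀ = j`), producing the second place `ev`, and then via `α`
(with `π₁ = ev`, `x₀ = β j`, `t₀ = j`, `π₂` the Gauss reduction).
-/
import Mathlib
import Fermat.Agent.N4F.E.TwoPrimes
import Fermat.Agent.N4F.E.KroneckerAbstract

set_option autoImplicit false
set_option linter.unusedSectionVars false
set_option linter.style.haveILetI false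

namespace Fermat.Agent.N4F.E.KummerPlace

open Polynomial IsLocalRing

/-! ### A place of residue degree one, as a ring homomorphism -/

section DegreeOne

variable {A C Ω : Type*} [CommRing A] [IsLocalRing A] [CommRing C] [Algebra A C] [Field Ω]
  (θ : A →+* Ω) (hθ : ∀ a ∈ maximalIdeal A, θ a = 0)
  (P : Ideal C) [P.LiesOver (maximalIdeal A)]
  (hP : ∀ b : C, ∃ a : A, b - algebraMap A C a ∈ P)

include hθ in
theorem theta_eq_of_sub_mem {a a' : A} {b : C} (h : b - algebraMap A C a ∈ P)
    (h' : b - algebraMap A C a' ∈ P) : θ a = θ a' := by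
  have h1 : algebraMap A C (a' - a) ∈ P := by
    have := P.sub_mem h h'
    rwa [sub_sub_sub_cancel_left, ← map_sub] at this
  have h2 : a' - a ∈ maximalIdeal A := by
    rw [P.over_def (maximalIdeal A)]
    exact h1
  have h3 := hθ _ h2
  rw [map_sub, sub_eq_zero] at h3
  exact h3.symm

/-- The ring homomorphism `C → Ω`, `b ↦ θ a` for `b ≡ a mod P`. -/
noncomputable def evOf : C →+* Ω where
  toFun b := θ (hP b).choose
  map_one' := by
    have h1 : (1 : C) - algebraMap A C 1 ∈ P := by rw [map_one, sub_self]; exact P.zero_mem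
    rw [theta_eq_of_sub_mem θ hθ P (hP 1).choose_spec h1, map_one]
  map_mul' b b' := by
    have h1 : b * b' - algebraMap A C ((hP b).choose * (hP b').choose) ∈ P := by
      have e : b * b' - algebraMap A C ((hP b).choose * (hP b').choose) =
          (b - algebraMap A C (hP b).choose) * b' +
            algebraMap A C (hP b).choose * (b' - algebraMap A C (hP b').choose) := by
        rw [map_mul]; ring
      rw [e]
      exact P.add_mem (P.mul_mem_right _ (hP b).choose_spec) (P.mul_mem_left _ (hP b').choose_spec)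
    rw [theta_eq_of_sub_mem θ hθ P (hP (b * b')).choose_spec h1, map_mul]
  map_zero' := by
    have h1 : (0 : C) - algebraMap A C 0 ∈ P := by rw [map_zero, sub_self]; exact P.zero_mem
    rw [theta_eq_of_sub_mem θ hθ P (hP 0).choose_spec h1, map_zero]
  map_add' b b' := by
    have h1 : b + b' - algebraMap A C ((hP b).choose + (hP b').choose) ∈ P := by
      have e : b + b' - algebraMap A C ((hP b).choose + (hP b').choose) =
          (b - algebraMap A C (hP b).choose) + (b' - algebraMap A C (hP b').choose) := by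
        rw [map_add]; ring
      rw [e]
      exact P.add_mem (hP b).choose_spec (hP b').choose_spec
    rw [theta_eq_of_sub_mem θ hθ P (hP (b + b')).choose_spec h1, map_add]

theorem evOf_eq {b : C} {a : A} (h : b - algebraMap A C a ∈ P) : evOf θ hθ P hP b = θ a :=
  theta_eq_of_sub_mem θ hθ P (hP b).choose_spec h

theorem evOf_algebraMap (a : A) : evOf θ hθ P hP (algebraMap A C a) = θ a :=
  evOf_eq θ hθ P hP (by rw [sub_self]; exact P.zero_mem)

omit hθ in
theorem theta_eq_zero_iff (hθ : ∀ a ∈ maximalIdeal A, θ a = 0) (a : A) :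
    θ a = 0 ↔ a ∈ maximalIdeal A := by
  refine ⟨fun h => ?_, hθ a⟩
  by_contra hne
  have hu : IsUnit a := by
    by_contra hnu
    exact hne ((mem_maximalIdeal a).mpr hnu)
  exact (hu.map θ).ne_zero h

theorem ker_evOf : RingHom.ker (evOf θ hθ P hP) = P := by
  ext b
  obtain ⟨a, ha⟩ := hP b
  rw [RingHom.mem_ker, evOf_eq θ hθ P hP ha, theta_eq_zero_iff θ hθ,
    P.over_def (maximalIdeal A), Ideal.mem_comap]
  constructor
  · intro h
    have := P.add_mem ha h
    rwa [sub_add_cancel] at this
  · intro h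
    have := P.sub_mem h ha
    rwa [sub_sub_cancel] at this

end DegreeOne

/-! ### Characteristic polynomials over `A` and over `F` -/

section Charpoly

variable {A F L : Type*} [CommRing A] [IsDomain A] [IsDiscreteValuationRing A] [Field F]
  [Algebra A F] [IsFractionRing A F] [Field L] [Algebra F L] [Algebra A L] [IsScalarTower A F L]
  [FiniteDimensional F L] [Algebra.IsSeparable F L]

/-- The characteristic polynomial over `F` of an element of the integral closure `C` of `A` in `L`
is the image of its characteristic polynomial over `A` (on the finite free `A`-module `C`). -/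
theorem charpoly_lmul_eq_map [Module.Finite A (integralClosure A L)]
    [Module.Free A (integralClosure A L)] (b : integralClosure A L) :
    (Algebra.lmul F L (b : L)).charpoly =
      ((Algebra.lmul A (integralClosure A L) b).charpoly).map (algebraMap A F) := by
  classical
  let bas := Module.Free.chooseBasis A (integralClosure A L)
  haveI : IsLocalization (Algebra.algebraMapSubmonoid (integralClosure A L)
      (nonZeroDivisors A)) L :=
    IsIntegralClosure.isLocalization A F L (integralClosure A L)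
  let bas' := bas.localizationLocalization F (nonZeroDivisors A) L
  rw [← LinearMap.charpoly_toMatrix _ bas', ← LinearMap.charpoly_toMatrix _ bas,
    ← Algebra.leftMulMatrix_apply, ← Algebra.leftMulMatrix_apply, ← Matrix.charpoly_map]
  congr 1
  exact (Algebra.map_leftMulMatrix_localization A (nonZeroDivisors A) bas b).symm

end Charpoly

/-! ### Theorem (T) -/

section Main

variable {A F L : Type*} [CommRing A] [IsDomain A] [IsDiscreteValuationRing A] [Field F]
  [Algebra A F] [IsFractionRing A F] [Field L] [Algebra F L] [Algebra A L] [IsScalarTower A F L]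
  [FiniteDimensional F L] [Algebra.IsSeparable F L]
  {Ω : Type*} [Field Ω] {l : ℕ} [hl : Fact l.Prime] [CharP Ω l]
  (hdeg : Module.finrank F L = l + 1)
  (θ : A →+* Ω) (hθ : ∀ a ∈ maximalIdeal A, θ a = 0) (φ : Ω →+* Ω)
  (π₁ : integralClosure A L →+* Ω)
  (hπ₁ : ∀ a : A, π₁ (algebraMap A (integralClosure A L) a) = φ (θ a))
  (x₀ : integralClosure A L) (t₀ : A) (hx₀ : π₁ x₀ ^ l = φ (θ t₀))
  (ht₀ : ∀ a : A, θ a ^ l ≠ θ t₀)

include hdeg hθ hπ₁ hx₀ ht₀ in
/-- The output of the counting lemma for `P₁ = ker π₁`. -/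
theorem exists_second_prime :
    ∃ P₂ : Ideal (integralClosure A L), P₂.IsMaximal ∧ P₂.LiesOver (maximalIdeal A) ∧
      P₂ ≠ RingHom.ker π₁ ∧
      (maximalIdeal A).primesOver (integralClosure A L) = {RingHom.ker π₁, P₂} ∧
      (∀ b : integralClosure A L, ∃ a : A, b - algebraMap A (integralClosure A L) a ∈ P₂) := by
  have h1 := TwoPrimes.isMaximal_liesOver_ker F L π₁
    (fun a ha => by rw [hπ₁, hθ a ha, map_zero])
  haveI := h1.1
  haveI := h1.2
  have hx : x₀ ^ l - algebraMap A (integralClosure A L) t₀ ∈ RingHom.ker π₁ := by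
    rw [RingHom.mem_ker, map_sub, map_pow, hπ₁, hx₀, sub_self]
  have ht : ∀ a : A, a ^ l - t₀ ∉ maximalIdeal A := by
    intro a ha
    have := hθ _ ha
    rw [map_sub, map_pow, sub_eq_zero] at this
    exact ht₀ a this
  obtain ⟨P₂, hP₂max, hP₂lo, hP₂ne, hpair, -, hsurj, -⟩ :=
    TwoPrimes.exists_second_prime_integralClosure (K := F) (L := L) hl.out hdeg
      (RingHom.ker π₁) x₀ t₀ hx ht
  exact ⟨P₂, hP₂max, hP₂lo, hP₂ne, hpair, hsurj⟩

include hdeg hθ hπ₁ hx₀ ht₀ in
/-- **(T1)** the second place. -/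
theorem exists_ev :
    ∃ π₂ : integralClosure A L →+* Ω,
      (∀ a : A, π₂ (algebraMap A (integralClosure A L) a) = θ a) ∧
        RingHom.ker π₂ ≠ RingHom.ker π₁ := by
  obtain ⟨P₂, -, hP₂lo, hP₂ne, -, hsurj⟩ :=
    exists_second_prime hdeg θ hθ φ π₁ hπ₁ x₀ t₀ hx₀ ht₀
  haveI := hP₂lo
  refine ⟨evOf θ hθ P₂ hsurj, evOf_algebraMap θ hθ P₂ hsurj, ?_⟩
  rw [ker_evOf]
  exact hP₂ne

variable (π₂ : integralClosure A L →+* Ω)
  (hπ₂ : ∀ a : A, π₂ (algebraMap A (integralClosure A L) a) = θ a)
  (hne : RingHom.ker π₂ ≠ RingHom.ker π₁)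

include hdeg hθ hπ₁ hx₀ ht₀ hπ₂ hne in
/-- **(T2)** the maximal ideals of `C` are `ker π₁` and `ker π₂`; `π₂` has residue degree one. -/
theorem primesOver_eq :
    (maximalIdeal A).primesOver (integralClosure A L) = {RingHom.ker π₁, RingHom.ker π₂} ∧
      (∀ b : integralClosure A L, ∃ a : A,
        b - algebraMap A (integralClosure A L) a ∈ RingHom.ker π₂) := by
  obtain ⟨P₂, -, -, -, hpair, hsurj⟩ :=
    exists_second_prime hdeg θ hθ φ π₁ hπ₁ x₀ t₀ hx₀ ht₀
  have h2 := TwoPrimes.isMaximal_liesOver_ker F L π₂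
    (fun a ha => by rw [hπ₂, hθ a ha])
  have hmem : RingHom.ker π₂ ∈ (maximalIdeal A).primesOver (integralClosure A L) :=
    ⟨h2.1.isPrime, h2.2⟩
  rw [hpair] at hmem
  rcases hmem with h | h
  · exact absurd h hne
  · have h' : RingHom.ker π₂ = P₂ := h
    rw [h']
    exact ⟨hpair, hsurj⟩

include hdeg hθ hπ₁ hx₀ ht₀ hπ₂ hne in
theorem isMaximal_iff (P : Ideal (integralClosure A L)) :
    P.IsMaximal ↔ P = RingHom.ker π₁ ∨ P = RingHom.ker π₂ := by
  obtain ⟨hpair, -⟩ := primesOver_eq hdeg θ hθ φ π₁ hπ₁ x₀ t₀ hx₀ ht₀ π₂ hπ₂ hne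
  constructor
  · intro hP
    have hint : Algebra.IsIntegral A (integralClosure A L) := inferInstance
    have hmax : (P.under A).IsMaximal :=
      Ideal.isMaximal_comap_of_isIntegral_of_isMaximal P
    have hlo : P.LiesOver (maximalIdeal A) := ⟨(IsLocalRing.eq_maximalIdeal hmax).symm⟩
    have hmem : P ∈ (maximalIdeal A).primesOver (integralClosure A L) := ⟨hP.isPrime, hlo⟩
    rw [hpair] at hmem
    exact hmem
  · rintro (h | h)
    · rw [h]
      exact (TwoPrimes.isMaximal_liesOver_ker F L π₁
        (fun a ha => by rw [hπ₁, hθ a ha, map_zero])).1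
    · rw [h]
      exact (TwoPrimes.isMaximal_liesOver_ker F L π₂ (fun a ha => by rw [hπ₂, hθ a ha])).1

set_option synthInstance.maxHeartbeats 400000 in
set_option maxHeartbeats 1600000 in
include hdeg hθ hπ₁ hx₀ ht₀ hπ₂ hne in
/-- **(T3)** the generalised Kronecker congruence. -/
theorem kronecker (b : integralClosure A L) (c μ : A) (hc : π₁ b ^ l = φ (θ c))
    (hμ : π₂ b = θ μ) :
    ∃ q : A[X], q.Monic ∧ q.map (algebraMap A F) = (Algebra.lmul F L (b : L)).charpoly ∧
      q.map θ = (X ^ l - C (θ c)) * (X - C (θ μ)) := by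
  obtain ⟨hDed, hfin, hfree, hrank⟩ :=
    TwoPrimes.integralClosure_structure A F L (integralClosure A L)
  haveI := hDed
  haveI := hfin
  haveI := hfree
  have h1 := TwoPrimes.isMaximal_liesOver_ker F L π₁
    (fun a ha => by rw [hπ₁, hθ a ha, map_zero])
  haveI := h1.1
  haveI := h1.2
  have h2 := TwoPrimes.isMaximal_liesOver_ker F L π₂ (fun a ha => by rw [hπ₂, hθ a ha])
  haveI := h2.1
  haveI := h2.2
  have hx : x₀ ^ l - algebraMap A (integralClosure A L) t₀ ∈ RingHom.ker π₁ := by
    rw [RingHom.mem_ker, map_sub, map_pow, hπ₁, hx₀, sub_self]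
  have ht : ∀ a : A, a ^ l - t₀ ∉ maximalIdeal A := by
    intro a ha
    have := hθ _ ha
    rw [map_sub, map_pow, sub_eq_zero] at this
    exact ht₀ a this
  obtain ⟨P₂, -, -, -, hpair, -, hsurj, hf₁⟩ :=
    TwoPrimes.exists_second_prime_integralClosure (K := F) (L := L) hl.out hdeg
      (RingHom.ker π₁) x₀ t₀ hx ht
  have hmem : RingHom.ker π₂ ∈ (maximalIdeal A).primesOver (integralClosure A L) :=
    ⟨h2.1.isPrime, h2.2⟩
  rw [hpair] at hmem
  have hP₂ : RingHom.ker π₂ = P₂ := by
    rcases hmem with h | h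
    · exact absurd h hne
    · exact h
  rw [← hP₂] at hsurj
  -- the residue field
  letI : Field (A ⧸ maximalIdeal A) := Ideal.Quotient.field _
  let θbar : A ⧸ maximalIdeal A →+* Ω := Ideal.Quotient.lift (maximalIdeal A) θ hθ
  haveI : CharP (A ⧸ maximalIdeal A) l := RingHom.charP θbar θbar.injective l
  haveI : Nontrivial (integralClosure A L ⧸ RingHom.ker π₂) :=
    Ideal.Quotient.nontrivial_iff.mpr h2.1.ne_top
  haveI : Module.Free (A ⧸ maximalIdeal A) (integralClosure A L ⧸ RingHom.ker π₂) :=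
    Module.Free.of_divisionRing _ _
  -- residue degree one at `ker π₂`
  have hD₂ : Module.finrank (A ⧸ maximalIdeal A) (integralClosure A L ⧸ RingHom.ker π₂) = 1 := by
    rw [← Subalgebra.bot_eq_top_iff_finrank_eq_one, eq_comm, ← Algebra.surjective_algebraMap_iff]
    intro y
    obtain ⟨b', rfl⟩ := Ideal.Quotient.mk_surjective y
    obtain ⟨a, ha⟩ := hsurj b'
    refine ⟨Ideal.Quotient.mk _ a, ?_⟩
    rw [Ideal.Quotient.algebraMap_mk_of_liesOver, eq_comm, Ideal.Quotient.eq]
    exact ha
  have hk : ∀ (P : Ideal (integralClosure A L)),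
      RingHom.ker (Ideal.Quotient.mkₐ A P) = P := by
    intro P
    ext y
    rw [RingHom.mem_ker]
    exact Ideal.Quotient.eq_zero_iff_mem
  have hcop : IsCoprime (RingHom.ker (Ideal.Quotient.mkₐ A (RingHom.ker π₁)))
      (RingHom.ker (Ideal.Quotient.mkₐ A (RingHom.ker π₂))) := by
    rw [hk, hk]
    exact Ideal.isCoprime_of_isMaximal (Ne.symm hne)
  have hc' : (Ideal.Quotient.mkₐ A (RingHom.ker π₁) b) ^ l =
      algebraMap (A ⧸ maximalIdeal A) (integralClosure A L ⧸ RingHom.ker π₁)
        (Ideal.Quotient.mk _ c) := by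
    rw [Ideal.Quotient.algebraMap_mk_of_liesOver, Ideal.Quotient.mkₐ_eq_mk, ← map_pow,
      Ideal.Quotient.eq, RingHom.mem_ker, map_sub, map_pow, hπ₁, hc, sub_self]
  have hμ' : Ideal.Quotient.mkₐ A (RingHom.ker π₂) b =
      algebraMap (A ⧸ maximalIdeal A) (integralClosure A L ⧸ RingHom.ker π₂)
        (Ideal.Quotient.mk _ μ) := by
    rw [Ideal.Quotient.algebraMap_mk_of_liesOver, Ideal.Quotient.mkₐ_eq_mk,
      Ideal.Quotient.eq, RingHom.mem_ker, map_sub, hπ₂, hμ, sub_self]
  have key := KroneckerAbstract.charpoly_map_eq_kronecker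
    (integralClosure A L ⧸ RingHom.ker π₁) (integralClosure A L ⧸ RingHom.ker π₂)
    (Ideal.Quotient.mkₐ A (RingHom.ker π₁)) (Ideal.Quotient.mkₐ A (RingHom.ker π₂)) l
    (Ideal.Quotient.mkₐ_surjective A _) (Ideal.Quotient.mkₐ_surjective A _) hcop
    (hrank.trans hdeg) hf₁ hD₂ b (Ideal.Quotient.mk _ c) (Ideal.Quotient.mk _ μ) hc' hμ'
  refine ⟨(Algebra.lmul A (integralClosure A L) b).charpoly, LinearMap.charpoly_monic _,
    (charpoly_lmul_eq_map b).symm, ?_⟩
  have hcomp : θbar.comp (algebraMap A (A ⧸ maximalIdeal A)) = θ := by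
    ext a
    rfl
  have key2 := congrArg (Polynomial.map θbar) key
  rw [Polynomial.map_map, hcomp] at key2
  rw [key2]
  simp only [Polynomial.map_mul, Polynomial.map_sub, Polynomial.map_pow, Polynomial.map_X,
    Polynomial.map_C]
  rfl

end Main

end Fermat.Agent.N4F.E.KummerPlace
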