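/-
N4-FULL / block E (helper3): consequences of the abstract one-sided theorem (T) of
`E/KummerPlace.lean`, in the same generic setting (`A` a DVR, `F = Frac A`, `L / F` finite separable
of degree `l + 1`, `C` the integral closure of `A` in `L`, two places `π₁, π₂ : C → Ω`):

* `ker_ne_of`: two places taking different values on a difference have different kernels;
* `isUnit_of_ne_zero`: an element of `C` on which neither place vanishes is a unit of `C`;
* `mem_integralClosure_of_mul_eq`: `y · b = a` with `a, b ∈ C`, `π₁ b ≠ 0 ≠ π₂ b` implies `y ∈ C`;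
* `norm_form`: the NORM FORM of the Kronecker congruence, `N_{L/F}(b) = ν ∈ A` with
  `θ ν = θ c · θ μ`;
and a few generalities on integral elements along ring homomorphisms.
-/
import Mathlib
import Fermat.Agent.N4F.E.KummerPlace

set_option autoImplicit false
set_option linter.unusedSectionVars false
set_option linter.style.haveILetI false

namespace Fermat.Agent.N4F.E.KummerNorm

open Polynomial IsLocalRing

/-! ### Generalities on integral elements -/

section Generic

variable {R S T : Type*} [CommRing R] [CommRing S] [CommRing T]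

/-- An element which belongs to no maximal ideal is a unit. -/
theorem isUnit_of_forall_maximal_notMem {x : R}
    (h : ∀ P : Ideal R, P.IsMaximal → x ∉ P) : IsUnit x := by
  by_contra hx
  obtain ⟨P, hP, hxP⟩ := exists_max_ideal_of_mem_nonunits (mem_nonunits_iff.mpr hx)
  exact h P hP hxP

/-- Integrality along `f` implies integrality along `g` when `f` factors through `g`. -/
theorem isIntegralElem_of_comp (f : R →+* T) (g : S →+* T) (k : R →+* S)
    (hk : ∀ r, g (k r) = f r) {y : T} (hy : f.IsIntegralElem y) : g.IsIntegralElem y := by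
  obtain ⟨p, hp, hpy⟩ := hy
  refine ⟨p.map k, hp.map _, ?_⟩
  rw [Polynomial.eval₂_map]
  have : g.comp k = f := RingHom.ext hk
  rw [this]
  exact hpy

/-- An element of the fraction field of an integrally closed domain `S`, integral along a map
factoring through `S`, lies in `S`. -/
theorem exists_algebraMap_eq_of_isIntegralElem {L : Type*} [Field L] [IsDomain S] [Algebra S L]
    [IsFractionRing S L] [IsIntegrallyClosed S] (f : R →+* L) (k : R →+* S)
    (hk : ∀ r, algebraMap S L (k r) = f r) {y : L} (hy : f.IsIntegralElem y) :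
    ∃ t : S, algebraMap S L t = y :=
  IsIntegrallyClosed.isIntegral_iff.mp (isIntegralElem_of_comp f (algebraMap S L) k hk hy)

/-- Integrality along `g` implies integrality along `g ∘ f` when `f` is surjective. -/
theorem isIntegralElem_comp_of_surjective [Nontrivial S] (f : R →+* S)
    (hf : Function.Surjective f) (g : S →+* T)
    {x : T} (hx : g.IsIntegralElem x) : (g.comp f).IsIntegralElem x := by
  obtain ⟨p, hp, hpx⟩ := hx
  have hmem : p ∈ Polynomial.lifts f := by
    rw [Polynomial.mem_lifts]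
    exact Polynomial.map_surjective f hf p
  obtain ⟨q, hq, -, hqm⟩ := Polynomial.lifts_and_degree_eq_and_monic hmem hp
  refine ⟨q, hqm, ?_⟩
  rw [← hq, Polynomial.eval₂_map] at hpx
  exact hpx

end Generic

/-! ### Two places with different kernels -/

section Ker

variable {C Ω : Type*} [CommRing C] [Field Ω]

theorem ker_ne_of (π₁ π₂ : C →+* Ω) (x y : C) (h2 : π₂ x = π₂ y) (h1 : π₁ x ≠ π₁ y) :
    RingHom.ker π₂ ≠ RingHom.ker π₁ := by
  intro h
  have hz : x - y ∈ RingHom.ker π₂ := by rw [RingHom.mem_ker, map_sub, h2, sub_self]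
  rw [h, RingHom.mem_ker, map_sub, sub_eq_zero] at hz
  exact h1 hz

end Ker

/-! ### Consequences of theorem (T) -/

section Main

variable {A F L : Type*} [CommRing A] [IsDomain A] [IsDiscreteValuationRing A] [Field F]
  [Algebra A F] [IsFractionRing A F] [Field L] [Algebra F L] [Algebra A L]
  [FiniteDimensional F L] [Algebra.IsSeparable F L]
  {Ω : Type*} [Field Ω] {l : ℕ} [hl : Fact l.Prime] [CharP Ω l]
  (htower : IsScalarTower A F L)
  (hdeg : Module.finrank F L = l + 1)
  (θ : A →+* Ω) (hθ : ∀ a ∈ maximalIdeal A, θ a = 0) (φ : Ω →+* Ω)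
  (π₁ : integralClosure A L →+* Ω)
  (hπ₁ : ∀ a : A, π₁ (algebraMap A (integralClosure A L) a) = φ (θ a))
  (x₀ : integralClosure A L) (t₀ : A) (hx₀ : π₁ x₀ ^ l = φ (θ t₀))
  (ht₀ : ∀ a : A, θ a ^ l ≠ θ t₀)
  (π₂ : integralClosure A L →+* Ω)
  (hπ₂ : ∀ a : A, π₂ (algebraMap A (integralClosure A L) a) = θ a)
  (hne : RingHom.ker π₂ ≠ RingHom.ker π₁)

include htower hdeg hθ hπ₁ hx₀ ht₀ hπ₂ hne in
/-- An element of `C` on which neither of the two places vanishes is a unit. -/
theorem isUnit_of_ne_zero (b : integralClosure A L) (h1 : π₁ b ≠ 0) (h2 : π₂ b ≠ 0) :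
    IsUnit b := by
  haveI := htower
  apply isUnit_of_forall_maximal_notMem
  intro P hP hbP
  rcases (KummerPlace.isMaximal_iff hdeg θ hθ φ π₁ hπ₁ x₀ t₀ hx₀ ht₀ π₂ hπ₂ hne P).mp hP with
    rfl | rfl
  · exact h1 hbP
  · exact h2 hbP

include htower hdeg hθ hπ₁ hx₀ ht₀ hπ₂ hne in
/-- A fraction `a / b` of elements of `C`, with `b` outside both maximal ideals, lies in `C`. -/
theorem mem_integralClosure_of_mul_eq (y : L) (a b : integralClosure A L) (h1 : π₁ b ≠ 0)
    (h2 : π₂ b ≠ 0) (h : y * (b : L) = (a : L)) : y ∈ integralClosure A L := by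
  obtain ⟨u, hu⟩ :=
    (isUnit_of_ne_zero htower hdeg θ hθ φ π₁ hπ₁ x₀ t₀ hx₀ ht₀ π₂ hπ₂ hne b h1 h2).exists_right_inv
  have hu' : (b : L) * (u : L) = 1 := by
    have := congrArg (Subtype.val : integralClosure A L → L) hu
    simpa using this
  have hy : y = ((a * u : integralClosure A L) : L) := by
    calc y = y * ((b : L) * (u : L)) := by rw [hu', mul_one]
      _ = (a : L) * (u : L) := by rw [← mul_assoc, h]
      _ = ((a * u : integralClosure A L) : L) := rfl
  rw [hy]
  exact (a * u).2

include htower hdeg hθ hπ₁ hx₀ ht₀ hπ₂ hne in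
/-- **The norm form of the Kronecker congruence.** -/
theorem norm_form (b : integralClosure A L) (c μ : A) (hc : π₁ b ^ l = φ (θ c))
    (hμ : π₂ b = θ μ) :
    ∃ ν : A, algebraMap A F ν = Algebra.norm F (b : L) ∧ θ ν = θ c * θ μ := by
  haveI := htower
  obtain ⟨q, -, hq2, hq3⟩ :=
    KummerPlace.kronecker hdeg θ hθ φ π₁ hπ₁ x₀ t₀ hx₀ ht₀ π₂ hπ₂ hne b c μ hc hμ
  have hcoeff : ((X ^ l - C (θ c)) * (X - C (θ μ))).coeff 0 = θ c * θ μ := by
    rw [mul_coeff_zero, coeff_sub, coeff_sub, coeff_X_pow, coeff_X_zero, coeff_C_zero,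
      coeff_C_zero, if_neg hl.out.ne_zero.symm]
    ring
  have hsign : (-1 : Ω) ^ (l + 1) = 1 := by
    rcases hl.out.eq_two_or_odd' with h2 | hodd
    · subst h2
      rw [CharTwo.neg_eq, one_pow]
    · exact Even.neg_one_pow hodd.add_one
  refine ⟨(-1) ^ (l + 1) * q.coeff 0, ?_, ?_⟩
  · rw [Algebra.norm_apply, LinearMap.det_eq_sign_charpoly_coeff, hdeg, ← hq2, coeff_map, map_mul,
      map_pow, map_neg, map_one]
  · rw [map_mul, map_pow, map_neg, map_one, ← coeff_map, hq3, hcoeff, hsign, one_mul]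

include htower hdeg hθ hπ₁ hx₀ ht₀ hπ₂ hne in
/-- `KummerPlace.kronecker` with the tower as an explicit hypothesis. -/
theorem kronecker' (b : integralClosure A L) (c μ : A) (hc : π₁ b ^ l = φ (θ c))
    (hμ : π₂ b = θ μ) :
    ∃ q : A[X], q.Monic ∧ q.map (algebraMap A F) = (Algebra.lmul F L (b : L)).charpoly ∧
      q.map θ = (X ^ l - C (θ c)) * (X - C (θ μ)) := by
  haveI := htower
  exact KummerPlace.kronecker hdeg θ hθ φ π₁ hπ₁ x₀ t₀ hx₀ ht₀ π₂ hπ₂ hne b c μ hc hμ

include htower hdeg hθ hπ₁ hx₀ ht₀ in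
/-- `KummerPlace.exists_ev` with the tower as an explicit hypothesis. -/
theorem exists_ev' :
    ∃ π₂ : integralClosure A L →+* Ω,
      (∀ a : A, π₂ (algebraMap A (integralClosure A L) a) = θ a) ∧
        RingHom.ker π₂ ≠ RingHom.ker π₁ := by
  haveI := htower
  exact KummerPlace.exists_ev hdeg θ hθ φ π₁ hπ₁ x₀ t₀ hx₀ ht₀

end Main

end Fermat.Agent.N4F.E.KummerNorm
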