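/-
N4-FULL / block E (helper3, hedge for E4): **the `α`-side of the Kronecker congruence**, from the
output of the `β`-side.

Setting: `(K, O)` a base (`O` a DVR with fraction field `K` of characteristic zero, residue field `κ`
of characteristic `ℓ ∤ N`), `G_N = gaussSubalgebra K N O` the Gauss valuation ring of `FF K N`,
`θ : G_N → κ((q))` the Gauss reduction, `α, β : FF K N → FF K (N ℓ)` the two level maps.

Input (`BetaOut`): a subring `S ⊆ FF K (N ℓ)`, integrally closed in `FF K (N ℓ)`, with a ring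
homomorphism `ev : S → κ((q))` such that `ev (β a) = θ a` and `ev (α a) = (θ a)(q^ℓ)` for `a ∈ G_N`
(for `S` the integral closure of `β(G_N)` and `ev` the second place of the `β`-side).

Output: for `x ∈ G_N`,
* `kronecker_alpha` (†α): the characteristic polynomial of `β x` over `FF K N` via `α` has
  coefficients in `G_N` and reduces to `(X^ℓ − Fr(θ x)) (X − (θ x)(q^ℓ))`;
* `norm_alpha` (NORM FORM): `N_α(β x) ∈ G_N` and `θ (N_α(β x)) = Fr(θ x) · (θ x)(q^ℓ)`;
* `daggerAlpha_of_betaOut`: the same in the coefficientwise form consumed by `E/NormReduction`.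
-/
import Mathlib
import Fermat.Agent.N4F.E.KummerNorm
import Fermat.Agent.N4F.E.GaussDVR
import Fermat.Agent.N4F.E.Integrality
import Fermat.Agent.N4F.E.GaussResidue
import Fermat.Agent.N4F.E.GaussResidueQ
import Fermat.Agent.N4F.E.GenericFibreAlong

set_option autoImplicit false
set_option linter.unusedSectionVars false
set_option linter.style.haveILetI false

open ModularCurve Fermat.Agent.S28.Gauss Fermat.Agent.N4.Setting Fermat.Agent.N4.FibreEmbedding
open Fermat.Agent.N4F.E.DegreeLevelRaise Fermat.Agent.N4F.E.GaussDVR AlgebraicCurve Polynomial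
open Fermat.Agent.N4F.E.KummerNorm

noncomputable section

namespace Fermat.Agent.N4F.E.AlphaSide

/-! ### The algebra structures along `α` -/

section Alpha

variable (K : Type) [Field K] [CharZero K] (N : ℕ) [NeZero N] (ℓ : ℕ) [Fact ℓ.Prime]
  (O : Subring K) [IsDiscreteValuationRing ↥O] [IsFractionRing ↥O K]

set_option quotPrecheck false in
local notation "κ" => IsLocalRing.ResidueField ↥O

/-- The structure map `G_N → FF K (N ℓ)` along `γ`. -/
def gMap (γ : FF K N →ₐ[K] FF K (N * ℓ)) : ↥(gaussSubalgebra K N O) →+* FF K (N * ℓ) :=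
  γ.toRingHom.comp (algebraMap ↥(gaussSubalgebra K N O) (FF K N))

theorem gMap_apply (γ : FF K N →ₐ[K] FF K (N * ℓ)) (a : gaussSubalgebra K N O) :
    gMap K N ℓ O γ a = γ (a : FF K N) := rfl

/-- `FF K (N ℓ)` as an algebra over `FF K N` along `α`. -/
@[reducible] def algFL : Algebra (FF K N) (FF K (N * ℓ)) := algebraAlong (alphaF K N ℓ)

/-- `FF K (N ℓ)` as an algebra over the Gauss ring `G_N`, along `α`. -/
@[reducible] def algGL : Algebra ↥(gaussSubalgebra K N O) (FF K (N * ℓ)) :=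
  (gMap K N ℓ O (alphaF K N ℓ)).toAlgebra

attribute [local instance] algFL algGL

theorem isScalarTower_GFL :
    IsScalarTower ↥(gaussSubalgebra K N O) (FF K N) (FF K (N * ℓ)) :=
  IsScalarTower.of_algebraMap_eq fun _ => rfl

attribute [local instance] isScalarTower_GFL

/-- The integral closure of `α(G_N)` lies in the Gauss ring at level `N ℓ`. -/
theorem mem_gauss_of_mem_integralClosure {y : FF K (N * ℓ)}
    (hy : y ∈ integralClosure ↥(gaussSubalgebra K N O) (FF K (N * ℓ))) :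
    y ∈ gaussSubalgebra K (N * ℓ) O := by
  have hy' : (gMap K N ℓ O (alphaF K N ℓ)).IsIntegralElem y := hy
  obtain ⟨t, ht⟩ := exists_algebraMap_eq_of_isIntegralElem (S := ↥(gaussSubalgebra K (N * ℓ) O))
    (gMap K N ℓ O (alphaF K N ℓ))
    (RingHom.codRestrict (gMap K N ℓ O (alphaF K N ℓ)) (gaussSubalgebra K (N * ℓ) O)
      (fun a => alphaF_mem K O N ℓ a.2)) (fun _ => rfl) hy'
  rw [← ht]
  exact t.2

instance charZero_FF : CharZero (FF K N) :=
  charZero_of_injective_algebraMap (algebraMap K (FF K N)).injective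

variable (ι : K →+* ℂ) (hℓN : ¬ ℓ ∣ N)

include ι hℓN in
theorem finrank_alpha : Module.finrank (FF K N) (FF K (N * ℓ)) = ℓ + 1 :=
  finrank_of_algebraMap_eq_alphaF K N ℓ ι hℓN rfl

include ι hℓN in
theorem finiteDimensional_alpha : FiniteDimensional (FF K N) (FF K (N * ℓ)) :=
  Module.finite_of_finrank_pos (by rw [finrank_alpha K N ℓ ι hℓN]; exact Nat.succ_pos _)

include ι hℓN in
theorem finiteAlong_alpha : FiniteAlong K (alphaF K N ℓ) :=
  finiteDimensional_alpha K N ℓ ι hℓN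

end Alpha

/-! ### The two places of `C_α` -/

section Places

variable (K : Type) [Field K] [CharZero K] (N : ℕ) [NeZero N] (ℓ : ℕ) [Fact ℓ.Prime]
  (O : Subring K) [IsDiscreteValuationRing ↥O] [IsFractionRing ↥O K]

set_option quotPrecheck false in
local notation "κ" => IsLocalRing.ResidueField ↥O

attribute [local instance] algFL algGL isScalarTower_GFL

set_option synthInstance.maxHeartbeats 400000

/-- The output of the `β`-side: a subring `S` of `FF K (N ℓ)`, integrally closed in it, with a place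
`ev : S → κ((q))` such that `ev (β a) = θ a` and `ev (α a) = (θ a)(q^ℓ)` on `G_N`. -/
structure BetaOut (S : Subring (FF K (N * ℓ))) (ev : ↥S →+* LaurentSeries κ) : Prop where
  closed : ∀ y : FF K (N * ℓ), S.subtype.IsIntegralElem y → y ∈ S
  beta : ∀ a : gaussSubalgebra K N O, ∃ h : betaF K N ℓ (a : FF K N) ∈ S,
    ev ⟨_, h⟩ = theta K N O a
  alpha : ∀ a : gaussSubalgebra K N O, ∃ h : alphaF K N ℓ (a : FF K N) ∈ S,
    ev ⟨_, h⟩ = qExpand κ ℓ (theta K N O a)

variable {S : Subring (FF K (N * ℓ))}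
  {ev : ↥S →+* LaurentSeries (IsLocalRing.ResidueField ↥O)}
  (hB : BetaOut K N ℓ O S ev)

include hB in
theorem mem_S_of_mem_integralClosure {y : FF K (N * ℓ)}
    (hy : y ∈ integralClosure ↥(gaussSubalgebra K N O) (FF K (N * ℓ))) : y ∈ S := by
  have hy' : (gMap K N ℓ O (alphaF K N ℓ)).IsIntegralElem y := hy
  exact hB.closed y (isIntegralElem_of_comp (gMap K N ℓ O (alphaF K N ℓ)) S.subtype
    (RingHom.codRestrict (gMap K N ℓ O (alphaF K N ℓ)) S (fun a => (hB.alpha a).1))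
    (fun _ => rfl) hy')

/-- the first place of `C_α`: the restriction of `ev`. -/
def pi1 : ↥(integralClosure ↥(gaussSubalgebra K N O) (FF K (N * ℓ))) →+* LaurentSeries κ :=
  ev.comp (RingHom.codRestrict
    (integralClosure ↥(gaussSubalgebra K N O) (FF K (N * ℓ))).val.toRingHom S
    (fun y => mem_S_of_mem_integralClosure K N ℓ O hB y.2))

/-- the second place of `C_α`: the restriction of the Gauss reduction at level `N ℓ`. -/
def pi2 : ↥(integralClosure ↥(gaussSubalgebra K N O) (FF K (N * ℓ))) →+* LaurentSeries κ :=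
  (theta K (N * ℓ) O).comp (RingHom.codRestrict
    (integralClosure ↥(gaussSubalgebra K N O) (FF K (N * ℓ))).val.toRingHom
    (gaussSubalgebra K (N * ℓ) O)
    (fun y => mem_gauss_of_mem_integralClosure K N ℓ O y.2))

theorem pi1_apply (y : ↥(integralClosure ↥(gaussSubalgebra K N O) (FF K (N * ℓ)))) :
    pi1 K N ℓ O hB y = ev ⟨(y : FF K (N * ℓ)), mem_S_of_mem_integralClosure K N ℓ O hB y.2⟩ := rfl

theorem pi2_apply (y : ↥(integralClosure ↥(gaussSubalgebra K N O) (FF K (N * ℓ)))) :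
    pi2 K N ℓ O y =
      theta K (N * ℓ) O ⟨(y : FF K (N * ℓ)), mem_gauss_of_mem_integralClosure K N ℓ O y.2⟩ := rfl

theorem pi1_algebraMap (a : gaussSubalgebra K N O) :
    pi1 K N ℓ O hB (algebraMap _ _ a) = qExpand κ ℓ (theta K N O a) := by
  obtain ⟨h, he⟩ := hB.alpha a
  rw [pi1_apply, ← he]
  rfl

theorem pi2_algebraMap (a : gaussSubalgebra K N O) :
    pi2 K N ℓ O (algebraMap _ _ a) = theta K N O a := by
  rw [pi2_apply, ← theta_alphaF K O N ℓ a]
  rfl

theorem pi1_beta (a : gaussSubalgebra K N O)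
    (h : betaF K N ℓ (a : FF K N) ∈ integralClosure ↥(gaussSubalgebra K N O) (FF K (N * ℓ))) :
    pi1 K N ℓ O hB ⟨_, h⟩ = theta K N O a := by
  obtain ⟨h', he⟩ := hB.beta a
  rw [pi1_apply, ← he]

theorem pi2_beta (a : gaussSubalgebra K N O)
    (h : betaF K N ℓ (a : FF K N) ∈ integralClosure ↥(gaussSubalgebra K N O) (FF K (N * ℓ))) :
    pi2 K N ℓ O ⟨_, h⟩ = qExpand κ ℓ (theta K N O a) := by
  rw [pi2_apply, ← theta_betaF K O N ℓ a]

/-- `β(Rfin) ⊆ C_α`. -/
theorem betaF_mem_closure_of_mem_Rfin {x : FF K N} (hx : x ∈ Rfin K N O) :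
    betaF K N ℓ x ∈ integralClosure ↥(gaussSubalgebra K N O) (FF K (N * ℓ)) := by
  have h : IsIntegral (Integrality.alphaGauss K N ℓ O) (betaF K N ℓ x) :=
    Integrality.isIntegral_betaF_map_gauss K N ℓ O hx
  show (gMap K N ℓ O (alphaF K N ℓ)).IsIntegralElem _
  let f : ↥(gaussSubalgebra K N O) →+* ↥(Integrality.alphaGauss K N ℓ O) :=
    RingHom.codRestrict (gMap K N ℓ O (alphaF K N ℓ)) (Integrality.alphaGauss K N ℓ O)
      (fun a => Integrality.alphaF_mem_alphaGauss K N ℓ O a.2)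
  have hf : Function.Surjective f := by
    rintro ⟨y, x', hx', rfl⟩
    exact ⟨⟨x', hx'⟩, rfl⟩
  exact isIntegralElem_comp_of_surjective f hf
    (algebraMap ↥(Integrality.alphaGauss K N ℓ O) (FF K (N * ℓ))) h

variable [CharP (IsLocalRing.ResidueField ↥O) ℓ]

theorem charP_laurent : CharP (LaurentSeries κ) ℓ :=
  charP_of_injective_algebraMap (algebraMap κ (LaurentSeries κ)).injective ℓ

/-- an element of `Rfin` outside the fibre ideal has nonzero reduction. -/
theorem theta_ne_zero_of_notMem (hprime : (fibreIdeal K N O (Rfin K N O)).IsPrime)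
    (b : Rfin K N O) (hb : b ∉ fibreIdeal K N O (Rfin K N O)) :
    theta K N O ⟨(b : FF K N),
      chartAlg_le_gaussSubalgebra K N O
        (Set.singleton_subset_iff.mpr (jF_mem_gaussSubalgebra K N O)) b.2⟩ ≠ 0 := by
  have htr : Transcendental κ (theta K N O ⟨jF K N, jF_mem_gaussSubalgebra K N O⟩) := by
    rw [theta_jF]
    exact Fermat.Agent.S24.FFBasics.transcendental_jqModC _
  have hinj := thetaBar_injective K N O (jF_mem_gaussSubalgebra K N O) htr hprime
  intro h0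
  apply hb
  have h1 : thetaBar K N O (jF_mem_gaussSubalgebra K N O) (Ideal.Quotient.mk _ b) = 0 := by
    rw [thetaBar_mk, rho_eq_theta]
    exact h0
  have h2 := hinj (h1.trans (map_zero _).symm)
  exact Ideal.Quotient.eq_zero_iff_mem.mp h2

/-- the Kummer element `x₀ = β j` of `C_α`. -/
def x0 : ↥(integralClosure ↥(gaussSubalgebra K N O) (FF K (N * ℓ))) :=
  ⟨betaF K N ℓ (jF K N), betaF_mem_closure_of_mem_Rfin K N ℓ O (jFin K N O).2⟩

/-- `t₀ = j ∈ G_N`. -/
def t0 : ↥(gaussSubalgebra K N O) := ⟨jF K N, jF_mem_gaussSubalgebra K N O⟩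

theorem theta_t0 : theta K N O (t0 K N O) = jqModC κ := theta_jF K N O

theorem pi1_x0 : pi1 K N ℓ O hB (x0 K N ℓ O) = jqModC κ := by
  rw [← theta_t0 K N O]
  exact pi1_beta K N ℓ O hB (t0 K N O) _

theorem pi2_x0 : pi2 K N ℓ O (x0 K N ℓ O) = qExpand κ ℓ (jqModC κ) := by
  rw [← theta_t0 K N O]
  exact pi2_beta K N ℓ O (t0 K N O) _

theorem hx0 : pi1 K N ℓ O hB (x0 K N ℓ O) ^ ℓ = qExpand κ ℓ (theta K N O (t0 K N O)) := by
  rw [pi1_x0, theta_t0]
  exact (GaussResidue.qExpand_jqModC_eq_pow κ ℓ).symm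

theorem ht0 (a : gaussSubalgebra K N O) : theta K N O a ^ ℓ ≠ theta K N O (t0 K N O) := by
  rw [theta_t0]
  exact Integrality.jqModC_ne_pow κ ℓ _

theorem ker_ne : RingHom.ker (pi2 K N ℓ O) ≠ RingHom.ker (pi1 K N ℓ O hB) := by
  refine ker_ne_of (pi1 K N ℓ O hB) (pi2 K N ℓ O)
    (algebraMap ↥(gaussSubalgebra K N O) _ (t0 K N O) ^ ℓ) (x0 K N ℓ O) ?_ ?_
  · rw [map_pow, pi2_algebraMap, pi2_x0, theta_t0, GaussResidue.qExpand_jqModC_eq_pow]
  · rw [map_pow, pi1_algebraMap, pi1_x0, theta_t0, GaussResidue.qExpand_jqModC_eq_pow]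
    exact Integrality.jqModC_ne_pow κ ℓ _

theorem theta_mem_maximalIdeal (a : gaussSubalgebra K N O)
    (ha : a ∈ IsLocalRing.maximalIdeal ↥(gaussSubalgebra K N O)) : theta K N O a = 0 := by
  rw [maximalIdeal_eq_ker] at ha
  exact ha

end Places

/-! ### The main theorems -/

section MainThm

variable (K : Type) [Field K] [CharZero K] (N : ℕ) [NeZero N] (ℓ : ℕ) [Fact ℓ.Prime]
  (O : Subring K) [IsDiscreteValuationRing ↥O] [IsFractionRing ↥O K]

set_option quotPrecheck false in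
local notation "κ" => IsLocalRing.ResidueField ↥O

attribute [local instance] algFL algGL isScalarTower_GFL

set_option synthInstance.maxHeartbeats 400000

variable [CharP (IsLocalRing.ResidueField ↥O) ℓ]
  (ι : K →+* ℂ) (hℓN : ¬ ℓ ∣ N)
  (hprime : (fibreIdeal K N O (Rfin K N O)).IsPrime)
  {S : Subring (FF K (N * ℓ))} {ev : ↥S →+* LaurentSeries (IsLocalRing.ResidueField ↥O)}
  (hB : BetaOut K N ℓ O S ev)

include ι hℓN hprime hB in
/-- **(D)** `β(G_N) ⊆ C_α`. -/
theorem betaF_mem_closure {z : FF K N} (hz : z ∈ gaussSubalgebra K N O) :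
    betaF K N ℓ z ∈ integralClosure ↥(gaussSubalgebra K N O) (FF K (N * ℓ)) := by
  haveI : FiniteDimensional (FF K N) (FF K (N * ℓ)) := finiteDimensional_alpha K N ℓ ι hℓN
  haveI := charP_laurent K ℓ O
  obtain ⟨a, b, hb, hzb, -⟩ := exists_frac_Rfin K N O hprime z hz
  have hbG : (b : FF K N) ∈ gaussSubalgebra K N O :=
    chartAlg_le_gaussSubalgebra K N O
      (Set.singleton_subset_iff.mpr (jF_mem_gaussSubalgebra K N O)) b.2
  have hθb : theta K N O ⟨(b : FF K N), hbG⟩ ≠ 0 := theta_ne_zero_of_notMem K N O hprime b hb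
  refine mem_integralClosure_of_mul_eq (A := ↥(gaussSubalgebra K N O)) (F := FF K N)
    (L := FF K (N * ℓ)) (IsScalarTower.of_algebraMap_eq fun _ => rfl) (finrank_alpha K N ℓ ι hℓN) (theta K N O)
    (theta_mem_maximalIdeal K N O) (qExpand κ ℓ) (pi1 K N ℓ O hB) (pi1_algebraMap K N ℓ O hB)
    (x0 K N ℓ O) (t0 K N O) (hx0 K N ℓ O hB) (ht0 K N ℓ O) (pi2 K N ℓ O) (pi2_algebraMap K N ℓ O)
    (ker_ne K N ℓ O hB) (betaF K N ℓ z)
    ⟨betaF K N ℓ (a : FF K N), betaF_mem_closure_of_mem_Rfin K N ℓ O a.2⟩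
    ⟨betaF K N ℓ (b : FF K N), betaF_mem_closure_of_mem_Rfin K N ℓ O b.2⟩ ?_ ?_ ?_
  · rw [pi1_beta K N ℓ O hB ⟨(b : FF K N), hbG⟩]
    exact hθb
  · rw [pi2_beta K N ℓ O ⟨(b : FF K N), hbG⟩]
    exact fun h0 => hθb (qExpand_injective ℓ (h0.trans (map_zero _).symm))
  · show betaF K N ℓ z * betaF K N ℓ (b : FF K N) = betaF K N ℓ (a : FF K N)
    rw [← map_mul, hzb]

variable (hA2 : ∀ x : gaussSubalgebra K N O,
    theta K N O x ∈ modularFunctionFieldFullC (IsLocalRing.ResidueField ↥O) N)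

include ι hℓN hprime hB hA2 in
/-- **(†α), norm form**: `N_α(β x) ∈ G_N` reduces to `Fr(θ x) · (θ x)(q^ℓ)`. -/
theorem norm_alpha (x : FF K N) (hx : x ∈ gaussSubalgebra K N O) :
    ∃ hmem : Algebra.norm (FF K N) (betaF K N ℓ x) ∈ gaussSubalgebra K N O,
      theta K N O ⟨_, hmem⟩ =
        coeffMap (frobenius κ ℓ) (theta K N O ⟨x, hx⟩) * qExpand κ ℓ (theta K N O ⟨x, hx⟩) := by
  haveI : FiniteDimensional (FF K N) (FF K (N * ℓ)) := finiteDimensional_alpha K N ℓ ι hℓN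
  haveI := charP_laurent K ℓ O
  obtain ⟨c, hc⟩ := GaussResidue.theta_surjective K N O (GaussResidueQ.coeffMap_frobenius_mem_full κ N ℓ (hA2 ⟨x, hx⟩))
  obtain ⟨μ, hμ⟩ := GaussResidue.theta_surjective K N O (GaussResidueQ.qExpand_mem_full κ N ℓ (hA2 ⟨x, hx⟩))
  have hxC := betaF_mem_closure K N ℓ O ι hℓN hprime hB hx
  have h1 : pi1 K N ℓ O hB ⟨betaF K N ℓ x, hxC⟩ ^ ℓ = qExpand κ ℓ (theta K N O c) := by
    rw [pi1_beta K N ℓ O hB ⟨x, hx⟩, hc]
    exact Fermat.Agent.N4.Kronecker.pow_char_eq_qExpand ℓ _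
  have h2 : pi2 K N ℓ O ⟨betaF K N ℓ x, hxC⟩ = theta K N O μ := by
    rw [pi2_beta K N ℓ O ⟨x, hx⟩, hμ]
  obtain ⟨ν, hν1, hν2⟩ := norm_form (A := ↥(gaussSubalgebra K N O)) (F := FF K N)
    (L := FF K (N * ℓ)) (IsScalarTower.of_algebraMap_eq fun _ => rfl) (finrank_alpha K N ℓ ι hℓN)
    (theta K N O) (theta_mem_maximalIdeal K N O) (qExpand κ ℓ) (pi1 K N ℓ O hB)
    (pi1_algebraMap K N ℓ O hB) (x0 K N ℓ O) (t0 K N O) (hx0 K N ℓ O hB) (ht0 K N ℓ O)
    (pi2 K N ℓ O) (pi2_algebraMap K N ℓ O) (ker_ne K N ℓ O hB)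
    ⟨betaF K N ℓ x, hxC⟩ c μ h1 h2
  have hmem : Algebra.norm (FF K N) (betaF K N ℓ x) ∈ gaussSubalgebra K N O := by
    rw [← hν1]
    exact ν.2
  refine ⟨hmem, ?_⟩
  have : (⟨_, hmem⟩ : gaussSubalgebra K N O) = ν := Subtype.ext hν1.symm
  rw [this, hν2, hc, hμ]

include ι hℓN hprime hB hA2 in
/-- **(†α)**: the characteristic polynomial of `β x` over `FF K N` via `α` has coefficients in `G_N`
and reduces to `(X^ℓ − Fr(θ x)) (X − (θ x)(q^ℓ))`. -/
theorem kronecker_alpha (hfin : FiniteAlong K (alphaF K N ℓ)) (x : FF K N)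
    (hx : x ∈ gaussSubalgebra K N O) :
    ∃ q : (↥(gaussSubalgebra K N O))[X], q.Monic ∧
      q.map (algebraMap _ (FF K N)) = GenericFibreAlong.charpolyAlong (alphaF K N ℓ) hfin (betaF K N ℓ x) ∧
      q.map (theta K N O) =
        (X ^ ℓ - C (coeffMap (frobenius κ ℓ) (theta K N O ⟨x, hx⟩))) *
          (X - C (qExpand κ ℓ (theta K N O ⟨x, hx⟩))) := by
  haveI : FiniteDimensional (FF K N) (FF K (N * ℓ)) := hfin
  haveI := charP_laurent K ℓ O
  obtain ⟨c, hc⟩ := GaussResidue.theta_surjective K N O (GaussResidueQ.coeffMap_frobenius_mem_full κ N ℓ (hA2 ⟨x, hx⟩))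
  obtain ⟨μ, hμ⟩ := GaussResidue.theta_surjective K N O (GaussResidueQ.qExpand_mem_full κ N ℓ (hA2 ⟨x, hx⟩))
  have hxC := betaF_mem_closure K N ℓ O ι hℓN hprime hB hx
  have h1 : pi1 K N ℓ O hB ⟨betaF K N ℓ x, hxC⟩ ^ ℓ = qExpand κ ℓ (theta K N O c) := by
    rw [pi1_beta K N ℓ O hB ⟨x, hx⟩, hc]
    exact Fermat.Agent.N4.Kronecker.pow_char_eq_qExpand ℓ _
  have h2 : pi2 K N ℓ O ⟨betaF K N ℓ x, hxC⟩ = theta K N O μ := by
    rw [pi2_beta K N ℓ O ⟨x, hx⟩, hμ]
  obtain ⟨q, hq1, hq2, hq3⟩ := kronecker' (A := ↥(gaussSubalgebra K N O)) (F := FF K N)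
    (L := FF K (N * ℓ)) (IsScalarTower.of_algebraMap_eq fun _ => rfl) (finrank_alpha K N ℓ ι hℓN)
    (theta K N O) (theta_mem_maximalIdeal K N O) (qExpand κ ℓ) (pi1 K N ℓ O hB)
    (pi1_algebraMap K N ℓ O hB) (x0 K N ℓ O) (t0 K N O) (hx0 K N ℓ O hB) (ht0 K N ℓ O)
    (pi2 K N ℓ O) (pi2_algebraMap K N ℓ O) (ker_ne K N ℓ O hB)
    ⟨betaF K N ℓ x, hxC⟩ c μ h1 h2
  refine ⟨q, hq1, hq2, ?_⟩
  rw [hq3, hc, hμ]

include ι hℓN hprime hB hA2 in
/-- **(†α), norm form**, in the coefficientwise shape consumed by `E/NormReduction`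
(`NormReduction.DaggerAlpha`). -/
theorem dagger_of_betaOut (x : FF K N) (hx : x ∈ gaussSubalgebra K N O) :
    ∃ (h : (letI := algebraAlong (alphaF K N ℓ); Algebra.norm (FF K N) (betaF K N ℓ x)) ∈
        gaussSubalgebra K N O) (w : LaurentSeries κ),
      (∀ n, w.coeff n = ((theta K N O ⟨x, hx⟩).coeff n) ^ ℓ) ∧
      theta K N O ⟨_, h⟩ = w * qExpand κ ℓ (theta K N O ⟨x, hx⟩) := by
  obtain ⟨hmem, h⟩ := norm_alpha K N ℓ O ι hℓN hprime hB hA2 x hx
  exact ⟨hmem, coeffMap (frobenius κ ℓ) (theta K N O ⟨x, hx⟩), fun n => rfl, h⟩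

end MainThm

end Fermat.Agent.N4F.E.AlphaSide
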