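/-
N4-FULL, block E (helper29, node of helper15's #1085): the GENERAL kernel lemma for charts.

`O ⊆ K` a discrete valuation ring with residue field `κ`, `R = chartAlg O (FF K N) {s}` (the integral
closure of `O[s]` in the function field), `g : R →+* D` a ring homomorphism into a domain `D` which is
a `κ`-algebra, compatible with the reduction `O → κ`.  If `g s` is transcendental over `κ` and
`𝔪_O R` is prime, then `ker g = 𝔪_O R` (incomparability for the integral extension `O[s] ⊆ R`:
the kernel of `g` on `O[s]` is `ϖ O[s]`).  This is `N4/FibreEmbedding.ker_rho_eq` with the Gauss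
reduction `theta` replaced by an arbitrary `g`.
-/
import Mathlib
import Fermat.Agent.N4.Setting

set_option autoImplicit false
set_option linter.unusedSectionVars false
set_option linter.style.haveILetI false

namespace Fermat.Agent.N4F.E.ChartKernel

open ModularCurve Fermat.Agent.N4.Chart Fermat.Agent.N4.Setting

variable (K : Type) [Field K] (N : ℕ) (O : Subring K) [IsDiscreteValuationRing ↥O]

set_option quotPrecheck false in
local notation "κ" => IsLocalRing.ResidueField ↥O

variable {D : Type*} [CommRing D] [IsDomain D] [Algebra (IsLocalRing.ResidueField ↥O) D]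

theorem fibreIdeal_eq_span' {ϖ : ↥O} (hϖ : Irreducible ϖ) (R : Subalgebra ↥O (FF K N)) :
    fibreIdeal K N O R = Ideal.span {algebraMap ↥O R ϖ} := by
  unfold fibreIdeal
  rw [hϖ.maximalIdeal_eq, Ideal.map_span, Set.image_singleton]

/-- `𝔪_O R ⊆ ker g` for any subalgebra `R` and any `g` compatible with the reduction of `O`. -/
theorem fibreIdeal_le_ker (R : Subalgebra ↥O (FF K N)) (g : R →+* D)
    (hg : ∀ a : ↥O, g (algebraMap ↥O R a) = algebraMap κ D (IsLocalRing.residue ↥O a)) :
    fibreIdeal K N O R ≤ RingHom.ker g := by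
  obtain ⟨ϖ, hϖ⟩ := IsDiscreteValuationRing.exists_irreducible ↥O
  rw [fibreIdeal_eq_span' K N O hϖ, Ideal.span_le, Set.singleton_subset_iff]
  show g _ = 0
  have h0 : IsLocalRing.residue ↥O ϖ = 0 := by
    rw [IsLocalRing.residue_eq_zero_iff, hϖ.maximalIdeal_eq]
    exact Ideal.mem_span_singleton_self _
  rw [hg, h0, map_zero]

/-- `g (P(s)) = P̄ (g s)`. -/
theorem map_aeval (R : Subalgebra ↥O (FF K N)) (g : R →+* D)
    (hg : ∀ a : ↥O, g (algebraMap ↥O R a) = algebraMap κ D (IsLocalRing.residue ↥O a))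
    (t : R) (P : Polynomial ↥O) :
    g (Polynomial.aeval t P) = Polynomial.aeval (g t) (P.map (IsLocalRing.residue ↥O)) := by
  rw [Polynomial.aeval_def, Polynomial.hom_eval₂, Polynomial.aeval_def, Polynomial.eval₂_map]
  congr 1
  ext a : 1
  rw [RingHom.comp_apply, RingHom.comp_apply, hg]

/-- **The general kernel lemma.** -/
theorem ker_eq_fibreIdeal {s : FF K N} (g : ↥(chartAlg ↥O (FF K N) {s}) →+* D)
    (hg : ∀ a : ↥O, g (algebraMap ↥O _ a) = algebraMap κ D (IsLocalRing.residue ↥O a))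
    (htr : Transcendental κ (g (chartGen (Set.mem_singleton s))))
    (hprime : (fibreIdeal K N O (chartAlg ↥O (FF K N) {s})).IsPrime) :
    RingHom.ker g = fibreIdeal K N O (chartAlg ↥O (FF K N) {s}) := by
  obtain ⟨ϖ, hϖ⟩ := IsDiscreteValuationRing.exists_irreducible ↥O
  set s' : ↥(chartAlg ↥O (FF K N) {s}) := chartGen (Set.mem_singleton s) with hs'
  set 𝔮 : Ideal (chartAlg ↥O (FF K N) {s}) := fibreIdeal K N O (chartAlg ↥O (FF K N) {s}) with h𝔮
  have le₁ : 𝔮 ≤ RingHom.ker g := fibreIdeal_le_ker K N O _ g hg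
  refine le_antisymm ?_ le₁
  by_contra hnot
  obtain ⟨x, hxker, hxq⟩ := SetLike.not_le_iff_exists.mp hnot
  let f : ↥(Algebra.adjoin ↥O ({s} : Set (FF K N))) →+* ↥(chartAlg ↥O (FF K N) {s}) :=
    (Subalgebra.inclusion (adjoin_le_chartAlg {s})).toRingHom
  obtain ⟨p, hp, hpx⟩ := (mem_chartAlg_iff).mp x.2
  have hpx' : p.eval₂ f x = 0 := by
    apply Subtype.ext
    have h1 := Polynomial.hom_eval₂ p f (SubringClass.subtype (chartAlg ↥O (FF K N) {s})) x
    exact h1.trans hpx
  have : (𝔮.comap f).IsPrime := Ideal.IsPrime.comap f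
  have hp0 : p.map (Ideal.Quotient.mk (𝔮.comap f)) ≠ 0 := Polynomial.map_monic_ne_zero hp
  have hlt := Ideal.comap_lt_comap_of_root_mem_sdiff (f := f) le₁ ⟨hxker, hxq⟩ hp0
    (by rw [hpx']; exact 𝔮.zero_mem)
  obtain ⟨b, hbker, hbq⟩ := SetLike.exists_of_lt hlt
  apply hbq
  have hbmem : (b : FF K N) ∈ (Polynomial.aeval (R := ↥O) s).range := by
    rw [← Algebra.adjoin_singleton_eq_range_aeval]
    exact b.2
  obtain ⟨P, hP⟩ := hbmem
  replace hP : Polynomial.aeval s P = (b : FF K N) := hP
  have hfb0 : f b = Polynomial.aeval s' P := by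
    apply Subtype.ext
    rw [Polynomial.aeval_subalgebra_coe]
    exact hP.symm
  have hθ : g (Polynomial.aeval s' P) = 0 := by
    have h1 : g (f b) = 0 := hbker
    rw [← hfb0]
    exact h1
  rw [map_aeval K N O _ g hg] at hθ
  have h0 : P.map (IsLocalRing.residue ↥O) = 0 := by
    by_contra hne
    exact (transcendental_iff.mp htr) _ hθ |> hne
  have hdvd : Polynomial.C ϖ ∣ P := by
    rw [Polynomial.C_dvd_iff_dvd_coeff]
    intro i
    have hi : IsLocalRing.residue ↥O (P.coeff i) = 0 := by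
      rw [← Polynomial.coeff_map, h0, Polynomial.coeff_zero]
    rw [IsLocalRing.residue_eq_zero_iff, hϖ.maximalIdeal_eq, Ideal.mem_span_singleton] at hi
    exact hi
  obtain ⟨P', rfl⟩ := hdvd
  show f b ∈ 𝔮
  rw [hfb0, map_mul, Polynomial.aeval_C, h𝔮, fibreIdeal_eq_span' K N O hϖ]
  exact Ideal.mul_mem_right _ _ (Ideal.mem_span_singleton_self _)

variable [NeZero N]

/-- The kernel lemma for the finite chart `Rfin = chartAlg O (FF K N) {j}`. -/
theorem ker_eq_fibreIdeal_Rfin (g : ↥(Rfin K N O) →+* D)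
    (hg : ∀ a : ↥O, g (algebraMap ↥O _ a) = algebraMap κ D (IsLocalRing.residue ↥O a))
    (htr : Transcendental κ (g (jFin K N O)))
    (hprime : (fibreIdeal K N O (Rfin K N O)).IsPrime) :
    RingHom.ker g = fibreIdeal K N O (Rfin K N O) :=
  ker_eq_fibreIdeal K N O g hg htr hprime

/-- The kernel lemma for the chart at infinity `Rinf = chartAlg O (FF K N) {j⁻¹}`. -/
theorem ker_eq_fibreIdeal_Rinf (g : ↥(Rinf K N O) →+* D)
    (hg : ∀ a : ↥O, g (algebraMap ↥O _ a) = algebraMap κ D (IsLocalRing.residue ↥O a))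
    (htr : Transcendental κ (g (jInvInf K N O)))
    (hprime : (fibreIdeal K N O (Rinf K N O)).IsPrime) :
    RingHom.ker g = fibreIdeal K N O (Rinf K N O) :=
  ker_eq_fibreIdeal K N O g hg htr hprime

end Fermat.Agent.N4F.E.ChartKernel
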