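/-
N4-FULL / block E (helper15): **the second place and the β-side Kronecker congruence `(†β)`**
(moonshots #27 §2).

Level `(K, O)` (Setting language), `κ` the residue field of `O`, `G_M` the Gauss valuation ring of
`FF K M`, `θ_M : G_M → κ((q))` the Gauss reduction, `α = alphaF K N ℓ`, `β = betaF K N ℓ`.

The extension `FF K (N ℓ) / β (FF K N)` has degree `ℓ + 1`; the Gauss valuation of `FF K (N ℓ)`
restricted to the integral closure `C` of `β (G_N)` is a place `π₁ = θ_{Nℓ}|C` with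
`π₁ ∘ β = φ ∘ θ_N` (`φ = (q ↦ q^ℓ)`), and `(α j, j)` is a Kummer pair for it
(`(α j)^ℓ ≡ β j`, `j̄` not an `ℓ`-th power).  The abstract theorem `KummerPlace` produces the second
place `ev : C → κ((q))` with `ev ∘ β = θ_N`; we show `α (G_N) ⊆ C`, `ev ∘ α = φ ∘ θ_N` and deduce
`(†β)`: the characteristic polynomial of `α x` over `β (FF K N)` (`x ∈ G_N`) is Gauss-integral and
reduces to `(X^ℓ - Fr x̄)(X - φ x̄)`.
-/
import Mathlib
import Fermat.Agent.N4F.E.KummerPlace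
import Fermat.Agent.N4F.E.GaussDVR
import Fermat.Agent.N4F.E.Integrality
import Fermat.Agent.N4F.E.GenericFibreAlong
import Fermat.Agent.N4F.C.ChartReduction
import Fermat.Agent.N4.Kronecker
import Fermat.Agent.N4.BaseDescent
import Fermat.Agent.N4F.E.ChartKernel
import Fermat.Agent.N4F.E.GaussResidue

set_option autoImplicit false
set_option linter.unusedSectionVars false
set_option linter.style.haveILetI false

open ModularCurve AlgebraicCurve Polynomial
open Fermat.Agent.S28.Gauss Fermat.Agent.N4.Setting Fermat.Agent.N4.FibreEmbedding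
open Fermat.Agent.N4.Chart Fermat.Agent.N4.Kronecker Fermat.Agent.N4.ModPolyDescent
open Fermat.Agent.N4F.E.DegreeLevelRaise Fermat.Agent.N4F.E.GaussDVR

noncomputable section

namespace Fermat.Agent.N4F.E.BetaSide

/-! ### Generic integrality transfer -/

section Generic

/-- Integrality over a subalgebra contained in the range of `algebraMap R T` gives integrality over
`R`. -/
theorem isIntegral_of_le_range {R₀ R T : Type*} [CommRing R₀] [CommRing R] [CommRing T] [Nontrivial T]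
    [Algebra R₀ T] [Algebra R T] (S : Subalgebra R₀ T)
    (hS : ∀ s ∈ S, s ∈ (algebraMap R T).range) {y : T} (hy : IsIntegral S y) : IsIntegral R y := by
  obtain ⟨p, hp, hpy⟩ := hy
  have hlift : p.map (algebraMap S T) ∈ Polynomial.lifts (algebraMap R T) := by
    rw [Polynomial.lifts_iff_coeff_lifts]
    intro n
    rw [Polynomial.coeff_map]
    exact hS _ (p.coeff n).2
  obtain ⟨q, hq, -, hqm⟩ := Polynomial.lifts_and_degree_eq_and_monic hlift (hp.map _)
  refine ⟨q, hqm, ?_⟩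
  rw [← Polynomial.eval_map, hq, Polynomial.eval_map]
  exact hpy

/-- Integrality along a ring homomorphism `f : R → S'` into a subring through which the structure
map factors. -/
theorem isIntegral_subring_of_isIntegral {R T : Type*} [CommRing R] [CommRing T] [Algebra R T]
    (W : Subring T) (hW : ∀ r : R, algebraMap R T r ∈ W) {y : T} (hy : IsIntegral R y) :
    IsIntegral W y := by
  obtain ⟨p, hp, hpy⟩ := hy
  let f : R →+* W := (algebraMap R T).codRestrict W hW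
  refine ⟨p.map f, hp.map _, ?_⟩
  rw [Polynomial.eval₂_map]
  exact hpy

/-- The same for a subalgebra. -/
theorem isIntegral_subalgebra_of_isIntegral {R₀ R T : Type*} [CommRing R₀] [CommRing R]
    [CommRing T] [Algebra R₀ T] [Algebra R T]
    (W : Subalgebra R₀ T) (hW : ∀ r : R, algebraMap R T r ∈ W) {y : T} (hy : IsIntegral R y) :
    IsIntegral W y := by
  obtain ⟨p, hp, hpy⟩ := hy
  let f : R →+* W := (algebraMap R T).codRestrict W hW
  refine ⟨p.map f, hp.map _, ?_⟩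
  rw [Polynomial.eval₂_map]
  exact hpy

/-- The integral closure (as a subring) is integrally closed in the ambient ring. -/
theorem mem_of_isIntegral_toSubring {R A : Type*} [CommRing R] [CommRing A] [Algebra R A]
    (y : A) (hy : IsIntegral ↥(integralClosure R A).toSubring y) : y ∈ integralClosure R A := by
  have : IsIntegral ↥(integralClosure R A) y := hy
  exact isIntegral_trans y this

end Generic

/-! ### The two sides: `FF K (N ℓ)` over `G_N` through a level map `γ` -/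

section Side

variable (K : Type) [Field K] [CharZero K] (N : ℕ) [NeZero N] (ℓ : ℕ) [hℓ : Fact ℓ.Prime]
  (O : Subring K) [IsDiscreteValuationRing ↥O] [IsFractionRing ↥O K]

set_option quotPrecheck false in
local notation "κ" => IsLocalRing.ResidueField ↥O

theorem algebraMap_gauss_apply (γ : FF K N →ₐ[K] FF K (N * ℓ)) (x : ↥(gaussSubalgebra K N O)) :
    letI := algebraAlong γ
    algebraMap ↥(gaussSubalgebra K N O) (FF K (N * ℓ)) x = γ (x : FF K N) := rfl

/-- The integral closure of `γ (G_N)` lies in the Gauss ring of level `N ℓ` (a valuation ring). -/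
theorem mem_gauss_of_isIntegral (γ : FF K N →ₐ[K] FF K (N * ℓ))
    (hγ : ∀ x ∈ gaussSubalgebra K N O, γ x ∈ gaussSubalgebra K (N * ℓ) O)
    (y : FF K (N * ℓ))
    (hy : letI := algebraAlong γ; IsIntegral ↥(gaussSubalgebra K N O) y) :
    y ∈ gaussSubalgebra K (N * ℓ) O := by
  letI := algebraAlong γ
  have h1 : IsIntegral ↥(gaussSubalgebra K (N * ℓ) O) y :=
    isIntegral_subalgebra_of_isIntegral (R := ↥(gaussSubalgebra K N O))
      (gaussSubalgebra K (N * ℓ) O)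
      (fun r => by rw [algebraMap_gauss_apply K N ℓ O γ r]; exact hγ _ r.2) hy
  obtain ⟨z, hz⟩ := IsIntegrallyClosed.isIntegral_iff.mp h1
  rw [← hz]
  exact z.2

/-- For `x ∈ Rfin`, `α x` is integral over `G_N` acting through `β`. -/
theorem isIntegral_alpha_of_mem_Rfin {x : FF K N} (hx : x ∈ Rfin K N O) :
    letI := algebraAlong (betaF K N ℓ)
    IsIntegral ↥(gaussSubalgebra K N O) (alphaF K N ℓ x) := by
  letI := algebraAlong (betaF K N ℓ)
  refine isIntegral_of_le_range (R := ↥(gaussSubalgebra K N O))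
    (Algebra.adjoin ↥O {betaF K N ℓ (jF K N)}) ?_
    (Integrality.isIntegral_alphaF_of_mem_Rfin K N ℓ O hx)
  intro s hs
  obtain ⟨x, hx, rfl⟩ := Integrality.adjoin_betaF_jF_le K N ℓ O hs
  exact ⟨⟨x, hx⟩, rfl⟩

/-- For `x ∈ Rfin`, `β x` is integral over `G_N` acting through `α`. -/
theorem isIntegral_beta_of_mem_Rfin {x : FF K N} (hx : x ∈ Rfin K N O) :
    letI := algebraAlong (alphaF K N ℓ)
    IsIntegral ↥(gaussSubalgebra K N O) (betaF K N ℓ x) := by
  letI := algebraAlong (alphaF K N ℓ)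
  refine isIntegral_of_le_range (R := ↥(gaussSubalgebra K N O))
    (Algebra.adjoin ↥O {alphaF K N ℓ (jF K N)}) ?_
    (Integrality.isIntegral_betaF_of_mem_Rfin K N ℓ O hx)
  intro s hs
  obtain ⟨x, hx, rfl⟩ := Integrality.adjoin_alphaF_jF_le K N ℓ O hs
  exact ⟨⟨x, hx⟩, rfl⟩

/-- `κ((q))` has characteristic `ℓ`. -/
theorem charP_laurent [CharP κ ℓ] : CharP (LaurentSeries κ) ℓ :=
  charP_of_injective_ringHom (f := (HahnSeries.C : κ →+* LaurentSeries κ))
    HahnSeries.C_injective ℓ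

/-- `j̄ ^ ℓ = φ j̄`. -/
theorem jqModC_pow_eq [CharP κ ℓ] : jqModC κ ^ ℓ = qExpand κ ℓ (jqModC κ) := by
  rw [pow_char_eq_qExpand ℓ, coeffMap_jqModC]

/-- `x ^ ℓ = φ (Fr x)` in `κ((q))`. -/
theorem pow_eq_qExpand_frob [CharP κ ℓ] (x : LaurentSeries κ) :
    x ^ ℓ = qExpand κ ℓ (coeffMap (frobenius κ ℓ) x) :=
  pow_char_eq_qExpand ℓ x

/-- Kronecker: in characteristic `ℓ`, `Φ_ℓ(a, b) = 0` with `b` not an `ℓ`-th power forces
`a = b ^ ℓ`. -/
theorem eq_pow_of_evZ_eq_zero {Ω : Type*} [Field Ω] [CharP Ω ℓ] (a b : Ω)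
    (h : evZ a b (modPoly ℓ) = 0) (hb : ∀ y : Ω, y ^ ℓ ≠ b) : a = b ^ ℓ := by
  rw [evZ_modPoly_of_charP ℓ] at h
  rcases mul_eq_zero.mp h with h1 | h1
  · exact (sub_eq_zero.mp h1).symm
  · exact absurd (sub_eq_zero.mp h1).symm (hb a)

end Side

/-! ### The residue field of the Gauss ring -/

section Residue

variable (K : Type) [Field K] [CharZero K] (N : ℕ) [NeZero N]
  (O : Subring K) [IsDiscreteValuationRing ↥O] [IsFractionRing ↥O K]

set_option quotPrecheck false in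
local notation "κ" => IsLocalRing.ResidueField ↥O

variable (hA2 : ∀ x : ↥(gaussSubalgebra K N O),
    theta K N O x ∈ modularFunctionFieldFullC (IsLocalRing.ResidueField ↥O) N)

/-- `θ_N : G_N → FF κ N`. -/
def thetaE : ↥(gaussSubalgebra K N O) →+* FF (IsLocalRing.ResidueField ↥O) N :=
  (theta K N O).codRestrict (modularFunctionFieldFullC (IsLocalRing.ResidueField ↥O) N) hA2

theorem coe_thetaE (x : ↥(gaussSubalgebra K N O)) :
    ((thetaE K N O hA2 x : FF κ N) : LaurentSeries κ) = theta K N O x := rfl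

theorem thetaE_surjective : Function.Surjective (thetaE K N O hA2) := by
  intro y
  obtain ⟨x, hx⟩ := GaussResidue.theta_surjective K N O y.2
  exact ⟨x, Subtype.ext hx⟩

set_option synthInstance.maxHeartbeats 400000 in
theorem thetaE_algebraMap (a : ↥O) :
    thetaE K N O hA2 (algebraMap ↥O ↥(gaussSubalgebra K N O) a) =
      algebraMap κ (FF κ N) (IsLocalRing.residue ↥O a) := by
  apply Subtype.ext
  rw [coe_thetaE, theta_algebraMap]
  show _ = algebraMap κ (LaurentSeries κ) _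
  rw [algebraMap_laurentSeries_eq_single]
  rfl

theorem thetaE_jdF {d : ℕ} [NeZero d] (hd : d ∣ N) :
    thetaE K N O hA2 ⟨jdF K N hd,
      Fermat.Agent.N4F.C.ChartReduction.jdF_mem_gaussSubalgebra K N O hd⟩ = jdF κ N hd := by
  apply Subtype.ext
  rw [coe_thetaE, Fermat.Agent.N4F.C.ChartReduction.theta_jdF]
  rfl

theorem theta_eq_zero_of_mem_ker {x : ↥(gaussSubalgebra K N O)}
    (hx : x ∈ RingHom.ker (thetaE K N O hA2)) : theta K N O x = 0 :=
  congrArg Subtype.val (RingHom.mem_ker.mp hx)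

set_option synthInstance.maxHeartbeats 400000 in
include hA2 in
/-- Two ring homomorphisms out of `G_N` killing `ker θ`, agreeing on `O` and on the `j_d`, are
equal. -/
theorem ringHom_ext_gauss {D : Type*} [Field D] (f₁ f₂ : ↥(gaussSubalgebra K N O) →+* D)
    (h₁ : ∀ x, theta K N O x = 0 → f₁ x = 0) (h₂ : ∀ x, theta K N O x = 0 → f₂ x = 0)
    (hO : ∀ a : ↥O, f₁ (algebraMap ↥O ↥(gaussSubalgebra K N O) a) =
      f₂ (algebraMap ↥O ↥(gaussSubalgebra K N O) a))
    (hj : ∀ (d : ℕ) [NeZero d] (hd : d ∣ N),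
      f₁ ⟨jdF K N hd, Fermat.Agent.N4F.C.ChartReduction.jdF_mem_gaussSubalgebra K N O hd⟩ =
        f₂ ⟨jdF K N hd, Fermat.Agent.N4F.C.ChartReduction.jdF_mem_gaussSubalgebra K N O hd⟩)
    (x : ↥(gaussSubalgebra K N O)) : f₁ x = f₂ x := by
  have hk₁ : RingHom.ker (thetaE K N O hA2) ≤ RingHom.ker f₁ := fun x hx =>
    RingHom.mem_ker.mpr (h₁ x (theta_eq_zero_of_mem_ker K N O hA2 hx))
  have hk₂ : RingHom.ker (thetaE K N O hA2) ≤ RingHom.ker f₂ := fun x hx =>
    RingHom.mem_ker.mpr (h₂ x (theta_eq_zero_of_mem_ker K N O hA2 hx))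
  have hsurj := thetaE_surjective K N O hA2
  let g₁ : FF κ N →+* D := (thetaE K N O hA2).liftOfSurjective hsurj ⟨f₁, hk₁⟩
  let g₂ : FF κ N →+* D := (thetaE K N O hA2).liftOfSurjective hsurj ⟨f₂, hk₂⟩
  have hg₁ : ∀ x, g₁ (thetaE K N O hA2 x) = f₁ x := fun x =>
    (thetaE K N O hA2).liftOfRightInverse_comp_apply _ _ ⟨f₁, hk₁⟩ x
  have hg₂ : ∀ x, g₂ (thetaE K N O hA2 x) = f₂ x := fun x =>
    (thetaE K N O hA2).liftOfRightInverse_comp_apply _ _ ⟨f₂, hk₂⟩ x
  have hg : g₁ = g₂ := by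
    refine GaussResidue.ringHom_ext_FF κ N g₁ g₂ ?_ ?_
    · intro c
      obtain ⟨a, rfl⟩ := IsLocalRing.residue_surjective c
      rw [← thetaE_algebraMap K N O hA2, hg₁, hg₂, hO]
    · intro d _ hd
      rw [← thetaE_jdF K N O hA2 hd, hg₁, hg₂, hj d hd]
  rw [← hg₁, hg, hg₂]

end Residue

/-! ### The β-side -/

section Beta

variable (K : Type) [Field K] [CharZero K] (N : ℕ) [NeZero N] (ℓ : ℕ) [hℓ : Fact ℓ.Prime]
  (O : Subring K) [IsDiscreteValuationRing ↥O] [IsFractionRing ↥O K]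

set_option quotPrecheck false in
local notation "κ" => IsLocalRing.ResidueField ↥O

/-- `FF K (N ℓ)` as an algebra over `FF K N` through `β` (local instance of this section). -/
@[reducible] def algBeta : Algebra (FF K N) (FF K (N * ℓ)) := algebraAlong (betaF K N ℓ)

attribute [local instance] algBeta

set_option synthInstance.maxHeartbeats 400000 in
/-- shortcut instance -/
@[reducible] def algGL : Algebra ↥(gaussSubalgebra K N O) (FF K (N * ℓ)) := inferInstance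

attribute [local instance] algGL

/-- The integral closure `C_β` of `β (G_N)` in `FF K (N ℓ)`. -/
abbrev Cβ : Subalgebra ↥(gaussSubalgebra K N O) (FF K (N * ℓ)) :=
  integralClosure ↥(gaussSubalgebra K N O) (FF K (N * ℓ))

/-- shortcut instance (the canonical algebra structure of a subalgebra) -/
@[reducible] def algGC : Algebra ↥(gaussSubalgebra K N O) ↥(Cβ K N ℓ O) :=
  Subalgebra.algebra (Cβ K N ℓ O)

attribute [local instance] algGC

set_option synthInstance.maxHeartbeats 400000 in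
/-- shortcut instance -/
@[reducible] def commRingCβ : CommRing ↥(Cβ K N ℓ O) := inferInstance

attribute [local instance] commRingCβ

theorem finrank_beta (ι : K →+* ℂ) (hℓN : ¬ ℓ ∣ N) :
    Module.finrank (FF K N) (FF K (N * ℓ)) = ℓ + 1 :=
  finrank_of_algebraMap_eq_betaF K N ℓ ι hℓN rfl

theorem finiteDimensional_beta (ι : K →+* ℂ) (hℓN : ¬ ℓ ∣ N) :
    FiniteDimensional (FF K N) (FF K (N * ℓ)) :=
  Module.finite_of_finrank_pos (by rw [finrank_beta K N ℓ ι hℓN]; exact Nat.succ_pos ℓ)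

theorem Cβ_le_gauss (y : Cβ K N ℓ O) : (y : FF K (N * ℓ)) ∈ gaussSubalgebra K (N * ℓ) O :=
  mem_gauss_of_isIntegral K N ℓ O (betaF K N ℓ) (fun _ hx => betaF_mem K O N ℓ hx) y y.2

/-- `C_β → G_{Nℓ}`. -/
def toGauss : Cβ K N ℓ O →+* ↥(gaussSubalgebra K (N * ℓ) O) :=
  ((Cβ K N ℓ O).val.toRingHom).codRestrict (gaussSubalgebra K (N * ℓ) O) (Cβ_le_gauss K N ℓ O)

/-- The Gauss place `π₁ = θ_{Nℓ}|C_β`. -/
def pi₁ : Cβ K N ℓ O →+* LaurentSeries κ := (theta K (N * ℓ) O).comp (toGauss K N ℓ O)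

theorem pi₁_apply (y : Cβ K N ℓ O) :
    pi₁ K N ℓ O y = theta K (N * ℓ) O ⟨(y : FF K (N * ℓ)), Cβ_le_gauss K N ℓ O y⟩ := rfl

theorem pi₁_algebraMap (a : ↥(gaussSubalgebra K N O)) :
    pi₁ K N ℓ O (algebraMap ↥(gaussSubalgebra K N O) (Cβ K N ℓ O) a) =
      qExpand κ ℓ (theta K N O a) :=
  theta_betaF K O N ℓ a

theorem theta_maximalIdeal (a : ↥(gaussSubalgebra K N O))
    (ha : a ∈ IsLocalRing.maximalIdeal ↥(gaussSubalgebra K N O)) : theta K N O a = 0 := by
  rw [maximalIdeal_eq_ker] at ha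
  exact ha

/-- `α j ∈ C_β`. -/
def x₀ : Cβ K N ℓ O :=
  ⟨alphaF K N ℓ (jF K N), isIntegral_alpha_of_mem_Rfin K N ℓ O
    (subset_chartAlg _ (Set.mem_singleton _))⟩

/-- `j ∈ G_N`. -/
def t₀ : ↥(gaussSubalgebra K N O) := ⟨jF K N, jF_mem_gaussSubalgebra K N O⟩

theorem theta_t₀ : theta K N O (t₀ K N O) = jqModC κ := theta_jF K N O

theorem pi₁_x₀ : pi₁ K N ℓ O (x₀ K N ℓ O) = jqModC κ := by
  rw [pi₁_apply]
  exact (theta_alphaF K O N ℓ ⟨jF K N, jF_mem_gaussSubalgebra K N O⟩).trans (theta_jF K N O)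

variable [CharP (IsLocalRing.ResidueField ↥O) ℓ]

theorem pi₁_x₀_pow :
    pi₁ K N ℓ O (x₀ K N ℓ O) ^ ℓ = qExpand κ ℓ (theta K N O (t₀ K N O)) := by
  rw [pi₁_x₀, theta_t₀, jqModC_pow_eq]

theorem theta_pow_ne (a : ↥(gaussSubalgebra K N O)) :
    theta K N O a ^ ℓ ≠ theta K N O (t₀ K N O) := by
  rw [theta_t₀]
  exact Integrality.jqModC_ne_pow κ ℓ _

variable (ι : K →+* ℂ) (hℓN : ¬ ℓ ∣ N)

include ι hℓN in
/-- **The second place** `ev : C_β → κ((q))` (from the abstract theorem (T)). -/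
theorem exists_ev :
    ∃ ev : Cβ K N ℓ O →+* LaurentSeries κ,
      (∀ a : ↥(gaussSubalgebra K N O),
        ev (algebraMap ↥(gaussSubalgebra K N O) (Cβ K N ℓ O) a) = theta K N O a) ∧
      RingHom.ker ev ≠ RingHom.ker (pi₁ K N ℓ O) := by
  haveI := finiteDimensional_beta K N ℓ ι hℓN
  haveI : Algebra.IsSeparable (FF K N) (FF K (N * ℓ)) := inferInstance
  haveI : CharP (LaurentSeries κ) ℓ := charP_laurent K ℓ O
  exact KummerPlace.exists_ev (finrank_beta K N ℓ ι hℓN) (theta K N O)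
    (theta_maximalIdeal K N O) (qExpand κ ℓ) (pi₁ K N ℓ O) (pi₁_algebraMap K N ℓ O)
    (x₀ K N ℓ O) (t₀ K N O) (pi₁_x₀_pow K N ℓ O) (theta_pow_ne K N ℓ O)

variable (ev : Cβ K N ℓ O →+* LaurentSeries (IsLocalRing.ResidueField ↥O))
  (hev : ∀ a : ↥(gaussSubalgebra K N O),
    ev (algebraMap ↥(gaussSubalgebra K N O) (Cβ K N ℓ O) a) = theta K N O a)
  (hne : RingHom.ker ev ≠ RingHom.ker (pi₁ K N ℓ O))

include ι hℓN hev hne in
theorem isMaximal_iff (P : Ideal (Cβ K N ℓ O)) :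
    P.IsMaximal ↔ P = RingHom.ker (pi₁ K N ℓ O) ∨ P = RingHom.ker ev := by
  haveI := finiteDimensional_beta K N ℓ ι hℓN
  haveI : Algebra.IsSeparable (FF K N) (FF K (N * ℓ)) := inferInstance
  haveI : CharP (LaurentSeries κ) ℓ := charP_laurent K ℓ O
  exact KummerPlace.isMaximal_iff (finrank_beta K N ℓ ι hℓN) (theta K N O)
    (theta_maximalIdeal K N O) (qExpand κ ℓ) (pi₁ K N ℓ O) (pi₁_algebraMap K N ℓ O)
    (x₀ K N ℓ O) (t₀ K N O) (pi₁_x₀_pow K N ℓ O) (theta_pow_ne K N ℓ O) ev hev hne P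

include ι hℓN hev hne in
/-- Units of `C_β`: nonzero at both places. -/
theorem isUnit_of_ne_zero (b : Cβ K N ℓ O) (h1 : pi₁ K N ℓ O b ≠ 0) (h2 : ev b ≠ 0) :
    IsUnit b := by
  by_contra hnu
  obtain ⟨M, hM, hbM⟩ := exists_max_ideal_of_mem_nonunits hnu
  rcases (isMaximal_iff K N ℓ O ι hℓN ev hev hne M).mp hM with h | h
  · rw [h] at hbM
    exact h1 hbM
  · rw [h] at hbM
    exact h2 hbM

/-- `α : Rfin → C_β`. -/
def alphaR : ↥(Rfin K N O) →+* Cβ K N ℓ O :=
  ((alphaF K N ℓ).toRingHom.comp (Rfin K N O).val.toRingHom).codRestrict (Cβ K N ℓ O)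
    (fun x => isIntegral_alpha_of_mem_Rfin K N ℓ O x.2)

theorem coe_alphaR (x : ↥(Rfin K N O)) :
    ((alphaR K N ℓ O x : Cβ K N ℓ O) : FF K (N * ℓ)) = alphaF K N ℓ (x : FF K N) := rfl

theorem alphaR_jFin : alphaR K N ℓ O (jFin K N O) = x₀ K N ℓ O := rfl

/-- Constants: `α c = β c`. -/
theorem alphaR_algebraMap (a : ↥O) :
    alphaR K N ℓ O (algebraMap ↥O ↥(Rfin K N O) a) =
      algebraMap ↥(gaussSubalgebra K N O) (Cβ K N ℓ O)
        (algebraMap ↥O ↥(gaussSubalgebra K N O) a) := by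
  apply Subtype.ext
  show alphaF K N ℓ (algebraMap K (FF K N) (a : K)) =
    betaF K N ℓ (algebraMap K (FF K N) (a : K))
  rw [AlgHom.commutes, AlgHom.commutes]

include hev in
/-- Kronecker: `ev (α j) = j̄ ^ ℓ`. -/
theorem ev_x₀ : ev (x₀ K N ℓ O) = jqModC κ ^ ℓ := by
  haveI : CharP (LaurentSeries κ) ℓ := charP_laurent K ℓ O
  have h0 : evZ (x₀ K N ℓ O) (algebraMap ↥(gaussSubalgebra K N O) (Cβ K N ℓ O) (t₀ K N O))
      (modPoly ℓ) = 0 := by
    apply Subtype.val_injective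
    have h := map_evZ ((Cβ K N ℓ O).val.toRingHom) (x₀ K N ℓ O)
      (algebraMap ↥(gaussSubalgebra K N O) (Cβ K N ℓ O) (t₀ K N O)) (modPoly ℓ)
    exact h.trans (Integrality.evZ_modPoly_alpha_beta K N ℓ)
  have h1 := map_evZ ev (x₀ K N ℓ O)
    (algebraMap ↥(gaussSubalgebra K N O) (Cβ K N ℓ O) (t₀ K N O)) (modPoly ℓ)
  rw [h0, map_zero, hev, theta_t₀] at h1
  exact eq_pow_of_evZ_eq_zero ℓ _ _ h1.symm (Integrality.jqModC_ne_pow κ ℓ)

include hev in
theorem ev_alphaR_algebraMap (a : ↥O) :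
    (ev.comp (alphaR K N ℓ O)) (algebraMap ↥O ↥(Rfin K N O) a) =
      algebraMap κ (LaurentSeries κ) (IsLocalRing.residue ↥O a) := by
  rw [RingHom.comp_apply, alphaR_algebraMap, hev, theta_algebraMap,
    algebraMap_laurentSeries_eq_single]
  rfl

include hev in
/-- The kernel of `ev ∘ α` on `Rfin` is the fibre ideal. -/
theorem ker_ev_alphaR (hprime : (fibreIdeal K N O (Rfin K N O)).IsPrime) :
    RingHom.ker (ev.comp (alphaR K N ℓ O)) = fibreIdeal K N O (Rfin K N O) := by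
  refine ChartKernel.ker_eq_fibreIdeal_Rfin K N O (ev.comp (alphaR K N ℓ O))
    (ev_alphaR_algebraMap K N ℓ O ev hev) ?_ hprime
  rw [RingHom.comp_apply, alphaR_jFin, ev_x₀ K N ℓ O ev hev]
  exact (Fermat.Agent.S24.FFBasics.transcendental_jqModC κ).pow hℓ.out.pos

include ι hℓN hev hne in
/-- **`α (G_N) ⊆ C_β`.** -/
theorem alpha_mem (hprime : (fibreIdeal K N O (Rfin K N O)).IsPrime) (x : FF K N)
    (hx : x ∈ gaussSubalgebra K N O) : alphaF K N ℓ x ∈ Cβ K N ℓ O := by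
  have hker_rho := ker_rho_eq K N O (jF_mem_gaussSubalgebra K N O)
    (by rw [theta_jF]; exact Fermat.Agent.S24.FFBasics.transcendental_jqModC κ) hprime
  obtain ⟨a, b, hb, hab, -⟩ := exists_frac_Rfin K N O hprime x hx
  have h1 : pi₁ K N ℓ O (alphaR K N ℓ O b) ≠ 0 := by
    have e : pi₁ K N ℓ O (alphaR K N ℓ O b) = rho K N O (S := {jF K N})
        (Set.singleton_subset_iff.mpr (jF_mem_gaussSubalgebra K N O)) b := by
      rw [rho_eq_theta, pi₁_apply]
      exact theta_alphaF K O N ℓ ⟨(b : FF K N), _⟩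
    rw [e]
    intro h0
    apply hb
    rw [← hker_rho]
    exact h0
  have h2 : ev (alphaR K N ℓ O b) ≠ 0 := by
    intro h0
    apply hb
    rw [← ker_ev_alphaR K N ℓ O ev hev hprime]
    exact h0
  obtain ⟨u, hu⟩ := (isUnit_of_ne_zero K N ℓ O ι hℓN ev hev hne _ h1 h2).exists_right_inv
  have e1 : alphaF K N ℓ x * alphaF K N ℓ (b : FF K N) = alphaF K N ℓ (a : FF K N) := by
    rw [← map_mul, hab]
  have e2 : alphaF K N ℓ (b : FF K N) * (u : FF K (N * ℓ)) = 1 := congrArg Subtype.val hu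
  have e3 : alphaF K N ℓ x = ((alphaR K N ℓ O a * u : Cβ K N ℓ O) : FF K (N * ℓ)) := by
    calc alphaF K N ℓ x
        = alphaF K N ℓ x * (alphaF K N ℓ (b : FF K N) * (u : FF K (N * ℓ))) := by
          rw [e2, mul_one]
      _ = alphaF K N ℓ (a : FF K N) * (u : FF K (N * ℓ)) := by rw [← mul_assoc, e1]
  rw [e3]
  exact (alphaR K N ℓ O a * u).2

variable (hprime : (fibreIdeal K N O (Rfin K N O)).IsPrime)

/-- `α : G_N → C_β`. -/
def alphaG (hα : ∀ x ∈ gaussSubalgebra K N O, alphaF K N ℓ x ∈ Cβ K N ℓ O) :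
    ↥(gaussSubalgebra K N O) →+* Cβ K N ℓ O :=
  ((alphaF K N ℓ).toRingHom.comp (gaussSubalgebra K N O).val.toRingHom).codRestrict
    (Cβ K N ℓ O) (fun x => hα x x.2)

theorem coe_alphaG (hα : ∀ x ∈ gaussSubalgebra K N O, alphaF K N ℓ x ∈ Cβ K N ℓ O)
    (x : ↥(gaussSubalgebra K N O)) :
    ((alphaG K N ℓ O hα x : Cβ K N ℓ O) : FF K (N * ℓ)) = alphaF K N ℓ (x : FF K N) := rfl

theorem alphaG_algebraMap (hα : ∀ x ∈ gaussSubalgebra K N O, alphaF K N ℓ x ∈ Cβ K N ℓ O)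
    (a : ↥O) :
    alphaG K N ℓ O hα (algebraMap ↥O ↥(gaussSubalgebra K N O) a) =
      algebraMap ↥(gaussSubalgebra K N O) (Cβ K N ℓ O)
        (algebraMap ↥O ↥(gaussSubalgebra K N O) a) := by
  apply Subtype.ext
  show alphaF K N ℓ (algebraMap K (FF K N) (a : K)) =
    betaF K N ℓ (algebraMap K (FF K N) (a : K))
  rw [AlgHom.commutes, AlgHom.commutes]

include hev hℓN in
/-- Kronecker at `j_d`: `ev (α j_d) = j̄_d ^ ℓ`. -/
theorem ev_alphaG_jdF (hα : ∀ x ∈ gaussSubalgebra K N O, alphaF K N ℓ x ∈ Cβ K N ℓ O)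
    {d : ℕ} [NeZero d] (hd : d ∣ N) :
    ev (alphaG K N ℓ O hα ⟨jdF K N hd,
      Fermat.Agent.N4F.C.ChartReduction.jdF_mem_gaussSubalgebra K N O hd⟩) =
      qExpand κ d (jqModC κ) ^ ℓ := by
  haveI : CharP (LaurentSeries κ) ℓ := charP_laurent K ℓ O
  have hd' : ¬ ℓ ∣ d := fun h => hℓN (h.trans hd)
  set jd : ↥(gaussSubalgebra K N O) := ⟨jdF K N hd,
    Fermat.Agent.N4F.C.ChartReduction.jdF_mem_gaussSubalgebra K N O hd⟩ with hjd
  have h0 : evZ (alphaG K N ℓ O hα jd)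
      (algebraMap ↥(gaussSubalgebra K N O) (Cβ K N ℓ O) jd) (modPoly ℓ) = 0 := by
    apply Subtype.val_injective
    have h := map_evZ ((Cβ K N ℓ O).val.toRingHom) (alphaG K N ℓ O hα jd)
      (algebraMap ↥(gaussSubalgebra K N O) (Cβ K N ℓ O) jd) (modPoly ℓ)
    exact h.trans (GaussResidue.evZ_modPoly_alpha_beta_jdF K N ℓ hd)
  have h1 := map_evZ ev (alphaG K N ℓ O hα jd)
    (algebraMap ↥(gaussSubalgebra K N O) (Cβ K N ℓ O) jd) (modPoly ℓ)
  rw [h0, map_zero, hev, hjd, Fermat.Agent.N4F.C.ChartReduction.theta_jdF] at h1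
  exact eq_pow_of_evZ_eq_zero ℓ _ _ h1.symm (Integrality.not_isPow κ ℓ hd')

variable (hA2 : ∀ x : ↥(gaussSubalgebra K N O),
    theta K N O x ∈ modularFunctionFieldFullC (IsLocalRing.ResidueField ↥O) N)

include hev hℓN hA2 in
/-- **`ev ∘ α = φ ∘ θ`** on the Gauss ring. -/
theorem ev_alphaG (hα : ∀ x ∈ gaussSubalgebra K N O, alphaF K N ℓ x ∈ Cβ K N ℓ O)
    (x : ↥(gaussSubalgebra K N O)) :
    ev (alphaG K N ℓ O hα x) = qExpand κ ℓ (theta K N O x) := by
  obtain ⟨ϖ, hϖ⟩ := IsDiscreteValuationRing.exists_irreducible ↥O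
  refine ringHom_ext_gauss K N O hA2 (ev.comp (alphaG K N ℓ O hα))
    ((qExpand κ ℓ).comp (theta K N O)) ?_ ?_ ?_ ?_ x
  · intro y hy
    obtain ⟨z, rfl⟩ := exists_eq_unif_mul K N O hϖ y hy
    rw [RingHom.comp_apply, map_mul, map_mul]
    have : ev (alphaG K N ℓ O hα (unif K N O ϖ)) = 0 := by
      rw [alphaG_algebraMap, hev]
      exact theta_unif K N O hϖ
    rw [this, zero_mul]
  · intro y hy
    rw [RingHom.comp_apply, hy, map_zero]
  · intro a
    rw [RingHom.comp_apply, RingHom.comp_apply, alphaG_algebraMap, hev, theta_algebraMap,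
      qExpand_C]
  · intro d _ hd
    rw [RingHom.comp_apply, RingHom.comp_apply, ev_alphaG_jdF K N ℓ O hℓN ev hev hα hd,
      Fermat.Agent.N4F.C.ChartReduction.theta_jdF, GaussResidue.qExpand_qExpand_jqModC_eq_pow]

include ι hℓN hev hne hA2 in
/-- **`(†β)`** for the element `x` of the Gauss ring. -/
theorem dagger_beta_aux (hα : ∀ x ∈ gaussSubalgebra K N O, alphaF K N ℓ x ∈ Cβ K N ℓ O)
    (x : ↥(gaussSubalgebra K N O)) (hfin : FiniteAlong K (betaF K N ℓ)) :
    ∃ q : Polynomial ↥(gaussSubalgebra K N O), q.Monic ∧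
      q.map (algebraMap ↥(gaussSubalgebra K N O) (FF K N)) =
        GenericFibreAlong.charpolyAlong (betaF K N ℓ) hfin (alphaF K N ℓ (x : FF K N)) ∧
      q.map (theta K N O) =
        (X ^ ℓ - C (coeffMap (frobenius κ ℓ) (theta K N O x))) *
          (X - C (qExpand κ ℓ (theta K N O x))) := by
  haveI := finiteDimensional_beta K N ℓ ι hℓN
  haveI : Algebra.IsSeparable (FF K N) (FF K (N * ℓ)) := inferInstance
  haveI : CharP (LaurentSeries κ) ℓ := charP_laurent K ℓ O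
  obtain ⟨c, hc⟩ := GaussResidue.theta_surjective K N O
    (Fermat.Agent.N4.BaseDescent.coeffMap_mem_full (frobenius κ ℓ) N (hA2 x))
  obtain ⟨μ, hμ⟩ := GaussResidue.theta_surjective K N O
    (GaussResidue.qExpand_mem_full κ N ℓ (hA2 x))
  have h1 : pi₁ K N ℓ O (alphaG K N ℓ O hα x) ^ ℓ = qExpand κ ℓ (theta K N O c) := by
    have e : pi₁ K N ℓ O (alphaG K N ℓ O hα x) = theta K N O x := by
      rw [pi₁_apply]
      exact theta_alphaF K O N ℓ x
    rw [e, hc, pow_eq_qExpand_frob]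
  have h2 : ev (alphaG K N ℓ O hα x) = theta K N O μ := by
    rw [ev_alphaG K N ℓ O hℓN ev hev hA2 hα x, hμ]
  obtain ⟨q, hq1, hq2, hq3⟩ := KummerPlace.kronecker (finrank_beta K N ℓ ι hℓN) (theta K N O)
    (theta_maximalIdeal K N O) (qExpand κ ℓ) (pi₁ K N ℓ O) (pi₁_algebraMap K N ℓ O)
    (x₀ K N ℓ O) (t₀ K N O) (pi₁_x₀_pow K N ℓ O) (theta_pow_ne K N ℓ O) ev hev hne
    (alphaG K N ℓ O hα x) c μ h1 h2
  refine ⟨q, hq1, ?_, ?_⟩
  · rw [hq2]
    rfl
  · rw [hq3, hc, hμ]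

include ι hℓN hprime hA2 in
/-- **The second place and `(†β)`** (export of the β-side; the `β`-algebra structure is hidden). -/
theorem exists_second_place :
    ∃ (W : Subring (FF K (N * ℓ))) (ev : ↥W →+* LaurentSeries κ),
      (∀ y : FF K (N * ℓ), IsIntegral ↥W y → y ∈ W) ∧
      (∀ (x : FF K N) (hx : x ∈ gaussSubalgebra K N O),
        ∃ (h1 : alphaF K N ℓ x ∈ W) (h2 : betaF K N ℓ x ∈ W),
          ev ⟨_, h2⟩ = theta K N O ⟨x, hx⟩ ∧
          ev ⟨_, h1⟩ = qExpand κ ℓ (theta K N O ⟨x, hx⟩)) ∧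
      (∀ (x : FF K N) (hx : x ∈ gaussSubalgebra K N O)
        (hfin : FiniteAlong K (betaF K N ℓ)),
        ∃ q : Polynomial ↥(gaussSubalgebra K N O), q.Monic ∧
          q.map (algebraMap ↥(gaussSubalgebra K N O) (FF K N)) =
            GenericFibreAlong.charpolyAlong (betaF K N ℓ) hfin (alphaF K N ℓ x) ∧
          q.map (theta K N O) =
            (X ^ ℓ - C (coeffMap (frobenius κ ℓ) (theta K N O ⟨x, hx⟩))) *
              (X - C (qExpand κ ℓ (theta K N O ⟨x, hx⟩)))) := by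
  obtain ⟨ev, hev, hne⟩ := exists_ev K N ℓ O ι hℓN
  have hα := alpha_mem K N ℓ O ι hℓN ev hev hne hprime
  let incl : ↥(Cβ K N ℓ O).toSubring →+* ↥(Cβ K N ℓ O) :=
    ((Cβ K N ℓ O).toSubring.subtype).codRestrict (Cβ K N ℓ O) (fun y => y.2)
  refine ⟨(Cβ K N ℓ O).toSubring, ev.comp incl, ?_, ?_, ?_⟩
  · intro y hy
    exact mem_of_isIntegral_toSubring y hy
  · intro x hx
    refine ⟨hα x hx, (Cβ K N ℓ O).algebraMap_mem ⟨x, hx⟩, ?_, ?_⟩
    · exact hev ⟨x, hx⟩
    · exact ev_alphaG K N ℓ O hℓN ev hev hA2 hα ⟨x, hx⟩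
  · intro x hx hfin
    exact dagger_beta_aux K N ℓ O ι hℓN ev hev hne hA2 hα ⟨x, hx⟩ hfin

end Beta

end Fermat.Agent.N4F.E.BetaSide
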