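import Mathlib
import Fermat.Prelude.Def_ModularCurve_X0ModL
import Fermat.Prelude.Def_AlgebraicCurve_BaseChangeGalois
import Fermat.Agent.N4.Kronecker
import Fermat.Agent.N4F.C.CoeffAut
import Fermat.Agent.N4F.E.PlaceValue

/-!
# N4-FULL block E (node E4): the coefficientwise Frobenius on `FF K N` and values at places

`K` a perfect field of characteristic `l`, `FF K N = modularFunctionFieldFullC K N ⊆ K((q))`.

* `frobAut K l N := CoeffAut.coeffAut K N (frobeniusEquiv K l)` : the coefficientwise Frobenius `Fr`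
  as a prelude `SemilinearAut` (THE SAME object as block C's `coeffAut σbar` for `σbar = Frob`);
* `phi K l N : FF K N →ₐ[K] FF K N`, `f(q) ↦ f(q^l)`, with `phi g = (Fr⁻¹ • g) ^ l`
  (`qExpand_eq_frob_inv_pow`, `phi_eq`), `Fr • phi g = g ^ l`;
* orders: `ord_frob : (Fr • v).ord (Fr • g) = v.ord g`, `ord_phi : v.ord (phi g) = l * (Fr • v).ord g`;
* values at rational places: `valueAt_frob : (Fr g)(Fr x) = g(x)^l`,
  `valueAt_frob' : (Fr g)(x) = g(Fr⁻¹ x)^l`, `valueAt_phi : (phi g)(x) = g(Fr x)`.
-/

set_option autoImplicit false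
set_option linter.unusedSectionVars false

open ModularCurve AlgebraicCurve IntermediateField

noncomputable section

namespace Fermat.Agent.N4F.E.FrobPlaces

open Fermat.Agent.N4F.E.PlaceValue Fermat.Agent.N4F.C.CoeffAut

variable (K : Type*) [Field K] (l : ℕ) [Fact l.Prime] [CharP K l] [PerfectRing K l] (N : ℕ)

/-- The coefficientwise Frobenius `Fr` of `FF K N` (`K` perfect of characteristic `l`). -/
def frobAut : SemilinearAut K (modularFunctionFieldFullC K N) :=
  coeffAut K N (frobeniusEquiv K l)

theorem frobAut_def : frobAut K l N = coeffAut K N (frobeniusEquiv K l) := rfl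

@[simp]
theorem baseAut_frobAut : SemilinearAut.baseAut (frobAut K l N) = frobeniusEquiv K l := rfl

theorem baseAut_frobAut_apply (a : K) : SemilinearAut.baseAut (frobAut K l N) a = a ^ l := by
  rw [baseAut_frobAut, frobeniusEquiv_apply, frobenius_def]

theorem baseAut_frobAut_symm_apply_pow (a : K) :
    ((SemilinearAut.baseAut (frobAut K l N)).symm a) ^ l = a := by
  have := frobenius_apply_frobeniusEquiv_symm K l a
  rwa [frobenius_def] at this

/-- `Fr` acts coefficientwise by `a ↦ a^l`. -/
theorem frobAut_smul_eq (g : modularFunctionFieldFullC K N) :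
    ((frobAut K l N • g : modularFunctionFieldFullC K N) : LaurentSeries K)
      = coeffMap (frobenius K l) (g : LaurentSeries K) := rfl

theorem frobAut_inv_smul_eq (g : modularFunctionFieldFullC K N) :
    (((frobAut K l N)⁻¹ • g : modularFunctionFieldFullC K N) : LaurentSeries K)
      = coeffMap ((frobeniusEquiv K l).symm : K →+* K) (g : LaurentSeries K) := rfl

/-- The generators `j(q^d)` are fixed by every coefficientwise automorphism. -/
theorem coeffAut_smul_jd (τ : K ≃+* K) {d : ℕ} [NeZero d] (hd : d ∣ N) :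
    coeffAut K N τ • (⟨qExpand K d (jqModC K), jqModCd_mem_full K N hd⟩ :
      modularFunctionFieldFullC K N) = ⟨qExpand K d (jqModC K), jqModCd_mem_full K N hd⟩ := by
  apply Subtype.ext
  rw [coe_coeffAut_smul]
  show coeffMap (τ : K →+* K) (qExpand K d (jqModC K)) = qExpand K d (jqModC K)
  rw [coeffMap_qExpand, coeffMap_jqModC]

/-- `q ↦ q^l` is the `l`-th power of the inverse coefficientwise Frobenius (series form). -/
theorem qExpand_eq_pow (x : LaurentSeries K) :
    qExpand K l x = (coeffMap ((frobeniusEquiv K l).symm : K →+* K) x) ^ l := by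
  rw [Fermat.Agent.N4.Kronecker.pow_char_eq_qExpand l, coeffMap_coeffMap]
  congr 1
  rw [coeffMap_congr (g := RingHom.id K) (RingHom.ext fun a => ?_) x, coeffMap_id]
  exact frobenius_apply_frobeniusEquiv_symm K l a

/-- `g(q^l) = (Fr⁻¹ g)^l` for `g ∈ FF K N`. -/
theorem qExpand_eq_frob_inv_pow (g : modularFunctionFieldFullC K N) :
    qExpand K l (g : LaurentSeries K) =
      (((frobAut K l N)⁻¹ • g : modularFunctionFieldFullC K N) : LaurentSeries K) ^ l := by
  rw [qExpand_eq_pow, frobAut_inv_smul_eq]

theorem qExpand_mem_full {x : LaurentSeries K} (hx : x ∈ modularFunctionFieldFullC K N) :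
    qExpand K l x ∈ modularFunctionFieldFullC K N := by
  rw [qExpand_eq_pow]
  exact pow_mem (coeffMap_mem_full K N _ hx) l

/-- `phi : FF K N →ₐ[K] FF K N`, `f(q) ↦ f(q^l)` (characteristic `l` only!). -/
def phi : modularFunctionFieldFullC K N →ₐ[K] modularFunctionFieldFullC K N where
  toFun x := ⟨qExpand K l (x : LaurentSeries K), qExpand_mem_full K l N x.2⟩
  map_one' := Subtype.ext (map_one (qExpand K l))
  map_mul' x y := Subtype.ext (map_mul (qExpand K l) (x : LaurentSeries K) (y : LaurentSeries K))
  map_zero' := Subtype.ext (map_zero (qExpand K l))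
  map_add' x y := Subtype.ext (map_add (qExpand K l) (x : LaurentSeries K) (y : LaurentSeries K))
  commutes' c := Subtype.ext ((qExpandAlgHomC K l).commutes c)

@[simp]
theorem coe_phi (x : modularFunctionFieldFullC K N) :
    (phi K l N x : LaurentSeries K) = qExpand K l (x : LaurentSeries K) := rfl

/-- `phi g = (Fr⁻¹ g)^l`. -/
theorem phi_eq (x : modularFunctionFieldFullC K N) :
    phi K l N x = ((frobAut K l N)⁻¹ • x) ^ l := by
  apply Subtype.ext
  rw [coe_phi, qExpand_eq_frob_inv_pow]
  rfl

/-- `Fr (phi g) = g^l`. -/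
theorem frobAut_smul_phi (x : modularFunctionFieldFullC K N) :
    frobAut K l N • phi K l N x = x ^ l := by
  rw [phi_eq, smul_pow', smul_inv_smul]

/-- `phi` commutes with `Fr`. -/
theorem phi_frobAut_smul (x : modularFunctionFieldFullC K N) :
    phi K l N (frobAut K l N • x) = x ^ l := by
  rw [phi_eq, inv_smul_smul]

variable {K l N}

/-! ### Orders -/

theorem ord_frob (v : Place K (modularFunctionFieldFullC K N))
    (g : modularFunctionFieldFullC K N) :
    (frobAut K l N • v).ord (frobAut K l N • g) = v.ord g :=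
  SemilinearAut.ord_smul _ v g

theorem ord_frob_inv (v : Place K (modularFunctionFieldFullC K N))
    (g : modularFunctionFieldFullC K N) :
    v.ord ((frobAut K l N)⁻¹ • g) = (frobAut K l N • v).ord g := by
  rw [← ord_frob (l := l) v, smul_inv_smul]

/-- `ord_v (phi g) = l * ord_{Fr v} g`. -/
theorem ord_phi (v : Place K (modularFunctionFieldFullC K N))
    (g : modularFunctionFieldFullC K N) :
    v.ord (phi K l N g) = l * (frobAut K l N • v).ord g := by
  rw [phi_eq, ← zpow_natCast, Place.ord_zpow, ord_frob_inv]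

/-! ### Values at rational places -/

/-- `(Fr g)(Fr x) = g(x)^l`. -/
theorem valueAt_frob {x : Place K (modularFunctionFieldFullC K N)}
    (hx : Function.Bijective (algebraMap K x.ResidueField))
    {g : modularFunctionFieldFullC K N} (hg : g ∈ x.toValuationSubring) :
    valueAt (frobAut K l N • x) (bijective_smul _ hx) (frobAut K l N • g)
      (smul_mem_smul _ hg) = valueAt x hx g hg ^ l := by
  rw [valueAt_smul, baseAut_frobAut_apply]

/-- `(Fr g)(x) = g(Fr⁻¹ x)^l`. -/
theorem valueAt_frob' {x : Place K (modularFunctionFieldFullC K N)}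
    (hx : Function.Bijective (algebraMap K x.ResidueField))
    {g : modularFunctionFieldFullC K N}
    (hg : g ∈ ((frobAut K l N)⁻¹ • x).toValuationSubring) :
    valueAt x hx (frobAut K l N • g) (smul_mem_of_mem_inv_smul _ hg) =
      valueAt ((frobAut K l N)⁻¹ • x) (bijective_smul _ hx) g hg ^ l := by
  rw [valueAt_smul', baseAut_frobAut_apply]

theorem phi_mem {x : Place K (modularFunctionFieldFullC K N)}
    {g : modularFunctionFieldFullC K N} (hg : g ∈ (frobAut K l N • x).toValuationSubring) :
    phi K l N g ∈ x.toValuationSubring := by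
  rw [phi_eq]
  exact pow_mem (inv_smul_mem_of_mem_smul _ hg) l

theorem phi_mem_iff {x : Place K (modularFunctionFieldFullC K N)}
    {g : modularFunctionFieldFullC K N} :
    phi K l N g ∈ x.toValuationSubring ↔ g ∈ (frobAut K l N • x).toValuationSubring := by
  refine ⟨fun h => ?_, phi_mem⟩
  rw [phi_eq] at h
  have hl : l ≠ 0 := (Fact.out : l.Prime).ne_zero
  have h1 : (frobAut K l N)⁻¹ • g ∈ x.toValuationSubring := by
    by_contra hcon
    have hinv := (x.toValuationSubring.mem_or_inv_mem _).resolve_left hcon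
    -- `y⁻¹ ∈ O` and `y^l ∈ O` imply `y = y^l * (y⁻¹)^(l-1) ∈ O`
    apply hcon
    have h2 : (frobAut K l N)⁻¹ • g = ((frobAut K l N)⁻¹ • g) ^ l *
        (((frobAut K l N)⁻¹ • g)⁻¹) ^ (l - 1) := by
      rcases eq_or_ne ((frobAut K l N)⁻¹ • g) 0 with h0 | h0
      · rw [h0, zero_pow hl, zero_mul]
      · obtain ⟨m, rfl⟩ : ∃ m, l = m + 1 := Nat.exists_eq_succ_of_ne_zero hl
        rw [Nat.add_sub_cancel, inv_pow, pow_succ]
        field_simp
    rw [h2]
    exact mul_mem h (pow_mem hinv _)
  exact (mem_smul_place_iff _ x g).mpr h1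

/-- `(phi g)(x) = g(Fr x)`. -/
theorem valueAt_phi {x : Place K (modularFunctionFieldFullC K N)}
    (hx : Function.Bijective (algebraMap K x.ResidueField))
    {g : modularFunctionFieldFullC K N} (hg : g ∈ (frobAut K l N • x).toValuationSubring) :
    valueAt x hx (phi K l N g) (phi_mem hg) =
      valueAt (frobAut K l N • x) (bijective_smul _ hx) g hg := by
  have hmem : (frobAut K l N)⁻¹ • g ∈ x.toValuationSubring := inv_smul_mem_of_mem_smul _ hg
  have h2 : valueAt x hx (phi K l N g) (phi_mem hg) =
      valueAt x hx (((frobAut K l N)⁻¹ • g) ^ l) (pow_mem hmem l) :=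
    valueAt_congr x hx (phi_eq K l N g) _
  rw [h2, valueAt_pow x hx hmem, valueAt_inv_smul (frobAut K l N) hx hg,
    baseAut_frobAut_symm_apply_pow]

end Fermat.Agent.N4F.E.FrobPlaces
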