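/-
N4-FULL, block E, node (E-desc), modular instance (helper29).

`K` a field of characteristic zero, `L` a field with `ℚ ⊆ L`, `f : K →+* L`, `ι : L →+* ℂ`.
Coefficientwise base change `lev M : FF K M → L · F_M` (ANY ring homomorphism with
`(lev x : L((q))) = coeffMap f x`; `levL f M` is one) intertwines helper12's degeneracy maps
`alphaF K N ℓ`, `betaF K N ℓ` with the prelude's `heckeAlphaBar L N ℓ`, `heckeBetaBar L N ℓ`, and for
a prime `ℓ ∤ N` it commutes with norm, trace and characteristic polynomial along `α` and along `β`: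

  `lev N (N_α x) = N_ᾱ (lev (Nℓ) x)`,  `lev N (N_β x) = N_β̄ (lev (Nℓ) x)`, ...

(both degrees are `ℓ + 1`, and `lev (Nℓ)` hits the generators `j(q^d)` of `L · F_{Nℓ}` over `L`).
-/
import Mathlib
import Fermat.Agent.N4.BaseDescent
import Fermat.Agent.N4F.E.NormDescent
import Fermat.Agent.N4F.E.DegreeLevelRaise
import Fermat.Agent.N4F.A.LevelMapsL
import Fermat.Agent.N4F.E.GenericFibreAlong

set_option autoImplicit false
set_option linter.style.haveILetI false
set_option linter.unusedSectionVars false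

namespace Fermat.Agent.N4F.E.NormDescentModular

open ModularCurve AlgebraicCurve IntermediateField
open Fermat.Agent.N4.Setting Fermat.Agent.N4.BaseDescent
open Fermat.Agent.N4F.E.DegreeLevelRaise Fermat.Agent.N4F.E.NormDescent
open Fermat.Agent.N4F.A.LevelMapsL (FFL)
open Fermat.Agent.N4F.E.GenericFibreAlong (charpolyAlong)

/-! ### A generation lemma for subtypes of intermediate fields -/

/-- If `E = L(S)` and every element of `S` is (the coercion of) an element of `T ⊆ E`, then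
`T` generates `E` over `L`. -/
theorem adjoin_eq_top_of_coe {L A : Type*} [Field L] [Field A] [Algebra L A]
    (E : IntermediateField L A) (S : Set A) (hE : E = adjoin L S) (T : Set E)
    (hT : ∀ s ∈ S, ∃ t ∈ T, (t : A) = s) : adjoin L T = ⊤ := by
  rw [eq_top_iff]
  intro x _
  have hx : (x : A) ∈ adjoin L S := hE ▸ x.2
  have hle : adjoin L S ≤ (adjoin L T).map E.val := by
    rw [IntermediateField.adjoin_map, IntermediateField.adjoin_le_iff]
    intro s hs
    obtain ⟨t, ht, rfl⟩ := hT s hs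
    exact IntermediateField.subset_adjoin L _ ⟨t, ht, rfl⟩
  obtain ⟨y, hy, hyx⟩ := hle hx
  have : y = x := Subtype.ext hyx
  exact this ▸ hy

/-! ### Coefficientwise base change of the modular function fields -/

section lev

variable {K : Type} [Field K] {L : Type} [Field L] [Algebra ℚ L] (f : K →+* L)

theorem coeffMap_mem_FFL (M : ℕ) [NeZero M] {x : LaurentSeries K} (hx : x ∈ modularFunctionFieldFullC K M) :
    coeffMap f x ∈ FFL L M := by
  show coeffMap f x ∈ laurentBaseChange L (modularFunctionFieldFull M)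
  rw [laurentBaseChange_full_eq]
  exact coeffMap_mem_full f M hx

/-- Coefficientwise base change `FF K M → L · F_M`. -/
noncomputable def levL (M : ℕ) [NeZero M] : FF K M →+* FFL L M where
  toFun x := ⟨coeffMap f x, coeffMap_mem_FFL f M x.2⟩
  map_one' := Subtype.ext (map_one _)
  map_mul' _ _ := Subtype.ext (map_mul _ _ _)
  map_zero' := Subtype.ext (map_zero _)
  map_add' _ _ := Subtype.ext (map_add _ _ _)

@[simp] theorem coe_levL (M : ℕ) [NeZero M] (x : FF K M) :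
    ((levL f M x : FFL L M) : LaurentSeries L) = coeffMap f (x : LaurentSeries K) := rfl

end lev

/-! ### The descent statements -/

section main

variable {K : Type} [Field K] [CharZero K] {L : Type} [Field L] [Algebra ℚ L]
  (f : K →+* L) (ι : L →+* ℂ) (N ℓ : ℕ) [NeZero N] [Fact ℓ.Prime] (hℓN : ¬ ℓ ∣ N)
  (lev₁ : FF K N →+* FFL L N) (lev₂ : FF K (N * ℓ) →+* FFL L (N * ℓ))
  (h₁ : ∀ x, ((lev₁ x : FFL L N) : LaurentSeries L) = coeffMap f (x : LaurentSeries K))
  (h₂ : ∀ x, ((lev₂ x : FFL L (N * ℓ)) : LaurentSeries L) = coeffMap f (x : LaurentSeries K))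

include h₁ h₂ in
/-- `lev ∘ α = ᾱ ∘ lev`. -/
theorem lev_alphaF (x : FF K N) : lev₂ (alphaF K N ℓ x) = heckeAlphaBar L N ℓ (lev₁ x) := by
  apply Subtype.ext
  rw [h₂, coe_alphaF, coe_heckeAlphaBar, h₁]

include h₁ h₂ in
/-- `lev ∘ β = β̄ ∘ lev`. -/
theorem lev_betaF (x : FF K N) : lev₂ (betaF K N ℓ x) = heckeBetaBar L N ℓ (lev₁ x) := by
  apply Subtype.ext
  rw [h₂, coe_betaF, coe_heckeBetaBar, h₁, coeffMap_qExpand]

include h₂ in
/-- `lev` hits the generators of `L · F_{Nℓ}`. -/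
theorem adjoin_range_lev : adjoin L (Set.range lev₂) = ⊤ := by
  refine adjoin_eq_top_of_coe (FFL L (N * ℓ)) _
    (Fermat.Agent.S24.FFBasics.laurentBaseChange_full L (N * ℓ)) _ ?_
  rintro _ ⟨d, hd, hdM, rfl⟩
  refine ⟨lev₂ (jdF K (N * ℓ) hdM), ⟨_, rfl⟩, ?_⟩
  rw [h₂, coe_jdF, coeffMap_qExpand, coeffMap_jqModC]

/-! #### Finiteness and degrees -/

include ι f hℓN in
theorem finrankAlong_alphaF : finrankAlong K (alphaF K N ℓ) = ℓ + 1 := by
  letI := algebraAlong (alphaF K N ℓ)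
  exact finrank_of_algebraMap_eq_alphaF K N ℓ (ι.comp f) hℓN rfl

include ι f hℓN in
theorem finrankAlong_betaF : finrankAlong K (betaF K N ℓ) = ℓ + 1 := by
  letI := algebraAlong (betaF K N ℓ)
  exact finrank_of_algebraMap_eq_betaF K N ℓ (ι.comp f) hℓN rfl

include ι f hℓN in
theorem finiteAlong_alphaF : FiniteAlong K (alphaF K N ℓ) := by
  letI := algebraAlong (alphaF K N ℓ)
  have h : Module.finrank (FF K N) (FF K (N * ℓ)) = ℓ + 1 := finrankAlong_alphaF f ι N ℓ hℓN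
  exact Module.finite_of_finrank_pos (by rw [h]; exact Nat.succ_pos ℓ)

include ι f hℓN in
theorem finiteAlong_betaF : FiniteAlong K (betaF K N ℓ) := by
  letI := algebraAlong (betaF K N ℓ)
  have h : Module.finrank (FF K N) (FF K (N * ℓ)) = ℓ + 1 := finrankAlong_betaF f ι N ℓ hℓN
  exact Module.finite_of_finrank_pos (by rw [h]; exact Nat.succ_pos ℓ)

include ι hℓN in
theorem finrankAlong_heckeAlphaBar : finrankAlong L (heckeAlphaBar L N ℓ) = ℓ + 1 := by
  letI := algebraAlong (heckeAlphaBar L N ℓ)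
  show Module.finrank (FFL L N) (FFL L (N * ℓ)) = ℓ + 1
  rw [finrank_eq_finrank_fieldRange (heckeAlphaBar L N ℓ) rfl]
  exact finrank_heckeAlphaBar_prime L N ℓ ι hℓN

include ι hℓN in
theorem finrankAlong_heckeBetaBar : finrankAlong L (heckeBetaBar L N ℓ) = ℓ + 1 := by
  letI := algebraAlong (heckeBetaBar L N ℓ)
  show Module.finrank (FFL L N) (FFL L (N * ℓ)) = ℓ + 1
  rw [finrank_eq_finrank_fieldRange (heckeBetaBar L N ℓ) rfl]
  exact finrank_heckeBetaBar_prime L N ℓ ι hℓN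

include ι h₂ in
/-- `lev (L · F_{Nℓ})` spans `L · F_{Nℓ}` over `ᾱ(L · F_N)`. -/
theorem span_range_lev_alpha :
    letI := algebraAlong (heckeAlphaBar L N ℓ)
    Submodule.span (FFL L N) (Set.range lev₂) = ⊤ := by
  letI := algebraAlong (heckeAlphaBar L N ℓ)
  haveI := isScalarTower_along (heckeAlphaBar L N ℓ)
  haveI : Module.Finite (FFL L N) (FFL L (N * ℓ)) :=
    Fermat.Agent.N4F.A.LevelMapsL.finiteAlong_heckeAlphaBar ι N ℓ
  exact span_eq_top_of_adjoin' (K' := L) lev₂ (adjoin_range_lev f N ℓ lev₂ h₂)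

include ι h₂ in
/-- `lev (L · F_{Nℓ})` spans `L · F_{Nℓ}` over `β̄(L · F_N)`. -/
theorem span_range_lev_beta :
    letI := algebraAlong (heckeBetaBar L N ℓ)
    Submodule.span (FFL L N) (Set.range lev₂) = ⊤ := by
  letI := algebraAlong (heckeBetaBar L N ℓ)
  haveI := isScalarTower_along (heckeBetaBar L N ℓ)
  haveI : Module.Finite (FFL L N) (FFL L (N * ℓ)) :=
    Fermat.Agent.N4F.A.LevelMapsL.finiteAlong_heckeBetaBar ι N ℓ
  exact span_eq_top_of_adjoin' (K' := L) lev₂ (adjoin_range_lev f N ℓ lev₂ h₂)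

/-! #### Norm, trace, characteristic polynomial along `α` -/

include ι hℓN h₁ h₂ in
/-- **Norm descent along `α`.** -/
theorem norm_alpha (x : FF K (N * ℓ)) :
    lev₁ (letI := algebraAlong (alphaF K N ℓ); Algebra.norm (FF K N) x)
      = (letI := algebraAlong (heckeAlphaBar L N ℓ); Algebra.norm (FFL L N) (lev₂ x)) :=
  norm_map_along (alphaF K N ℓ) (heckeAlphaBar L N ℓ) lev₁ lev₂
    (lev_alphaF f N ℓ lev₁ lev₂ h₁ h₂) (finiteAlong_alphaF f ι N ℓ hℓN)
    (span_range_lev_alpha f ι N ℓ lev₂ h₂)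
    ((finrankAlong_heckeAlphaBar ι N ℓ hℓN).trans (finrankAlong_alphaF f ι N ℓ hℓN).symm) x

include ι hℓN h₁ h₂ in
/-- **Trace descent along `α`.** -/
theorem trace_alpha (x : FF K (N * ℓ)) :
    lev₁ (letI := algebraAlong (alphaF K N ℓ); Algebra.trace (FF K N) (FF K (N * ℓ)) x)
      = (letI := algebraAlong (heckeAlphaBar L N ℓ);
          Algebra.trace (FFL L N) (FFL L (N * ℓ)) (lev₂ x)) :=
  trace_map_along (alphaF K N ℓ) (heckeAlphaBar L N ℓ) lev₁ lev₂
    (lev_alphaF f N ℓ lev₁ lev₂ h₁ h₂) (finiteAlong_alphaF f ι N ℓ hℓN)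
    (span_range_lev_alpha f ι N ℓ lev₂ h₂)
    ((finrankAlong_heckeAlphaBar ι N ℓ hℓN).trans (finrankAlong_alphaF f ι N ℓ hℓN).symm) x

include ι hℓN h₁ h₂ in
/-- **Characteristic polynomial descent along `α`.** -/
theorem charpoly_alpha (hfin : FiniteAlong K (alphaF K N ℓ))
    (hfin' : FiniteAlong L (heckeAlphaBar L N ℓ)) (x : FF K (N * ℓ)) :
    (charpolyAlong (alphaF K N ℓ) hfin x).map lev₁
      = charpolyAlong (heckeAlphaBar L N ℓ) hfin' (lev₂ x) :=
  charpoly_map_along (alphaF K N ℓ) (heckeAlphaBar L N ℓ) lev₁ lev₂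
    (lev_alphaF f N ℓ lev₁ lev₂ h₁ h₂) hfin
    (span_range_lev_alpha f ι N ℓ lev₂ h₂)
    ((finrankAlong_heckeAlphaBar ι N ℓ hℓN).trans (finrankAlong_alphaF f ι N ℓ hℓN).symm) hfin' x

/-! #### Norm, trace, characteristic polynomial along `β` -/

include ι hℓN h₁ h₂ in
/-- **Norm descent along `β`.** -/
theorem norm_beta (x : FF K (N * ℓ)) :
    lev₁ (letI := algebraAlong (betaF K N ℓ); Algebra.norm (FF K N) x)
      = (letI := algebraAlong (heckeBetaBar L N ℓ); Algebra.norm (FFL L N) (lev₂ x)) :=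
  norm_map_along (betaF K N ℓ) (heckeBetaBar L N ℓ) lev₁ lev₂
    (lev_betaF f N ℓ lev₁ lev₂ h₁ h₂) (finiteAlong_betaF f ι N ℓ hℓN)
    (span_range_lev_beta f ι N ℓ lev₂ h₂)
    ((finrankAlong_heckeBetaBar ι N ℓ hℓN).trans (finrankAlong_betaF f ι N ℓ hℓN).symm) x

include ι hℓN h₁ h₂ in
/-- **Trace descent along `β`.** -/
theorem trace_beta (x : FF K (N * ℓ)) :
    lev₁ (letI := algebraAlong (betaF K N ℓ); Algebra.trace (FF K N) (FF K (N * ℓ)) x)
      = (letI := algebraAlong (heckeBetaBar L N ℓ);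
          Algebra.trace (FFL L N) (FFL L (N * ℓ)) (lev₂ x)) :=
  trace_map_along (betaF K N ℓ) (heckeBetaBar L N ℓ) lev₁ lev₂
    (lev_betaF f N ℓ lev₁ lev₂ h₁ h₂) (finiteAlong_betaF f ι N ℓ hℓN)
    (span_range_lev_beta f ι N ℓ lev₂ h₂)
    ((finrankAlong_heckeBetaBar ι N ℓ hℓN).trans (finrankAlong_betaF f ι N ℓ hℓN).symm) x

include ι hℓN h₁ h₂ in
/-- **Characteristic polynomial descent along `β`.** -/
theorem charpoly_beta (hfin : FiniteAlong K (betaF K N ℓ))
    (hfin' : FiniteAlong L (heckeBetaBar L N ℓ)) (x : FF K (N * ℓ)) :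
    (charpolyAlong (betaF K N ℓ) hfin x).map lev₁
      = charpolyAlong (heckeBetaBar L N ℓ) hfin' (lev₂ x) :=
  charpoly_map_along (betaF K N ℓ) (heckeBetaBar L N ℓ) lev₁ lev₂
    (lev_betaF f N ℓ lev₁ lev₂ h₁ h₂) hfin
    (span_range_lev_beta f ι N ℓ lev₂ h₂)
    ((finrankAlong_heckeBetaBar ι N ℓ hℓN).trans (finrankAlong_betaF f ι N ℓ hℓN).symm) hfin' x

/-! #### The mixed forms consumed by block E: `N_α(β x)` and `N_β(α x)` -/

include ι hℓN h₁ h₂ in
/-- `lev (N_α (β x)) = N_ᾱ (β̄ (lev x))`. -/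
theorem norm_alpha_beta (x : FF K N) :
    lev₁ (letI := algebraAlong (alphaF K N ℓ); Algebra.norm (FF K N) (betaF K N ℓ x))
      = (letI := algebraAlong (heckeAlphaBar L N ℓ);
          Algebra.norm (FFL L N) (heckeBetaBar L N ℓ (lev₁ x))) := by
  rw [norm_alpha f ι N ℓ hℓN lev₁ lev₂ h₁ h₂, lev_betaF f N ℓ lev₁ lev₂ h₁ h₂]

include ι hℓN h₁ h₂ in
/-- `lev (N_β (α x)) = N_β̄ (ᾱ (lev x))`. -/
theorem norm_beta_alpha (x : FF K N) :
    lev₁ (letI := algebraAlong (betaF K N ℓ); Algebra.norm (FF K N) (alphaF K N ℓ x))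
      = (letI := algebraAlong (heckeBetaBar L N ℓ);
          Algebra.norm (FFL L N) (heckeAlphaBar L N ℓ (lev₁ x))) := by
  rw [norm_beta f ι N ℓ hℓN lev₁ lev₂ h₁ h₂, lev_alphaF f N ℓ lev₁ lev₂ h₁ h₂]

include ι hℓN h₁ h₂ in
/-- `(χ_α (β x)).map lev = χ_ᾱ (β̄ (lev x))`. -/
theorem charpoly_alpha_beta (hfin : FiniteAlong K (alphaF K N ℓ))
    (hfin' : FiniteAlong L (heckeAlphaBar L N ℓ)) (x : FF K N) :
    (charpolyAlong (alphaF K N ℓ) hfin (betaF K N ℓ x)).map lev₁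
      = charpolyAlong (heckeAlphaBar L N ℓ) hfin' (heckeBetaBar L N ℓ (lev₁ x)) := by
  rw [charpoly_alpha f ι N ℓ hℓN lev₁ lev₂ h₁ h₂ hfin hfin', lev_betaF f N ℓ lev₁ lev₂ h₁ h₂]

include ι hℓN h₁ h₂ in
/-- `(χ_β (α x)).map lev = χ_β̄ (ᾱ (lev x))`. -/
theorem charpoly_beta_alpha (hfin : FiniteAlong K (betaF K N ℓ))
    (hfin' : FiniteAlong L (heckeBetaBar L N ℓ)) (x : FF K N) :
    (charpolyAlong (betaF K N ℓ) hfin (alphaF K N ℓ x)).map lev₁
      = charpolyAlong (heckeBetaBar L N ℓ) hfin' (heckeAlphaBar L N ℓ (lev₁ x)) := by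
  rw [charpoly_beta f ι N ℓ hℓN lev₁ lev₂ h₁ h₂ hfin hfin', lev_alphaF f N ℓ lev₁ lev₂ h₁ h₂]

end main

end Fermat.Agent.N4F.E.NormDescentModular
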