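/-
N4-FULL, block E, node (E-desc), the instance over `Q̄` (helper29).

`K` ANY field of characteristic zero with `[Algebra K Q̄]` (e.g. helper8's `Lvl K`), `lev K M` helper8's
level map `FF K M →ₐ[K] Q̄ · F_M`.  For a prime `ℓ ∤ N`:

* `lev K (Nℓ) ∘ alphaF = heckeAlphaBar ∘ lev K N`, `lev K (Nℓ) ∘ betaF = heckeBetaBar ∘ lev K N`;
* `lev K N (N_α (β x)) = N_ᾱ (β̄ (lev K N x))` and with `α, β` swapped; the same for traces and for
  the characteristic polynomials `charpolyAlong` (helper26's `GenericFibreAlong.charpolyAlong`).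
-/
import Mathlib
import Fermat.Agent.N4F.C.Levels
import Fermat.Agent.N4F.E.NormDescentModular

set_option autoImplicit false
set_option linter.style.haveILetI false
set_option linter.unusedSectionVars false

namespace Fermat.Agent.N4F.E.NormDescentBar

open ModularCurve AlgebraicCurve IntermediateField
open Fermat.Agent.N4.Setting
open Fermat.Agent.N4F.E.DegreeLevelRaise Fermat.Agent.N4F.E.NormDescentModular
open Fermat.Agent.N4F.C.Levels (lev coe_lev)
open Fermat.Agent.N4F.E.GenericFibreAlong (charpolyAlong)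

local notation "Qb" => AlgebraicClosure ℚ

variable (K : Type) [Field K] [CharZero K] [Algebra K Qb] (N ℓ : ℕ) [NeZero N] [Fact ℓ.Prime]
  [Algebra K ↥(modularFunctionFieldBar N)] [IsScalarTower K Qb ↥(modularFunctionFieldBar N)]
  [Algebra K ↥(modularFunctionFieldBar (N * ℓ))]
  [IsScalarTower K Qb ↥(modularFunctionFieldBar (N * ℓ))]

/-- `lev ∘ α = ᾱ ∘ lev`. -/
theorem lev_alphaF (x : FF K N) :
    lev K (N * ℓ) (alphaF K N ℓ x) = heckeAlphaBar Qb N ℓ (lev K N x) := by
  have h := NormDescentModular.lev_alphaF (algebraMap K Qb) N ℓ (lev K N : FF K N →+* _)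
      (lev K (N * ℓ) : FF K (N * ℓ) →+* _) (fun _ => rfl) (fun _ => rfl) x
  simp only [RingHom.coe_coe] at h
  exact h

/-- `lev ∘ β = β̄ ∘ lev`. -/
theorem lev_betaF (x : FF K N) :
    lev K (N * ℓ) (betaF K N ℓ x) = heckeBetaBar Qb N ℓ (lev K N x) := by
  have h := NormDescentModular.lev_betaF (algebraMap K Qb) N ℓ (lev K N : FF K N →+* _)
      (lev K (N * ℓ) : FF K (N * ℓ) →+* _) (fun _ => rfl) (fun _ => rfl) x
  simp only [RingHom.coe_coe] at h
  exact h

variable (hℓN : ¬ ℓ ∣ N)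

include hℓN in
theorem finiteAlong_alphaF : FiniteAlong K (alphaF K N ℓ) :=
  NormDescentModular.finiteAlong_alphaF (algebraMap K Qb) iotaQbar N ℓ hℓN

include hℓN in
theorem finiteAlong_betaF : FiniteAlong K (betaF K N ℓ) :=
  NormDescentModular.finiteAlong_betaF (algebraMap K Qb) iotaQbar N ℓ hℓN

include hℓN in
theorem finrankAlong_alphaF : finrankAlong K (alphaF K N ℓ) = ℓ + 1 :=
  NormDescentModular.finrankAlong_alphaF (algebraMap K Qb) iotaQbar N ℓ hℓN

include hℓN in
theorem finrankAlong_betaF : finrankAlong K (betaF K N ℓ) = ℓ + 1 :=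
  NormDescentModular.finrankAlong_betaF (algebraMap K Qb) iotaQbar N ℓ hℓN

theorem finiteAlong_heckeAlphaBar : FiniteAlong Qb (heckeAlphaBar Qb N ℓ) :=
  Fermat.Agent.N4F.A.LevelMapsL.finiteAlong_heckeAlphaBar iotaQbar N ℓ

theorem finiteAlong_heckeBetaBar : FiniteAlong Qb (heckeBetaBar Qb N ℓ) :=
  Fermat.Agent.N4F.A.LevelMapsL.finiteAlong_heckeBetaBar iotaQbar N ℓ

include hℓN in
/-- **`lev (N_α y) = N_ᾱ (lev y)`** for every `y ∈ FF K (Nℓ)`. -/
theorem lev_norm_alpha (y : FF K (N * ℓ)) :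
    lev K N (letI := algebraAlong (alphaF K N ℓ); Algebra.norm (FF K N) y)
      = (letI := algebraAlong (heckeAlphaBar Qb N ℓ)
         Algebra.norm ↥(modularFunctionFieldBar N) (lev K (N * ℓ) y)) := by
  have h := NormDescentModular.norm_alpha (algebraMap K Qb) iotaQbar N ℓ hℓN (lev K N : FF K N →+* _)
      (lev K (N * ℓ) : FF K (N * ℓ) →+* _) (fun _ => rfl) (fun _ => rfl) y
  simp only [RingHom.coe_coe] at h
  exact h

include hℓN in
/-- **`lev (N_β y) = N_β̄ (lev y)`** for every `y ∈ FF K (Nℓ)`. -/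
theorem lev_norm_beta (y : FF K (N * ℓ)) :
    lev K N (letI := algebraAlong (betaF K N ℓ); Algebra.norm (FF K N) y)
      = (letI := algebraAlong (heckeBetaBar Qb N ℓ)
         Algebra.norm ↥(modularFunctionFieldBar N) (lev K (N * ℓ) y)) := by
  have h := NormDescentModular.norm_beta (algebraMap K Qb) iotaQbar N ℓ hℓN (lev K N : FF K N →+* _)
      (lev K (N * ℓ) : FF K (N * ℓ) →+* _) (fun _ => rfl) (fun _ => rfl) y
  simp only [RingHom.coe_coe] at h
  exact h

include hℓN in
/-- **`lev (N_α (β x)) = N_ᾱ (β̄ (lev x))`.** -/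
theorem lev_norm_alpha_beta (x : FF K N) :
    lev K N (letI := algebraAlong (alphaF K N ℓ); Algebra.norm (FF K N) (betaF K N ℓ x))
      = (letI := algebraAlong (heckeAlphaBar Qb N ℓ)
         Algebra.norm ↥(modularFunctionFieldBar N) (heckeBetaBar Qb N ℓ (lev K N x))) := by
  have h := NormDescentModular.norm_alpha_beta (algebraMap K Qb) iotaQbar N ℓ hℓN (lev K N : FF K N →+* _)
      (lev K (N * ℓ) : FF K (N * ℓ) →+* _) (fun _ => rfl) (fun _ => rfl) x
  simp only [RingHom.coe_coe] at h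
  exact h

include hℓN in
/-- **`lev (N_β (α x)) = N_β̄ (ᾱ (lev x))`.** -/
theorem lev_norm_beta_alpha (x : FF K N) :
    lev K N (letI := algebraAlong (betaF K N ℓ); Algebra.norm (FF K N) (alphaF K N ℓ x))
      = (letI := algebraAlong (heckeBetaBar Qb N ℓ)
         Algebra.norm ↥(modularFunctionFieldBar N) (heckeAlphaBar Qb N ℓ (lev K N x))) := by
  have h := NormDescentModular.norm_beta_alpha (algebraMap K Qb) iotaQbar N ℓ hℓN (lev K N : FF K N →+* _)
      (lev K (N * ℓ) : FF K (N * ℓ) →+* _) (fun _ => rfl) (fun _ => rfl) x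
  simp only [RingHom.coe_coe] at h
  exact h

include hℓN in
/-- **`(χ_α y).map lev = χ_ᾱ (lev y)`.** -/
theorem charpolyAlong_alpha (hfin : FiniteAlong K (alphaF K N ℓ))
    (hfin' : FiniteAlong Qb (heckeAlphaBar Qb N ℓ)) (y : FF K (N * ℓ)) :
    (charpolyAlong (alphaF K N ℓ) hfin y).map (lev K N : FF K N →+* _)
      = charpolyAlong (heckeAlphaBar Qb N ℓ) hfin' (lev K (N * ℓ) y) := by
  have h := NormDescentModular.charpoly_alpha (algebraMap K Qb) iotaQbar N ℓ hℓN (lev K N : FF K N →+* _)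
      (lev K (N * ℓ) : FF K (N * ℓ) →+* _) (fun _ => rfl) (fun _ => rfl) hfin hfin' y
  simp only [RingHom.coe_coe] at h
  exact h

include hℓN in
/-- **`(χ_β y).map lev = χ_β̄ (lev y)`.** -/
theorem charpolyAlong_beta (hfin : FiniteAlong K (betaF K N ℓ))
    (hfin' : FiniteAlong Qb (heckeBetaBar Qb N ℓ)) (y : FF K (N * ℓ)) :
    (charpolyAlong (betaF K N ℓ) hfin y).map (lev K N : FF K N →+* _)
      = charpolyAlong (heckeBetaBar Qb N ℓ) hfin' (lev K (N * ℓ) y) := by
  have h := NormDescentModular.charpoly_beta (algebraMap K Qb) iotaQbar N ℓ hℓN (lev K N : FF K N →+* _)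
      (lev K (N * ℓ) : FF K (N * ℓ) →+* _) (fun _ => rfl) (fun _ => rfl) hfin hfin' y
  simp only [RingHom.coe_coe] at h
  exact h

include hℓN in
/-- **`(χ_α (β x)).map lev = χ_ᾱ (β̄ (lev x))`.** -/
theorem charpolyAlong_alpha_beta (hfin : FiniteAlong K (alphaF K N ℓ))
    (hfin' : FiniteAlong Qb (heckeAlphaBar Qb N ℓ)) (x : FF K N) :
    (charpolyAlong (alphaF K N ℓ) hfin (betaF K N ℓ x)).map (lev K N : FF K N →+* _)
      = charpolyAlong (heckeAlphaBar Qb N ℓ) hfin' (heckeBetaBar Qb N ℓ (lev K N x)) := by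
  have h := NormDescentModular.charpoly_alpha_beta (algebraMap K Qb) iotaQbar N ℓ hℓN
      (lev K N : FF K N →+* _) (lev K (N * ℓ) : FF K (N * ℓ) →+* _) (fun _ => rfl) (fun _ => rfl)
      hfin hfin' x
  simp only [RingHom.coe_coe] at h
  exact h

include hℓN in
/-- **`(χ_β (α x)).map lev = χ_β̄ (ᾱ (lev x))`** — the form consumed by `charpolyAlong_fibre`. -/
theorem charpolyAlong_beta_alpha (hfin : FiniteAlong K (betaF K N ℓ))
    (hfin' : FiniteAlong Qb (heckeBetaBar Qb N ℓ)) (x : FF K N) :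
    (charpolyAlong (betaF K N ℓ) hfin (alphaF K N ℓ x)).map (lev K N : FF K N →+* _)
      = charpolyAlong (heckeBetaBar Qb N ℓ) hfin' (heckeAlphaBar Qb N ℓ (lev K N x)) := by
  have h := NormDescentModular.charpoly_beta_alpha (algebraMap K Qb) iotaQbar N ℓ hℓN
      (lev K N : FF K N →+* _) (lev K (N * ℓ) : FF K (N * ℓ) →+* _) (fun _ => rfl) (fun _ => rfl)
      hfin hfin' x
  simp only [RingHom.coe_coe] at h
  exact h

include hℓN in
/-- Trace along `α`. -/
theorem lev_trace_alpha (y : FF K (N * ℓ)) :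
    lev K N (letI := algebraAlong (alphaF K N ℓ); Algebra.trace (FF K N) (FF K (N * ℓ)) y)
      = (letI := algebraAlong (heckeAlphaBar Qb N ℓ)
         Algebra.trace ↥(modularFunctionFieldBar N) ↥(modularFunctionFieldBar (N * ℓ))
          (lev K (N * ℓ) y)) := by
  have h := NormDescentModular.trace_alpha (algebraMap K Qb) iotaQbar N ℓ hℓN (lev K N : FF K N →+* _)
      (lev K (N * ℓ) : FF K (N * ℓ) →+* _) (fun _ => rfl) (fun _ => rfl) y
  simp only [RingHom.coe_coe] at h
  exact h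

include hℓN in
/-- Trace along `β`. -/
theorem lev_trace_beta (y : FF K (N * ℓ)) :
    lev K N (letI := algebraAlong (betaF K N ℓ); Algebra.trace (FF K N) (FF K (N * ℓ)) y)
      = (letI := algebraAlong (heckeBetaBar Qb N ℓ)
         Algebra.trace ↥(modularFunctionFieldBar N) ↥(modularFunctionFieldBar (N * ℓ))
          (lev K (N * ℓ) y)) := by
  have h := NormDescentModular.trace_beta (algebraMap K Qb) iotaQbar N ℓ hℓN (lev K N : FF K N →+* _)
      (lev K (N * ℓ) : FF K (N * ℓ) →+* _) (fun _ => rfl) (fun _ => rfl) y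
  simp only [RingHom.coe_coe] at h
  exact h

end Fermat.Agent.N4F.E.NormDescentBar
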