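import Mathlib
import Fermat.Agent.N4F.C.PGI
import Fermat.Agent.N4F.C.ChartReduction
import Fermat.Agent.N4F.C.Rationality
import Fermat.Agent.N4F.C.LevelCharts
import Fermat.Agent.N4F.E.DegreeLevelRaise
import Fermat.Agent.N4F.E.NormDescentBar
import Fermat.Agent.N4F.E.FrobPlaces

/-!
# N4-FULL block E, node (N): the norm hypothesis `hnorm` of `E/TorsionCongruence` over `(Q̄, A)`

Input: **(†α)** at every good level `(K, O)` (`DaggerTarget`, from `E/AlphaSide`) and `(∗)`
(`PGI.StarOmegaHyp` = `Irreducible.StarTargetOmega`, proved unconditionally as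
`SmoothModel.starTargetOmega`).  Output: `hnorm_of_dagger`, the hypothesis `hnorm` of helper3's
abstract torsion congruence for `L = Q̄`, `π = IsLocalRing.residue A`, `g = coeffAut (Kap A) N φ` with `φ` any
ring automorphism of the residue field with `φ x = x ^ ℓ`.

* Part 1 (generic DVR `A`, `Q = Frac A`): `exists_fraction` — an element of `Q(j(q^d) : d ∣ N)`
  lying in the Gauss ring is `a / b` with `a, b ∈ A((q))`, BOTH in the function field, `b` primitive
  (no charts, no integral closedness: polynomials in the `j(q^d)` have bounded denominators);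
* Part 2 (level `(K, O)`): `exists_fraction_FF`, `theta_mem_full` (= (A2): `θ(G_N) ⊆ FF κ N` from the
  by-product `RedMem` of (2a)), the statement `DaggerAlpha K N O ℓ` of (†α) in the form consumed;
* Part 3: descent of `y ∈ A((q)) ∩ Q̄ F_N` to a good level (helper8's `Levels`/`LevelCharts`), norm
  descent (helper29's `NormDescentBar.lev_norm_alpha_beta`), `exists_series` (series form) and
  `hnorm_of_dagger` (the prelude-shaped statement).
-/

set_option autoImplicit false
set_option linter.unusedSectionVars false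
set_option linter.style.haveILetI false

open ModularCurve HahnSeries

namespace Fermat.Agent.N4F.E.NormReduction

open Fermat.Agent.S24.FFBasics Fermat.Agent.S28.Gauss

/-! ### Part 1: fractions of integral expansions inside the function field -/

section Fraction

variable (A : Type*) [CommRing A] [IsDomain A] [IsDiscreteValuationRing A]
  (Q : Type*) [Field Q] [Algebra A Q] [IsFractionRing A Q] (N : ℕ)

theorem C_mem_adjoin (c : Q) :
    (HahnSeries.C c : LaurentSeries Q) ∈ IntermediateField.adjoin Q (genSet Q N) := by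
  have h := (IntermediateField.adjoin Q (genSet Q N)).algebraMap_mem c
  rwa [algebraMap_laurentSeries_eq_single] at h

theorem C_ne_zero' {c : Q} (hc : c ≠ 0) : (HahnSeries.C c : LaurentSeries Q) ≠ 0 := fun h =>
  hc (HahnSeries.C_injective (h.trans (map_zero _).symm))

/-- A constant `c ∈ Q` with `c · emb a' ∈ gaussRing` for a primitive series `a'` lies in `A`. -/
theorem const_mem_of_mul_emb_mem {c : Q} (hc : c ≠ 0) {a' : LaurentSeries A} (ha' : red A a' ≠ 0)
    (h : HahnSeries.C c * emb A Q a' ∈ gaussRing A Q) : ∃ c₀ : A, algebraMap A Q c₀ = c := by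
  rcases ValuationRing.isInteger_or_isInteger A c with ⟨c₀, hc₀⟩ | ⟨d, hd⟩
  · exact ⟨c₀, hc₀⟩
  · by_cases hdu : IsUnit d
    · obtain ⟨u, rfl⟩ := hdu
      refine ⟨((u⁻¹ : Aˣ) : A), ?_⟩
      have h1 : algebraMap A Q ((u⁻¹ : Aˣ) : A) * algebraMap A Q (u : A) = 1 := by
        rw [← map_mul, Units.inv_mul, map_one]
      rw [hd] at h1
      exact (eq_inv_of_mul_eq_one_left h1).trans (inv_inv c)
    · exfalso
      apply ha'
      -- `emb a' = emb (C d) * (C c * emb a')`
      have hres : IsLocalRing.residue A d = 0 := by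
        rw [IsLocalRing.residue_eq_zero_iff]; exact hdu
      have h1 : emb A Q a' = emb A Q (HahnSeries.C d) * (HahnSeries.C c * emb A Q a') := by
        rw [Fermat.Agent.N4F.C.PGI.emb_C, hd, ← mul_assoc, ← map_mul, inv_mul_cancel₀ hc, map_one,
          one_mul]
      have h2 : (⟨emb A Q a', emb_mem_gaussRing a'⟩ : gaussRing A Q) =
          ⟨emb A Q (HahnSeries.C d), emb_mem_gaussRing _⟩ * ⟨_, h⟩ := Subtype.ext h1
      have h3 := congrArg (gaussRed (A := A) (Q := Q)) h2
      rw [map_mul, gaussRed_emb, gaussRed_emb] at h3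
      rw [h3]
      have h4 : red A (HahnSeries.C d) = 0 := by
        show coeffMap (IsLocalRing.residue A) (HahnSeries.C d) = 0
        rw [show (HahnSeries.C d : LaurentSeries A) = HahnSeries.single 0 d from rfl,
          coeffMap_single, hres, HahnSeries.single_eq_zero]
      rw [h4, zero_mul]

/-- **Fraction representation.** An element of the function field `Q(j(q^d) : d ∣ N)` lying in the
Gauss ring is a quotient `a / b` of two series with coefficients in `A`, BOTH lying in the function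
field, with `b` primitive. -/
theorem exists_fraction {x : LaurentSeries Q}
    (hx : x ∈ IntermediateField.adjoin Q (genSet Q N)) (hxG : x ∈ gaussRing A Q) :
    ∃ a b : LaurentSeries A, red A b ≠ 0 ∧
      emb A Q a ∈ IntermediateField.adjoin Q (genSet Q N) ∧
      emb A Q b ∈ IntermediateField.adjoin Q (genSet Q N) ∧
      x * emb A Q b = emb A Q a := by
  by_cases hx0 : x = 0
  · refine ⟨0, 1, ?_, ?_, ?_, ?_⟩
    · rw [map_one]; exact one_ne_zero
    · rw [map_zero]; exact zero_mem _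
    · rw [map_one]; exact one_mem _
    · rw [hx0, zero_mul, map_zero]
  obtain ⟨ϖ, hϖ⟩ := IsDiscreteValuationRing.exists_irreducible A
  obtain ⟨r, hr, s, hs, hxrs⟩ := IntermediateField.mem_adjoin_iff_div.mp hx
  have hs0 : s ≠ 0 := by
    rintro rfl
    exact hx0 (by rw [hxrs, div_zero])
  have hr0 : r ≠ 0 := by
    rintro rfl
    exact hx0 (by rw [hxrs, zero_div])
  obtain ⟨b₁, a₁, hb₁, h₁⟩ := Fermat.Agent.N4F.C.PGI.exists_C_mul_eq_emb A Q N hr
  obtain ⟨b₂, a₂, hb₂, h₂⟩ := Fermat.Agent.N4F.C.PGI.exists_C_mul_eq_emb A Q N hs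
  have hinj := IsFractionRing.injective A Q
  have hb₁Q : algebraMap A Q b₁ ≠ 0 := by rwa [Ne, map_eq_zero_iff _ hinj]
  have hb₂Q : algebraMap A Q b₂ ≠ 0 := by rwa [Ne, map_eq_zero_iff _ hinj]
  have hϖQ : algebraMap A Q ϖ ≠ 0 := by rw [Ne, map_eq_zero_iff _ hinj]; exact hϖ.ne_zero
  have ha₁ : a₁ ≠ 0 := by
    rintro rfl
    rw [map_zero] at h₁
    rcases mul_eq_zero.mp h₁.symm with h | h
    · exact C_ne_zero' Q hb₁Q h
    · exact hr0 h
  have ha₂ : a₂ ≠ 0 := by
    rintro rfl
    rw [map_zero] at h₂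
    rcases mul_eq_zero.mp h₂.symm with h | h
    · exact C_ne_zero' Q hb₂Q h
    · exact hs0 h
  obtain ⟨m₁, a₁', rfl, ha₁'⟩ := exists_pow_smul_eq hϖ ha₁
  obtain ⟨m₂, a₂', rfl, ha₂'⟩ := exists_pow_smul_eq hϖ ha₂
  -- `C (ϖ^m₁) * emb a₁' = C b₁ * r`, `C (ϖ^m₂) * emb a₂' = C b₂ * s`
  have e₁ : HahnSeries.C (algebraMap A Q ϖ ^ m₁) * emb A Q a₁' =
      HahnSeries.C (algebraMap A Q b₁) * r := by
    rw [← h₁, emb_smul, ← HahnSeries.C_mul_eq_smul]
    simp only [map_pow]
  have e₂ : HahnSeries.C (algebraMap A Q ϖ ^ m₂) * emb A Q a₂' =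
      HahnSeries.C (algebraMap A Q b₂) * s := by
    rw [← h₂, emb_smul, ← HahnSeries.C_mul_eq_smul]
    simp only [map_pow]
  have hp₁ : algebraMap A Q ϖ ^ m₁ ≠ 0 := pow_ne_zero _ hϖQ
  have hp₂ : algebraMap A Q ϖ ^ m₂ ≠ 0 := pow_ne_zero _ hϖQ
  -- the two primitive series lie in the function field
  have hmem₁ : emb A Q a₁' ∈ IntermediateField.adjoin Q (genSet Q N) := by
    have : emb A Q a₁' = HahnSeries.C ((algebraMap A Q ϖ ^ m₁)⁻¹ * algebraMap A Q b₁) * r := by
      rw [map_mul, mul_assoc, ← e₁, ← mul_assoc, ← map_mul, inv_mul_cancel₀ hp₁, map_one, one_mul]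
    rw [this]
    exact mul_mem (C_mem_adjoin Q N _) (IntermediateField.algebra_adjoin_le_adjoin Q _ hr)
  have hmem₂ : emb A Q a₂' ∈ IntermediateField.adjoin Q (genSet Q N) := by
    have : emb A Q a₂' = HahnSeries.C ((algebraMap A Q ϖ ^ m₂)⁻¹ * algebraMap A Q b₂) * s := by
      rw [map_mul, mul_assoc, ← e₂, ← mul_assoc, ← map_mul, inv_mul_cancel₀ hp₂, map_one, one_mul]
    rw [this]
    exact mul_mem (C_mem_adjoin Q N _) (IntermediateField.algebra_adjoin_le_adjoin Q _ hs)
  -- the constant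
  set c : Q := (algebraMap A Q b₂ * algebraMap A Q ϖ ^ m₁) *
    (algebraMap A Q b₁ * algebraMap A Q ϖ ^ m₂)⁻¹ with hc
  have hc0 : c ≠ 0 := mul_ne_zero (mul_ne_zero hb₂Q hp₁) (inv_ne_zero (mul_ne_zero hb₁Q hp₂))
  have hkey : x * emb A Q a₂' = HahnSeries.C c * emb A Q a₁' := by
    have hxs : x * s = r := by rw [hxrs, div_mul_cancel₀ _ hs0]
    have hC : (HahnSeries.C (algebraMap A Q b₁ * algebraMap A Q ϖ ^ m₂) : LaurentSeries Q) ≠ 0 :=
      C_ne_zero' Q (mul_ne_zero hb₁Q hp₂)
    apply mul_left_cancel₀ hC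
    have e3 : (HahnSeries.C (algebraMap A Q b₁ * algebraMap A Q ϖ ^ m₂) : LaurentSeries Q) *
        (HahnSeries.C c * emb A Q a₁') =
        HahnSeries.C (algebraMap A Q b₂) * (HahnSeries.C (algebraMap A Q ϖ ^ m₁) * emb A Q a₁') := by
      rw [← mul_assoc, ← map_mul, hc, mul_comm (algebraMap A Q b₁ * algebraMap A Q ϖ ^ m₂),
        inv_mul_cancel_right₀ (mul_ne_zero hb₁Q hp₂), map_mul, mul_assoc]
    rw [e3, e₁]
    calc HahnSeries.C (algebraMap A Q b₁ * algebraMap A Q ϖ ^ m₂) * (x * emb A Q a₂')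
        = HahnSeries.C (algebraMap A Q b₁) * (x *
            (HahnSeries.C (algebraMap A Q ϖ ^ m₂) * emb A Q a₂')) := by
          rw [map_mul]; ring
      _ = HahnSeries.C (algebraMap A Q b₂) * (HahnSeries.C (algebraMap A Q b₁) * r) := by
          rw [e₂, ← hxs]; ring
  have hG : HahnSeries.C c * emb A Q a₁' ∈ gaussRing A Q := by
    rw [← hkey]
    exact (gaussRing A Q).mul_mem hxG (emb_mem_gaussRing a₂')
  obtain ⟨c₀, hc₀⟩ := const_mem_of_mul_emb_mem A Q hc0 ha₁' hG
  refine ⟨HahnSeries.C c₀ * a₁', a₂', ha₂', ?_, hmem₂, ?_⟩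
  · rw [Fermat.Agent.N4F.C.PGI.emb_C_mul, hc₀]
    exact mul_mem (C_mem_adjoin Q N _) hmem₁
  · rw [Fermat.Agent.N4F.C.PGI.emb_C_mul, hc₀, hkey]

end Fraction

/-! ### Coefficient descent for Laurent series -/

theorem exists_coeffMap_eq_of_forall_mem {R S : Type*} [CommRing R] [CommRing S] (f : R →+* S)
    (x : LaurentSeries S) (h : ∀ n, x.coeff n ∈ f.range) :
    ∃ y : LaurentSeries R, coeffMap f y = x := by
  classical
  choose g hg using h
  let c : ℤ → R := fun n => if x.coeff n = 0 then 0 else g n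
  have hc : ∀ n, f (c n) = x.coeff n := by
    intro n
    by_cases h0 : x.coeff n = 0
    · simp only [c, if_pos h0, map_zero, h0]
    · simp only [c, if_neg h0, hg n]
  have hsupp : Function.support c ⊆ x.support := by
    intro n hn
    rw [Function.mem_support] at hn
    rw [HahnSeries.mem_support]
    intro h0
    exact hn (by simp only [c, if_pos h0])
  refine ⟨⟨c, x.isPWO_support.mono hsupp⟩, ?_⟩
  ext n
  rw [coeffMap_coeff]
  exact hc n

/-! ### Part 2: the level `(K, O)` -/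

section Level

open Fermat.Agent.N4.Setting Fermat.Agent.N4.FibreEmbedding Fermat.Agent.N4F.E.DegreeLevelRaise
open AlgebraicCurve

variable (K : Type) [Field K] (N : ℕ) (O : Subring K) [IsDiscreteValuationRing ↥O]
  [IsFractionRing ↥O K]

set_option quotPrecheck false in
local notation "κ" => IsLocalRing.ResidueField ↥O

omit [IsDiscreteValuationRing ↥O] [IsFractionRing ↥O K] in
theorem full_eq_adjoin :
    modularFunctionFieldFullC K N = IntermediateField.adjoin K (genSet K N) := rfl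

/-- **Fraction representation in the function field**: every element of the Gauss subalgebra of
`FF K N` is `a / b` with `a, b ∈ O((q)) ∩ FF K N`, `b` primitive; its reduction is `ā / b̄`. -/
theorem exists_fraction_FF (x : FF K N) (hx : x ∈ gaussSubalgebra K N O) :
    ∃ a b : LaurentSeries ↥O, red ↥O b ≠ 0 ∧
      emb ↥O K a ∈ modularFunctionFieldFullC K N ∧ emb ↥O K b ∈ modularFunctionFieldFullC K N ∧
      (x : LaurentSeries K) * emb ↥O K b = emb ↥O K a ∧
      theta K N O ⟨x, hx⟩ * red ↥O b = red ↥O a := by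
  have h1 : (x : LaurentSeries K) ∈ IntermediateField.adjoin K (genSet K N) := by
    rw [← full_eq_adjoin]; exact x.2
  have h2 : (x : LaurentSeries K) ∈ gaussRing ↥O K := (mem_gaussSubalgebra_iff K N O).mp hx
  obtain ⟨a, b, hb, ha', hb', hab⟩ := exists_fraction ↥O K N h1 h2
  rw [← full_eq_adjoin] at ha' hb'
  refine ⟨a, b, hb, ha', hb', hab, ?_⟩
  have e : theta K N O ⟨x, hx⟩ = gaussRed (⟨(x : LaurentSeries K), h2⟩ : gaussRing ↥O K) := rfl
  have e2 := gaussRed_eq (A := ↥O) (Q := K) (⟨(x : LaurentSeries K), h2⟩ : gaussRing ↥O K) hb hab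
  rw [e, e2, div_mul_cancel₀ _ hb]

/-- **(A2)**: the reduction of an element of the Gauss subalgebra lies in the function field of the
special fibre, given the by-product `RedMem` of (2a) (`ChartReduction.red_mem_full`). -/
theorem theta_mem_full (hred : Fermat.Agent.N4F.C.PGI.RedMem K N O)
    (x : gaussSubalgebra K N O) : theta K N O x ∈ modularFunctionFieldFullC κ N := by
  obtain ⟨a, b, hb, ha', hb', -, hab⟩ := exists_fraction_FF K N O x x.2
  have h1 : theta K N O x = red ↥O a * (red ↥O b)⁻¹ := by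
    rw [← hab, mul_assoc, mul_inv_cancel₀ hb, mul_one]
  rw [h1]
  exact mul_mem (hred a ha') (inv_mem (hred b hb'))

variable [NeZero N] (ℓ : ℕ) [Fact ℓ.Prime]

/-- **The core statement (†α) at the level `(K, O)`** in the form consumed here: for `x` in the
Gauss subalgebra, the norm `N_α (β x)` lies in the Gauss subalgebra and reduces to
`Fr(x̄) · x̄(q^ℓ)`, `Fr` the coefficientwise `ℓ`-th power. -/
def DaggerAlpha : Prop :=
  ∀ (x : FF K N) (hx : x ∈ gaussSubalgebra K N O),
    ∃ (h : (letI := algebraAlong (alphaF K N ℓ); Algebra.norm (FF K N) (betaF K N ℓ x)) ∈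
        gaussSubalgebra K N O) (w : LaurentSeries κ),
      (∀ n, w.coeff n = ((theta K N O ⟨x, hx⟩).coeff n) ^ ℓ) ∧
      theta K N O ⟨_, h⟩ = w * qExpand κ ℓ (theta K N O ⟨x, hx⟩)

end Level

/-! ### Part 3: from the levels to `Q̄` -/

section Main

open Fermat.Agent.N4.Setting Fermat.Agent.N4.FibreEmbedding Fermat.Agent.N4F.E.DegreeLevelRaise
open Fermat.Agent.N4.BigDVR Fermat.Agent.N4F.C.Levels Fermat.Agent.N4F.C.CoeffAut
open Fermat.Agent.N4F.C.PGI AlgebraicCurve

local notation "Qb" => AlgebraicClosure ℚ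

/-- **(†α) for all good bases**: the input from `E/AlphaSide`. -/
def DaggerTarget : Prop :=
  ∀ (K : Type) [Field K] [CharZero K] [Algebra.IsAlgebraic ℚ K] (N : ℕ) [NeZero N] (O : Subring K)
    [IsDiscreteValuationRing ↥O] (ℓ : ℕ) [Fact ℓ.Prime] (hG : GoodBase K N O ℓ),
    StarStatement K N O →
    haveI := hG.frac
    (∀ x : gaussSubalgebra K N O,
      theta K N O x ∈ modularFunctionFieldFullC (IsLocalRing.ResidueField ↥O) N) →
    DaggerAlpha K N O ℓ

variable (A : ValuationSubring Qb) (N : ℕ) [NeZero N]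

instance isLocalHom_baseIncl (K : IntermediateField ℚ Qb) :
    IsLocalHom (Fermat.Agent.N4F.C.LevelCharts.baseIncl A K) :=
  isLocalHom_trIncl A K

/-- compatibility of the four coefficient maps of a level -/
theorem coeffMap_subtype_baseIncl (K : IntermediateField ℚ Qb)
    (s : LaurentSeries ↥(baseRing A K)) :
    coeffMap A.subtype (coeffMap (Fermat.Agent.N4F.C.LevelCharts.baseIncl A K) s) =
      coeffMap (algebraMap (Lvl K) Qb) (emb ↥(baseRing A K) (Lvl K) s) := by
  show _ = coeffMap _ (coeffMap _ s)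
  rw [coeffMap_coeffMap, coeffMap_coeffMap]
  rfl

theorem coeffMap_residue_baseIncl (K : IntermediateField ℚ Qb)
    [IsDiscreteValuationRing ↥(baseRing A K)] (s : LaurentSeries ↥(baseRing A K)) :
    coeffMap (IsLocalRing.residue ↥A) (coeffMap (Fermat.Agent.N4F.C.LevelCharts.baseIncl A K) s) =
      coeffMap (IsLocalRing.ResidueField.map (Fermat.Agent.N4F.C.LevelCharts.baseIncl A K))
        (red ↥(baseRing A K) s) := by
  show _ = coeffMap _ (coeffMap _ s)
  rw [coeffMap_coeffMap, coeffMap_coeffMap]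
  rfl


/-- The norm `N_ᾱ(β̄ z)` over `Q̄` (a plain definition, to keep statements light). -/
noncomputable def normBar (ℓ : ℕ) [Fact ℓ.Prime]
    (z : ↥(laurentBaseChange Qb (modularFunctionFieldFull N))) :
    ↥(laurentBaseChange Qb (modularFunctionFieldFull N)) :=
  letI := algebraAlong (heckeAlphaBar Qb N ℓ)
  Algebra.norm ↥(laurentBaseChange Qb (modularFunctionFieldFull N)) (heckeBetaBar Qb N ℓ z)

theorem normBar_def (ℓ : ℕ) [Fact ℓ.Prime]
    (z : ↥(laurentBaseChange Qb (modularFunctionFieldFull N))) :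
    normBar N ℓ z = (letI := algebraAlong (heckeAlphaBar Qb N ℓ);
      Algebra.norm ↥(laurentBaseChange Qb (modularFunctionFieldFull N))
        (heckeBetaBar Qb N ℓ z)) := rfl

/-- In residue characteristic `ℓ`, `f(q^ℓ) = (φ⁻¹ f)^ℓ` for every `φ` with `φ x = x ^ ℓ`. -/
theorem qExpand_eq_pow_of_frob {k : Type*} [Field k] (ℓ : ℕ) [Fact ℓ.Prime] [CharP k ℓ]
    (φ : k ≃+* k) (hφ : ∀ x, φ x = x ^ ℓ) (f : LaurentSeries k) :
    qExpand k ℓ f = (coeffMap (φ.symm : k →+* k) f) ^ ℓ := by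
  rw [Fermat.Agent.N4.Kronecker.pow_char_eq_qExpand ℓ, coeffMap_coeffMap]
  congr 1
  rw [coeffMap_congr (g := RingHom.id k) (RingHom.ext fun a => ?_) f, coeffMap_id]
  show frobenius k ℓ (φ.symm a) = a
  rw [frobenius_def, ← hφ, RingEquiv.apply_symm_apply]

theorem charP_residueField (ℓ : ℕ) [Fact ℓ.Prime] (hA : A.LiesOverPrime ℓ) :
    CharP (IsLocalRing.ResidueField ↥A) ℓ := by
  have hℓ : ℓ.Prime := Fact.out
  have hℓA : ((ℓ : ℕ) : Qb) ∈ A.nonunits := hA
  have hℓk : ((ℓ : ℕ) : IsLocalRing.ResidueField ↥A) = 0 := by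
    have h1 : ((ℓ : ℕ) : ↥A) ∈ IsLocalRing.maximalIdeal ↥A := by
      rw [← ValuationSubring.coe_mem_nonunits_iff]
      simpa using hℓA
    have h2 : IsLocalRing.residue ↥A ((ℓ : ℕ) : ↥A) = 0 :=
      (IsLocalRing.residue_eq_zero_iff _).mpr h1
    simpa using h2
  exact (CharP.charP_iff_prime_eq_zero hℓ).mpr hℓk

open Fermat.Agent.N4F.C.LevelCharts in
/-- **(N), series form.** -/
theorem exists_series (hStar : Fermat.Agent.N4F.C.PGI.StarOmegaHyp) (hDag : DaggerTarget) (ℓ : ℕ) [Fact ℓ.Prime]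
    (hA : A.LiesOverPrime ℓ) (hℓN : ¬ ℓ ∣ N)
    (φ : IsLocalRing.ResidueField ↥A ≃+* IsLocalRing.ResidueField ↥A) (hφ : ∀ x, φ x = x ^ ℓ)
    (y : LaurentSeries ↥A)
    (hy : coeffMap A.subtype y ∈ laurentBaseChange Qb (modularFunctionFieldFull N)) :
    ∃ a b : LaurentSeries ↥A,
      coeffMap A.subtype a ∈ laurentBaseChange Qb (modularFunctionFieldFull N) ∧
      coeffMap A.subtype b ∈ laurentBaseChange Qb (modularFunctionFieldFull N) ∧
      coeffMap (IsLocalRing.residue ↥A) a ∈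
        modularFunctionFieldFullC (IsLocalRing.ResidueField ↥A) N ∧
      coeffMap (IsLocalRing.residue ↥A) b ∈
        modularFunctionFieldFullC (IsLocalRing.ResidueField ↥A) N ∧
      coeffMap (IsLocalRing.residue ↥A) b ≠ 0 ∧
      ((normBar N ℓ ⟨_, hy⟩ : ↥(laurentBaseChange Qb (modularFunctionFieldFull N))) :
        LaurentSeries Qb) * coeffMap A.subtype b = coeffMap A.subtype a ∧
      coeffMap (IsLocalRing.residue ↥A) a =
        coeffMap (φ : IsLocalRing.ResidueField ↥A →+* IsLocalRing.ResidueField ↥A)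
            (coeffMap (IsLocalRing.residue ↥A) y) *
          (coeffMap (φ.symm : IsLocalRing.ResidueField ↥A →+* IsLocalRing.ResidueField ↥A)
            (coeffMap (IsLocalRing.residue ↥A) y)) ^ ℓ *
          coeffMap (IsLocalRing.residue ↥A) b := by
  classical
  have hℓ : ℓ.Prime := Fact.out
  haveI := charP_residueField A ℓ hA
  -- Step 1: a good level over which `y` is defined
  obtain ⟨K₁, hK₁fin, hK₁⟩ := exists_finiteDimensional_forall_mem_range_lev N
    {(⟨coeffMap A.subtype y, hy⟩ : ↥(modularFunctionFieldBar N))}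
  haveI := hK₁fin
  obtain ⟨K, hK₁K, hDVR, hAC, hGB, -, hroots⟩ := exists_level_ge A N hℓ hA hℓN K₁
  obtain ⟨x, hx⟩ := hK₁ (Lvl K) (fun c hc => (Lvl.mem_range_iff K).mpr (hK₁K hc)) _
    (Finset.mem_singleton_self _)
  haveI := hDVR
  haveI := hAC
  haveI hfrac : IsFractionRing ↥(baseRing A K) (Lvl K) := hGB.frac
  have hω : ℓ = 2 → ∃ z : Lvl K, z ^ 2 + z + 1 = 0 := fun h2 => by
    obtain ⟨z, hz⟩ := Fermat.Agent.N4F.C.PGI.exists_omega_of_goodRoots hA K hroots h2
    exact ⟨(Lvl.toSub K).symm z, hz⟩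
  have hstar : StarStatement (Lvl K) N (baseRing A K) :=
    hStar (Lvl K) N (baseRing A K) ℓ hGB hω
  have hred : RedMem (Lvl K) N (baseRing A K) := fun s hs =>
    Fermat.Agent.N4F.C.ChartReduction.red_mem_full (Lvl K) N (baseRing A K) hGB hstar s hs
  have hA2 := theta_mem_full (Lvl K) N (baseRing A K) hred
  have hdag : DaggerAlpha (Lvl K) N (baseRing A K) ℓ :=
    hDag (Lvl K) N (baseRing A K) ℓ hGB hstar hA2
  -- Step 2: the coefficients of `x` lie in `O = A ∩ K`
  have hcoeff : ∀ n, algebraMap (Lvl K) Qb ((x : LaurentSeries (Lvl K)).coeff n) =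
      ((y.coeff n : ↥A) : Qb) := by
    intro n
    have h1 := congrArg
      (fun z : ↥(modularFunctionFieldBar N) => (z : LaurentSeries Qb).coeff n) hx
    exact h1
  obtain ⟨y', hy'⟩ := exists_coeffMap_eq_of_forall_mem (baseRing A K).subtype
    (x : LaurentSeries (Lvl K)) (fun n => by
      rw [Subring.range_subtype]
      have h2 : algebraMap (Lvl K) Qb ((x : LaurentSeries (Lvl K)).coeff n) ∈ A := by
        rw [hcoeff n]; exact (y.coeff n).2
      exact h2)
  have hxemb : (x : LaurentSeries (Lvl K)) = emb ↥(baseRing A K) (Lvl K) y' := hy'.symm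
  have hyy' : coeffMap (baseIncl A K) y' = y := by
    ext n
    rw [coeffMap_coeff, coe_baseIncl, ← hcoeff n, ← hy']
    rfl
  have hxG : x ∈ gaussSubalgebra (Lvl K) N (baseRing A K) := by
    rw [mem_gaussSubalgebra_iff, hxemb]; exact emb_mem_gaussRing y'
  have hθx : theta (Lvl K) N (baseRing A K) ⟨x, hxG⟩ = red ↥(baseRing A K) y' :=
    theta_of_emb (Lvl K) N (baseRing A K) _ y' hxemb
  obtain ⟨hnG, w, hw, hθn⟩ := hdag x hxG
  obtain ⟨a₀, b₀, hb₀, ha₀F, hb₀F, hab₀, hθab⟩ :=
    exists_fraction_FF (Lvl K) N (baseRing A K) _ hnG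
  have hinj : Function.Injective
      (coeffMap (IsLocalRing.ResidueField.map (baseIncl A K))) := by
    intro s t hst
    ext n
    have := congrArg (fun z : LaurentSeries (IsLocalRing.ResidueField ↥A) => z.coeff n) hst
    exact (IsLocalRing.ResidueField.map (baseIncl A K)).injective this
  have hybar : coeffMap (IsLocalRing.residue ↥A) y =
      coeffMap (IsLocalRing.ResidueField.map (baseIncl A K)) (red ↥(baseRing A K) y') := by
    rw [← hyy', coeffMap_residue_baseIncl]
  refine ⟨coeffMap (baseIncl A K) a₀, coeffMap (baseIncl A K) b₀, ?_, ?_, ?_, ?_, ?_, ?_, ?_⟩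
  · rw [coeffMap_subtype_baseIncl]
    exact coeffMap_mem_bar (Lvl K) N ha₀F
  · rw [coeffMap_subtype_baseIncl]
    exact coeffMap_mem_bar (Lvl K) N hb₀F
  · rw [coeffMap_residue_baseIncl]
    exact Fermat.Agent.N4.BaseDescent.coeffMap_mem_full _ N (hred a₀ ha₀F)
  · rw [coeffMap_residue_baseIncl]
    exact Fermat.Agent.N4.BaseDescent.coeffMap_mem_full _ N (hred b₀ hb₀F)
  · rw [coeffMap_residue_baseIncl]
    intro h0
    exact hb₀ (hinj (h0.trans (map_zero _).symm))
  · rw [coeffMap_subtype_baseIncl, coeffMap_subtype_baseIncl, ← hab₀, map_mul]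
    congr 1
    have h3 := Fermat.Agent.N4F.E.NormDescentBar.lev_norm_alpha_beta (Lvl K) N ℓ hℓN x
    rw [hx] at h3
    exact (congrArg Subtype.val h3).symm
  · rw [coeffMap_residue_baseIncl, coeffMap_residue_baseIncl, ← hθab, hθn, hθx, map_mul, map_mul,
      coeffMap_qExpand, ← hybar]
    congr 1
    congr 1
    · ext n
      rw [coeffMap_coeff, coeffMap_coeff, hw n, map_pow, hθx, hybar, coeffMap_coeff]
      exact (hφ _).symm
    · exact qExpand_eq_pow_of_frob ℓ φ hφ _


theorem coeffMap_ringEquiv_ne_zero {k : Type*} [Field k] (φ : k ≃+* k) {f : LaurentSeries k}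
    (hf : f ≠ 0) : coeffMap (φ : k →+* k) f ≠ 0 := by
  intro h0
  apply hf
  ext n
  have := congrArg (fun z : LaurentSeries k => z.coeff n) h0
  exact φ.injective (this.trans (map_zero φ).symm)

/-- **(N): the hypothesis `hnorm` of `E/TorsionCongruence` over `(Q̄, A)`**, from (†α) at the good
levels.  For `y ∈ A((q)) ∩ Q̄ F_N` with nonzero reduction `ȳ`, the norm `N_ᾱ(β̄ y)` is a quotient
`a / b` of two series with coefficients in `A`, both in `Q̄ F_N`, with reductions in the function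
field of the special fibre, `ā, b̄ ≠ 0`, and `ā = Fr(ȳ) · (Fr⁻¹ ȳ)^ℓ · b̄`, `Fr = coeffAut φ` for any
`φ` with `φ x = x ^ ℓ`. -/
theorem hnorm_of_dagger (hStar : Fermat.Agent.N4F.C.PGI.StarOmegaHyp) (hDag : DaggerTarget) (ℓ : ℕ) [Fact ℓ.Prime]
    (hA : A.LiesOverPrime ℓ) (hℓN : ¬ ℓ ∣ N)
    (φ : IsLocalRing.ResidueField ↥A ≃+* IsLocalRing.ResidueField ↥A) (hφ : ∀ x, φ x = x ^ ℓ)
    (y : LaurentSeries ↥A)
    (hy : coeffMap A.subtype y ∈ laurentBaseChange Qb (modularFunctionFieldFull N))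
    (hyk : coeffMap (IsLocalRing.residue ↥A) y ∈
      modularFunctionFieldFullC (IsLocalRing.ResidueField ↥A) N)
    (hne : coeffMap (IsLocalRing.residue ↥A) y ≠ 0) :
    ∃ (a b : LaurentSeries ↥A)
      (ha : coeffMap A.subtype a ∈ laurentBaseChange Qb (modularFunctionFieldFull N))
      (hb : coeffMap A.subtype b ∈ laurentBaseChange Qb (modularFunctionFieldFull N))
      (hak : coeffMap (IsLocalRing.residue ↥A) a ∈
        modularFunctionFieldFullC (IsLocalRing.ResidueField ↥A) N)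
      (hbk : coeffMap (IsLocalRing.residue ↥A) b ∈
        modularFunctionFieldFullC (IsLocalRing.ResidueField ↥A) N),
      coeffMap (IsLocalRing.residue ↥A) a ≠ 0 ∧ coeffMap (IsLocalRing.residue ↥A) b ≠ 0 ∧
      (letI := algebraAlong (heckeAlphaBar Qb N ℓ);
        Algebra.norm ↥(laurentBaseChange Qb (modularFunctionFieldFull N))
          (heckeBetaBar Qb N ℓ ⟨_, hy⟩)) * ⟨_, hb⟩ = ⟨_, ha⟩ ∧
      (⟨_, hak⟩ : modularFunctionFieldFullC (IsLocalRing.ResidueField ↥A) N) =
        (coeffAut _ N φ • ⟨_, hyk⟩) * ((coeffAut _ N φ)⁻¹ • ⟨_, hyk⟩) ^ ℓ * ⟨_, hbk⟩ := by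
  have h := exists_series A N hStar hDag ℓ hA hℓN φ hφ y hy
  have hs := h.choose_spec.choose_spec
  refine ⟨h.choose, h.choose_spec.choose, hs.1, hs.2.1, hs.2.2.1, hs.2.2.2.1, ?_, hs.2.2.2.2.1,
    Subtype.ext hs.2.2.2.2.2.1, Subtype.ext hs.2.2.2.2.2.2⟩
  rw [hs.2.2.2.2.2.2]
  exact mul_ne_zero (mul_ne_zero (coeffMap_ringEquiv_ne_zero φ hne)
    (pow_ne_zero _ (coeffMap_ringEquiv_ne_zero φ.symm hne))) hs.2.2.2.2.1

end Main

end Fermat.Agent.N4F.E.NormReduction
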