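import Mathlib
import Fermat.Agent.N4F.E.NormReduction
import Fermat.Agent.N4F.E.GaussResidue

/-!
# N4-FULL block E: adapter from the NORM FORM of (†α) (`E/AlphaSide`) to `NormReduction.DaggerTarget`

`AlphaNormForm` is the NORM FORM of (†α) with the binder list of `E/BetaSide` / `E/AlphaSide`
(`[IsFractionRing ↥O K] [CharP κ ℓ] (hℓN) (ι : K →+* ℂ) (hprime) (hA2)`), the Frobenius factor
being `coeffMap (frobenius κ ℓ) (θ x)`.  `daggerTarget_of_normForm` turns it into the form consumed
by `E/NormReduction` (`DaggerTarget`: hypotheses `GoodBase`, `StarStatement`, (A2); Frobenius factor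
stated coefficientwise).
-/

set_option autoImplicit false
set_option linter.unusedSectionVars false
set_option linter.style.haveILetI false

open ModularCurve HahnSeries

namespace Fermat.Agent.N4F.E.DaggerAdapter

open Fermat.Agent.S24.FFBasics Fermat.Agent.S28.Gauss
open Fermat.Agent.N4.Setting Fermat.Agent.N4.FibreEmbedding Fermat.Agent.N4F.E.DegreeLevelRaise
open Fermat.Agent.N4F.E.NormReduction AlgebraicCurve

/-- **(†α), NORM FORM**, for every level with the hypotheses of `E/BetaSide` / `E/AlphaSide`. -/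
def AlphaNormForm : Prop :=
  ∀ (K : Type) [Field K] [CharZero K] (N : ℕ) [NeZero N] (ℓ : ℕ) [Fact ℓ.Prime] (O : Subring K)
    [IsDiscreteValuationRing ↥O] [IsFractionRing ↥O K]
    [CharP (IsLocalRing.ResidueField ↥O) ℓ] (_hℓN : ¬ ℓ ∣ N) (_ι : K →+* ℂ)
    (_hprime : (fibreIdeal K N O (Rfin K N O)).IsPrime)
    (_hA2 : ∀ x : ↥(gaussSubalgebra K N O),
      theta K N O x ∈ modularFunctionFieldFullC (IsLocalRing.ResidueField ↥O) N)
    (x : FF K N) (hx : x ∈ gaussSubalgebra K N O),
    ∃ hmem : (letI := algebraAlong (alphaF K N ℓ); Algebra.norm (FF K N) (betaF K N ℓ x)) ∈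
        gaussSubalgebra K N O,
      theta K N O ⟨_, hmem⟩ =
        coeffMap (frobenius (IsLocalRing.ResidueField ↥O) ℓ) (theta K N O ⟨x, hx⟩) *
          qExpand (IsLocalRing.ResidueField ↥O) ℓ (theta K N O ⟨x, hx⟩)

/-- The NORM FORM of (†α) gives `NormReduction.DaggerTarget`. -/
theorem daggerTarget_of_normForm (h : AlphaNormForm) : DaggerTarget := by
  intro K _ _ _ N _ O _ ℓ _ hG hstar
  haveI := hG.frac
  intro hA2 x hx
  haveI : CharP (IsLocalRing.ResidueField ↥O) ℓ :=
    Fermat.Agent.N4F.E.GaussResidue.charP_residueField K N O hG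
  obtain ⟨hmem, hθ⟩ := h K N ℓ O hG.not_dvd (iotaOfAlgebraic K) hstar.1.isPrime hA2 x hx
  exact ⟨hmem, coeffMap (frobenius (IsLocalRing.ResidueField ↥O) ℓ) (theta K N O ⟨x, hx⟩),
    fun n => rfl, hθ⟩

end Fermat.Agent.N4F.E.DaggerAdapter
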