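import Mathlib
import Fermat.Agent.N4F.E.DaggerAdapter
import Fermat.Agent.N4F.E.GenericFibreAlong

/-!
# N4-FULL block E: the NORM FORM of (†α) from its characteristic-polynomial form

* `norm_mem_of_charpoly` (pure algebra): if the characteristic polynomial of multiplication by `g`
  (degree `ℓ + 1`) lifts to `q` over a subalgebra `G`, and a ring hom `θ : G → Ω` (`(-1)^(ℓ+1) = 1`
  in `Ω`) maps `q` to `(X ^ ℓ - C a) * (X - C b)`, then `N(g) ∈ G` and `θ (N g) = a * b`.
* `AlphaCharpolyForm` : the characteristic-polynomial form of (†α) (helper15's FINAL SHAPE) for all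
  levels, `alphaNormForm_of_charpolyForm : AlphaCharpolyForm → DaggerAdapter.AlphaNormForm`.
-/

set_option autoImplicit false
set_option linter.unusedSectionVars false
set_option linter.style.haveILetI false

open ModularCurve Polynomial

namespace Fermat.Agent.N4F.E.NormFromCharpoly

section Generic

theorem neg_one_pow_succ_eq_one {Ω : Type*} [CommRing Ω] (ℓ : ℕ) (hℓ : ℓ.Prime)
    (h0 : ((ℓ : ℕ) : Ω) = 0) : (-1 : Ω) ^ (ℓ + 1) = 1 := by
  rcases hℓ.eq_two_or_odd' with rfl | hodd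
  · have h2 : (2 : Ω) = 0 := by exact_mod_cast h0
    have : (-1 : Ω) = 1 := by linear_combination (-1 : Ω) * h2
    rw [this, one_pow]
  · exact Even.neg_one_pow hodd.add_one

variable {F F' : Type*} [Field F] [Field F'] [Algebra F F'] [Module.Finite F F']
  {R : Type*} [CommRing R] [Algebra R F] (G : Subalgebra R F)
  {Ω : Type*} [CommRing Ω] (θ : ↥G →+* Ω)

theorem norm_mem_of_charpoly (ℓ : ℕ) (hℓ : ℓ ≠ 0) (hdeg : Module.finrank F F' = ℓ + 1)
    (hsign : (-1 : Ω) ^ (ℓ + 1) = 1) (g : F') (q : Polynomial ↥G)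
    (hq : q.map (algebraMap ↥G F) = (Algebra.lmul F F' g).charpoly) (a b : Ω)
    (hqθ : q.map θ = (X ^ ℓ - C a) * (X - C b)) :
    ∃ hmem : Algebra.norm F g ∈ G, θ ⟨_, hmem⟩ = a * b := by
  have h1 : Algebra.norm F g = (-1) ^ (ℓ + 1) * (algebraMap ↥G F (q.coeff 0)) := by
    rw [Algebra.norm_apply, LinearMap.det_eq_sign_charpoly_coeff, hdeg, ← hq, coeff_map]
  have h2 : Algebra.norm F g = algebraMap ↥G F ((-1) ^ (ℓ + 1) * q.coeff 0) := by
    rw [h1, map_mul, map_pow, map_neg, map_one]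
  have hmem : Algebra.norm F g ∈ G := by
    rw [h2]; exact ((-1) ^ (ℓ + 1) * q.coeff 0 : ↥G).2
  refine ⟨hmem, ?_⟩
  have h3 : (⟨Algebra.norm F g, hmem⟩ : ↥G) = (-1) ^ (ℓ + 1) * q.coeff 0 :=
    Subtype.ext h2
  rw [h3, map_mul, map_pow, map_neg, map_one, hsign, one_mul]
  have h4 : θ (q.coeff 0) = (q.map θ).coeff 0 := (coeff_map θ 0).symm
  rw [h4, hqθ, mul_coeff_zero]
  simp [hℓ.symm]

end Generic

section Modular

open Fermat.Agent.S24.FFBasics Fermat.Agent.S28.Gauss
open Fermat.Agent.N4.Setting Fermat.Agent.N4.FibreEmbedding Fermat.Agent.N4F.E.DegreeLevelRaise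
open Fermat.Agent.N4F.E.NormReduction Fermat.Agent.N4F.E.DaggerAdapter AlgebraicCurve
open Fermat.Agent.N4F.E.GenericFibreAlong

/-- **(†α), characteristic-polynomial form** (helper15's FINAL SHAPE), for every level with the
hypotheses of `E/BetaSide` / `E/AlphaSide`. -/
def AlphaCharpolyForm : Prop :=
  ∀ (K : Type) [Field K] [CharZero K] (N : ℕ) [NeZero N] (ℓ : ℕ) [Fact ℓ.Prime] (O : Subring K)
    [IsDiscreteValuationRing ↥O] [IsFractionRing ↥O K]
    [CharP (IsLocalRing.ResidueField ↥O) ℓ] (_hℓN : ¬ ℓ ∣ N) (_ι : K →+* ℂ)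
    (_hprime : (fibreIdeal K N O (Rfin K N O)).IsPrime)
    (_hA2 : ∀ x : ↥(gaussSubalgebra K N O),
      theta K N O x ∈ modularFunctionFieldFullC (IsLocalRing.ResidueField ↥O) N)
    (x : FF K N) (hx : x ∈ gaussSubalgebra K N O) (hfin : FiniteAlong K (alphaF K N ℓ)),
    ∃ q : Polynomial ↥(gaussSubalgebra K N O), q.Monic ∧
      q.map (algebraMap ↥(gaussSubalgebra K N O) (FF K N)) =
        charpolyAlong (alphaF K N ℓ) hfin (betaF K N ℓ x) ∧
      q.map (theta K N O) =
        (X ^ ℓ - C (coeffMap (frobenius (IsLocalRing.ResidueField ↥O) ℓ)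
            (theta K N O ⟨x, hx⟩))) *
          (X - C (qExpand (IsLocalRing.ResidueField ↥O) ℓ (theta K N O ⟨x, hx⟩)))

theorem natCast_laurent_eq_zero (k : Type*) [Field k] (ℓ : ℕ) [CharP k ℓ] :
    ((ℓ : ℕ) : LaurentSeries k) = 0 := by
  have h : ((ℓ : ℕ) : LaurentSeries k) = HahnSeries.C ((ℓ : ℕ) : k) := by
    rw [map_natCast]
  rw [h, CharP.cast_eq_zero, map_zero]

/-- The characteristic-polynomial form of (†α) gives its NORM FORM. -/
theorem alphaNormForm_of_charpolyForm (h : AlphaCharpolyForm) : AlphaNormForm := by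
  intro K _ _ N _ ℓ _ O _ _ _ hℓN ι hprime hA2 x hx
  have hℓ : ℓ.Prime := Fact.out
  letI := algebraAlong (alphaF K N ℓ)
  have hdeg : Module.finrank (FF K N) (FF K (N * ℓ)) = ℓ + 1 :=
    finrank_of_algebraMap_eq_alphaF K N ℓ ι hℓN rfl
  have hfin : FiniteAlong K (alphaF K N ℓ) :=
    Module.finite_of_finrank_pos (by rw [hdeg]; exact Nat.succ_pos ℓ)
  haveI : Module.Finite (FF K N) (FF K (N * ℓ)) := hfin
  obtain ⟨q, -, hq, hqθ⟩ := h K N ℓ O hℓN ι hprime hA2 x hx hfin
  exact norm_mem_of_charpoly (gaussSubalgebra K N O) (theta K N O) ℓ hℓ.ne_zero hdeg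
    (neg_one_pow_succ_eq_one ℓ hℓ (natCast_laurent_eq_zero _ ℓ)) (betaF K N ℓ x) q hq _ _ hqθ

/-- The characteristic-polynomial form of (†α) closes `NormReduction.DaggerTarget`. -/
theorem daggerTarget_of_charpolyForm (h : AlphaCharpolyForm) : DaggerTarget :=
  daggerTarget_of_normForm (alphaNormForm_of_charpolyForm h)

end Modular

end Fermat.Agent.N4F.E.NormFromCharpoly
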