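/-
N4-FULL / block E (helper3): **(†α) UNCONDITIONAL** — plug of helper15's `BetaSide.exists_second_place`
into `E/AlphaSide.lean`.

* `betaOut` : the second place of the `β`-side as a `AlphaSide.BetaOut`;
* `alphaCharpolyForm : NormFromCharpoly.AlphaCharpolyForm` — (†α), characteristic polynomial form;
* `alphaNormForm : DaggerAdapter.AlphaNormForm` — (†α), norm form;
* `daggerTarget : NormReduction.DaggerTarget` — the last open input of block E on the torsion route.
-/
import Mathlib
import Fermat.Agent.N4F.E.AlphaSide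
import Fermat.Agent.N4F.E.BetaSide
import Fermat.Agent.N4F.E.NormFromCharpoly

set_option autoImplicit false
set_option linter.unusedSectionVars false
set_option linter.style.haveILetI false

open ModularCurve Fermat.Agent.S28.Gauss Fermat.Agent.N4.Setting Fermat.Agent.N4.FibreEmbedding
open Fermat.Agent.N4F.E.DegreeLevelRaise Fermat.Agent.N4F.E.GaussDVR AlgebraicCurve Polynomial

noncomputable section

namespace Fermat.Agent.N4F.E.AlphaSideFinal

open Fermat.Agent.N4F.E.AlphaSide

section Plug

variable (K : Type) [Field K] [CharZero K] (N : ℕ) [NeZero N] (ℓ : ℕ) [Fact ℓ.Prime]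
  (O : Subring K) [IsDiscreteValuationRing ↥O] [IsFractionRing ↥O K]
  [CharP (IsLocalRing.ResidueField ↥O) ℓ]

/-- The output of the `β`-side in the shape consumed by `E/AlphaSide`. -/
theorem exists_betaOut (hℓN : ¬ ℓ ∣ N) (ι : K →+* ℂ)
    (hprime : (fibreIdeal K N O (Rfin K N O)).IsPrime)
    (hA2 : ∀ x : ↥(gaussSubalgebra K N O),
      theta K N O x ∈ modularFunctionFieldFullC (IsLocalRing.ResidueField ↥O) N) :
    ∃ (S : Subring (FF K (N * ℓ)))
      (ev : ↥S →+* LaurentSeries (IsLocalRing.ResidueField ↥O)), BetaOut K N ℓ O S ev := by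
  obtain ⟨W, ev, hcl, hval, -⟩ := BetaSide.exists_second_place K N ℓ O ι hℓN hprime hA2
  refine ⟨W, ev, ⟨fun y hy => hcl y hy, fun a => ?_, fun a => ?_⟩⟩
  · obtain ⟨-, h2, e2, -⟩ := hval (a : FF K N) a.2
    exact ⟨h2, e2⟩
  · obtain ⟨h1, -, -, e1⟩ := hval (a : FF K N) a.2
    exact ⟨h1, e1⟩

end Plug

/-- **(†α), characteristic polynomial form, unconditional.** -/
theorem alphaCharpolyForm : NormFromCharpoly.AlphaCharpolyForm := by
  intro K _ _ N _ ℓ _ O _ _ _ hℓN ι hprime hA2 x hx hfin
  obtain ⟨S, ev, hB⟩ := exists_betaOut K N ℓ O hℓN ι hprime hA2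
  exact kronecker_alpha K N ℓ O ι hℓN hprime hB hA2 hfin x hx

/-- **(†α), norm form, unconditional.** -/
theorem alphaNormForm : DaggerAdapter.AlphaNormForm := by
  intro K _ _ N _ ℓ _ O _ _ _ hℓN ι hprime hA2 x hx
  obtain ⟨S, ev, hB⟩ := exists_betaOut K N ℓ O hℓN ι hprime hA2
  exact norm_alpha K N ℓ O ι hℓN hprime hB hA2 x hx

/-- **`NormReduction.DaggerTarget`, unconditional.** -/
theorem daggerTarget : NormReduction.DaggerTarget :=
  DaggerAdapter.daggerTarget_of_normForm alphaNormForm

end Fermat.Agent.N4F.E.AlphaSideFinal
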