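import Fermat.Agent.N4F.E.GenericFibreAlong
import Fermat.Agent.N4F.E.TwoPrimes
import Fermat.Agent.N4F.C.Base
import Fermat.Agent.N4.ModPolyShape
import Fermat.Prelude.Def_ModularCurve_HeckeOperator

/-!
# N4-FULL / block E, node (E2') : chart integrality of `Ψ_h`

`β := heckeBetaBar Q̄ N ℓ`, `α := heckeAlphaBar Q̄ N ℓ`, `Ψ_h := charpolyAlong β hfin (α h)`.

* (+) `h ∈ RtFin A N ⇒` every coefficient of `Ψ_h` lies in `RtFin A N`;
* (−) `h ∈ RtInf A N ⇒` every coefficient of `Ψ_h` lies in `RtInf[1/g(u)]`,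
  `u = j⁻¹`, `g = reverse (Φ_ℓ(·, 0))`, `g(0) = 1`.

The generic core (`isIntegralElem_alpha`, `isIntegral_coeff_charpolyAlong`) is stated for arbitrary
`α β : F →ₐ[K] F'`.
-/

set_option autoImplicit false
set_option linter.style.haveILetI false

namespace Fermat.Agent.N4F.E.ChartIntegrality

open Polynomial AlgebraicCurve

/-! ### Generic core -/

section Generic

variable {A K F F' : Type*} [CommRing A] [Field K] [Field F] [Field F'] [Algebra K F]
  [Algebra K F'] [Algebra A K] [Algebra A F] [Algebra A F'] [IsScalarTower A K F]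
  [IsScalarTower A K F'] (α β : F →ₐ[K] F')

omit [Algebra A F'] [IsScalarTower A K F'] in
/-- The structure map `R₀ → F → F'` through `β`. -/
noncomputable def viaHom (R₀ : Subalgebra A F) : R₀ →+* F' :=
  (β : F →+* F').comp (algebraMap R₀ F)

lemma algHom_algebraMap (γ : F →ₐ[K] F') (a : A) :
    γ (algebraMap A F a) = algebraMap A F' a := by
  rw [IsScalarTower.algebraMap_apply A K F, IsScalarTower.algebraMap_apply A K F', γ.commutes]

/-- **Transfer of integrality.** If `α s` is integral over `β(R₀)` for the generators `s ∈ S`, and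
`h` is integral over `A[S]`, then `α h` is integral over `β(R₀)`. -/
theorem isIntegralElem_alpha (R₀ : Subalgebra A F) (S : Set F)
    (hgen : ∀ s ∈ S, (viaHom β R₀).IsIntegralElem (α s)) {h : F}
    (hh : IsIntegral (Algebra.adjoin A S) h) : (viaHom β R₀).IsIntegralElem (α h) := by
  letI : Algebra R₀ F' := (viaHom β R₀).toAlgebra
  -- Step A: `α r` is integral for every `r ∈ A[S]`
  have hA : ∀ r ∈ Algebra.adjoin A S, IsIntegral R₀ (α r) := by
    intro r hr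
    induction hr using Algebra.adjoin_induction with
    | mem s hs => exact hgen s hs
    | algebraMap a =>
      have h1 : α (algebraMap A F a) = algebraMap R₀ F' (algebraMap A R₀ a) := by
        rw [algHom_algebraMap]
        show _ = β (algebraMap A F a)
        rw [algHom_algebraMap]
      rw [h1]
      exact isIntegral_algebraMap
    | add x y _ _ hx hy => rw [map_add]; exact hx.add hy
    | mul x y _ _ hx hy => rw [map_mul]; exact hx.mul hy
  -- Step B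
  obtain ⟨p, hp, hph⟩ := hh
  let ψ : Algebra.adjoin A S →+* integralClosure R₀ F' :=
    { toFun := fun r => ⟨α (r : F), hA r r.2⟩
      map_one' := Subtype.ext (map_one α)
      map_mul' := fun x y => Subtype.ext (map_mul α _ _)
      map_zero' := Subtype.ext (map_zero α)
      map_add' := fun x y => Subtype.ext (map_add α _ _) }
  have h2 : IsIntegral (integralClosure R₀ F') (α h) := by
    refine ⟨p.map ψ, hp.map ψ, ?_⟩
    rw [eval₂_map]
    have h3 : (algebraMap (integralClosure R₀ F') F').comp ψ =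
        (α : F →+* F').comp (algebraMap (Algebra.adjoin A S) F) := RingHom.ext fun r => rfl
    rw [h3]
    have h4 := Polynomial.hom_eval₂ p (algebraMap (Algebra.adjoin A S) F) (α : F →+* F') h
    rw [hph, map_zero] at h4
    exact h4.symm
  exact isIntegral_trans (R := R₀) (A := integralClosure R₀ F') (α h) h2

omit [Algebra A K] [Algebra A F'] [IsScalarTower A K F] [IsScalarTower A K F'] in
/-- **Coefficients of `Ψ`**: if `x ∈ F'` is integral over `β(R₀)` then every coefficient of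
`charpolyAlong β hfin x` is integral over `R₀`. -/
theorem isIntegral_coeff_charpolyAlong (hfin : FiniteAlong K β) (R₀ : Subalgebra A F) {x : F'}
    (hx : (viaHom β R₀).IsIntegralElem x) (i : ℕ) :
    IsIntegral R₀ ((GenericFibreAlong.charpolyAlong β hfin x).coeff i) := by
  letI := algebraAlong β
  haveI : Module.Finite F F' := hfin
  have hx' : IsIntegral R₀ x := hx
  exact TwoPrimes.isIntegral_charpoly_lmul_coeff (R₀ := R₀) (F := F) (F' := F') x hx' i

section EvZ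

open Fermat.Agent.N4.Kronecker

omit [Algebra A K] [Algebra A F'] [IsScalarTower A K F] [IsScalarTower A K F'] in
lemma viaHom_comp_eval₂ (R₀ : Subalgebra A F) {s : F} (hs : s ∈ R₀) :
    (viaHom β R₀).comp (eval₂RingHom (Int.castRingHom R₀) ⟨s, hs⟩) =
      eval₂RingHom (Int.castRingHom F') (β s) := by
  refine Polynomial.ringHom_ext' (RingHom.ext_int _ _) ?_
  simp only [RingHom.comp_apply, coe_eval₂RingHom, eval₂_X]
  rfl

omit [Algebra A K] [Algebra A F'] [IsScalarTower A K F] [IsScalarTower A K F'] in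
/-- A monic relation `P(β s, y) = 0`, `s ∈ R₀`, makes `y` integral over `β(R₀)`. -/
theorem isIntegralElem_of_evZ_monic (R₀ : Subalgebra A F) {s : F} (hs : s ∈ R₀) (P : ℤ[X][X])
    (hP : P.Monic) {y : F'} (h : evZ (β s) y P = 0) : (viaHom β R₀).IsIntegralElem y := by
  refine ⟨P.map (eval₂RingHom (Int.castRingHom R₀) ⟨s, hs⟩), hP.map _, ?_⟩
  rw [eval₂_map, viaHom_comp_eval₂ β R₀ hs]
  exact h

omit [Algebra A K] [Algebra A F'] [IsScalarTower A K F] [IsScalarTower A K F'] in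
/-- A relation `P(β s, y) = 0`, `s ∈ R₀`, makes `β(lc(s)) · y` integral over `β(R₀)`,
`lc` the leading coefficient of `P`. -/
theorem isIntegralElem_leadingCoeff_mul_of_evZ (R₀ : Subalgebra A F) {s : F} (hs : s ∈ R₀)
    (P : ℤ[X][X]) {y : F'} (h : evZ (β s) y P = 0) :
    (viaHom β R₀).IsIntegralElem (β (eval₂ (Int.castRingHom F) s P.leadingCoeff) * y) := by
  have h1 := RingHom.isIntegralElem_leadingCoeff_mul
    (eval₂RingHom (Int.castRingHom F') (β s)) P y h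
  rw [← viaHom_comp_eval₂ β R₀ hs] at h1
  have h2 := RingHom.IsIntegralElem.of_comp h1
  have h3 : ((viaHom β R₀).comp (eval₂RingHom (Int.castRingHom R₀) ⟨s, hs⟩)) P.leadingCoeff =
      β (eval₂ (Int.castRingHom F) s P.leadingCoeff) := by
    rw [viaHom_comp_eval₂ β R₀ hs, coe_eval₂RingHom]
    have h4 := Polynomial.hom_eval₂ P.leadingCoeff (Int.castRingHom F) (β : F →+* F') s
    rw [show ((β : F →+* F').comp (Int.castRingHom F)) = Int.castRingHom F' from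
      RingHom.ext_int _ _] at h4
    exact h4.symm
  rw [h3] at h2
  exact h2

end EvZ

end Generic

/-! ### Bivariate reflection -/

section Reflect

open Fermat.Agent.N4.Kronecker

/-- The reflection of `Φ ∈ ℤ[X][X]` with respect to `n` in both variables:
`Φ*(a, b) = a^n b^n Φ(1/a, 1/b)`. -/
noncomputable def biReflect (n : ℕ) (Φ : ℤ[X][X]) : ℤ[X][X] :=
  ∑ i ∈ Finset.range (n + 1), C (reflect n (Φ.coeff i)) * X ^ (n - i)

lemma eval₂_reflect_eq {S : Type*} [Field S] (n : ℕ) (P : ℤ[X]) (hP : P.natDegree ≤ n) {a : S}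
    (ha : a ≠ 0) :
    eval₂ (Int.castRingHom S) a (reflect n P) = a ^ n * eval₂ (Int.castRingHom S) a⁻¹ P := by
  letI : Invertible a⁻¹ := invertibleOfNonzero (inv_ne_zero ha)
  have h := eval₂_reflect_mul_pow (Int.castRingHom S) a⁻¹ n P hP
  rw [invOf_eq_inv, inv_inv] at h
  rw [← h, mul_comm, mul_assoc, ← mul_pow, inv_mul_cancel₀ ha, one_pow, mul_one]

theorem evZ_biReflect {S : Type*} [Field S] (n : ℕ) (Φ : ℤ[X][X]) (hΦ : Φ.natDegree ≤ n)
    (hc : ∀ i, (Φ.coeff i).natDegree ≤ n) {a b : S} (ha : a ≠ 0) (hb : b ≠ 0) :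
    evZ a b (biReflect n Φ) = a ^ n * b ^ n * evZ a⁻¹ b⁻¹ Φ := by
  have hΦsum : Φ = ∑ i ∈ Finset.range (n + 1), C (Φ.coeff i) * X ^ i :=
    Polynomial.as_sum_range_C_mul_X_pow' Φ (Nat.lt_succ_of_le hΦ)
  conv_rhs => rw [hΦsum]
  rw [biReflect, map_sum, map_sum, Finset.mul_sum]
  refine Finset.sum_congr rfl fun i hi => ?_
  have hi' : i ≤ n := Nat.lt_succ_iff.mp (Finset.mem_range.mp hi)
  rw [map_mul, map_mul, map_pow, map_pow]
  have hC : ∀ (x y : S) (P : ℤ[X]), evZ x y (C P) = eval₂ (Int.castRingHom S) x P := by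
    intro x y P
    rw [evZ_apply, eval₂_C]
    rfl
  have hX : ∀ (x y : S), evZ x y (X : ℤ[X][X]) = y := by
    intro x y
    rw [evZ_apply, eval₂_X]
  rw [hC, hC, hX, hX, eval₂_reflect_eq n _ (hc i) ha]
  have hbpow : b ^ (n - i) = b ^ n * b⁻¹ ^ i := by
    rw [inv_pow, ← div_eq_mul_inv, eq_div_iff (pow_ne_zero i hb), ← pow_add, Nat.sub_add_cancel hi']
  rw [hbpow]
  ring

lemma coeff_biReflect_top (n : ℕ) (Φ : ℤ[X][X]) :
    (biReflect n Φ).coeff n = reflect n (Φ.coeff 0) := by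
  rw [biReflect, finset_sum_coeff, Finset.sum_eq_single 0]
  · rw [Nat.sub_zero, coeff_C_mul, coeff_X_pow, if_pos rfl, mul_one]
  · intro i hi hi0
    have hi' : i ≤ n := Nat.lt_succ_iff.mp (Finset.mem_range.mp hi)
    rw [coeff_C_mul, coeff_X_pow, if_neg (by omega), mul_zero]
  · intro h
    exact absurd (Finset.mem_range.mpr (Nat.succ_pos n)) h

lemma natDegree_biReflect_le (n : ℕ) (Φ : ℤ[X][X]) : (biReflect n Φ).natDegree ≤ n := by
  rw [biReflect]
  refine Polynomial.natDegree_sum_le_of_forall_le _ _ fun i _ => ?_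
  exact (natDegree_C_mul_le _ _).trans ((natDegree_X_pow_le _).trans (Nat.sub_le n i))

lemma leadingCoeff_biReflect (n : ℕ) (Φ : ℤ[X][X]) (h0 : reflect n (Φ.coeff 0) ≠ 0) :
    (biReflect n Φ).leadingCoeff = reflect n (Φ.coeff 0) := by
  have hdeg : (biReflect n Φ).natDegree = n :=
    le_antisymm (natDegree_biReflect_le n Φ)
      (le_natDegree_of_ne_zero (by rw [coeff_biReflect_top]; exact h0))
  rw [leadingCoeff, hdeg, coeff_biReflect_top]

end Reflect

/-! ### The modular instance -/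

section Modular

open ModularCurve Fermat.Agent.N4F.C Fermat.Agent.N4.Chart Fermat.Agent.N4.Kronecker
  Fermat.Agent.N4.ModPolyDescent Fermat.Agent.N4.ModPolyShape

variable (A : ValuationSubring Qb) (N ℓ : ℕ) [NeZero N] [NeZero ℓ]

/-- `Φ_ℓ(β j, α j) = 0` in `Q̄·F_{Nℓ}`: `α j = j(q)` is a root of `Φ_ℓ(j(q^ℓ), X)`. -/
theorem evZ_beta_alpha_jb :
    evZ (heckeBetaBar Qb N ℓ (jb N)) (heckeAlphaBar Qb N ℓ (jb N)) (modPoly ℓ) = 0 := by
  apply Subtype.val_injective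
  have h := map_evZ ((modularFunctionFieldBar (N * ℓ)).val : _ →+* LaurentSeries Qb)
    (heckeBetaBar Qb N ℓ (jb N)) (heckeAlphaBar Qb N ℓ (jb N)) (modPoly ℓ)
  have h2 := evZ_modPoly_swap ℓ Qb 1
  rw [qExpand_one_apply, qExpand_one_apply] at h2
  exact h.trans h2

/-- `Φ_ℓ(α j, β j) = 0` in `Q̄·F_{Nℓ}`: `β j = j(q^ℓ)` is a root of `Φ_ℓ(j(q), X)`. -/
theorem evZ_alpha_beta_jb :
    evZ (heckeAlphaBar Qb N ℓ (jb N)) (heckeBetaBar Qb N ℓ (jb N)) (modPoly ℓ) = 0 := by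
  apply Subtype.val_injective
  have h := map_evZ ((modularFunctionFieldBar (N * ℓ)).val : _ →+* LaurentSeries Qb)
    (heckeAlphaBar Qb N ℓ (jb N)) (heckeBetaBar Qb N ℓ (jb N)) (modPoly ℓ)
  have h2 := evZ_modPoly ℓ Qb 1
  rw [qExpand_one_apply, qExpand_one_apply] at h2
  exact h.trans h2

/-! #### Chart `+` -/

/-- `α j` is integral over `β(A[j])`. -/
theorem isIntegralElem_alpha_jb :
    (viaHom (heckeBetaBar Qb N ℓ) (Algebra.adjoin ↥A {jb N})).IsIntegralElem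
      (heckeAlphaBar Qb N ℓ (jb N)) :=
  isIntegralElem_of_evZ_monic _ _ (Algebra.subset_adjoin (Set.mem_singleton _)) (modPoly ℓ)
    (modPoly_monic ℓ) (evZ_beta_alpha_jb N ℓ)

/-- `β j` is integral over `α(A[j])`. -/
theorem isIntegralElem_beta_jb :
    (viaHom (heckeAlphaBar Qb N ℓ) (Algebra.adjoin ↥A {jb N})).IsIntegralElem
      (heckeBetaBar Qb N ℓ (jb N)) :=
  isIntegralElem_of_evZ_monic _ _ (Algebra.subset_adjoin (Set.mem_singleton _)) (modPoly ℓ)
    (modPoly_monic ℓ) (evZ_alpha_beta_jb N ℓ)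

/-- **(E2'), chart `+`.** `h ∈ RtFin A N ⇒` every coefficient of
`Ψ_h = charpolyAlong β hfin (α h)` lies in `RtFin A N`. -/
theorem coeff_charpolyAlong_mem_RtFin (hfin : FiniteAlong Qb (heckeBetaBar Qb N ℓ)) {h : Fb N}
    (hh : h ∈ RtFin A N) (i : ℕ) :
    (GenericFibreAlong.charpolyAlong (heckeBetaBar Qb N ℓ) hfin
      (heckeAlphaBar Qb N ℓ h)).coeff i ∈ RtFin A N := by
  rw [mem_chartAlg_iff] at hh ⊢
  refine isIntegral_coeff_charpolyAlong (heckeBetaBar Qb N ℓ) hfin (Algebra.adjoin ↥A {jb N})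
    (isIntegralElem_alpha (heckeAlphaBar Qb N ℓ) (heckeBetaBar Qb N ℓ) _ {jb N} ?_ hh) i
  rintro s rfl
  exact isIntegralElem_alpha_jb A N ℓ

/-- The swapped order: `h ∈ RtFin A N ⇒` every coefficient of `charpolyAlong α hfin (β h)` lies in
`RtFin A N`. -/
theorem coeff_charpolyAlong_swap_mem_RtFin (hfin : FiniteAlong Qb (heckeAlphaBar Qb N ℓ))
    {h : Fb N} (hh : h ∈ RtFin A N) (i : ℕ) :
    (GenericFibreAlong.charpolyAlong (heckeAlphaBar Qb N ℓ) hfin
      (heckeBetaBar Qb N ℓ h)).coeff i ∈ RtFin A N := by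
  rw [mem_chartAlg_iff] at hh ⊢
  refine isIntegral_coeff_charpolyAlong (heckeAlphaBar Qb N ℓ) hfin (Algebra.adjoin ↥A {jb N})
    (isIntegralElem_alpha (heckeBetaBar Qb N ℓ) (heckeAlphaBar Qb N ℓ) _ {jb N} ?_ hh) i
  rintro s rfl
  exact isIntegralElem_beta_jb A N ℓ

/-! #### Chart `−` -/

/-- `g := reverse (Φ_ℓ(·, 0))`, a polynomial with `g(0) = ±1` (`= 1` for `ℓ` prime). -/
noncomputable def gPoly : ℤ[X] := ((modPoly ℓ).coeff 0).reverse

/-- `g(u)`, `u = j⁻¹`, as an element of `Q̄·F_N`. -/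
noncomputable def gU : Fb N := eval₂ (Int.castRingHom (Fb N)) (jb N)⁻¹ (gPoly ℓ)

lemma gPoly_eq_reflect : gPoly ℓ = reflect (dedekindPsi ℓ) ((modPoly ℓ).coeff 0) := by
  obtain ⟨ε, -, -, h0, -, -⟩ := modPoly_shape ℓ
  rw [gPoly, reverse, h0]

lemma gPoly_ne_zero : gPoly ℓ ≠ 0 := by
  obtain ⟨ε, hε, -, h0, hl, -⟩ := modPoly_shape ℓ
  rw [gPoly, Ne, reverse_eq_zero]
  intro h
  rw [h, leadingCoeff_zero] at hl
  rcases hε with rfl | rfl <;> simp at hl

/-- `g(0) = ±1`. -/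
lemma gPoly_coeff_zero : (gPoly ℓ).coeff 0 = 1 ∨ (gPoly ℓ).coeff 0 = -1 := by
  obtain ⟨ε, hε, -, -, hl, -⟩ := modPoly_shape ℓ
  rw [gPoly, coeff_zero_reverse, hl]
  exact hε

/-- `g(0) = 1` for `ℓ` prime. -/
lemma gPoly_coeff_zero_prime [Fact ℓ.Prime] : (gPoly ℓ).coeff 0 = 1 := by
  rw [gPoly, coeff_zero_reverse]
  exact (modPoly_prime_shape ℓ).2.1

omit [NeZero ℓ] in
theorem transcendental_jb : Transcendental Qb (jb N) := by
  rw [transcendental_iff]
  intro p hp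
  have h1 := Fermat.Agent.S24.FFBasics.transcendental_jqModC (K := Qb)
  rw [transcendental_iff] at h1
  apply h1 p
  have h2 := aeval_algHom_apply (modularFunctionFieldBar N).val (jb N) p
  rw [hp, map_zero] at h2
  exact h2

omit [NeZero ℓ] in
lemma jb_ne_zero : jb N ≠ 0 := fun h => by
  have h1 := transcendental_jb N
  rw [h] at h1
  exact h1 isAlgebraic_zero

omit [NeZero ℓ] in
lemma eval₂_int_jb_ne_zero {P : ℤ[X]} (hP : P ≠ 0) :
    eval₂ (Int.castRingHom (Fb N)) (jb N) P ≠ 0 := by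
  intro h
  have h1 := (transcendental_jb N).restrictScalars (R := ℤ) (algebraMap ℤ Qb).injective_int
  rw [transcendental_iff] at h1
  apply hP
  apply h1 P
  rw [aeval_def, algebraMap_int_eq]
  exact h

theorem gU_eq : gU N ℓ = (jb N)⁻¹ ^ dedekindPsi ℓ *
    eval₂ (Int.castRingHom (Fb N)) (jb N) ((modPoly ℓ).coeff 0) := by
  rw [gU, gPoly_eq_reflect, eval₂_reflect_eq _ _ (natDegree_coeff_modPoly_le ℓ 0)
    (inv_ne_zero (jb_ne_zero N)), inv_inv]

theorem gU_ne_zero : gU N ℓ ≠ 0 := by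
  rw [gU_eq]
  refine mul_ne_zero (pow_ne_zero _ (inv_ne_zero (jb_ne_zero N))) (eval₂_int_jb_ne_zero N ?_)
  intro h
  have := gPoly_ne_zero ℓ
  rw [gPoly, h, reverse_zero] at this
  exact this rfl

/-- `g(u) ∈ A[u]`. -/
theorem gU_mem_adjoin : gU N ℓ ∈ Algebra.adjoin ↥A {(jb N)⁻¹} := by
  rw [gU, eval₂_eq_sum_range]
  refine Subalgebra.sum_mem _ fun i _ => ?_
  refine Subalgebra.mul_mem _ ?_
    (Subalgebra.pow_mem _ (Algebra.subset_adjoin (Set.mem_singleton _)) i)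
  rw [eq_intCast]
  exact Subalgebra.intCast_mem _ _

/-- The relation `g(βu)(αu)^ψ + … + (βu)^ψ = 0`: `β(g(u)) · αu` is integral over `β(R₀)` as soon as
`u ∈ R₀`. -/
theorem isIntegralElem_gU_mul_alpha_inv (R₀ : Subalgebra ↥A (Fb N)) (hu : (jb N)⁻¹ ∈ R₀) :
    (viaHom (heckeBetaBar Qb N ℓ) R₀).IsIntegralElem
      (heckeBetaBar Qb N ℓ (gU N ℓ) * heckeAlphaBar Qb N ℓ (jb N)⁻¹) := by
  have hj0 := jb_ne_zero N
  have ha : heckeBetaBar Qb N ℓ (jb N)⁻¹ ≠ 0 := by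
    rw [_root_.map_ne_zero]; exact inv_ne_zero hj0
  have hb : heckeAlphaBar Qb N ℓ (jb N)⁻¹ ≠ 0 := by
    rw [_root_.map_ne_zero]; exact inv_ne_zero hj0
  have h1 := evZ_biReflect (dedekindPsi ℓ) (modPoly ℓ) (modPoly_natDegree ℓ).le
    (natDegree_coeff_modPoly_le ℓ) ha hb
  rw [map_inv₀, map_inv₀, inv_inv, inv_inv, evZ_beta_alpha_jb, mul_zero, ← map_inv₀,
    ← map_inv₀] at h1
  have h2 := isIntegralElem_leadingCoeff_mul_of_evZ (heckeBetaBar Qb N ℓ) R₀ hu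
    (biReflect (dedekindPsi ℓ) (modPoly ℓ)) h1
  rw [leadingCoeff_biReflect _ _ (by rw [← gPoly_eq_reflect]; exact gPoly_ne_zero ℓ),
    ← gPoly_eq_reflect] at h2
  exact h2

/-- `α u` is integral over `β(A[u, 1/g(u)])`. -/
theorem isIntegralElem_alpha_jb_inv :
    (viaHom (heckeBetaBar Qb N ℓ) (Algebra.adjoin ↥A {(jb N)⁻¹, (gU N ℓ)⁻¹})).IsIntegralElem
      (heckeAlphaBar Qb N ℓ (jb N)⁻¹) := by
  set R₀ := Algebra.adjoin ↥A {(jb N)⁻¹, (gU N ℓ)⁻¹} with hR₀
  have hu : (jb N)⁻¹ ∈ R₀ := Algebra.subset_adjoin (Set.mem_insert _ _)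
  have hg : (gU N ℓ)⁻¹ ∈ R₀ :=
    Algebra.subset_adjoin (Set.mem_insert_of_mem _ (Set.mem_singleton _))
  have h1 := isIntegralElem_gU_mul_alpha_inv A N ℓ R₀ hu
  have h2 : (viaHom (heckeBetaBar Qb N ℓ) R₀).IsIntegralElem
      (viaHom (heckeBetaBar Qb N ℓ) R₀ ⟨(gU N ℓ)⁻¹, hg⟩) := RingHom.isIntegralElem_map _
  have h3 := RingHom.IsIntegralElem.mul _ h2 h1
  have h4 : viaHom (heckeBetaBar Qb N ℓ) R₀ ⟨(gU N ℓ)⁻¹, hg⟩ *
      (heckeBetaBar Qb N ℓ (gU N ℓ) * heckeAlphaBar Qb N ℓ (jb N)⁻¹) =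
      heckeAlphaBar Qb N ℓ (jb N)⁻¹ := by
    show heckeBetaBar Qb N ℓ (gU N ℓ)⁻¹ * _ = _
    rw [← mul_assoc, ← map_mul, inv_mul_cancel₀ (gU_ne_zero N ℓ), map_one, one_mul]
  rw [h4] at h3
  exact h3

/-- **(E2'), chart `−`.** `h ∈ RtInf A N ⇒` every coefficient of
`Ψ_h = charpolyAlong β hfin (α h)` lies in `RtInf[1/g(u)]`, the integral closure of
`A[u, 1/g(u)]`. -/
theorem coeff_charpolyAlong_mem_chartInf (hfin : FiniteAlong Qb (heckeBetaBar Qb N ℓ)) {h : Fb N}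
    (hh : h ∈ RtInf A N) (i : ℕ) :
    (GenericFibreAlong.charpolyAlong (heckeBetaBar Qb N ℓ) hfin
      (heckeAlphaBar Qb N ℓ h)).coeff i ∈
        chartAlg ↥A (Fb N) {(jb N)⁻¹, (gU N ℓ)⁻¹} := by
  rw [mem_chartAlg_iff] at hh ⊢
  refine isIntegral_coeff_charpolyAlong (heckeBetaBar Qb N ℓ) hfin
    (Algebra.adjoin ↥A {(jb N)⁻¹, (gU N ℓ)⁻¹})
    (isIntegralElem_alpha (heckeAlphaBar Qb N ℓ) (heckeBetaBar Qb N ℓ) _ {(jb N)⁻¹} ?_ hh) i
  rintro s rfl
  exact isIntegralElem_alpha_jb_inv A N ℓ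

omit [NeZero ℓ] in
/-- Adding an element of `A[S]` to the generators does not change the chart. -/
lemma chartAlg_insert_le {S : Set (Fb N)} {s : Fb N} (hs : s ∈ Algebra.adjoin ↥A S) :
    chartAlg ↥A (Fb N) (insert s S) ≤ chartAlg ↥A (Fb N) S := by
  intro x hx
  rw [mem_chartAlg_iff] at hx ⊢
  have hle : Algebra.adjoin ↥A (insert s S) ≤ Algebra.adjoin ↥A S :=
    Algebra.adjoin_le (Set.insert_subset hs Algebra.subset_adjoin)
  exact hx.map_of_comp_eq (Subalgebra.inclusion hle).toRingHom (RingHom.id (Fb N)) (by ext; rfl)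

/-- **(E2'), chart `−`, denominator form.** -/
theorem exists_pow_mul_coeff_mem_RtInf (hfin : FiniteAlong Qb (heckeBetaBar Qb N ℓ)) {h : Fb N}
    (hh : h ∈ RtInf A N) (i : ℕ) :
    ∃ m : ℕ, gU N ℓ ^ m * (GenericFibreAlong.charpolyAlong (heckeBetaBar Qb N ℓ) hfin
      (heckeAlphaBar Qb N ℓ h)).coeff i ∈ RtInf A N := by
  have h1 := coeff_charpolyAlong_mem_chartInf A N ℓ hfin hh i
  have h2 : chartAlg ↥A (Fb N) {(jb N)⁻¹, (gU N ℓ)⁻¹} ≤
      chartAlg ↥A (Fb N) (insert (gU N ℓ)⁻¹ {gU N ℓ, (jb N)⁻¹}) := by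
    apply chartAlg_mono
    rintro x (rfl | rfl)
    · exact Set.mem_insert_of_mem _ (Set.mem_insert_of_mem _ (Set.mem_singleton _))
    · exact Set.mem_insert _ _
  obtain ⟨m, hm⟩ := exists_pow_mul_mem_chartAlg (O := ↥A) (S := {gU N ℓ, (jb N)⁻¹})
    (Set.mem_insert _ _) (gU_ne_zero N ℓ) (h2 h1)
  exact ⟨m, chartAlg_insert_le A N (gU_mem_adjoin A N ℓ) hm⟩

/-! #### Polynomial forms -/

/-- `Ψ_h` has a (monic) lift to `RtFin A N` for `h ∈ RtFin A N`. -/
theorem exists_lift_RtFin (hfin : FiniteAlong Qb (heckeBetaBar Qb N ℓ)) {h : Fb N}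
    (hh : h ∈ RtFin A N) :
    ∃ χ : (RtFin A N)[X], χ.Monic ∧ χ.map (algebraMap (RtFin A N) (Fb N)) =
      GenericFibreAlong.charpolyAlong (heckeBetaBar Qb N ℓ) hfin (heckeAlphaBar Qb N ℓ h) := by
  have hl : GenericFibreAlong.charpolyAlong (heckeBetaBar Qb N ℓ) hfin (heckeAlphaBar Qb N ℓ h) ∈
      Polynomial.lifts (algebraMap (RtFin A N) (Fb N)) := by
    rw [Polynomial.lifts_iff_coeff_lifts]
    intro n
    exact ⟨⟨_, coeff_charpolyAlong_mem_RtFin A N ℓ hfin hh n⟩, rfl⟩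
  obtain ⟨χ, hχ, -, hm⟩ := Polynomial.lifts_and_degree_eq_and_monic hl
    (GenericFibreAlong.charpolyAlong_monic _ hfin _)
  exact ⟨χ, hm, hχ⟩

/-- `Ψ_h` has a (monic) lift to `RtInf[1/g(u)]` for `h ∈ RtInf A N`. -/
theorem exists_lift_chartInf (hfin : FiniteAlong Qb (heckeBetaBar Qb N ℓ)) {h : Fb N}
    (hh : h ∈ RtInf A N) :
    ∃ χ : (chartAlg ↥A (Fb N) {(jb N)⁻¹, (gU N ℓ)⁻¹})[X], χ.Monic ∧
      χ.map (algebraMap (chartAlg ↥A (Fb N) {(jb N)⁻¹, (gU N ℓ)⁻¹}) (Fb N)) =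
      GenericFibreAlong.charpolyAlong (heckeBetaBar Qb N ℓ) hfin (heckeAlphaBar Qb N ℓ h) := by
  have hl : GenericFibreAlong.charpolyAlong (heckeBetaBar Qb N ℓ) hfin (heckeAlphaBar Qb N ℓ h) ∈
      Polynomial.lifts (algebraMap (chartAlg ↥A (Fb N) {(jb N)⁻¹, (gU N ℓ)⁻¹}) (Fb N)) := by
    rw [Polynomial.lifts_iff_coeff_lifts]
    intro n
    exact ⟨⟨_, coeff_charpolyAlong_mem_chartInf A N ℓ hfin hh n⟩, rfl⟩
  obtain ⟨χ, hχ, -, hm⟩ := Polynomial.lifts_and_degree_eq_and_monic hl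
    (GenericFibreAlong.charpolyAlong_monic _ hfin _)
  exact ⟨χ, hm, hχ⟩

end Modular

end Fermat.Agent.N4F.E.ChartIntegrality
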