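import Fermat.Agent.N4F.E.ChartIntegrality
import Fermat.Agent.N4F.C.WRing

/-!
# N4-FULL / block E : the `stab` field of `TheoremE.ChartHyp` for the two charts

`β := heckeBetaBar Q̄ N ℓ`, `α := heckeAlphaBar Q̄ N ℓ`, `A ⊂ Q̄` an arbitrary valuation subring.
For a place `Q` of `Q̄·F_{Nℓ}` the two places `Q ∘ β`, `Q ∘ α` of `Q̄·F_N` lie in the same chart:
`j` is `A`-integral at `Q ∘ α` iff it is at `Q ∘ β` (both `Φ_ℓ(βj, αj) = 0` and `Φ_ℓ(αj, βj) = 0`
are monic relations and `W_Q` is integrally closed).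

* `intAt_restrictAlong_iff` : `IntAt A (Q ∘ φ) f ↔ IntAt A Q (φ f)`;
* `intAt_of_evZ_monic` : a monic relation `P(x, y) = 0` over `ℤ` transports `IntAt` from `x` to `y`;
* `intAt_alpha_jb_iff_beta_jb`, `stab_fin`, `stab_inf` : the `stab` field, chart `+` / chart `−`;
* `intAt_gU_inv_of_not`, `chartInf_le_wRing` : on the chart `−` the element `g(u)` of
  `ChartIntegrality` is a unit of `W_P`, so `RtInf[1/g(u)] ⊆ W_P`.
-/

set_option autoImplicit false
set_option linter.style.haveILetI false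

namespace Fermat.Agent.N4F.E.ChartStab

open Polynomial AlgebraicCurve ModularCurve Fermat.Agent.N4F.C Fermat.Agent.N4.Chart
  Fermat.Agent.N4.Kronecker Fermat.Agent.N4.ModPolyDescent Fermat.Agent.N4.ModPolyShape
  Fermat.Agent.N4F.E.ChartIntegrality Fermat.Agent.N4F.C.WRing

variable {A : ValuationSubring Qb}

/-! ### `IntAt` along a level map -/

section Along

variable {N M : ℕ} [NeZero N] [NeZero M]

/-- `f` is `A`-integral at `Q ∘ φ` iff `φ f` is `A`-integral at `Q`. -/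
theorem intAt_restrictAlong_iff (φ : Fb N →ₐ[Qb] Fb M) (hφ : φ.toRingHom.IsIntegral)
    (Q : Place Qb (Fb M)) (f : Fb N) :
    IntAt A (Q.restrictAlong φ hφ) f ↔ IntAt A Q (φ f) := by
  rw [intAt_iff, intAt_iff]
  constructor
  · rintro ⟨hf, hc⟩
    refine ⟨(GenericFibreAlong.mem_restrictAlong_iff φ hφ Q f).mp hf, ?_⟩
    have h := GenericFibreAlong.evalAt_restrictAlong φ hφ Q (rational Q) f hf
    rw [evP, h]
    exact hc
  · rintro ⟨hf, hc⟩
    have hf' : f ∈ (Q.restrictAlong φ hφ).toValuationSubring :=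
      (GenericFibreAlong.mem_restrictAlong_iff φ hφ Q f).mpr hf
    refine ⟨hf', ?_⟩
    have h := GenericFibreAlong.evalAt_restrictAlong φ hφ Q (rational Q) f hf'
    rw [evP] at hc ⊢
    rw [← h]
    exact hc

/-- A monic relation `P(x, y) = 0` with integer coefficients transports `A`-integrality at a place
from `x` to `y`. -/
theorem intAt_of_evZ_monic (Q : Place Qb (Fb M)) {x y : Fb M} (P : ℤ[X][X]) (hP : P.Monic)
    (h : evZ x y P = 0) (hx : IntAt A Q x) : IntAt A Q y := by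
  refine intAt_of_isIntegral (Algebra.adjoin ↥A {x})
    (fun b hb => intAt_of_mem_adjoin (fun u hu => by rw [Set.mem_singleton_iff.1 hu]; exact hx) hb)
    ?_
  have hxm : x ∈ Algebra.adjoin ↥A {x} := Algebra.subset_adjoin (Set.mem_singleton _)
  refine ⟨P.map (eval₂RingHom (Int.castRingHom ↥(Algebra.adjoin ↥A {x})) ⟨x, hxm⟩), hP.map _, ?_⟩
  rw [eval₂_map]
  have hcomp : (algebraMap ↥(Algebra.adjoin ↥A {x}) (Fb M)).comp
      (eval₂RingHom (Int.castRingHom ↥(Algebra.adjoin ↥A {x})) ⟨x, hxm⟩) =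
      eval₂RingHom (Int.castRingHom (Fb M)) x := by
    refine Polynomial.ringHom_ext' (RingHom.ext_int _ _) ?_
    simp only [RingHom.comp_apply, coe_eval₂RingHom, eval₂_X]
    rfl
  rw [hcomp]
  exact h

end Along

/-! ### The `stab` field -/

section Stab

variable (N ℓ : ℕ) [NeZero N] [NeZero ℓ]

/-- At a place of `Q̄·F_{Nℓ}`: `α j` is `A`-integral iff `β j` is. -/
theorem intAt_alpha_jb_iff_beta_jb (Q : Place Qb (Fb (N * ℓ))) :
    IntAt A Q (heckeAlphaBar Qb N ℓ (jb N)) ↔ IntAt A Q (heckeBetaBar Qb N ℓ (jb N)) :=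
  ⟨intAt_of_evZ_monic Q (modPoly ℓ) (modPoly_monic ℓ) (evZ_alpha_beta_jb N ℓ),
    intAt_of_evZ_monic Q (modPoly ℓ) (modPoly_monic ℓ) (evZ_beta_alpha_jb N ℓ)⟩

/-- `Q ∘ α` and `Q ∘ β` lie in the same chart. -/
theorem intAt_restrictAlong_alpha_iff_beta
    (hα : (heckeAlphaBar Qb N ℓ).toRingHom.IsIntegral)
    (hβ : (heckeBetaBar Qb N ℓ).toRingHom.IsIntegral) (Q : Place Qb (Fb (N * ℓ))) :
    IntAt A (Q.restrictAlong (heckeAlphaBar Qb N ℓ) hα) (jb N) ↔
      IntAt A (Q.restrictAlong (heckeBetaBar Qb N ℓ) hβ) (jb N) := by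
  rw [intAt_restrictAlong_iff, intAt_restrictAlong_iff]
  exact intAt_alpha_jb_iff_beta_jb N ℓ Q

variable [HasPrincipalDivisors Qb (Fb (N * ℓ))]

/-- **`stab`, chart `+`.** -/
theorem stab_fin (hβ : (heckeBetaBar Qb N ℓ).toRingHom.IsIntegral)
    (hα : (heckeAlphaBar Qb N ℓ).toRingHom.IsIntegral) (P : Place Qb (Fb N))
    (hP : IntAt A P (jb N)) :
    ∀ Q ∈ Place.fiberAlong (heckeBetaBar Qb N ℓ) hβ P,
      IntAt A (Q.restrictAlong (heckeAlphaBar Qb N ℓ) hα) (jb N) := by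
  intro Q hQ
  rw [Place.mem_fiberAlong] at hQ
  rw [intAt_restrictAlong_alpha_iff_beta N ℓ hα hβ Q, hQ]
  exact hP

/-- **`stab`, chart `−`.** -/
theorem stab_inf (hβ : (heckeBetaBar Qb N ℓ).toRingHom.IsIntegral)
    (hα : (heckeAlphaBar Qb N ℓ).toRingHom.IsIntegral) (P : Place Qb (Fb N))
    (hP : ¬ IntAt A P (jb N)) :
    ∀ Q ∈ Place.fiberAlong (heckeBetaBar Qb N ℓ) hβ P,
      ¬ IntAt A (Q.restrictAlong (heckeAlphaBar Qb N ℓ) hα) (jb N) := by
  intro Q hQ
  rw [Place.mem_fiberAlong] at hQ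
  rw [intAt_restrictAlong_alpha_iff_beta N ℓ hα hβ Q, hQ]
  exact hP

end Stab

/-! ### Chart `−` : `g(u)` is a unit of `W_P` -/

section ChartInf

variable {N : ℕ} [NeZero N]

/-- An element of `W_P` whose value is a unit of `A` is a unit of `W_P`. -/
theorem intAt_inv_of_isUnit_valAt {P : Place Qb (Fb N)} {f : Fb N} (h : IntAt A P f)
    (hu : IsUnit (valAt h)) : IntAt A P f⁻¹ := by
  rcases intAt_or_inv (A := A) P f⁻¹ with h1 | ⟨c, hc, h1⟩
  · exact h1
  · exfalso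
    rw [inv_inv] at h1
    rw [valAt_eq h h1] at hu
    exact hc hu

/-- Off the chart `+` the function `u = j⁻¹` is `A`-integral at `P` with value in `𝔪_A`. -/
theorem exists_intAt_inv_of_not {P : Place Qb (Fb N)} (hP : ¬ IntAt A P (jb N)) :
    ∃ h : IntAt A P (jb N)⁻¹, valAt h ∈ IsLocalRing.maximalIdeal ↥A := by
  rcases intAt_or_inv (A := A) P (jb N) with h1 | ⟨c, hc, h1⟩
  · exact absurd h1 hP
  · refine ⟨⟨c, h1⟩, ?_⟩
    rw [valAt_eq ⟨c, h1⟩ h1]
    exact hc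

theorem intAt_inv_jb_of_not {P : Place Qb (Fb N)} (hP : ¬ IntAt A P (jb N)) :
    IntAt A P (jb N)⁻¹ :=
  (exists_intAt_inv_of_not hP).1

variable (ℓ : ℕ) [NeZero ℓ]

/-- The value of an integer polynomial in an element of `W_P`. -/
theorem intAt_eval₂_int {P : Place Qb (Fb N)} {f : Fb N} (h : IntAt A P f) (p : ℤ[X]) :
    ∃ h' : IntAt A P (eval₂ (Int.castRingHom (Fb N)) f p),
      valAt h' = eval₂ (Int.castRingHom ↥A) (valAt h) p := by
  have e1 : eval₂ (Int.castRingHom (Fb N)) f p =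
      ((eval₂ (Int.castRingHom ↥(wRing A P)) (⟨f, h⟩ : wRing A P) p : wRing A P) : Fb N) := by
    have := Polynomial.hom_eval₂ p (Int.castRingHom ↥(wRing A P)) (wRing A P).subtype ⟨f, h⟩
    rw [show (wRing A P).subtype.comp (Int.castRingHom ↥(wRing A P)) = Int.castRingHom (Fb N) from
      RingHom.ext_int _ _] at this
    exact this.symm
  have hmem : IntAt A P (eval₂ (Int.castRingHom (Fb N)) f p) := by
    rw [e1]; exact (eval₂ (Int.castRingHom ↥(wRing A P)) (⟨f, h⟩ : wRing A P) p).2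
  refine ⟨hmem, ?_⟩
  have e2 := Polynomial.hom_eval₂ p (Int.castRingHom ↥(wRing A P)) (valW A P) ⟨f, h⟩
  rw [show (valW A P).comp (Int.castRingHom ↥(wRing A P)) = Int.castRingHom ↥A from
    RingHom.ext_int _ _] at e2
  rw [show valW A P ⟨f, h⟩ = valAt h from rfl] at e2
  rw [← e2, valW_apply]
  congr 1

/-- On the chart `−`, `g(u)` is `A`-integral at `P` with value a unit of `A`. -/
theorem exists_intAt_gU_of_not {P : Place Qb (Fb N)} (hP : ¬ IntAt A P (jb N)) :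
    ∃ h : IntAt A P (gU N ℓ), IsUnit (valAt h) := by
  obtain ⟨hu, hm⟩ := exists_intAt_inv_of_not hP
  obtain ⟨h', hv⟩ := intAt_eval₂_int hu (gPoly ℓ)
  have h'' : IntAt A P (gU N ℓ) := h'
  refine ⟨h'', ?_⟩
  rw [show valAt h'' = valAt h' from rfl, hv]
  by_contra hnu
  have h0 : IsLocalRing.residue ↥A (eval₂ (Int.castRingHom ↥A) (valAt hu) (gPoly ℓ)) = 0 :=
    (IsLocalRing.residue_eq_zero_iff _).2 hnu
  rw [Polynomial.hom_eval₂, (IsLocalRing.residue_eq_zero_iff _).2 hm,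
    show (IsLocalRing.residue ↥A).comp (Int.castRingHom ↥A) =
      Int.castRingHom (IsLocalRing.ResidueField ↥A) from RingHom.ext_int _ _,
    eval₂_at_zero] at h0
  rcases gPoly_coeff_zero ℓ with h1 | h1
  · rw [h1, map_one] at h0
    exact one_ne_zero h0
  · rw [h1, map_neg, map_one, neg_eq_zero] at h0
    exact one_ne_zero h0

/-- **Chart `−`.** `1 / g(u)` is `A`-integral at every `P` off the chart `+`. -/
theorem intAt_gU_inv_of_not {P : Place Qb (Fb N)} (hP : ¬ IntAt A P (jb N)) :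
    IntAt A P (gU N ℓ)⁻¹ := by
  obtain ⟨h, hu⟩ := exists_intAt_gU_of_not ℓ hP
  exact intAt_inv_of_isUnit_valAt h hu

/-- **Chart `−`.** The ring `RtInf[1/g(u)]` (integral closure of `A[u, 1/g(u)]`) of
`ChartIntegrality.coeff_charpolyAlong_mem_chartInf` lies in `W_P` for every `P` off the
chart `+`. -/
theorem chartInf_le_wRing {P : Place Qb (Fb N)} (hP : ¬ IntAt A P (jb N)) {g : Fb N}
    (hg : g ∈ chartAlg ↥A (Fb N) {(jb N)⁻¹, (gU N ℓ)⁻¹}) : IntAt A P g := by
  refine chartAlg_le_wRing (fun u hu => ?_) hg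
  rcases hu with rfl | hu
  · exact intAt_inv_jb_of_not hP
  · rw [Set.mem_singleton_iff.1 hu]
    exact intAt_gU_inv_of_not ℓ hP

end ChartInf

end Fermat.Agent.N4F.E.ChartStab
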