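/-
N4-FULL, block E (helper26), node E3, modular instance of (G3b): over `ℚ̄` every place of a modular
function field is rational, and the Hecke correspondence `T_ℓ = α_* β^*` sends a place `P` of
`ℚ̄·F_N` to `∑_{Q ↦ P under β} e(Q/P) • (Q ∘ α)`.
-/
import Mathlib
import Fermat.Prelude.Def_ModularCurve_HeckeOperatorTotal
import Fermat.Agent.N4F.A.LevelMaps
import Fermat.Agent.N4F.E.GenericFibreAlong

set_option autoImplicit false
set_option linter.style.haveILetI false

open AlgebraicCurve ModularCurve

namespace Fermat.Agent.N4F.E.HeckeFibre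

open Fermat.Agent.N4F.E.EvalAt Fermat.Agent.N4F.E.GenericFibreAlong Fermat.Agent.N4F.A.LevelMaps

local notation "Qbar" => AlgebraicClosure ℚ

/-- Every place of a modular function field over `ℚ̄` is rational. -/
theorem bijective_residue_bar (M : ℕ) [NeZero M] (v : Place Qbar (modularFunctionFieldBar M)) :
    Function.Bijective (algebraMap Qbar v.ResidueField) :=
  bijective_algebraMap_residueField v (finite_residueField_bar M v)

/-- Every place of a modular function field over `ℚ̄` has degree one. -/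
theorem deg_bar (M : ℕ) [NeZero M] (v : Place Qbar (modularFunctionFieldBar M)) : v.deg = 1 :=
  deg_eq_one_of_bijective v (bijective_residue_bar M v)

/-- The value `f(v) ∈ ℚ̄` of a function regular at a place `v` of `ℚ̄·F_M`. -/
noncomputable def evalBar (M : ℕ) [NeZero M] (v : Place Qbar (modularFunctionFieldBar M)) :
    v.toValuationSubring →ₐ[Qbar] Qbar :=
  evalAt v (bijective_residue_bar M v)

theorem evalBar_eq (M : ℕ) [NeZero M] (v : Place Qbar (modularFunctionFieldBar M))
    (h : Function.Bijective (algebraMap Qbar v.ResidueField)) : evalBar M v = evalAt v h := rfl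

variable (N : ℕ) [NeZero N] (ℓ : ℕ) [NeZero ℓ]

/-- **`T_ℓ` on a place**: `T_ℓ (n P) = ∑_{Q ∈ β⁻¹(P)} (n e(Q)) • (Q ∘ α)`. -/
theorem heckeDivBar_single [HasPrincipalDivisors Qbar (modularFunctionFieldBar (N * ℓ))]
    (hα : HeckeAlphaBarIntegral Qbar N ℓ) (hβ : HeckeBetaBarIntegral Qbar N ℓ)
    (P : Place Qbar (modularFunctionFieldBar N)) (n : ℤ) :
    heckeDivBar hα hβ (Finsupp.single P n)
      = ∑ Q ∈ Place.fiberAlong (heckeBetaBar Qbar N ℓ) hβ P,
          Finsupp.single (Q.restrictAlong (heckeAlphaBar Qbar N ℓ) hα)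
            (n * Q.ramificationIndexAlong (heckeBetaBar Qbar N ℓ)) :=
  correspondence_single_of_rational (heckeBetaBar Qbar N ℓ) (heckeAlphaBar Qbar N ℓ) hβ hα P n
    fun Q _ => bijective_residue_bar (N * ℓ) Q

/-- The transposed correspondence `β_* α^*` on a place. -/
theorem heckeDivBarTranspose_single [HasPrincipalDivisors Qbar (modularFunctionFieldBar (N * ℓ))]
    (hα : HeckeAlphaBarIntegral Qbar N ℓ) (hβ : HeckeBetaBarIntegral Qbar N ℓ)
    (P : Place Qbar (modularFunctionFieldBar N)) (n : ℤ) :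
    heckeDivBarTranspose hα hβ (Finsupp.single P n)
      = ∑ Q ∈ Place.fiberAlong (heckeAlphaBar Qbar N ℓ) hα P,
          Finsupp.single (Q.restrictAlong (heckeBetaBar Qbar N ℓ) hβ)
            (n * Q.ramificationIndexAlong (heckeAlphaBar Qbar N ℓ)) :=
  correspondence_single_of_rational (heckeAlphaBar Qbar N ℓ) (heckeBetaBar Qbar N ℓ) hα hβ P n
    fun Q _ => bijective_residue_bar (N * ℓ) Q

/-- `T_ℓ` on an arbitrary divisor, as a sum over its support. -/
theorem heckeDivBar_apply [HasPrincipalDivisors Qbar (modularFunctionFieldBar (N * ℓ))]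
    (hα : HeckeAlphaBarIntegral Qbar N ℓ) (hβ : HeckeBetaBarIntegral Qbar N ℓ)
    (D : Divisor Qbar (modularFunctionFieldBar N)) :
    heckeDivBar hα hβ D
      = ∑ P ∈ D.support, ∑ Q ∈ Place.fiberAlong (heckeBetaBar Qbar N ℓ) hβ P,
          Finsupp.single (Q.restrictAlong (heckeAlphaBar Qbar N ℓ) hα)
            (D P * Q.ramificationIndexAlong (heckeBetaBar Qbar N ℓ)) := by
  conv_lhs => rw [← Finsupp.sum_single D, Finsupp.sum, map_sum]
  exact Finset.sum_congr rfl fun P _ => heckeDivBar_single N ℓ hα hβ P (D P)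

end Fermat.Agent.N4F.E.HeckeFibre
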