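/-
N4-FULL, block E (helper26): transport of the level-wise generalised Kronecker congruence (†β) to
`ℚ̄` — the input of the `kron` field of `TheoremE.ChartHyp`.

* generic: `gaussRed_eq_thetaBar` (the level Gauss reduction of S28 IS helper22's `GaussBar.thetaBar`);
* (R) `lev_mem_gaussSub`, `thetaBar_lev`: for a level `K` with base ring `O_K = A ∩ K` and any local
  homomorphism `g : O_K → A` compatible with the inclusions,
  `thetaBar A N (lev x) = coeffMap ḡ (theta x)` for `x` in the Gauss subalgebra of `FF K N`;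
* `coeff_charpolyAlong_lev`: the coefficients of `Ψ_{lev x}` (char. polynomial of `ᾱ (lev x)` over
  `β̄`) are the `lev`-images of the coefficients of a lift `χ_K ∈ G_N[X]` of `Ψ_x`; they lie in the
  Gauss ring over `A` and their reductions are the `coeffMap ḡ`-images of the coefficients of
  `χ_K.map θ_N`;
* `thetaBar_coeff_charpolyAlong_of_kron`: if moreover `χ_K.map θ_N = (X^ℓ − C w)(X − C (x̄(q^ℓ)))`
  with `w` the coefficientwise `ℓ`-th power of `x̄ = θ_N x` (the statement (†β) of helper15), the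
  same holds over `ℚ̄`.
-/
import Mathlib
import Fermat.Agent.N4.FibreEmbedding
import Fermat.Agent.N4F.C.LevelCharts
import Fermat.Agent.N4F.E.NormDescentBar

set_option autoImplicit false
set_option linter.style.haveILetI false
set_option linter.unusedSectionVars false

open AlgebraicCurve ModularCurve Polynomial

namespace Fermat.Agent.N4F.E.KronBar

open Fermat.Agent.N4F.E.GenericFibreAlong Fermat.Agent.N4F.C Fermat.Agent.N4F.C.Levels
  Fermat.Agent.N4F.C.LevelCharts Fermat.Agent.N4.Setting Fermat.Agent.N4.FibreEmbedding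
  Fermat.Agent.N4F.E.DegreeLevelRaise

/-! ### The two Gauss reductions agree -/

section Generic

open Fermat.Agent.S28.Gauss

variable {O : Type*} [CommRing O] [IsDomain O] [IsDiscreteValuationRing O]
  {K₁ : Type*} [Field K₁] [Algebra O K₁] [IsFractionRing O K₁]

theorem red_eq_redBar (b : LaurentSeries O) : red O b = GaussBar.redBar O b := rfl

theorem emb_eq_embBar (b : LaurentSeries O) : emb O K₁ b = GaussBar.embBar O K₁ b := rfl

theorem mem_gaussBar_of_mem_gaussRing {x : LaurentSeries K₁} (hx : x ∈ gaussRing O K₁) :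
    x ∈ GaussBar.gaussBar O K₁ := by
  obtain ⟨a, b, hb, h⟩ := mem_gaussRing_iff.mp hx
  rw [red_eq_redBar] at hb
  rw [emb_eq_embBar, emb_eq_embBar] at h
  exact GaussBar.mem_gaussBar_iff.mpr ⟨a, b, hb, h⟩

/-- The Gauss reduction of S28 (over a DVR) is the restriction of `GaussBar.thetaBar`. -/
theorem gaussRed_eq_thetaBar {x : LaurentSeries K₁} (hx : x ∈ gaussRing O K₁) :
    gaussRed (⟨x, hx⟩ : gaussRing O K₁) =
      GaussBar.thetaBar (⟨x, mem_gaussBar_of_mem_gaussRing hx⟩ : GaussBar.gaussBar O K₁) := by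
  obtain ⟨a, b, hb, h⟩ := mem_gaussRing_iff.mp hx
  have e1 := gaussRed_eq (⟨x, hx⟩ : gaussRing O K₁) hb h
  rw [red_eq_redBar] at hb
  rw [emb_eq_embBar, emb_eq_embBar] at h
  have e2 := GaussBar.thetaBar_eq
    (⟨x, mem_gaussBar_of_mem_gaussRing hx⟩ : GaussBar.gaussBar O K₁) hb h
  rw [e1, e2]
  rfl

end Generic

/-! ### (R): reduction over `A` of level elements -/

section Level

variable (A : ValuationSubring Qb) (N : ℕ) [NeZero N] (K : IntermediateField ℚ Qb)
  [IsDiscreteValuationRing ↥(baseRing A K)] [IsFractionRing ↥(baseRing A K) (Lvl K)]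
  (g : ↥(baseRing A K) →+* ↥A) [IsLocalHom g]
  (hg : ∀ a : ↥(baseRing A K), ((g a : ↥A) : Qb) = algebraMap (Lvl K) Qb (a : Lvl K))

include hg in
theorem comp_eq_of_coe :
    (algebraMap (Lvl K) Qb).comp (algebraMap ↥(baseRing A K) (Lvl K)) =
      (algebraMap ↥A Qb).comp g :=
  RingHom.ext fun a => (hg a).symm

include hg in
/-- `lev` maps the level Gauss subalgebra into the Gauss ring over `A`. -/
theorem lev_mem_gaussSub {x : FF (Lvl K) N} (hx : x ∈ gaussSubalgebra (Lvl K) N (baseRing A K)) :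
    levK N K x ∈ gaussSub A N := by
  rw [mem_gaussSub_iff]
  exact GaussBar.coeffMap_mem_gaussBar g (algebraMap (Lvl K) Qb) (comp_eq_of_coe A K g hg)
    (mem_gaussBar_of_mem_gaussRing hx)

include hg in
/-- **(R)** `thetaBar ∘ lev = coeffMap ḡ ∘ theta`. -/
theorem thetaBar_lev {x : FF (Lvl K) N} (hx : x ∈ gaussSubalgebra (Lvl K) N (baseRing A K)) :
    thetaBar A N (levK N K x) =
      coeffMap (IsLocalRing.ResidueField.map g) (theta (Lvl K) N (baseRing A K) ⟨x, hx⟩) := by
  have hx' : ((x : FF (Lvl K) N) : LaurentSeries (Lvl K)) ∈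
      Fermat.Agent.S28.Gauss.gaussRing ↥(baseRing A K) (Lvl K) := hx
  have e1 : theta (Lvl K) N (baseRing A K) ⟨x, hx⟩ =
      GaussBar.thetaBar (⟨((x : FF (Lvl K) N) : LaurentSeries (Lvl K)),
        mem_gaussBar_of_mem_gaussRing hx'⟩ : GaussBar.gaussBar ↥(baseRing A K) (Lvl K)) :=
    gaussRed_eq_thetaBar hx'
  rw [e1, ← GaussBar.thetaBar_coeffMap g (algebraMap (Lvl K) Qb) (comp_eq_of_coe A K g hg),
    thetaBar_of_mem (lev_mem_gaussSub A N K g hg hx)]
  rfl

/-! ### Transport of the coefficients of `Ψ` -/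

variable (ℓ : ℕ) [Fact ℓ.Prime] (hℓN : ¬ ℓ ∣ N)

include hℓN in
/-- The coefficients of `Ψ_{lev x}` are the `lev`-images of the coefficients of any lift of `Ψ_x` to
a subring of `FF K N`. -/
theorem coeff_charpolyAlong_lev (x : FF (Lvl K) N)
    (hfinK : FiniteAlong (Lvl K) (betaF (Lvl K) N ℓ))
    (hfin : FiniteAlong Qb (heckeBetaBar Qb N ℓ))
    {G : Type*} [CommRing G] [Algebra G (FF (Lvl K) N)] (χK : Polynomial G)
    (h1 : χK.map (algebraMap G (FF (Lvl K) N)) =
      charpolyAlong (betaF (Lvl K) N ℓ) hfinK (alphaF (Lvl K) N ℓ x)) (i : ℕ) :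
    (charpolyAlong (heckeBetaBar Qb N ℓ) hfin (heckeAlphaBar Qb N ℓ (levK N K x))).coeff i =
      levK N K (algebraMap G (FF (Lvl K) N) (χK.coeff i)) := by
  rw [← NormDescentBar.charpolyAlong_beta_alpha (Lvl K) N ℓ hℓN hfinK hfin x, ← h1,
    Polynomial.coeff_map, Polynomial.coeff_map]
  rfl

include hg hℓN in
/-- The coefficients of `Ψ_{lev x}` lie in the Gauss ring over `A`, with reductions the images of
the reductions of the coefficients of a lift `χ_K ∈ G_N[X]` of `Ψ_x`. -/
theorem thetaBar_coeff_charpolyAlong_lev (x : FF (Lvl K) N)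
    (hfinK : FiniteAlong (Lvl K) (betaF (Lvl K) N ℓ))
    (hfin : FiniteAlong Qb (heckeBetaBar Qb N ℓ))
    (χK : Polynomial ↥(gaussSubalgebra (Lvl K) N (baseRing A K)))
    (h1 : χK.map (algebraMap ↥(gaussSubalgebra (Lvl K) N (baseRing A K)) (FF (Lvl K) N)) =
      charpolyAlong (betaF (Lvl K) N ℓ) hfinK (alphaF (Lvl K) N ℓ x)) (i : ℕ) :
    (charpolyAlong (heckeBetaBar Qb N ℓ) hfin (heckeAlphaBar Qb N ℓ (levK N K x))).coeff i ∈
        gaussSub A N ∧
      thetaBar A N
          ((charpolyAlong (heckeBetaBar Qb N ℓ) hfin (heckeAlphaBar Qb N ℓ (levK N K x))).coeff i) =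
        coeffMap (IsLocalRing.ResidueField.map g)
          ((χK.map (theta (Lvl K) N (baseRing A K))).coeff i) := by
  rw [coeff_charpolyAlong_lev N K ℓ hℓN x hfinK hfin χK h1 i, Polynomial.coeff_map]
  exact ⟨lev_mem_gaussSub A N K g hg (χK.coeff i).2, thetaBar_lev A N K g hg (χK.coeff i).2⟩

include hg hℓN in
/-- **(†β) over `ℚ̄`.**  If `χ_K ∈ G_N[X]` lifts `Ψ_x` and reduces to
`(X^ℓ − C w)(X − C (x̄(q^ℓ)))`, `w` the coefficientwise `ℓ`-th power of `x̄ = θ_N x`, then the
coefficients of `Ψ_{lev x}` reduce to those of `(X^ℓ − C w')(X − C (h̄(q^ℓ)))`,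
`h̄ = thetaBar (lev x)`, `w'` its coefficientwise `ℓ`-th power. -/
theorem thetaBar_coeff_charpolyAlong_of_kron {x : FF (Lvl K) N}
    (hx : x ∈ gaussSubalgebra (Lvl K) N (baseRing A K))
    (hfinK : FiniteAlong (Lvl K) (betaF (Lvl K) N ℓ))
    (hfin : FiniteAlong Qb (heckeBetaBar Qb N ℓ))
    (χK : Polynomial ↥(gaussSubalgebra (Lvl K) N (baseRing A K)))
    (h1 : χK.map (algebraMap ↥(gaussSubalgebra (Lvl K) N (baseRing A K)) (FF (Lvl K) N)) =
      charpolyAlong (betaF (Lvl K) N ℓ) hfinK (alphaF (Lvl K) N ℓ x))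
    (w : LaurentSeries (IsLocalRing.ResidueField ↥(baseRing A K)))
    (hw : ∀ n, w.coeff n = ((theta (Lvl K) N (baseRing A K) ⟨x, hx⟩).coeff n) ^ ℓ)
    (h2 : χK.map (theta (Lvl K) N (baseRing A K)) =
      (X ^ ℓ - C w) *
        (X - C (qExpand (IsLocalRing.ResidueField ↥(baseRing A K)) ℓ
          (theta (Lvl K) N (baseRing A K) ⟨x, hx⟩))))
    (w' : LaurentSeries (Kap A))
    (hw' : ∀ n, w'.coeff n = ((thetaBar A N (levK N K x)).coeff n) ^ ℓ) (i : ℕ) :
    thetaBar A N
        ((charpolyAlong (heckeBetaBar Qb N ℓ) hfin (heckeAlphaBar Qb N ℓ (levK N K x))).coeff i) =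
      ((X ^ ℓ - C w') * (X - C (qExpand (Kap A) ℓ (thetaBar A N (levK N K x))))).coeff i := by
  rw [(thetaBar_coeff_charpolyAlong_lev A N K g hg ℓ hℓN x hfinK hfin χK h1 i).2, h2,
    ← Polynomial.coeff_map, Polynomial.map_mul, Polynomial.map_sub, Polynomial.map_sub,
    Polynomial.map_pow, Polynomial.map_X, Polynomial.map_C, Polynomial.map_C, coeffMap_qExpand,
    ← thetaBar_lev A N K g hg hx]
  have e : coeffMap (IsLocalRing.ResidueField.map g) w = w' := by
    ext n
    rw [coeffMap_coeff, hw, map_pow, hw', thetaBar_lev A N K g hg hx, coeffMap_coeff]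
  rw [e]

end Level

end Fermat.Agent.N4F.E.KronBar
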