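/-
N4-FULL, block E (helper26): THE MODULAR INSTANCE OF THEOREM E — the divisor form of the
Eichler–Shimura congruence for the canonical place reduction `rCan` of block C.

Inputs: helper22's `Centre.ChartFacts` bundles for the two charts (block C), helper12's chart
integrality (E2') and chart stability, helper8's levels, and the level-wise generalised Kronecker
congruence (†β) of helper15 (as the hypothesis `DaggerBeta`).
-/
import Mathlib
import Fermat.Agent.N4F.C.Centre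
import Fermat.Agent.N4F.C.LevelCharts
import Fermat.Agent.N4F.E.KronBar
import Fermat.Agent.N4F.E.ChartIntegrality
import Fermat.Agent.N4F.E.ChartStab
import Fermat.Agent.N4F.E.TheoremE
import Fermat.Agent.N4F.E.HeckeFibre
import Fermat.Agent.N4F.Core

set_option autoImplicit false
set_option linter.style.haveILetI false
set_option linter.unusedSectionVars false
set_option synthInstance.maxHeartbeats 400000
set_option maxHeartbeats 1600000

open AlgebraicCurve ModularCurve Polynomial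

noncomputable section

namespace Fermat.Agent.N4F.E.TheoremEModular

open Fermat.Agent.N4F.C Fermat.Agent.N4F.C.Centre Fermat.Agent.N4F.C.WRing
  Fermat.Agent.N4F.C.Levels Fermat.Agent.N4F.C.LevelCharts Fermat.Agent.N4F.C.CoeffAut
  Fermat.Agent.N4.Setting Fermat.Agent.N4.FibreEmbedding Fermat.Agent.N4.Chart
  Fermat.Agent.N4F.E.DegreeLevelRaise Fermat.Agent.N4F.E.GenericFibreAlong
  Fermat.Agent.N4F.E.TheoremE Fermat.Agent.S24

/-! ### Generic lemmas -/

section Generic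

/-- Two places containing a Dedekind domain `S` with `Frac S = F'` whose centres on `S` are
comparable coincide. -/
theorem eq_of_center_le {κ F' : Type*} [Field κ] [Field F'] [Algebra κ F'] {S : Type*}
    [CommRing S] [IsDedekindDomain S] [Algebra S F'] [IsFractionRing S F'] [Algebra κ S]
    [IsScalarTower κ S F'] (y y' : Place κ F')
    (h : ∀ s : S, algebraMap S F' s ∈ y.toValuationSubring)
    (h' : ∀ s : S, algebraMap S F' s ∈ y'.toValuationSubring)
    (hle : ∀ s : S, algebraMap S F' s ∈ y.toValuationSubring.nonunits →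
      algebraMap S F' s ∈ y'.toValuationSubring.nonunits) : y = y' := by
  rw [← ofHeightOneSpectrum_centerSpec y h, ← ofHeightOneSpectrum_centerSpec y' h']
  congr 1
  apply IsDedekindDomain.HeightOneSpectrum.ext
  show center y h = center y' h'
  have hmax : (center y h).IsMaximal :=
    (center_isPrime y h).isMaximal (center_ne_bot y h)
  refine hmax.eq_of_le (center_isPrime y' h').ne_top fun s hs => ?_
  rw [mem_center_iff, ← ValuationSubring.coe_mem_nonunits_iff] at hs ⊢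
  exact hle s hs

/-- In characteristic `ℓ`, `f(q^ℓ) = (φ⁻¹ f)^ℓ` for any automorphism `φ` of the coefficients with
`φ a = a^ℓ`. -/
theorem qExpand_eq_coeffMap_symm_pow {κ : Type*} [Field κ] (ℓ : ℕ) [Fact ℓ.Prime] [CharP κ ℓ]
    (φ : κ ≃+* κ) (hφ : ∀ a, φ a = a ^ ℓ) (x : LaurentSeries κ) :
    qExpand κ ℓ x = (coeffMap ((φ.symm : κ ≃+* κ) : κ →+* κ) x) ^ ℓ := by
  rw [Fermat.Agent.N4.Kronecker.pow_char_eq_qExpand ℓ, coeffMap_coeffMap]
  congr 1
  rw [coeffMap_congr (g := RingHom.id κ) (RingHom.ext fun a => ?_) x, coeffMap_id]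
  show frobenius κ ℓ (φ.symm a) = a
  rw [frobenius_def, ← hφ, RingEquiv.apply_symm_apply]

end Generic

/-! ### Reduction of functions as a ring homomorphism on a subring of the Gauss ring -/

section Theta

variable {A : ValuationSubring Qb} {N : ℕ} [NeZero N]

/-- The reduction `thetaFt`, as a ring homomorphism on a subring of the Gauss ring all of whose
elements reduce into `F_N(κ)`. -/
def thetaOf (R : Subring (Fb N)) (h1 : ∀ g ∈ R, g ∈ gaussSub A N)
    (h2 : ∀ g ∈ R, thetaBar A N g ∈ modularFunctionFieldFullC (Kap A) N) : R →+* Ft A N where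
  toFun g := thetaFt A N (g : Fb N)
  map_one' := thetaFt_one
  map_mul' g h := thetaFt_mul (h1 g g.2) (h1 h h.2) (h2 g g.2) (h2 h h.2)
  map_zero' := thetaFt_zero
  map_add' g h := thetaFt_add (h1 g g.2) (h1 h h.2) (h2 g g.2) (h2 h h.2)

theorem thetaOf_apply (R : Subring (Fb N)) (h1 : ∀ g ∈ R, g ∈ gaussSub A N)
    (h2 : ∀ g ∈ R, thetaBar A N g ∈ modularFunctionFieldFullC (Kap A) N) (g : R) :
    thetaOf R h1 h2 g = thetaFt A N (g : Fb N) := rfl

theorem coe_thetaOf (R : Subring (Fb N)) (h1 : ∀ g ∈ R, g ∈ gaussSub A N)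
    (h2 : ∀ g ∈ R, thetaBar A N g ∈ modularFunctionFieldFullC (Kap A) N) (g : R) :
    ((thetaOf R h1 h2 g : Ft A N) : LaurentSeries (Kap A)) = thetaBar A N (g : Fb N) :=
  coe_thetaFt_of_mem (h2 g g.2)

/-- The residue field of a valuation subring of `ℚ̄` over `ℓ` has characteristic `ℓ`. -/
theorem charP_kap {ℓ : ℕ} (hℓ : ℓ.Prime) (hA : A.LiesOverPrime ℓ) : CharP (Kap A) ℓ := by
  rw [CharP.charP_iff_prime_eq_zero hℓ]
  have h1 : ((ℓ : ℕ) : Kap A) = IsLocalRing.residue ↥A ((ℓ : ℕ) : ↥A) := (map_natCast _ ℓ).symm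
  rw [h1, IsLocalRing.residue_eq_zero_iff, ← ValuationSubring.coe_mem_nonunits_iff]
  exact hA

end Theta

/-! ### The Kronecker congruence for a lift of `Ψ_h`, from one level -/

section KronLevel

open Fermat.Agent.N4F.A.LevelMaps

variable {A : ValuationSubring Qb} {N : ℕ} [NeZero N] (ℓ : ℕ) [Fact ℓ.Prime] [CharP (Kap A) ℓ]

/-- If `h = lev x` for `x` in the Gauss subalgebra of a level `K` at which (†β) holds for `x`, then
every lift `χ ∈ R'[X]` of `Ψ_h` to a subring `R'` of the Gauss ring over `A` reduces to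
`(X^ℓ − C (Fr h̄)) (X − C ((Fr⁻¹ h̄)^ℓ))`. -/
theorem map_thetaOf_eq_of_level (hℓN : ¬ ℓ ∣ N) (R' : Subring (Fb N))
    (h1 : ∀ g ∈ R', g ∈ gaussSub A N)
    (h2 : ∀ g ∈ R', thetaBar A N g ∈ modularFunctionFieldFullC (Kap A) N)
    (K : IntermediateField ℚ Qb) [IsDiscreteValuationRing ↥(baseRing A K)]
    [IsFractionRing ↥(baseRing A K) (Lvl K)]
    {x : FF (Lvl K) N} (hx : x ∈ gaussSubalgebra (Lvl K) N (baseRing A K))
    (hfinK : FiniteAlong (Lvl K) (betaF (Lvl K) N ℓ))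
    (χK : Polynomial ↥(gaussSubalgebra (Lvl K) N (baseRing A K)))
    (hχK : χK.map (algebraMap ↥(gaussSubalgebra (Lvl K) N (baseRing A K)) (FF (Lvl K) N)) =
      charpolyAlong (betaF (Lvl K) N ℓ) hfinK (alphaF (Lvl K) N ℓ x))
    (w : LaurentSeries (IsLocalRing.ResidueField ↥(baseRing A K)))
    (hw : ∀ n, w.coeff n = ((theta (Lvl K) N (baseRing A K) ⟨x, hx⟩).coeff n) ^ ℓ)
    (hχKθ : χK.map (theta (Lvl K) N (baseRing A K)) =
      (X ^ ℓ - C w) *
        (X - C (qExpand (IsLocalRing.ResidueField ↥(baseRing A K)) ℓ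
          (theta (Lvl K) N (baseRing A K) ⟨x, hx⟩))))
    (hmem : thetaBar A N (levK N K x) ∈ modularFunctionFieldFullC (Kap A) N)
    (χ : Polynomial R')
    (hχ : χ.map R'.subtype =
      charpolyAlong (heckeBetaBar Qb N ℓ) (finiteAlong_heckeBetaBar N ℓ)
        (heckeAlphaBar Qb N ℓ (levK N K x)))
    (φ : Kap A ≃+* Kap A) (hφ : ∀ a, φ a = a ^ ℓ) :
    χ.map (thetaOf R' h1 h2) =
      (X ^ ℓ - C (coeffAut (Kap A) N φ • thetaFt A N (levK N K x))) *
        (X - C (((coeffAut (Kap A) N φ)⁻¹ • thetaFt A N (levK N K x)) ^ ℓ)) := by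
  haveI : IsLocalHom (baseIncl A K) := Fermat.Agent.N4.BigDVR.isLocalHom_trIncl A (Lvl K)
  apply Polynomial.map_injective (modularFunctionFieldFullC (Kap A) N).val.toRingHom
    Subtype.val_injective
  ext i : 1
  have hb : ((thetaFt A N (levK N K x) : Ft A N) : LaurentSeries (Kap A)) =
      thetaBar A N (levK N K x) := coe_thetaFt_of_mem hmem
  -- the right-hand side
  have hR : ((X ^ ℓ - C (coeffAut (Kap A) N φ • thetaFt A N (levK N K x))) *
      (X - C (((coeffAut (Kap A) N φ)⁻¹ • thetaFt A N (levK N K x)) ^ ℓ))).map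
        (modularFunctionFieldFullC (Kap A) N).val.toRingHom =
      (X ^ ℓ - C (coeffMap (φ : Kap A →+* Kap A) (thetaBar A N (levK N K x)))) *
        (X - C (qExpand (Kap A) ℓ (thetaBar A N (levK N K x)))) := by
    rw [Polynomial.map_mul, Polynomial.map_sub, Polynomial.map_sub, Polynomial.map_pow,
      Polynomial.map_X, Polynomial.map_C, Polynomial.map_C,
      qExpand_eq_coeffMap_symm_pow ℓ φ hφ, ← hb]
    rfl
  rw [hR]
  -- the left-hand side
  have hL : ((χ.map (thetaOf R' h1 h2)).map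
      (modularFunctionFieldFullC (Kap A) N).val.toRingHom).coeff i =
      thetaBar A N ((charpolyAlong (heckeBetaBar Qb N ℓ) (finiteAlong_heckeBetaBar N ℓ)
        (heckeAlphaBar Qb N ℓ (levK N K x))).coeff i) := by
    rw [Polynomial.coeff_map, Polynomial.coeff_map, ← hχ, Polynomial.coeff_map]
    exact coe_thetaOf R' h1 h2 (χ.coeff i)
  rw [hL]
  refine KronBar.thetaBar_coeff_charpolyAlong_of_kron A N K (baseIncl A K) (fun _ => rfl) ℓ hℓN hx
    hfinK (finiteAlong_heckeBetaBar N ℓ) χK hχK w hw hχKθ _ (fun n => ?_) i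
  rw [coeffMap_coeff]
  exact hφ _

end KronLevel

/-! ### The hypothesis (†β) and the Kronecker congruence over `ℚ̄` -/

section Kron

open Fermat.Agent.N4F.A.LevelMaps Fermat.Agent.N4.BigDVR

/-- **(†β)** (helper15's `BetaSide`) at all good levels of `A`, in instance-free form: for a chart
element `x` of a level `(K, O_K)`, the characteristic polynomial `Ψ_x` of `α x` over `β` has a lift
`χ_K` to the Gauss subalgebra whose reduction is `(X^ℓ − C w)(X − C (x̄(q^ℓ)))`, `w` the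
coefficientwise `ℓ`-th power of `x̄ = θ_N x`. -/
def DaggerBeta (A : ValuationSubring Qb) (N ℓ : ℕ) [NeZero N] [Fact ℓ.Prime] : Prop :=
  ∀ (K : IntermediateField ℚ Qb) [IsDiscreteValuationRing ↥(baseRing A K)]
    [IsFractionRing ↥(baseRing A K) (Lvl K)]
    [IsAlgClosed (IsLocalRing.ResidueField ↥(baseRing A K))],
    GoodBase (Lvl K) N (baseRing A K) ℓ →
    Function.Bijective (IsLocalRing.ResidueField.map (trIncl A K)) →
    (∀ ξ ∈ goodRoots A, ξ ∈ K) →
    ∀ (x : FF (Lvl K) N) (hx : x ∈ gaussSubalgebra (Lvl K) N (baseRing A K)),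
      (x ∈ Rfin (Lvl K) N (baseRing A K) ∨ x ∈ Rinf (Lvl K) N (baseRing A K)) →
      ∀ hfinK : FiniteAlong (Lvl K) (betaF (Lvl K) N ℓ),
      ∃ χK : Polynomial ↥(gaussSubalgebra (Lvl K) N (baseRing A K)),
        χK.map (algebraMap ↥(gaussSubalgebra (Lvl K) N (baseRing A K)) (FF (Lvl K) N)) =
          charpolyAlong (betaF (Lvl K) N ℓ) hfinK (alphaF (Lvl K) N ℓ x) ∧
        ∃ w : LaurentSeries (IsLocalRing.ResidueField ↥(baseRing A K)),
          (∀ n, w.coeff n = ((theta (Lvl K) N (baseRing A K) ⟨x, hx⟩).coeff n) ^ ℓ) ∧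
          χK.map (theta (Lvl K) N (baseRing A K)) =
            (X ^ ℓ - C w) *
              (X - C (qExpand (IsLocalRing.ResidueField ↥(baseRing A K)) ℓ
                (theta (Lvl K) N (baseRing A K) ⟨x, hx⟩)))

/-- A polynomial all of whose coefficients lie in a subring lifts to the subring. -/
theorem exists_lift_subring {F : Type*} [Field F] (R' : Subring F) (p : Polynomial F)
    (h : ∀ i, p.coeff i ∈ R') : ∃ χ : Polynomial R', χ.map R'.subtype = p := by
  have hl : p ∈ Polynomial.lifts R'.subtype := by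
    rw [Polynomial.lifts_iff_coeff_lifts]
    intro n
    exact ⟨⟨_, h n⟩, rfl⟩
  exact hl

variable {A : ValuationSubring Qb} {N : ℕ} [NeZero N] {ℓ : ℕ} [Fact ℓ.Prime] [CharP (Kap A) ℓ]

/-- Level elements of the charts lie in the Gauss subalgebra. -/
theorem mem_gaussSubalgebra_of_chart (K : IntermediateField ℚ Qb)
    [IsDiscreteValuationRing ↥(baseRing A K)] [IsFractionRing ↥(baseRing A K) (Lvl K)]
    {x : FF (Lvl K) N}
    (hx : x ∈ Rfin (Lvl K) N (baseRing A K) ∨ x ∈ Rinf (Lvl K) N (baseRing A K)) :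
    x ∈ gaussSubalgebra (Lvl K) N (baseRing A K) := by
  rcases hx with hx | hx
  · refine chartAlg_le_gaussSubalgebra (Lvl K) N (baseRing A K) ?_ hx
    rintro _ rfl
    exact jF_mem_gaussSubalgebra (Lvl K) N (baseRing A K)
  · refine chartAlg_le_gaussSubalgebra (Lvl K) N (baseRing A K) ?_ hx
    rintro _ rfl
    exact jF_inv_mem_gaussSubalgebra (Lvl K) N (baseRing A K)

/-- **The `kron` clause over `ℚ̄`**: for a chart element `h` (of `RtFin` or `RtInf`), `Ψ_h` has a lift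
to any subring `R'` of the Gauss ring containing its coefficients, and every such lift reduces to
`(X^ℓ − C (Fr h̄)) (X − C ((Fr⁻¹ h̄)^ℓ))`. -/
theorem exists_kron (hA : A.LiesOverPrime ℓ) (hℓN : ¬ ℓ ∣ N) (hdag : DaggerBeta A N ℓ)
    (R' : Subring (Fb N)) (h1 : ∀ g ∈ R', g ∈ gaussSub A N)
    (h2 : ∀ g ∈ R', thetaBar A N g ∈ modularFunctionFieldFullC (Kap A) N) {h : Fb N}
    (hh : h ∈ RtFin A N ∨ h ∈ RtInf A N)
    (hmem : thetaBar A N h ∈ modularFunctionFieldFullC (Kap A) N)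
    (hcoef : ∀ i, (charpolyAlong (heckeBetaBar Qb N ℓ) (finiteAlong_heckeBetaBar N ℓ)
      (heckeAlphaBar Qb N ℓ h)).coeff i ∈ R')
    (φ : Kap A ≃+* Kap A) (hφ : ∀ a, φ a = a ^ ℓ) :
    ∃ χ : Polynomial R',
      χ.map R'.subtype = charpolyAlong (heckeBetaBar Qb N ℓ) (finiteAlong_heckeBetaBar N ℓ)
        (heckeAlphaBar Qb N ℓ h) ∧
      χ.map (thetaOf R' h1 h2) =
        (X ^ ℓ - C (coeffAut (Kap A) N φ • thetaFt A N h)) *
          (X - C (((coeffAut (Kap A) N φ)⁻¹ • thetaFt A N h) ^ ℓ)) := by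
  obtain ⟨χ, hχ⟩ := exists_lift_subring R' _ hcoef
  refine ⟨χ, hχ, ?_⟩
  obtain ⟨K, -, ⟨hDVR, hAC, hGB, hbij, hgood⟩, -, -, hTfin, hTinf⟩ :=
    exists_level_of_finite A N (Fact.out : ℓ.Prime) hA hℓN ∅ {h} ∅
  haveI := hDVR
  haveI := hAC
  haveI : IsFractionRing ↥(baseRing A K) (Lvl K) := hGB.frac
  have hxex : ∃ x : FF (Lvl K) N,
      (x ∈ Rfin (Lvl K) N (baseRing A K) ∨ x ∈ Rinf (Lvl K) N (baseRing A K)) ∧
        levK N K x = h := by
    rcases hh with hh | hh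
    · obtain ⟨x, hx, hxh⟩ := hTfin h (Finset.mem_singleton_self h) hh
      exact ⟨x, Or.inl hx, hxh⟩
    · obtain ⟨x, hx, hxh⟩ := hTinf h (Finset.mem_singleton_self h) hh
      exact ⟨x, Or.inr hx, hxh⟩
  obtain ⟨x, hxR, rfl⟩ := hxex
  have hx := mem_gaussSubalgebra_of_chart K hxR
  obtain ⟨χK, hχK, w, hw, hχKθ⟩ := hdag K hGB hbij hgood x hx hxR
    (NormDescentBar.finiteAlong_betaF (Lvl K) N ℓ hℓN)
  exact map_thetaOf_eq_of_level ℓ hℓN R' h1 h2 K hx _ χK hχK w hw hχKθ hmem χ hχ φ hφ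

end Kron

/-! ### Frobenius stability and separation for a chart of the special fibre -/

section ChartAux

open Fermat.Agent.N4F.C.Galois

variable {A : ValuationSubring Qb} {N : ℕ} [NeZero N] {ℓ : ℕ}
  {Rt : Subalgebra ↥A (Fb N)} {Sg : Subalgebra (Kap A) (Ft A N)}

/-- The reduction `Sg` of a Galois stable chart is stable under the coefficientwise Frobenius and
its inverse. -/
theorem frob_stable_of_chartFacts (H : ChartFacts A N Rt Sg) (hℓ : ℓ.Prime)
    (hA : A.LiesOverPrime ℓ)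
    (hRt : ∀ (σ : A.decompositionSubgroup ℚ), ∀ g ∈ Rt,
      gal N (σ : Qb ≃ₐ[ℚ] Qb) • g ∈ Rt ∧ (gal N (σ : Qb ≃ₐ[ℚ] Qb))⁻¹ • g ∈ Rt)
    (φ : Kap A ≃+* Kap A) (hφ : ∀ a, φ a = a ^ ℓ) {b : Ft A N} (hb : b ∈ Sg) :
    coeffAut (Kap A) N φ • b ∈ Sg ∧ (coeffAut (Kap A) N φ)⁻¹ • b ∈ Sg := by
  obtain ⟨σ₀, hσ₀⟩ := Fermat.Agent.N4F.Core.exists_isFrobeniusAt_of_liesOver ℓ hℓ A hA
  have hres : resAut ℚ A ⟨σ₀, hσ₀.mem_decompositionSubgroup⟩ = φ :=
    resAut_eq_of_isFrobeniusAt hσ₀ φ hφ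
  obtain ⟨g, hg, rfl⟩ := H.surj b hb
  obtain ⟨h1, h2⟩ := hRt ⟨σ₀, hσ₀.mem_decompositionSubgroup⟩ g hg
  rw [← hres, ← thetaFt_gal_smul, ← thetaFt_gal_inv_smul]
  exact ⟨H.theta_mem_Sg _ h1, H.theta_mem_Sg _ h2⟩

theorem gal_stable_RtFin (σ : A.decompositionSubgroup ℚ) (g : Fb N) (hg : g ∈ RtFin A N) :
    gal N (σ : Qb ≃ₐ[ℚ] Qb) • g ∈ RtFin A N ∧ (gal N (σ : Qb ≃ₐ[ℚ] Qb))⁻¹ • g ∈ RtFin A N :=
  ⟨gal_smul_mem_chartAlg σ (fun u hu => by
    rw [Set.mem_singleton_iff] at hu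
    rw [hu, gal_smul_jb]) hg, gal_inv_smul_mem_RtFin σ hg⟩

theorem gal_stable_RtInf (σ : A.decompositionSubgroup ℚ) (g : Fb N) (hg : g ∈ RtInf A N) :
    gal N (σ : Qb ≃ₐ[ℚ] Qb) • g ∈ RtInf A N ∧ (gal N (σ : Qb ≃ₐ[ℚ] Qb))⁻¹ • g ∈ RtInf A N :=
  ⟨gal_smul_mem_chartAlg σ (fun u hu => by
    rw [Set.mem_singleton_iff] at hu
    rw [hu, gal_smul_jb_inv]) hg, gal_inv_smul_mem_RtInf σ hg⟩

/-- Places of the special fibre containing the Dedekind chart `Sg` are separated by `Sg`. -/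
theorem sep_of_chartFacts (H : ChartFacts A N Rt Sg) (y y' : Place (Kap A) (Ft A N))
    (h : ∀ b ∈ Sg, b ∈ y.toValuationSubring) (h' : ∀ b ∈ Sg, b ∈ y'.toValuationSubring)
    (hle : ∀ b ∈ Sg, b ∈ y.toValuationSubring.nonunits → b ∈ y'.toValuationSubring.nonunits) :
    y = y' := by
  haveI := H.dedekind
  haveI := H.frac
  exact eq_of_center_le (S := ↥Sg) y y' (fun s => h s s.2) (fun s => h' s s.2)
    (fun s => hle s s.2)

end ChartAux

/-! ### The chart `j ≠ ∞` -/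

section ChartFin

open Fermat.Agent.N4F.A.LevelMaps Fermat.Agent.N4F.E.ChartIntegrality

variable {A : ValuationSubring Qb} {N : ℕ} [NeZero N] {ℓ : ℕ} [Fact ℓ.Prime]
  {SgFin SgInf : Subalgebra (Kap A) (Ft A N)}

/-- **`ChartHyp` for the finite chart** (`R' = RtFin`, `θ = thetaFt`, `Sg = SgFin`, places with `j`
integral over `A`). -/
theorem chartHyp_fin (hA : A.LiesOverPrime ℓ) (hℓN : ¬ ℓ ∣ N) (hdag : DaggerBeta A N ℓ)
    (Hfin : ChartFacts A N (RtFin A N) SgFin) (Hinf : ChartFacts A N (RtInf A N) SgInf)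
    (hdegt : ∀ y : Place (Kap A) (Ft A N), y.deg = 1)
    (φ : Kap A ≃+* Kap A) (hφ : ∀ a, φ a = a ^ ℓ) :
    haveI := hasPrincipalDivisors_bar (N * ℓ)
    ChartHyp A (IsLocalRing.residue ↥A) (heckeBetaBar Qb N ℓ) (heckeAlphaBar Qb N ℓ)
      (finiteAlong_heckeBetaBar N ℓ) (heckeBetaBarIntegral N ℓ) (heckeAlphaBarIntegral N ℓ) ℓ
      (coeffAut (Kap A) N φ) (fun g => ((coeffAut (Kap A) N φ)⁻¹ • g) ^ ℓ) (rCan Hfin Hinf)
      (RtFin A N).toSubring
      (thetaOf (RtFin A N).toSubring Hfin.le_gauss Hfin.theta_mem) SgFin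
      (fun P => IntAt A P (C.jb N)) := by
  haveI := hasPrincipalDivisors_bar (N * ℓ)
  haveI : CharP (Kap A) ℓ := charP_kap (Fact.out : ℓ.Prime) hA
  refine
    { rat := fun P => rational P
      rat' := fun Q => rational Q
      ratt := fun y => bijective_of_deg_eq_one y (hdegt y)
      frob_base := fun a => hφ a
      phi_eq := fun g => rfl
      spec := fun P hP g => ?_
      stab := fun P hP => ChartStab.stab_fin N ℓ _ _ P hP
      kron := fun b hb => ?_
      frob_stable := fun b hb =>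
        frob_stable_of_chartFacts Hfin (Fact.out : ℓ.Prime) hA gal_stable_RtFin φ hφ hb
      sep := sep_of_chartFacts Hfin }
  · have hg : IntAt A P (g : Fb N) := RtFin_le_wRing hP g.2
    exact ⟨valAt hg, valAt_spec hg, rCan_fin Hfin Hinf P hP g g.2 _ (valAt_spec hg)⟩
  · obtain ⟨g, hg, rfl⟩ := Hfin.surj b hb
    exact ⟨⟨g, hg⟩, rfl, exists_kron hA hℓN hdag (RtFin A N).toSubring Hfin.le_gauss
      Hfin.theta_mem (Or.inl hg) (Hfin.theta_mem g hg)
      (fun i => coeff_charpolyAlong_mem_RtFin A N ℓ (finiteAlong_heckeBetaBar N ℓ) hg i) φ hφ⟩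

end ChartFin

/-! ### The chart `j ≠ 0`, enlarged by `1 / g(u)` -/

section ChartInf

open Fermat.Agent.N4F.A.LevelMaps Fermat.Agent.N4F.E.ChartIntegrality

variable {A : ValuationSubring Qb} {N : ℕ} [NeZero N] {ℓ : ℕ} [Fact ℓ.Prime]
  {SgFin SgInf : Subalgebra (Kap A) (Ft A N)}

variable (A N ℓ) in
/-- The chart at infinity with `g(u)` inverted: the integral closure of `A[u, 1/g(u)]`, `u = j⁻¹`
(the coefficients of `Ψ_h`, `h ∈ RtInf`, live here). -/
abbrev RtInfG : Subalgebra ↥A (Fb N) := chartAlg ↥A (Fb N) {(C.jb N)⁻¹, (gU N ℓ)⁻¹}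

theorem RtInf_le_RtInfG : RtInf A N ≤ RtInfG A N ℓ :=
  chartAlg_mono (Set.singleton_subset_iff.2 (Set.mem_insert _ _))

/-- **`ChartHyp` for the chart at infinity** (`R' = RtInf[1/g(u)]`, `θ = thetaFt`, `Sg = SgInf`,
places where `j` is not integral over `A`), given the reduction facts for `R'` (helper12's
`ChartInfTheta`). -/
theorem chartHyp_inf (hA : A.LiesOverPrime ℓ) (hℓN : ¬ ℓ ∣ N) (hdag : DaggerBeta A N ℓ)
    (Hfin : ChartFacts A N (RtFin A N) SgFin) (Hinf : ChartFacts A N (RtInf A N) SgInf)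
    (hdegt : ∀ y : Place (Kap A) (Ft A N), y.deg = 1)
    (hG1 : ∀ g ∈ RtInfG A N ℓ, g ∈ gaussSub A N)
    (hG2 : ∀ g ∈ RtInfG A N ℓ, thetaBar A N g ∈ modularFunctionFieldFullC (Kap A) N)
    (hG3 : ∀ P : Place Qb (Fb N), ¬ IntAt A P (C.jb N) → ∀ g ∈ RtInfG A N ℓ, ∀ c : ↥A,
      g - algebraMap Qb (Fb N) (c : Qb) ∈ P.toValuationSubring.nonunits →
      thetaFt A N g - algebraMap (Kap A) (Ft A N) (IsLocalRing.residue ↥A c) ∈
        (rCan Hfin Hinf P).toValuationSubring.nonunits)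
    (φ : Kap A ≃+* Kap A) (hφ : ∀ a, φ a = a ^ ℓ) :
    haveI := hasPrincipalDivisors_bar (N * ℓ)
    ChartHyp A (IsLocalRing.residue ↥A) (heckeBetaBar Qb N ℓ) (heckeAlphaBar Qb N ℓ)
      (finiteAlong_heckeBetaBar N ℓ) (heckeBetaBarIntegral N ℓ) (heckeAlphaBarIntegral N ℓ) ℓ
      (coeffAut (Kap A) N φ) (fun g => ((coeffAut (Kap A) N φ)⁻¹ • g) ^ ℓ) (rCan Hfin Hinf)
      (RtInfG A N ℓ).toSubring
      (thetaOf (RtInfG A N ℓ).toSubring hG1 hG2) SgInf
      (fun P => ¬ IntAt A P (C.jb N)) := by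
  haveI := hasPrincipalDivisors_bar (N * ℓ)
  haveI : CharP (Kap A) ℓ := charP_kap (Fact.out : ℓ.Prime) hA
  refine
    { rat := fun P => rational P
      rat' := fun Q => rational Q
      ratt := fun y => bijective_of_deg_eq_one y (hdegt y)
      frob_base := fun a => hφ a
      phi_eq := fun g => rfl
      spec := fun P hP g => ?_
      stab := fun P hP => ChartStab.stab_inf N ℓ _ _ P hP
      kron := fun b hb => ?_
      frob_stable := fun b hb =>
        frob_stable_of_chartFacts Hinf (Fact.out : ℓ.Prime) hA gal_stable_RtInf φ hφ hb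
      sep := sep_of_chartFacts Hinf }
  · have hg : IntAt A P (g : Fb N) := ChartStab.chartInf_le_wRing ℓ hP g.2
    exact ⟨valAt hg, valAt_spec hg, hG3 P hP g g.2 _ (valAt_spec hg)⟩
  · obtain ⟨g, hg, rfl⟩ := Hinf.surj b hb
    exact ⟨⟨g, RtInf_le_RtInfG hg⟩, rfl, exists_kron hA hℓN hdag (RtInfG A N ℓ).toSubring hG1
      hG2 (Or.inr hg) (Hinf.theta_mem g hg)
      (fun i => coeff_charpolyAlong_mem_chartInf A N ℓ (finiteAlong_heckeBetaBar N ℓ) hg i) φ hφ⟩

/-! ### Theorem E for `rCan` -/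

/-- **Theorem E (divisor form) for the canonical place reduction**: `rCan_* ∘ T_ℓ =
(Fr + ℓ Fr⁻¹) ∘ rCan_*` on all divisors of `ℚ̄·F_N` — the hypothesis `hdiv` of
`ESAssembly.esCore_of_parts` for `r := rCan Hfin Hinf`. -/
theorem mapDomain_heckeDivBar_rCan (hA : A.LiesOverPrime ℓ) (hℓN : ¬ ℓ ∣ N)
    (hdag : DaggerBeta A N ℓ)
    (Hfin : ChartFacts A N (RtFin A N) SgFin) (Hinf : ChartFacts A N (RtInf A N) SgInf)
    (hdegt : ∀ y : Place (Kap A) (Ft A N), y.deg = 1)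
    (hG1 : ∀ g ∈ RtInfG A N ℓ, g ∈ gaussSub A N)
    (hG2 : ∀ g ∈ RtInfG A N ℓ, thetaBar A N g ∈ modularFunctionFieldFullC (Kap A) N)
    (hG3 : ∀ P : Place Qb (Fb N), ¬ IntAt A P (C.jb N) → ∀ g ∈ RtInfG A N ℓ, ∀ c : ↥A,
      g - algebraMap Qb (Fb N) (c : Qb) ∈ P.toValuationSubring.nonunits →
      thetaFt A N g - algebraMap (Kap A) (Ft A N) (IsLocalRing.residue ↥A c) ∈
        (rCan Hfin Hinf P).toValuationSubring.nonunits)
    (φ : Kap A ≃+* Kap A) (hφ : ∀ a, φ a = a ^ ℓ) :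
    haveI := hasPrincipalDivisors_bar (N * ℓ)
    ∀ D : Divisor Qb (Fb N),
      Finsupp.mapDomain (rCan Hfin Hinf)
          (heckeDivBar (heckeAlphaBarIntegral N ℓ) (heckeBetaBarIntegral N ℓ) D) =
        coeffAut (Kap A) N φ • Finsupp.mapDomain (rCan Hfin Hinf) D +
          (ℓ : ℤ) • ((coeffAut (Kap A) N φ)⁻¹ • Finsupp.mapDomain (rCan Hfin Hinf) D) := by
  haveI := hasPrincipalDivisors_bar (N * ℓ)
  haveI : CharP (Kap A) ℓ := charP_kap (Fact.out : ℓ.Prime) hA
  intro D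
  have hall : ∀ P : Place Qb (Fb N),
      ∃ (R' : Subring (Fb N)) (θ : R' →+* Ft A N) (Sg : Subalgebra (Kap A) (Ft A N))
        (InChart : Place Qb (Fb N) → Prop),
        ChartHyp A (IsLocalRing.residue ↥A) (heckeBetaBar Qb N ℓ) (heckeAlphaBar Qb N ℓ)
          (finiteAlong_heckeBetaBar N ℓ) (heckeBetaBarIntegral N ℓ) (heckeAlphaBarIntegral N ℓ) ℓ
          (coeffAut (Kap A) N φ) (fun g => ((coeffAut (Kap A) N φ)⁻¹ • g) ^ ℓ) (rCan Hfin Hinf)
          R' θ Sg InChart ∧ InChart P := by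
    intro P
    by_cases hP : IntAt A P (C.jb N)
    · exact ⟨_, _, _, _, chartHyp_fin hA hℓN hdag Hfin Hinf hdegt φ hφ, hP⟩
    · exact ⟨_, _, _, _, chartHyp_inf hA hℓN hdag Hfin Hinf hdegt hG1 hG2 hG3 φ hφ, hP⟩
  exact mapDomain_correspondence hall D

end ChartInf

end Fermat.Agent.N4F.E.TheoremEModular
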