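/-
N4-FULL, block E (helper26): GLUE from the level-wise core statement (†β) of `E/BetaSide`
(for every good base `(K, O)`) to the hypothesis `TheoremEModular.DaggerBeta A N ℓ` consumed by
the modular instance of Theorem E.

`BetaTarget` is (†β) in the weakest form consumed here (no `Monic`, the coefficientwise Frobenius
stated coefficientwise), under the strongest hypotheses available at the levels of
`LevelCharts.exists_level_of_finite`: a good base, `(∗)`, (A2), `ℓ ∤ N`, an embedding `K →+* ℂ`
and an algebraically closed residue field.  `daggerBeta_of_target` is the plug.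
-/
import Mathlib
import Fermat.Agent.N4F.E.TheoremEModular
import Fermat.Agent.N4F.E.NormReduction
import Fermat.Agent.N4F.C.PGI
import Fermat.Agent.N4F.C.ChartReduction

set_option autoImplicit false
set_option linter.style.haveILetI false
set_option linter.unusedSectionVars false
set_option synthInstance.maxHeartbeats 400000
set_option maxHeartbeats 1600000

open AlgebraicCurve ModularCurve Polynomial

noncomputable section

namespace Fermat.Agent.N4F.E.DaggerBetaGlue

open Fermat.Agent.N4F.C Fermat.Agent.N4F.C.Levels Fermat.Agent.N4F.C.LevelCharts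
  Fermat.Agent.N4.Setting Fermat.Agent.N4.FibreEmbedding Fermat.Agent.N4.Chart
  Fermat.Agent.N4F.E.DegreeLevelRaise Fermat.Agent.N4F.E.GenericFibreAlong
  Fermat.Agent.N4F.E.TheoremEModular Fermat.Agent.N4.BigDVR

/-- **(†β) at the level `(K, O)`** in the form consumed by `TheoremEModular`: for `x` in the Gauss
subalgebra, the characteristic polynomial of `α x` over `β` has a lift to the Gauss subalgebra
whose reduction is `(X^ℓ − C w)(X − C (x̄(q^ℓ)))`, `w` the coefficientwise `ℓ`-th power of
`x̄ = θ_N x`. -/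
def DaggerBetaAt (K : Type) [Field K] (N : ℕ) (O : Subring K) [IsDiscreteValuationRing ↥O]
    [IsFractionRing ↥O K] [NeZero N] (ℓ : ℕ) [Fact ℓ.Prime] : Prop :=
  ∀ (x : FF K N) (hx : x ∈ gaussSubalgebra K N O) (hfin : FiniteAlong K (betaF K N ℓ)),
    ∃ χ : Polynomial ↥(gaussSubalgebra K N O),
      χ.map (algebraMap ↥(gaussSubalgebra K N O) (FF K N)) =
        charpolyAlong (betaF K N ℓ) hfin (alphaF K N ℓ x) ∧
      ∃ w : LaurentSeries (IsLocalRing.ResidueField ↥O),
        (∀ n, w.coeff n = ((theta K N O ⟨x, hx⟩).coeff n) ^ ℓ) ∧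
        χ.map (theta K N O) =
          (X ^ ℓ - C w) *
            (X - C (qExpand (IsLocalRing.ResidueField ↥O) ℓ (theta K N O ⟨x, hx⟩)))

/-- Adapter from the `frobenius` form of (†β) (helper15's final shape, `Monic` optional) to
`DaggerBetaAt`: take `w := coeffMap (frobenius κ ℓ) x̄`. -/
theorem daggerBetaAt_of_frobenius (K : Type) [Field K] (N : ℕ) (O : Subring K)
    [IsDiscreteValuationRing ↥O] [IsFractionRing ↥O K] [NeZero N] (ℓ : ℕ) [Fact ℓ.Prime]
    [CharP (IsLocalRing.ResidueField ↥O) ℓ]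
    (h : ∀ (x : FF K N) (hx : x ∈ gaussSubalgebra K N O) (hfin : FiniteAlong K (betaF K N ℓ)),
      ∃ χ : Polynomial ↥(gaussSubalgebra K N O),
        χ.map (algebraMap ↥(gaussSubalgebra K N O) (FF K N)) =
          charpolyAlong (betaF K N ℓ) hfin (alphaF K N ℓ x) ∧
        χ.map (theta K N O) =
          (X ^ ℓ - C (coeffMap (frobenius (IsLocalRing.ResidueField ↥O) ℓ)
              (theta K N O ⟨x, hx⟩))) *
            (X - C (qExpand (IsLocalRing.ResidueField ↥O) ℓ (theta K N O ⟨x, hx⟩)))) :
    DaggerBetaAt K N O ℓ := by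
  intro x hx hfin
  obtain ⟨χ, h1, h2⟩ := h x hx hfin
  exact ⟨χ, h1, _, fun n => by rw [coeffMap_coeff, frobenius_def], h2⟩

/-- **(†β) for all good bases**: the input from `E/BetaSide`, under all the hypotheses available at
the levels used. -/
def BetaTarget : Prop :=
  ∀ (K : Type) [Field K] [CharZero K] [Algebra.IsAlgebraic ℚ K] (N : ℕ) [NeZero N] (O : Subring K)
    [IsDiscreteValuationRing ↥O] (ℓ : ℕ) [Fact ℓ.Prime] (hG : GoodBase K N O ℓ),
    StarStatement K N O →
    haveI := hG.frac
    (∀ x : gaussSubalgebra K N O,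
      theta K N O x ∈ modularFunctionFieldFullC (IsLocalRing.ResidueField ↥O) N) →
    ¬ ℓ ∣ N → (K →+* ℂ) → IsAlgClosed (IsLocalRing.ResidueField ↥O) →
    DaggerBetaAt K N O ℓ

local notation "Qb" => AlgebraicClosure ℚ

/-- **The plug**: (†β) at all good bases gives `DaggerBeta A N ℓ`. -/
theorem daggerBeta_of_target (hStar : PGI.StarOmegaHyp) (hB : BetaTarget)
    (A : ValuationSubring Qb) (N : ℕ) [NeZero N] (ℓ : ℕ) [Fact ℓ.Prime]
    (hA : A.LiesOverPrime ℓ) (hℓN : ¬ ℓ ∣ N) : DaggerBeta A N ℓ := by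
  intro K hDVR hfrac hAC hGB _ hroots x hx _ hfinK
  have hω : ℓ = 2 → ∃ z : Lvl K, z ^ 2 + z + 1 = 0 := fun h2 => by
    obtain ⟨z, hz⟩ := PGI.exists_omega_of_goodRoots hA K hroots h2
    exact ⟨(Lvl.toSub K).symm z, hz⟩
  have hstar : StarStatement (Lvl K) N (baseRing A K) :=
    hStar (Lvl K) N (baseRing A K) ℓ hGB hω
  have hred : PGI.RedMem (Lvl K) N (baseRing A K) := fun s hs =>
    ChartReduction.red_mem_full (Lvl K) N (baseRing A K) hGB hstar s hs
  have hA2 := Fermat.Agent.N4F.E.NormReduction.theta_mem_full (Lvl K) N (baseRing A K) hred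
  exact hB (Lvl K) N (baseRing A K) ℓ hGB hstar hA2 hℓN (iotaOfAlgebraic (Lvl K)) hAC x hx hfinK

end Fermat.Agent.N4F.E.DaggerBetaGlue

end
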