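/-
N4-FULL, block E (helper26): `(†β)` at all good bases, UNCONDITIONALLY — helper15's
`BetaSide.exists_second_place` in the shape `DaggerBetaGlue.BetaTarget` consumed by the modular
instance of Theorem E (`TheoremEFinal`, `Res/S37FromBeta`, `Res/AllFromBeta`).
-/
import Mathlib
import Fermat.Agent.N4F.E.DaggerBetaGlue
import Fermat.Agent.N4F.E.BetaSide
import Fermat.Agent.N4F.E.GaussResidue

set_option autoImplicit false
set_option linter.style.haveILetI false

namespace Fermat.Agent.N4F.E.BetaTargetProof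

open Fermat.Agent.N4F.E.DaggerBetaGlue

/-- **(†β) for all good bases.** -/
theorem betaTarget : BetaTarget := by
  intro K _ _ _ N _ O _ ℓ _ hG hstar hA2 hℓN ι _
  haveI := hG.frac
  haveI := Fermat.Agent.N4F.E.GaussResidue.charP_residueField K N O hG
  obtain ⟨W, ev, -, -, hβ⟩ :=
    Fermat.Agent.N4F.E.BetaSide.exists_second_place K N ℓ O ι hℓN hstar.1.isPrime hA2
  refine daggerBetaAt_of_frobenius K N O ℓ fun x hx hfin => ?_
  obtain ⟨q, -, h1, h2⟩ := hβ x hx hfin
  exact ⟨q, h1, h2⟩

end Fermat.Agent.N4F.E.BetaTargetProof
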