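/-
N4-FULL / block E (helper3), row E3: **generic characteristic-polynomial tools** (Mathlib only).

* `charpoly_of_snd_inl_eq_zero` : block upper triangular endomorphism of `M₁ × M₂` (finite free over
  a commutative ring): the characteristic polynomial is the product of the diagonal blocks.
* `charpoly_eq_restrict_mul_mapQ` (T1) : over a field, for an invariant subspace `W` of `f`,
  `χ_f = χ_{f|W} · χ_{f on M/W}`.
* `mulEnd κ M b` : multiplication by `b : R` on an `R`-module `M`, as a `κ`-linear endomorphism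
  (`R` a `κ`-algebra); `charpoly_mulEnd_congr` : invariance under `R`-linear equivalences.
* `exists_charpoly_mulEnd_eq_pow` (T2) : if `M` is killed by a power of a maximal ideal `𝔭` of `R`,
  then `χ_κ(b | M) = χ_κ(b | R/𝔭) ^ ℓ` with `dim M = ℓ · dim (R/𝔭)`.
-/
import Mathlib

set_option autoImplicit false

open Module LinearMap Polynomial

namespace Fermat.Agent.N4F.E.CharpolyTools

section Block

variable {R : Type*} [CommRing R] {M₁ M₂ : Type*} [AddCommGroup M₁] [Module R M₁]
  [AddCommGroup M₂] [Module R M₂] [Module.Free R M₁] [Module.Finite R M₁]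
  [Module.Free R M₂] [Module.Finite R M₂]

/-- The characteristic polynomial of a block upper triangular endomorphism of `M₁ × M₂`. -/
theorem charpoly_of_snd_inl_eq_zero (φ : Module.End R (M₁ × M₂))
    (h : (LinearMap.snd R M₁ M₂) ∘ₗ φ ∘ₗ (LinearMap.inl R M₁ M₂) = 0) :
    φ.charpoly =
      ((LinearMap.fst R M₁ M₂) ∘ₗ φ ∘ₗ (LinearMap.inl R M₁ M₂)).charpoly *
        ((LinearMap.snd R M₁ M₂) ∘ₗ φ ∘ₗ (LinearMap.inr R M₁ M₂)).charpoly := by
  classical
  let b₁ := Module.Free.chooseBasis R M₁
  let b₂ := Module.Free.chooseBasis R M₂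
  let b := b₁.prod b₂
  rw [← charpoly_toMatrix ((LinearMap.fst R M₁ M₂) ∘ₗ φ ∘ₗ (LinearMap.inl R M₁ M₂)) b₁,
    ← charpoly_toMatrix ((LinearMap.snd R M₁ M₂) ∘ₗ φ ∘ₗ (LinearMap.inr R M₁ M₂)) b₂,
    ← charpoly_toMatrix φ b]
  have hM : toMatrix b b φ = Matrix.fromBlocks
      (toMatrix b₁ b₁ ((LinearMap.fst R M₁ M₂) ∘ₗ φ ∘ₗ (LinearMap.inl R M₁ M₂)))
      (toMatrix b₂ b₁ ((LinearMap.fst R M₁ M₂) ∘ₗ φ ∘ₗ (LinearMap.inr R M₁ M₂)))
      0
      (toMatrix b₂ b₂ ((LinearMap.snd R M₁ M₂) ∘ₗ φ ∘ₗ (LinearMap.inr R M₁ M₂))) := by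
    ext (i | i) (j | j)
    · simp [toMatrix_apply, b]
    · simp [toMatrix_apply, b]
    · have h1 : (φ (b₁ j, 0)).2 = 0 := by
        have := congrArg (fun g : M₁ →ₗ[R] M₂ => g (b₁ j)) h
        simpa using this
      simp [toMatrix_apply, b, h1]
    · simp [toMatrix_apply, b]
  rw [hM, Matrix.charpoly_fromBlocks_zero₂₁]

end Block

section Invariant

variable {K : Type*} [Field K] {M : Type*} [AddCommGroup M] [Module K M] [FiniteDimensional K M]

/-- **Multiplicativity of the characteristic polynomial on an invariant subspace**: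
`χ_f = χ_{f|W} · χ_{f on M/W}`. -/
theorem charpoly_eq_restrict_mul_mapQ (f : Module.End K M) (W : Submodule K M)
    (hW : W ≤ W.comap f) :
    f.charpoly = (f.restrict hW).charpoly * (W.mapQ W f hW).charpoly := by
  classical
  obtain ⟨W', hc⟩ := Submodule.exists_isCompl W
  let e : (W × W') ≃ₗ[K] M := Submodule.prodEquivOfIsCompl W W' hc
  let φ : Module.End K (W × W') := e.symm.conj f
  have hφ : φ.charpoly = f.charpoly := LinearEquiv.charpoly_conj e.symm f
  have hφ_apply : ∀ x, φ x = e.symm (f (e x)) := fun x => by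
    simp [φ, LinearEquiv.conj_apply]
  -- the lower left block vanishes
  have h21 : (LinearMap.snd K W W') ∘ₗ φ ∘ₗ (LinearMap.inl K W W') = 0 := by
    ext w
    have h1 : f (e (w, 0)) ∈ W := by
      have : e (w, 0) = (w : M) := by simp [e]
      rw [this]
      exact hW w.2
    have h2 : e.symm (f (e (w, 0))) = (⟨f (e (w, 0)), h1⟩, 0) := by
      rw [LinearEquiv.symm_apply_eq]
      simp [e]
    simp [hφ_apply, h2]
  rw [← hφ, charpoly_of_snd_inl_eq_zero φ h21]
  congr 1
  · -- upper left block is the restriction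
    congr 1
    ext w
    have h1 : f (e (w, 0)) ∈ W := by
      have : e (w, 0) = (w : M) := by simp [e]
      rw [this]
      exact hW w.2
    have h2 : e.symm (f (e (w, 0))) = (⟨f (e (w, 0)), h1⟩, 0) := by
      rw [LinearEquiv.symm_apply_eq]
      simp [e]
    have h3 : e (w, 0) = (w : M) := by simp [e]
    have h2' : (e.symm (f (w : M))).1 = ⟨f (w : M), hW w.2⟩ := by
      have := congrArg Prod.fst h2
      simp only [h3] at this
      exact this
    simp [hφ_apply, h3, h2', LinearMap.restrict_apply]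
  · -- lower right block is conjugate to the map on the quotient
    let q : (M ⧸ W) ≃ₗ[K] W' := Submodule.quotientEquivOfIsCompl W W' hc
    have hq : q.conj (W.mapQ W f hW) =
        (LinearMap.snd K W W') ∘ₗ φ ∘ₗ (LinearMap.inr K W W') := by
      ext w'
      have h3 : e (0, w') = (w' : M) := by simp [e]
      have h4 : q.symm w' = Submodule.Quotient.mk (w' : M) := by
        simp [q]
      have h5 : ∀ m : M, q (Submodule.Quotient.mk m) = (e.symm m).2 := by
        intro m
        obtain ⟨x, rfl⟩ := e.surjective m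
        obtain ⟨w, w''⟩ := x
        have : e (w, w'') = (w : M) + (w'' : M) := by simp [e]
        rw [LinearEquiv.symm_apply_apply, this]
        simp [q]
      simp [LinearEquiv.conj_apply, h4, hφ_apply, h3, h5]
    rw [← hq, LinearEquiv.charpoly_conj]

end Invariant

section Primary

variable (κ : Type*) [Field κ] {R : Type*} [CommRing R] [Algebra κ R]

/-- multiplication by `b : R` on an `R`-module, as a `κ`-linear endomorphism -/
noncomputable def mulEnd (M : Type*) [AddCommGroup M] [Module R M] [Module κ M]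
    [IsScalarTower κ R M] (b : R) : Module.End κ M :=
  (LinearMap.lsmul R M b).restrictScalars κ

@[simp] theorem mulEnd_apply (M : Type*) [AddCommGroup M] [Module R M] [Module κ M]
    [IsScalarTower κ R M] (b : R) (m : M) : mulEnd κ M b m = b • m := rfl

/-- `R`-linear equivalences intertwine the multiplication endomorphisms, hence preserve their
characteristic polynomials. -/
theorem charpoly_mulEnd_congr {M M' : Type*} [AddCommGroup M] [Module R M] [Module κ M]
    [IsScalarTower κ R M] [AddCommGroup M'] [Module R M'] [Module κ M']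
    [IsScalarTower κ R M'] [FiniteDimensional κ M] [FiniteDimensional κ M']
    (ε : M ≃ₗ[R] M') (b : R) : (mulEnd κ M' b).charpoly = (mulEnd κ M b).charpoly := by
  have h : (ε.restrictScalars κ).conj (mulEnd κ M b) = mulEnd κ M' b := by
    ext m
    simp [LinearEquiv.conj_apply]
  rw [← h, LinearEquiv.charpoly_conj]

end Primary

section PrimaryInduction

universe v

variable (κ : Type*) [Field κ] {R : Type*} [CommRing R] [Algebra κ R]

theorem charpoly_eq_one_of_subsingleton {M : Type*} [AddCommGroup M] [Module κ M]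
    [FiniteDimensional κ M] [Subsingleton M] (f : Module.End κ M) : f.charpoly = 1 := by
  apply Polynomial.eq_one_of_monic_natDegree_zero f.charpoly_monic
  rw [LinearMap.charpoly_natDegree, Module.finrank_zero_of_subsingleton]

/-- **Characteristic polynomial on a `𝔭`-primary module**: if `M` is killed by a power of the
maximal ideal `𝔭`, then `χ_κ(b | M) = χ_κ(b | R/𝔭)^ℓ` with `ℓ = dim M / dim (R/𝔭)`. -/
theorem exists_charpoly_mulEnd_eq_pow (𝔭 : Ideal R) [h𝔭 : 𝔭.IsMaximal]
    [FiniteDimensional κ (R ⧸ 𝔭)] (b : R) :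
    ∀ (n : ℕ) (M : Type v) [AddCommGroup M] [Module R M] [Module κ M] [IsScalarTower κ R M]
      [FiniteDimensional κ M], Module.finrank κ M = n →
      (∃ e : ℕ, ∀ r ∈ 𝔭 ^ e, ∀ m : M, r • m = 0) →
      ∃ ℓ : ℕ, Module.finrank κ M = ℓ * Module.finrank κ (R ⧸ 𝔭) ∧
        (mulEnd κ M b).charpoly = (mulEnd κ (R ⧸ 𝔭) b).charpoly ^ ℓ := by
  intro n
  induction n using Nat.strong_induction_on with
  | _ n ih =>
    intro M _ _ _ _ _ hn hM
    by_cases htriv : Subsingleton M
    · refine ⟨0, ?_, ?_⟩
      · rw [Module.finrank_zero_of_subsingleton, zero_mul]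
      · rw [pow_zero]
        exact charpoly_eq_one_of_subsingleton κ _
    · rw [not_subsingleton_iff_nontrivial] at htriv
      obtain ⟨x₀, hx₀⟩ := exists_ne (0 : M)
      obtain ⟨e, he⟩ := hM
      have hex : ∃ i : ℕ, ∀ r ∈ 𝔭 ^ i, r • x₀ = 0 := ⟨e, fun r hr => he r hr x₀⟩
      classical
      have hi0 : Nat.find hex ≠ 0 := by
        intro h0
        have h1 := Nat.find_spec hex
        rw [h0, pow_zero] at h1
        exact hx₀ (by simpa using h1 1 (by simp))
      obtain ⟨j, hj⟩ := Nat.exists_eq_succ_of_ne_zero hi0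
      have hmin : ¬ ∀ r ∈ 𝔭 ^ j, r • x₀ = 0 := Nat.find_min hex (by omega)
      push Not at hmin
      obtain ⟨r, hr, hrx⟩ := hmin
      -- the element killed by `𝔭`
      have hx : ∀ s ∈ 𝔭, s • (r • x₀) = 0 := by
        intro s hs
        rw [smul_smul]
        have h1 := Nat.find_spec hex
        rw [hj, Nat.succ_eq_add_one, pow_succ'] at h1
        exact h1 _ (Ideal.mul_mem_mul hs hr)
      have htor : 𝔭 = Ideal.torsionOf R M (r • x₀) := by
        apply h𝔭.eq_of_le
        · intro htop
          have : (1 : R) ∈ Ideal.torsionOf R M (r • x₀) := by rw [htop]; trivial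
          rw [Ideal.mem_torsionOf_iff, one_smul] at this
          exact hrx this
        · intro s hs
          rw [Ideal.mem_torsionOf_iff]
          exact hx s hs
      let W : Submodule R M := R ∙ (r • x₀)
      let ε : (R ⧸ 𝔭) ≃ₗ[R] W :=
        (Submodule.quotEquivOfEq _ _ htor).trans (Ideal.quotTorsionOfEquivSpanSingleton R M _)
      let Wκ : Submodule κ M := W.restrictScalars κ
      have hW : Wκ ≤ Wκ.comap (mulEnd κ M b) := fun m hm => W.smul_mem b hm
      have hT1 := charpoly_eq_restrict_mul_mapQ (mulEnd κ M b) Wκ hW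
      -- first factor
      let δ : W ≃ₗ[κ] Wκ :=
        { toFun := fun w => ⟨w.1, w.2⟩
          invFun := fun w => ⟨w.1, w.2⟩
          map_add' := fun _ _ => rfl
          map_smul' := fun _ _ => rfl
          left_inv := fun _ => rfl
          right_inv := fun _ => rfl }
      let ε' : (R ⧸ 𝔭) ≃ₗ[κ] Wκ := (ε.restrictScalars κ).trans δ
      have hε' : ε'.conj (mulEnd κ (R ⧸ 𝔭) b) = (mulEnd κ M b).restrict hW := by
        ext y
        obtain ⟨z, rfl⟩ := ε'.surjective y
        simp only [LinearEquiv.conj_apply, LinearMap.comp_apply, LinearEquiv.coe_coe,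
          LinearEquiv.symm_apply_apply, mulEnd_apply, LinearMap.coe_restrict_apply]
        have h1 : ε' (b • z) = (⟨((ε (b • z) : W) : M), (ε (b • z)).2⟩ : Wκ) := rfl
        have h2 : ((ε' z : Wκ) : M) = ((ε z : W) : M) := rfl
        rw [h1, h2, map_smul]
        rfl
      have hfac1 : ((mulEnd κ M b).restrict hW).charpoly = (mulEnd κ (R ⧸ 𝔭) b).charpoly := by
        rw [← hε', LinearEquiv.charpoly_conj]
      -- second factor
      let ρ : (M ⧸ Wκ) ≃ₗ[κ] (M ⧸ W) := Submodule.Quotient.restrictScalarsEquiv κ W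
      have hρ : ρ.conj (Wκ.mapQ Wκ (mulEnd κ M b) hW) = mulEnd κ (M ⧸ W) b := by
        apply LinearMap.ext
        intro y
        obtain ⟨m, rfl⟩ := Submodule.Quotient.mk_surjective W y
        rfl
      have hfac2 : (Wκ.mapQ Wκ (mulEnd κ M b) hW).charpoly = (mulEnd κ (M ⧸ W) b).charpoly := by
        rw [← hρ, LinearEquiv.charpoly_conj]
      -- dimensions
      have hd1 : Module.finrank κ Wκ = Module.finrank κ (R ⧸ 𝔭) := ε'.finrank_eq.symm
      have hd2 : Module.finrank κ (M ⧸ Wκ) = Module.finrank κ (M ⧸ W) := ρ.finrank_eq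
      have hd3 := Submodule.finrank_quotient_add_finrank Wκ
      have hdpos : 0 < Module.finrank κ (R ⧸ 𝔭) := by
        have : Nontrivial (R ⧸ 𝔭) := Ideal.Quotient.nontrivial_iff.mpr h𝔭.ne_top
        exact Module.finrank_pos
      obtain ⟨ℓ', hℓ1, hℓ2⟩ := ih (Module.finrank κ (M ⧸ W)) (by omega) (M ⧸ W) rfl
        ⟨e, fun s hs y => by
          obtain ⟨m, rfl⟩ := Submodule.Quotient.mk_surjective W y
          rw [← Submodule.Quotient.mk_smul, he s hs m, Submodule.Quotient.mk_zero]⟩
      refine ⟨ℓ' + 1, ?_, ?_⟩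
      · rw [add_mul, one_mul, ← hℓ1]
        omega
      · rw [hT1, hfac1, hfac2, hℓ2, pow_succ, mul_comm]

end PrimaryInduction

end Fermat.Agent.N4F.E.CharpolyTools
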