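/-
N4-FULL / block E (helper3), row E3: **Lemma CP for a Dedekind domain, with ramification**.

Main result `charpoly_map_eq_prod_pow` : `A → κ` a surjection onto a field, `B` a Dedekind domain,
finite free over `A`; `π i : B →ₐ[A] D i` surjections onto finitely many fields `D i` (finite over
`κ`) with pairwise distinct nonzero kernels `P i`; `e i : ℕ` with `𝔪 B ⊆ P i ^ e i`
(`𝔪 = ker (A → κ)`) and `rank_A B = ∑ e i * [D i : κ]`.  Then
`(χ_A(b | B)).map (A → κ) = ∏ i, χ_κ(π i b | D i) ^ e i`.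

Ingredients (all reusable):
* `finrank_quotient_step`, `finrank_quotient_pow` : `dim_κ (R / 𝔭 ^ j) = j · dim_κ (R / 𝔭)` when the
  graded pieces `𝔭 ^ j / 𝔭 ^ (j+1)` are cyclic and nonzero (`R` any `κ`-algebra, `𝔭` maximal).
* `charpoly_quotient_pow` : in that situation `χ_κ(y | R / 𝔭 ^ e) = χ_κ(y | R / 𝔭) ^ e`.
* `exists_generator_of_dedekind` : the cyclicity hypothesis for the image of a Dedekind domain.
* `includeRight_surjective`, `ker_includeRight_le` : `B → κ ⊗[A] B` is surjective with kernel `𝔪 B`.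
* `charpoly_lmul_algEquiv` : algebra isomorphisms preserve `χ(lmul x)`.
-/
import Fermat.Agent.N4F.E.CharpolyTools
import Fermat.Agent.N4F.E.CharpolyFibre

set_option autoImplicit false
set_option linter.style.haveILetI false

open Module LinearMap Polynomial TensorProduct

namespace Fermat.Agent.N4F.E.CharpolyDedekind

open Fermat.Agent.N4F.E.CharpolyTools Fermat.Agent.N4F.E.CharpolyFibre

section Filtration

variable (κ : Type*) [Field κ] {R : Type*} [CommRing R] [Algebra κ R]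

/-- One step of the `𝔭`-adic filtration: if `J / I` is generated by one element `a ∉ I` and is
killed by the maximal ideal `𝔭`, then `dim (R/I) = dim (R/J) + dim (R/𝔭)`. -/
theorem finrank_quotient_step (𝔭 I J : Ideal R) [h𝔭 : 𝔭.IsMaximal] [FiniteDimensional κ (R ⧸ 𝔭)]
    (hIJ : I ≤ J) (hmul : 𝔭 * J ≤ I) (a : R) (haJ : a ∈ J) (haI : a ∉ I)
    (hJ : J ≤ Ideal.span {a} ⊔ I) [FiniteDimensional κ (R ⧸ J)] :
    FiniteDimensional κ (R ⧸ I) ∧
      finrank κ (R ⧸ I) = finrank κ (R ⧸ J) + finrank κ (R ⧸ 𝔭) := by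
  classical
  set x : R ⧸ I := Ideal.Quotient.mk I a with hx
  have hx0 : x ≠ 0 := by
    rw [hx, Ne, Ideal.Quotient.eq_zero_iff_mem]
    exact haI
  -- the annihilator of `x` is `𝔭`
  have htor : 𝔭 = Ideal.torsionOf R (R ⧸ I) x := by
    apply h𝔭.eq_of_le
    · intro htop
      have : (1 : R) ∈ Ideal.torsionOf R (R ⧸ I) x := by rw [htop]; trivial
      rw [Ideal.mem_torsionOf_iff, one_smul] at this
      exact hx0 this
    · intro s hs
      rw [Ideal.mem_torsionOf_iff]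
      have : s • x = Ideal.Quotient.mk I (s * a) := rfl
      rw [this, Ideal.Quotient.eq_zero_iff_mem]
      exact hmul (Ideal.mul_mem_mul hs haJ)
  let W : Submodule R (R ⧸ I) := R ∙ x
  let ε : (R ⧸ 𝔭) ≃ₗ[R] W :=
    (Submodule.quotEquivOfEq _ _ htor).trans (Ideal.quotTorsionOfEquivSpanSingleton R (R ⧸ I) _)
  let ψ : (R ⧸ I) →ₗ[R] (R ⧸ J) := Submodule.factor hIJ
  have hψs : Function.Surjective ψ := Submodule.factor_surjective hIJ
  have hker : LinearMap.ker ψ = W := by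
    ext y
    obtain ⟨r, rfl⟩ := Ideal.Quotient.mk_surjective y
    rw [LinearMap.mem_ker]
    have h1 : ψ (Ideal.Quotient.mk I r) = Ideal.Quotient.mk J r := rfl
    rw [h1, Ideal.Quotient.eq_zero_iff_mem, Submodule.mem_span_singleton]
    constructor
    · intro hr
      obtain ⟨c, i, hi, hci⟩ := Ideal.mem_span_singleton_sup.mp (hJ hr)
      refine ⟨c, ?_⟩
      have : c • x = Ideal.Quotient.mk I (c * a) := rfl
      rw [this, eq_comm, Ideal.Quotient.eq, ← hci]
      simpa using I.neg_mem hi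
    · rintro ⟨c, hc⟩
      have : c • x = Ideal.Quotient.mk I (c * a) := rfl
      rw [this, Ideal.Quotient.eq] at hc
      have h2 : r = c * a - (c * a - r) := by ring
      rw [h2]
      exact J.sub_mem (J.mul_mem_left c haJ) (hIJ hc)
  -- pass to `κ`
  let ψκ : (R ⧸ I) →ₗ[κ] (R ⧸ J) := ψ.restrictScalars κ
  have hψκs : Function.Surjective ψκ := hψs
  let δ : W ≃ₗ[κ] LinearMap.ker ψκ :=
    { toFun := fun w => ⟨w.1, by
        have : w.1 ∈ LinearMap.ker ψ := by rw [hker]; exact w.2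
        exact this⟩
      invFun := fun w => ⟨w.1, by
        have : w.1 ∈ LinearMap.ker ψ := w.2
        rw [hker] at this
        exact this⟩
      map_add' := fun _ _ => rfl
      map_smul' := fun _ _ => rfl
      left_inv := fun _ => rfl
      right_inv := fun _ => rfl }
  let ε' : (R ⧸ 𝔭) ≃ₗ[κ] LinearMap.ker ψκ := (ε.restrictScalars κ).trans δ
  have hfinker : FiniteDimensional κ (LinearMap.ker ψκ) := Module.Finite.equiv ε'
  let ρ : ((R ⧸ I) ⧸ LinearMap.ker ψκ) ≃ₗ[κ] (R ⧸ J) := ψκ.quotKerEquivOfSurjective hψκs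
  have hfinquot : FiniteDimensional κ ((R ⧸ I) ⧸ LinearMap.ker ψκ) := Module.Finite.equiv ρ.symm
  have hfin : FiniteDimensional κ (R ⧸ I) :=
    Module.Finite.of_submodule_quotient (LinearMap.ker ψκ)
  refine ⟨hfin, ?_⟩
  have h3 := Submodule.finrank_quotient_add_finrank (LinearMap.ker ψκ)
  rw [ρ.finrank_eq, ← ε'.finrank_eq] at h3
  exact h3.symm

/-- **Dimension of `R / 𝔭 ^ e`** when the graded pieces `𝔭 ^ j / 𝔭 ^ (j+1)`, `j < e`, are cyclic
and nonzero. -/
theorem finrank_quotient_pow (𝔭 : Ideal R) [h𝔭 : 𝔭.IsMaximal] [FiniteDimensional κ (R ⧸ 𝔭)]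
    (e : ℕ)
    (hcyc : ∀ j < e, ∃ a ∈ 𝔭 ^ j, a ∉ 𝔭 ^ (j + 1) ∧ 𝔭 ^ j ≤ Ideal.span {a} ⊔ 𝔭 ^ (j + 1)) :
    ∀ j ≤ e, FiniteDimensional κ (R ⧸ 𝔭 ^ j) ∧
      finrank κ (R ⧸ 𝔭 ^ j) = j * finrank κ (R ⧸ 𝔭) := by
  intro j
  induction j with
  | zero =>
    intro _
    have hsub : Subsingleton (R ⧸ 𝔭 ^ 0) :=
      Ideal.Quotient.subsingleton_iff.mpr (by rw [pow_zero, Ideal.one_eq_top])
    refine ⟨inferInstance, ?_⟩
    rw [zero_mul, Module.finrank_zero_of_subsingleton]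
  | succ j ih =>
    intro hj
    obtain ⟨hfin, hdim⟩ := ih (by omega)
    obtain ⟨a, haJ, haI, hJ⟩ := hcyc j (by omega)
    obtain ⟨h1, h2⟩ := finrank_quotient_step κ 𝔭 (𝔭 ^ (j + 1)) (𝔭 ^ j)
      (Ideal.pow_le_pow_right (Nat.le_succ j)) (by rw [pow_succ']) a haJ haI hJ
    refine ⟨h1, ?_⟩
    rw [h2, hdim, add_one_mul]

theorem mulEnd_quotient_eq_lmul (I : Ideal R) (y : R) :
    mulEnd κ (R ⧸ I) y = Algebra.lmul κ (R ⧸ I) (Ideal.Quotient.mk I y) := by
  apply LinearMap.ext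
  intro m
  obtain ⟨t, rfl⟩ := Ideal.Quotient.mk_surjective m
  rfl

/-- **Local factor**: `χ_κ(y | R/𝔭^e) = χ_κ(y | R/𝔭)^e` and `dim (R/𝔭^e) = e · dim (R/𝔭)` when the
graded pieces `𝔭^j/𝔭^(j+1)`, `j < e`, are cyclic and nonzero. -/
theorem charpoly_quotient_pow (𝔭 : Ideal R) [h𝔭 : 𝔭.IsMaximal] [FiniteDimensional κ (R ⧸ 𝔭)]
    (e : ℕ)
    (hcyc : ∀ j < e, ∃ a ∈ 𝔭 ^ j, a ∉ 𝔭 ^ (j + 1) ∧ 𝔭 ^ j ≤ Ideal.span {a} ⊔ 𝔭 ^ (j + 1)) :
    ∃ _ : FiniteDimensional κ (R ⧸ 𝔭 ^ e),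
      finrank κ (R ⧸ 𝔭 ^ e) = e * finrank κ (R ⧸ 𝔭) ∧
      ∀ y : R, (Algebra.lmul κ (R ⧸ 𝔭 ^ e) (Ideal.Quotient.mk (𝔭 ^ e) y)).charpoly =
        (Algebra.lmul κ (R ⧸ 𝔭) (Ideal.Quotient.mk 𝔭 y)).charpoly ^ e := by
  obtain ⟨hfin, hdim⟩ := finrank_quotient_pow κ 𝔭 e hcyc e le_rfl
  refine ⟨hfin, hdim, fun y => ?_⟩
  have hkill : ∃ e' : ℕ, ∀ r ∈ 𝔭 ^ e', ∀ m : R ⧸ 𝔭 ^ e, r • m = 0 := by
    refine ⟨e, fun r hr m => ?_⟩
    obtain ⟨t, rfl⟩ := Ideal.Quotient.mk_surjective m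
    have : r • Ideal.Quotient.mk (𝔭 ^ e) t = Ideal.Quotient.mk (𝔭 ^ e) (r * t) := rfl
    rw [this, Ideal.Quotient.eq_zero_iff_mem]
    exact Ideal.mul_mem_right _ _ hr
  obtain ⟨ℓ, hℓ1, hℓ2⟩ := exists_charpoly_mulEnd_eq_pow κ 𝔭 y _ (R ⧸ 𝔭 ^ e) rfl hkill
  have hfpos : 0 < finrank κ (R ⧸ 𝔭) := by
    have : Nontrivial (R ⧸ 𝔭) := Ideal.Quotient.nontrivial_iff.mpr h𝔭.ne_top
    exact Module.finrank_pos
  have hℓ : ℓ = e := by
    rw [hdim] at hℓ1
    exact (Nat.eq_of_mul_eq_mul_right hfpos hℓ1).symm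
  rw [← mulEnd_quotient_eq_lmul, ← mulEnd_quotient_eq_lmul, hℓ2, hℓ]

end Filtration

section Dedekind

variable {B : Type*} [CommRing B] [IsDedekindDomain B] {R : Type*} [CommRing R]

/-- In the image of a Dedekind domain under a surjection whose kernel is contained in `P ^ e`, the
graded pieces `𝔭 ^ j / 𝔭 ^ (j+1)` (`j < e`) of the image `𝔭` of `P` are cyclic and nonzero. -/
theorem exists_generator_of_dedekind (g : B →+* R) (hg : Function.Surjective g)
    (P : Ideal B) [hPp : P.IsPrime] (hP : P ≠ ⊥) (e : ℕ) (hker : RingHom.ker g ≤ P ^ e) :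
    ∀ j < e, ∃ a ∈ (P.map g) ^ j, a ∉ (P.map g) ^ (j + 1) ∧
      (P.map g) ^ j ≤ Ideal.span {a} ⊔ (P.map g) ^ (j + 1) := by
  intro j hj
  obtain ⟨a₀, ha₀, ha₀'⟩ := SetLike.exists_of_lt (Ideal.pow_succ_lt_pow hP j)
  refine ⟨g a₀, ?_, ?_, ?_⟩
  · rw [← Ideal.map_pow]
    exact Ideal.mem_map_of_mem g ha₀
  · rw [← Ideal.map_pow, Ideal.mem_map_iff_of_surjective g hg]
    rintro ⟨x, hx, hxa⟩
    apply ha₀'
    have h1 : x - a₀ ∈ RingHom.ker g := by
      rw [RingHom.mem_ker, map_sub, hxa, sub_self]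
    have h2 : x - a₀ ∈ P ^ (j + 1) := Ideal.pow_le_pow_right (by omega) (hker h1)
    have h3 : a₀ = x - (x - a₀) := by ring
    rw [h3]
    exact (P ^ (j + 1)).sub_mem hx h2
  · intro y hy
    rw [← Ideal.map_pow, Ideal.mem_map_iff_of_surjective g hg] at hy
    obtain ⟨c, hc, rfl⟩ := hy
    obtain ⟨d, e', he', hde⟩ := Ideal.exists_mul_add_mem_pow_succ hP a₀ c ha₀ ha₀' hc
    rw [← hde, map_add, map_mul]
    refine Ideal.add_mem _ (Ideal.mem_sup_left ?_) (Ideal.mem_sup_right ?_)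
    · exact Ideal.mul_mem_right _ _ (Ideal.mem_span_singleton_self _)
    · rw [← Ideal.map_pow]
      exact Ideal.mem_map_of_mem g he'

end Dedekind

section Include

variable {A : Type*} [CommRing A] {κ : Type*} [Field κ] [Algebra A κ]
  {B : Type*} [CommRing B] [Algebra A B]

theorem includeRight_surjective (hκ : Function.Surjective (algebraMap A κ)) :
    Function.Surjective (Algebra.TensorProduct.includeRight : B →ₐ[A] κ ⊗[A] B) := by
  intro t
  induction t using TensorProduct.induction_on with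
  | zero => exact ⟨0, map_zero _⟩
  | tmul x b =>
    obtain ⟨a, rfl⟩ := hκ x
    refine ⟨a • b, ?_⟩
    rw [Algebra.TensorProduct.includeRight_apply, Algebra.algebraMap_eq_smul_one,
      TensorProduct.smul_tmul]
  | add x y hx hy =>
    obtain ⟨x', rfl⟩ := hx
    obtain ⟨y', rfl⟩ := hy
    exact ⟨x' + y', map_add _ _ _⟩

theorem ker_includeRight_le [Module.Free A B] [Module.Finite A B] :
    RingHom.ker (Algebra.TensorProduct.includeRight : B →ₐ[A] κ ⊗[A] B) ≤
      (RingHom.ker (algebraMap A κ)).map (algebraMap A B) := by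
  classical
  intro b hb
  rw [RingHom.mem_ker, Algebra.TensorProduct.includeRight_apply] at hb
  let β := Module.Free.chooseBasis A B
  have h1 : ∀ i, β.repr b i ∈ RingHom.ker (algebraMap A κ) := by
    intro i
    have h2 := congrArg (fun t => (Algebra.TensorProduct.basis κ β).repr t i) hb
    simp only [Algebra.TensorProduct.basis_repr_tmul, map_zero, Finsupp.coe_zero, Pi.zero_apply,
      one_smul, Finsupp.mapRange_apply] at h2
    exact h2
  rw [← β.sum_repr b]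
  refine Ideal.sum_mem _ fun i _ => ?_
  rw [Algebra.smul_def]
  exact Ideal.mul_mem_right _ _ (Ideal.mem_map_of_mem _ (h1 i))

end Include

/-- Algebra isomorphisms preserve the characteristic polynomial of multiplication maps. -/
theorem charpoly_lmul_algEquiv {κ R₁ R₂ : Type*} [Field κ] [CommRing R₁] [CommRing R₂]
    [Algebra κ R₁] [Algebra κ R₂] [Module.Finite κ R₁] [Module.Finite κ R₂] (E : R₁ ≃ₐ[κ] R₂)
    (x : R₁) : (Algebra.lmul κ R₂ (E x)).charpoly = (Algebra.lmul κ R₁ x).charpoly := by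
  have h : E.toLinearEquiv.conj (Algebra.lmul κ R₁ x) = Algebra.lmul κ R₂ (E x) := by
    apply LinearMap.ext
    intro t
    rw [LinearEquiv.conj_apply_apply]
    simp
  rw [← h, LinearEquiv.charpoly_conj]

section Main

variable {A : Type*} [CommRing A] {κ : Type*} [Field κ] [Algebra A κ]
  {B : Type*} [CommRing B] [IsDedekindDomain B] [Algebra A B] [Module.Free A B] [Module.Finite A B]
  {ι : Type*} [Fintype ι] (D : ι → Type*) [∀ i, Field (D i)] [∀ i, Algebra κ (D i)]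
  [∀ i, Algebra A (D i)] [∀ i, IsScalarTower A κ (D i)] [∀ i, Module.Finite κ (D i)]
  (π : ∀ i, B →ₐ[A] D i)

/-- the `κ`-algebra map `κ ⊗ B → D i` induced by `π i` -/
noncomputable def barMap (i : ι) : κ ⊗[A] B →ₐ[κ] D i :=
  Algebra.TensorProduct.lift (Algebra.ofId κ (D i)) (π i) fun _ _ => Commute.all _ _

omit [IsDedekindDomain B] [Module.Free A B] [Module.Finite A B] [Fintype ι]
  [∀ i, Module.Finite κ (D i)] in
theorem barMap_includeRight (i : ι) (b : B) :
    barMap D π i ((Algebra.TensorProduct.includeRight : B →ₐ[A] κ ⊗[A] B) b) = π i b := by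
  simp [barMap]

/-- **Lemma CP for a Dedekind domain, with ramification.**  `A → κ` a surjection onto a field,
`B` a Dedekind domain, finite free over `A`; `π i : B → D i` surjections onto finitely many fields
(finite over `κ`) with pairwise distinct nonzero kernels `P i`; `e i` natural numbers with
`𝔪 B ⊆ P i ^ e i` (`𝔪 = ker (A → κ)`) and `rank_A B = ∑ e i * [D i : κ]`.  Then the characteristic
polynomial of `b ∈ B` over `A`, mapped to `κ[X]`, is `∏ χ_κ(π i b | D i) ^ e i`. -/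
theorem charpoly_map_eq_prod_pow (hκ : Function.Surjective (algebraMap A κ))
    (hπ : ∀ i, Function.Surjective (π i))
    (hinj : Function.Injective fun i => RingHom.ker (π i))
    (hne : ∀ i, RingHom.ker (π i) ≠ ⊥) (e : ι → ℕ)
    (he : ∀ i, (RingHom.ker (algebraMap A κ)).map (algebraMap A B) ≤ RingHom.ker (π i) ^ e i)
    (hdim : Module.finrank A B = ∑ i, e i * Module.finrank κ (D i)) (b : B) :
    ((Algebra.lmul A B b).charpoly).map (algebraMap A κ) =
      ∏ i, (Algebra.lmul κ (D i) (π i b)).charpoly ^ e i := by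
  classical
  let g : B →ₐ[A] κ ⊗[A] B := Algebra.TensorProduct.includeRight
  have hg : Function.Surjective g := includeRight_surjective hκ
  have hφg : ∀ i b, barMap D π i (g b) = π i b := barMap_includeRight D π
  have hφ : ∀ i, Function.Surjective (barMap (κ := κ) D π i) := fun i d => by
    obtain ⟨b, rfl⟩ := hπ i d
    exact ⟨g b, hφg i b⟩
  let 𝔭 : ι → Ideal (κ ⊗[A] B) := fun i => RingHom.ker (barMap (κ := κ) D π i)
  have hmax : ∀ i, (𝔭 i).IsMaximal := fun i =>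
    RingHom.ker_isMaximal_of_surjective (barMap (κ := κ) D π i) (hφ i)
  let g' : B →+* κ ⊗[A] B := g.toRingHom
  have hg' : Function.Surjective g' := hg
  have hmap : ∀ i, 𝔭 i = (RingHom.ker (π i)).map g' := by
    intro i
    ext y
    obtain ⟨b, rfl⟩ := hg y
    rw [RingHom.mem_ker, hφg, Ideal.mem_map_iff_of_surjective g' hg']
    constructor
    · intro h
      exact ⟨b, h, rfl⟩
    · rintro ⟨x, hx, hxb⟩
      have : π i x = π i b := by
        rw [← hφg i x, ← hφg i b]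
        exact congrArg _ hxb
      rw [← this]
      exact hx
  have hkerg : ∀ i, RingHom.ker g' ≤ RingHom.ker (π i) ^ e i := by
    intro i x hx
    apply he i
    apply ker_includeRight_le (κ := κ)
    exact hx
  have hfinQ : ∀ i, FiniteDimensional κ ((κ ⊗[A] B) ⧸ 𝔭 i) := fun i =>
    Module.Finite.equiv (Ideal.quotientKerAlgEquivOfSurjective (hφ i)).symm.toLinearEquiv
  have hdimQ : ∀ i, finrank κ ((κ ⊗[A] B) ⧸ 𝔭 i) = finrank κ (D i) := fun i =>
    (Ideal.quotientKerAlgEquivOfSurjective (hφ i)).toLinearEquiv.finrank_eq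
  have hchQ : ∀ i (y : κ ⊗[A] B),
      (Algebra.lmul κ ((κ ⊗[A] B) ⧸ 𝔭 i) (Ideal.Quotient.mk (𝔭 i) y)).charpoly =
        (Algebra.lmul κ (D i) (barMap D π i y)).charpoly := by
    intro i y
    haveI := hfinQ i
    have h1 := charpoly_lmul_algEquiv (Ideal.quotientKerAlgEquivOfSurjective (hφ i))
      (Ideal.Quotient.mk (𝔭 i) y)
    rw [← h1]
    rfl
  have hL : ∀ i, ∃ _ : FiniteDimensional κ ((κ ⊗[A] B) ⧸ 𝔭 i ^ e i),
      finrank κ ((κ ⊗[A] B) ⧸ 𝔭 i ^ e i) = e i * finrank κ ((κ ⊗[A] B) ⧸ 𝔭 i) ∧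
      ∀ y : κ ⊗[A] B,
        (Algebra.lmul κ ((κ ⊗[A] B) ⧸ 𝔭 i ^ e i) (Ideal.Quotient.mk (𝔭 i ^ e i) y)).charpoly =
        (Algebra.lmul κ ((κ ⊗[A] B) ⧸ 𝔭 i) (Ideal.Quotient.mk (𝔭 i) y)).charpoly ^ e i := by
    intro i
    haveI := hmax i
    haveI := hfinQ i
    haveI hprime : (RingHom.ker (π i)).IsPrime := RingHom.ker_isPrime (π i)
    apply charpoly_quotient_pow κ (𝔭 i) (e i)
    have := exists_generator_of_dedekind g' hg' (RingHom.ker (π i)) (hne i) (e i) (hkerg i)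
    rw [← hmap i] at this
    exact this
  choose hfinJ hdimJ hchJ using hL
  -- Chinese remainder theorem in `κ ⊗ B`
  have hc : ∀ k, RingHom.ker (π k) = (𝔭 k).comap g' := by
    intro k
    ext x
    rw [Ideal.mem_comap, RingHom.mem_ker, RingHom.mem_ker]
    exact (by rw [← hφg k x]; rfl)
  have h𝔭inj : Function.Injective 𝔭 := by
    intro i j hij
    apply hinj
    show RingHom.ker (π i) = RingHom.ker (π j)
    rw [hc i, hc j, hij]
  have hcop : Pairwise (Function.onFun IsCoprime fun i => 𝔭 i ^ e i) := by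
    intro i j hij
    have := hmax i
    have := hmax j
    have h1 : IsCoprime (𝔭 i) (𝔭 j) := Ideal.isCoprime_of_isMaximal (h𝔭inj.ne hij)
    exact h1.pow
  let Φ₀ : (κ ⊗[A] B) →ₗ[κ] ∀ i, (κ ⊗[A] B) ⧸ 𝔭 i ^ e i :=
    LinearMap.pi fun i => (Ideal.Quotient.mkₐ κ (𝔭 i ^ e i)).toLinearMap
  have hΦ₀ : ∀ t i, Φ₀ t i = Ideal.Quotient.mk (𝔭 i ^ e i) t := fun _ _ => rfl
  have hΦs : Function.Surjective Φ₀ := by
    intro y
    obtain ⟨r, hr⟩ := Ideal.pi_quotient_surjective hcop y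
    exact ⟨r, funext fun i => hr i⟩
  have hrank : finrank κ (κ ⊗[A] B) = finrank κ (∀ i, (κ ⊗[A] B) ⧸ 𝔭 i ^ e i) := by
    have : Nontrivial A := (algebraMap A κ).domain_nontrivial
    rw [Module.finrank_baseChange, Module.finrank_pi_fintype, hdim]
    exact Finset.sum_congr rfl fun i _ => by rw [hdimJ i, hdimQ i]
  have hΦi : Function.Injective Φ₀ :=
    (LinearMap.injective_iff_surjective_of_finrank_eq_finrank hrank).mpr hΦs
  let Φ : (κ ⊗[A] B) ≃ₗ[κ] ∀ i, (κ ⊗[A] B) ⧸ 𝔭 i ^ e i := LinearEquiv.ofBijective Φ₀ ⟨hΦi, hΦs⟩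
  -- the characteristic polynomial
  rw [← LinearMap.charpoly_baseChange]
  have h1 : (Algebra.lmul A B b).baseChange κ = Algebra.lmul κ (κ ⊗[A] B) (g b) := by
    apply LinearMap.ext
    intro t
    induction t using TensorProduct.induction_on with
    | zero => simp
    | tmul x y => simp [g, Algebra.TensorProduct.tmul_mul_tmul]
    | add x y hx hy => rw [map_add, hx, hy, map_add]
  have hconj : Φ.conj (Algebra.lmul κ (κ ⊗[A] B) (g b)) =
      LinearMap.piMap fun i => Algebra.lmul κ ((κ ⊗[A] B) ⧸ 𝔭 i ^ e i)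
        (Ideal.Quotient.mk (𝔭 i ^ e i) (g b)) := by
    apply LinearMap.ext
    intro y
    obtain ⟨t, rfl⟩ := Φ.surjective y
    rw [LinearEquiv.conj_apply_apply, LinearEquiv.symm_apply_apply]
    funext i
    show Φ₀ (g b * t) i = Ideal.Quotient.mk (𝔭 i ^ e i) (g b) * Φ₀ t i
    rw [hΦ₀, hΦ₀, map_mul]
  rw [h1, ← LinearEquiv.charpoly_conj Φ, hconj, charpoly_piMap]
  refine Finset.prod_congr rfl fun i _ => ?_
  rw [hchJ i, hchQ i, hφg]

end Main

end Fermat.Agent.N4F.E.CharpolyDedekind
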