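import Fermat.Agent.N4F.E.ChartStab
import Fermat.Agent.N4F.C.Centre

/-!
# N4-FULL / block E : reduction facts for the chart `−` ring `RtInf[1/g(u)]`

`R'₋ := RtInfG A N ℓ := chartAlg A (Q̄·F_N) {u, 1/g(u)}`, `u = j⁻¹`, `g(u) = gU N ℓ`
(`ChartIntegrality`): the ring in which the coefficients of `Ψ_h`, `h ∈ RtInf`, live.  Given the
chart facts `Hinf : Centre.ChartFacts A N (RtInf A N) SgInf`:

* (a) `exists_pow_mul_mem_RtInf` : `g ∈ R'₋ ⇒ g(u)^m · g ∈ RtInf` for some `m`;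
* (b) `thetaBar_gU_ne_zero` : the reduction of `g(u)` is nonzero;
* (c) `mem_gaussSub_of_mem_chartInfG`, `thetaBar_mem_full_of_mem_chartInfG`, and the ring
  homomorphism `thetaInfG Hinf : R'₋ →+* Ft A N`, `g ↦ thetaFt A N g`;
* (d) `rCan_infG` : (T1) for `rCan` on `R'₋` at the places off the chart `+`.
-/

set_option autoImplicit false
set_option linter.style.haveILetI false
set_option linter.unusedSectionVars false

noncomputable section

namespace Fermat.Agent.N4F.E.ChartInfTheta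

open Polynomial AlgebraicCurve ModularCurve Fermat.Agent.N4F.C Fermat.Agent.N4.Chart
  Fermat.Agent.N4F.E.ChartIntegrality Fermat.Agent.N4F.E.ChartStab Fermat.Agent.N4F.C.WRing
  Fermat.Agent.N4F.C.Centre

/-! ### Inverses in the Gauss ring -/

section GaussInv

open Fermat.Agent.N4F.C.GaussBar

variable {A : Type*} [CommRing A] [IsLocalRing A]
  {Q : Type*} [Field Q] [Algebra A Q] [FaithfulSMul A Q]

/-- An element of the Gauss ring with nonzero reduction is a unit of the Gauss ring. -/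
theorem inv_mem_gaussBar {x : LaurentSeries Q} (hx : x ∈ gaussBar A Q)
    (h : GaussBar.thetaBar (⟨x, hx⟩ : gaussBar A Q) ≠ 0) : x⁻¹ ∈ gaussBar A Q := by
  obtain ⟨a, b, hb, hab⟩ := id hx
  have hxab : ((⟨x, hx⟩ : gaussBar A Q) : LaurentSeries Q) * embBar A Q b = embBar A Q a := hab
  rw [thetaBar_eq _ hb hxab] at h
  have ha : redBar A a ≠ 0 := fun h0 => h (by rw [h0, zero_div])
  have hx0 : x ≠ 0 := by
    rintro rfl
    rw [zero_mul] at hab
    have : a = 0 := (embBar_eq_zero_iff Q).1 hab.symm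
    exact ha (by rw [this, map_zero])
  refine ⟨b, a, ha, ?_⟩
  rw [← hab, ← mul_assoc, inv_mul_cancel₀ hx0, one_mul]

end GaussInv

variable {A : ValuationSubring Qb} {N : ℕ} [NeZero N]

/-! ### Inverses in `gaussSub` -/

theorem inv_mem_gaussSub {g : Fb N} (hg : g ∈ gaussSub A N) (h : thetaBar A N g ≠ 0) :
    g⁻¹ ∈ gaussSub A N := by
  rw [mem_gaussSub_iff] at hg ⊢
  have h1 : ((g⁻¹ : Fb N) : LaurentSeries Qb) = ((g : Fb N) : LaurentSeries Qb)⁻¹ := by
    exact map_inv₀ (modularFunctionFieldBar N).val g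
  rw [h1]
  refine inv_mem_gaussBar hg ?_
  rw [thetaBar_of_mem hg] at h
  exact h

theorem thetaBar_inv {g : Fb N} (hg : g ∈ gaussSub A N) (h : thetaBar A N g ≠ 0) :
    thetaBar A N g⁻¹ = (thetaBar A N g)⁻¹ := by
  have hg0 : g ≠ 0 := by
    rintro rfl
    exact h thetaBar_zero
  have h1 := thetaBar_mul (inv_mem_gaussSub hg h) hg
  rw [inv_mul_cancel₀ hg0, thetaBar_one] at h1
  exact eq_inv_of_mul_eq_one_left h1.symm

theorem thetaBar_pow {g : Fb N} (hg : g ∈ gaussSub A N) (m : ℕ) :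
    thetaBar A N (g ^ m) = thetaBar A N g ^ m := by
  induction m with
  | zero => rw [pow_zero, pow_zero, thetaBar_one]
  | succ m ih =>
    rw [pow_succ, pow_succ, thetaBar_mul ((gaussSub A N).pow_mem hg m) hg, ih]

theorem jb_mem_gaussSub : jb N ∈ gaussSub A N := by
  refine ⟨jqModC ↥A, 1, by rw [map_one]; exact one_ne_zero, ?_⟩
  rw [map_one, mul_one]
  show jqModC Qb = _
  exact (coeffMap_jqModC (R := ↥A) (algebraMap ↥A Qb)).symm

/-- The reduction of an integer polynomial in an element of `gaussSub`. -/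
theorem thetaBar_eval₂_int {g : Fb N} (hg : g ∈ gaussSub A N) (p : ℤ[X]) :
    eval₂ (Int.castRingHom (Fb N)) g p ∈ gaussSub A N ∧
      thetaBar A N (eval₂ (Int.castRingHom (Fb N)) g p) =
        eval₂ (Int.castRingHom (LaurentSeries (Kap A))) (thetaBar A N g) p := by
  have e1 : eval₂ (Int.castRingHom (Fb N)) g p =
      ((eval₂ (Int.castRingHom ↥(gaussSub A N)) (⟨g, hg⟩ : gaussSub A N) p : gaussSub A N) :
        Fb N) := by
    have := Polynomial.hom_eval₂ p (Int.castRingHom ↥(gaussSub A N)) (gaussSub A N).subtype ⟨g, hg⟩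
    rw [show (gaussSub A N).subtype.comp (Int.castRingHom ↥(gaussSub A N)) =
      Int.castRingHom (Fb N) from RingHom.ext_int _ _] at this
    exact this.symm
  have hmem : eval₂ (Int.castRingHom (Fb N)) g p ∈ gaussSub A N := by
    rw [e1]; exact (eval₂ (Int.castRingHom ↥(gaussSub A N)) (⟨g, hg⟩ : gaussSub A N) p).2
  refine ⟨hmem, ?_⟩
  have e2 := Polynomial.hom_eval₂ p (Int.castRingHom ↥(gaussSub A N)) (thetaHom A N) ⟨g, hg⟩
  rw [show (thetaHom A N).comp (Int.castRingHom ↥(gaussSub A N)) =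
    Int.castRingHom (LaurentSeries (Kap A)) from RingHom.ext_int _ _] at e2
  rw [thetaBar_of_mem hmem, thetaBar_of_mem hg, ← e2]
  congr 1
  exact Subtype.ext e1

/-! ### (a) The ring `R'₋ = RtInf[1/g(u)]` -/

section RtInfG

variable (A N) (ℓ : ℕ) [NeZero ℓ]

/-- `R'₋`: the integral closure of `A[u, 1/g(u)]` in `Q̄·F_N`, `u = j⁻¹`. -/
abbrev RtInfG : Subalgebra ↥A (Fb N) := chartAlg ↥A (Fb N) {(jb N)⁻¹, (gU N ℓ)⁻¹}

theorem RtInf_le_RtInfG : RtInf A N ≤ RtInfG A N ℓ :=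
  chartAlg_mono (Set.singleton_subset_iff.2 (Set.mem_insert _ _))

theorem gU_mem_RtInf : gU N ℓ ∈ RtInf A N := adjoin_le_chartAlg _ (gU_mem_adjoin A N ℓ)

theorem gU_inv_mem_RtInfG : (gU N ℓ)⁻¹ ∈ RtInfG A N ℓ :=
  subset_chartAlg _ (Set.mem_insert_of_mem _ (Set.mem_singleton _))

variable {A N}

/-- **(a)** Every element of `R'₋` becomes an element of `RtInf` after multiplication by a power
of `g(u)`. -/
theorem exists_pow_mul_mem_RtInf {g : Fb N} (hg : g ∈ RtInfG A N ℓ) :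
    ∃ m : ℕ, gU N ℓ ^ m * g ∈ RtInf A N := by
  have h2 : chartAlg ↥A (Fb N) {(jb N)⁻¹, (gU N ℓ)⁻¹} ≤
      chartAlg ↥A (Fb N) (insert (gU N ℓ)⁻¹ {gU N ℓ, (jb N)⁻¹}) := by
    apply chartAlg_mono
    rintro x (rfl | rfl)
    · exact Set.mem_insert_of_mem _ (Set.mem_insert_of_mem _ (Set.mem_singleton _))
    · exact Set.mem_insert _ _
  obtain ⟨m, hm⟩ := exists_pow_mul_mem_chartAlg (O := ↥A) (S := {gU N ℓ, (jb N)⁻¹})
    (Set.mem_insert _ _) (gU_ne_zero N ℓ) (h2 hg)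
  exact ⟨m, chartAlg_insert_le A N (gU_mem_adjoin A N ℓ) hm⟩

/-! ### (b) The reduction of `g(u)` -/

theorem thetaBar_jb_ne_zero : thetaBar A N (jb N) ≠ 0 := by
  rw [thetaBar_jb]
  exact jqModC_ne_zero_of_nontrivial (Kap A)

theorem jb_inv_mem_gaussSub : (jb N)⁻¹ ∈ gaussSub A N :=
  inv_mem_gaussSub jb_mem_gaussSub thetaBar_jb_ne_zero

theorem thetaBar_jb_inv : thetaBar A N (jb N)⁻¹ = (jqModC (Kap A))⁻¹ := by
  rw [thetaBar_inv jb_mem_gaussSub thetaBar_jb_ne_zero, thetaBar_jb]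

theorem gU_mem_gaussSub : gU N ℓ ∈ gaussSub A N :=
  (thetaBar_eval₂_int jb_inv_mem_gaussSub (gPoly ℓ)).1

/-- The reduction of `g(u)` is `ḡ(ū)`, `ū = j̄⁻¹`. -/
theorem thetaBar_gU : thetaBar A N (gU N ℓ) =
    eval₂ (Int.castRingHom (LaurentSeries (Kap A))) (jqModC (Kap A))⁻¹ (gPoly ℓ) := by
  rw [← thetaBar_jb_inv (A := A) (N := N)]
  exact (thetaBar_eval₂_int jb_inv_mem_gaussSub (gPoly ℓ)).2

/-- **(b)** The reduction of `g(u)` is nonzero. -/
theorem thetaBar_gU_ne_zero : thetaBar A N (gU N ℓ) ≠ 0 := by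
  rw [thetaBar_gU]
  have htr : Transcendental (Kap A) (jqModC (Kap A))⁻¹ := by
    intro halg
    have h1 := halg.inv
    rw [inv_inv] at h1
    exact Fermat.Agent.S24.FFBasics.transcendental_jqModC (Kap A) h1
  rw [transcendental_iff] at htr
  intro h0
  have h1 : Polynomial.aeval (jqModC (Kap A))⁻¹ ((gPoly ℓ).map (Int.castRingHom (Kap A))) = 0 := by
    rw [Polynomial.aeval_def, Polynomial.eval₂_map,
      show (algebraMap (Kap A) (LaurentSeries (Kap A))).comp (Int.castRingHom (Kap A)) =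
        Int.castRingHom (LaurentSeries (Kap A)) from RingHom.ext_int _ _]
    exact h0
  have h2 := htr _ h1
  have h3 := congrArg (fun p : (Kap A)[X] => p.coeff 0) h2
  simp only [Polynomial.coeff_map, Polynomial.coeff_zero] at h3
  rcases gPoly_coeff_zero ℓ with h4 | h4
  · rw [h4, map_one] at h3
    exact one_ne_zero h3
  · rw [h4, map_neg, map_one, neg_eq_zero] at h3
    exact one_ne_zero h3

theorem gU_inv_mem_gaussSub : (gU N ℓ)⁻¹ ∈ gaussSub A N :=
  inv_mem_gaussSub (gU_mem_gaussSub ℓ) (thetaBar_gU_ne_zero ℓ)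

/-! ### (c) `R'₋ ⊆ gaussSub`, reductions in `F_N(κ)`, the ring homomorphism `thetaInfG` -/

variable {SgInf : Subalgebra (Kap A) (Ft A N)} (Hinf : ChartFacts A N (RtInf A N) SgInf)

theorem eq_inv_pow_mul (g : Fb N) (m : ℕ) :
    g = ((gU N ℓ)⁻¹) ^ m * (gU N ℓ ^ m * g) := by
  rw [← mul_assoc, ← mul_pow, inv_mul_cancel₀ (gU_ne_zero N ℓ), one_pow, one_mul]

include Hinf in
/-- **(c)** `R'₋` consists of Gauss-integral functions. -/
theorem mem_gaussSub_of_mem_chartInfG {g : Fb N} (hg : g ∈ RtInfG A N ℓ) : g ∈ gaussSub A N := by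
  obtain ⟨m, hm⟩ := exists_pow_mul_mem_RtInf ℓ hg
  rw [eq_inv_pow_mul ℓ g m]
  exact (gaussSub A N).mul_mem ((gaussSub A N).pow_mem (gU_inv_mem_gaussSub ℓ) m)
    (Hinf.le_gauss _ hm)

include Hinf in
/-- **(c)** The reduction of an element of `R'₋` lies in the function field of the special
fibre. -/
theorem thetaBar_mem_full_of_mem_chartInfG {g : Fb N} (hg : g ∈ RtInfG A N ℓ) :
    thetaBar A N g ∈ modularFunctionFieldFullC (Kap A) N := by
  obtain ⟨m, hm⟩ := exists_pow_mul_mem_RtInf ℓ hg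
  rw [eq_inv_pow_mul ℓ g m,
    thetaBar_mul ((gaussSub A N).pow_mem (gU_inv_mem_gaussSub ℓ) m) (Hinf.le_gauss _ hm),
    thetaBar_pow (gU_inv_mem_gaussSub ℓ), thetaBar_inv (gU_mem_gaussSub ℓ) (thetaBar_gU_ne_zero ℓ)]
  exact mul_mem (pow_mem (inv_mem (Hinf.theta_mem _ (gU_mem_RtInf A N ℓ))) m)
    (Hinf.theta_mem _ hm)

/-- **(c)** The reduction map of `R'₋`, a ring homomorphism extending `thetaRt Hinf`. -/
def thetaInfG : ↥(RtInfG A N ℓ) →+* Ft A N where
  toFun g := thetaFt A N (g : Fb N)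
  map_one' := thetaFt_one
  map_mul' g h := thetaFt_mul (mem_gaussSub_of_mem_chartInfG ℓ Hinf g.2)
    (mem_gaussSub_of_mem_chartInfG ℓ Hinf h.2) (thetaBar_mem_full_of_mem_chartInfG ℓ Hinf g.2)
    (thetaBar_mem_full_of_mem_chartInfG ℓ Hinf h.2)
  map_zero' := thetaFt_zero
  map_add' g h := thetaFt_add (mem_gaussSub_of_mem_chartInfG ℓ Hinf g.2)
    (mem_gaussSub_of_mem_chartInfG ℓ Hinf h.2) (thetaBar_mem_full_of_mem_chartInfG ℓ Hinf g.2)
    (thetaBar_mem_full_of_mem_chartInfG ℓ Hinf h.2)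

@[simp] theorem thetaInfG_apply (g : ↥(RtInfG A N ℓ)) :
    thetaInfG ℓ Hinf g = thetaFt A N (g : Fb N) := rfl

theorem thetaInfG_algebraMap (c : ↥A) :
    thetaInfG ℓ Hinf (algebraMap ↥A ↥(RtInfG A N ℓ) c) =
      algebraMap (Kap A) (Ft A N) (IsLocalRing.residue ↥A c) :=
  thetaFt_const c

include Hinf in
/-- The reduction of `g(u)` as an element of `F_N(κ)` is nonzero. -/
theorem thetaFt_gU_ne_zero : thetaFt A N (gU N ℓ) ≠ 0 := by
  intro h0
  have h1 := congrArg Subtype.val h0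
  rw [coe_thetaFt_of_mem (Hinf.theta_mem _ (gU_mem_RtInf A N ℓ))] at h1
  exact thetaBar_gU_ne_zero ℓ h1

end RtInfG

/-! ### (d) (T1) for `rCan` on `R'₋` -/

section PlaceLemmas

variable {K F : Type*} [Field K] [Field F] [Algebra K F] (Q : Place K F)

theorem pow_sub_pow_mem_nonunits {a b : F} (ha : a ∈ Q.toValuationSubring)
    (hb : b ∈ Q.toValuationSubring) (h : a - b ∈ Q.toValuationSubring.nonunits) (m : ℕ) :
    a ^ m - b ^ m ∈ Q.toValuationSubring.nonunits := by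
  induction m with
  | zero =>
    rw [pow_zero, pow_zero, sub_self]
    exact zero_mem_nonunits' Q
  | succ m ih =>
    have e : a ^ (m + 1) - b ^ (m + 1) = a * (a ^ m - b ^ m) + b ^ m * (a - b) := by ring
    rw [e]
    exact add_mem_nonunits Q (mul_mem_nonunits Q ha ih) (mul_mem_nonunits Q (pow_mem hb m) h)

theorem pow_not_mem_nonunits {a : F} (ha : a ∈ Q.toValuationSubring)
    (ha' : a ∉ Q.toValuationSubring.nonunits) (m : ℕ) :
    a ^ m ∉ Q.toValuationSubring.nonunits := by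
  have h1 : Q.toValuationSubring.valuation a = 1 := by
    have hle : Q.toValuationSubring.valuation a ≤ 1 :=
      (ValuationSubring.valuation_le_one_iff _ _).mpr ha
    exact le_antisymm hle (not_lt.1 fun hlt => ha' ((ValuationSubring.mem_nonunits_iff _).2 hlt))
  rw [ValuationSubring.mem_nonunits_iff, map_pow, h1, one_pow]
  exact lt_irrefl _

end PlaceLemmas

section RCanG

variable (ℓ : ℕ) [NeZero ℓ] {SgFin SgInf : Subalgebra (Kap A) (Ft A N)}
  (Hfin : ChartFacts A N (RtFin A N) SgFin) (Hinf : ChartFacts A N (RtInf A N) SgInf)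

/-- **(d) (T1) on `R'₋`.** At a place `P` off the chart `+`: `g ≡ c` at `P` implies
`thetaFt g ≡ c̄` at `rCan P`, for every `g ∈ R'₋ = RtInf[1/g(u)]`. -/
theorem rCan_infG (P : Place Qb (Fb N)) (hj : ¬ IntAt A P (jb N)) (g : Fb N)
    (hg : g ∈ RtInfG A N ℓ) (c : ↥A)
    (hc : g - algebraMap Qb (Fb N) (c : Qb) ∈ P.toValuationSubring.nonunits) :
    thetaFt A N g - algebraMap (Kap A) (Ft A N) (IsLocalRing.residue ↥A c) ∈
      (rCan Hfin Hinf P).toValuationSubring.nonunits := by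
  obtain ⟨m, hm⟩ := exists_pow_mul_mem_RtInf ℓ hg
  obtain ⟨hU, hUunit⟩ := exists_intAt_gU_of_not ℓ hj
  set cU : ↥A := valAt hU with hcU
  -- the value of `g(u)^m * g` at `P`
  let wU : wRing A P := ⟨gU N ℓ, hU⟩
  let wg : wRing A P := ⟨g, ⟨c, hc⟩⟩
  have hwg : valW A P wg = c := valAt_eq _ hc
  have hy : gU N ℓ ^ m * g - algebraMap Qb (Fb N) ((cU ^ m * c : ↥A) : Qb) ∈
      P.toValuationSubring.nonunits := by
    have h1 := valW_spec P (wU ^ m * wg)
    rw [map_mul, map_pow, hwg] at h1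
    exact h1
  -- (T1) on `RtInf`
  have h1 := rCan_inf_of_not Hfin Hinf P hj _ hm (cU ^ m * c) hy
  have h2 := rCan_inf_of_not Hfin Hinf P hj _ (gU_mem_RtInf A N ℓ) cU (valAt_spec hU)
  set Q := rCan Hfin Hinf P with hQ
  -- multiplicativity of `thetaFt` on `R'₋`
  have hmul : thetaFt A N (gU N ℓ ^ m * g) = thetaFt A N (gU N ℓ) ^ m * thetaFt A N g := by
    have h3 := map_mul (thetaInfG ℓ Hinf)
      ((⟨gU N ℓ, RtInf_le_RtInfG A N ℓ (gU_mem_RtInf A N ℓ)⟩ : ↥(RtInfG A N ℓ)) ^ m) ⟨g, hg⟩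
    rw [map_pow] at h3
    exact h3
  rw [hmul] at h1
  set a := thetaFt A N (gU N ℓ) with ha
  set b := thetaFt A N g with hb
  have hres : IsLocalRing.residue ↥A cU ≠ 0 := by
    intro h0
    exact (IsLocalRing.residue_eq_zero_iff _).1 h0 hUunit
  have haO : a ∈ Q.toValuationSubring := mem_of_sub_const_mem_nonunits Q h2
  have ha' : a ∉ Q.toValuationSubring.nonunits := by
    intro h
    have h3 := sub_mem_nonunits Q h h2
    rw [sub_sub_cancel] at h3
    exact const_not_mem_nonunits' Q hres h3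
  have hpow := pow_sub_pow_mem_nonunits Q haO (Q.algebraMap_mem' (IsLocalRing.residue ↥A cU)) h2 m
  have key : a ^ m * (b - algebraMap (Kap A) (Ft A N) (IsLocalRing.residue ↥A c)) =
      (a ^ m * b - algebraMap (Kap A) (Ft A N) (IsLocalRing.residue ↥A (cU ^ m * c))) -
        algebraMap (Kap A) (Ft A N) (IsLocalRing.residue ↥A c) *
          (a ^ m - algebraMap (Kap A) (Ft A N) (IsLocalRing.residue ↥A cU) ^ m) := by
    rw [map_mul, map_pow, map_mul, map_pow]
    ring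
  refine mem_nonunits_of_mul_mem Q (pow_mem haO m) (pow_not_mem_nonunits Q haO ha' m) ?_
  rw [key]
  exact sub_mem_nonunits Q h1 (mul_mem_nonunits Q (Q.algebraMap_mem' _) hpow)

/-- `R'₋` is regular at `rCan P` for `P` off the chart `+`. -/
theorem thetaFt_mem_rCan_of_mem_chartInfG (P : Place Qb (Fb N)) (hj : ¬ IntAt A P (jb N))
    {g : Fb N} (hg : g ∈ RtInfG A N ℓ) :
    thetaFt A N g ∈ (rCan Hfin Hinf P).toValuationSubring := by
  have hW := chartInf_le_wRing ℓ hj hg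
  exact mem_of_sub_const_mem_nonunits _ (rCan_infG ℓ Hfin Hinf P hj g hg _ (valAt_spec hW))

/-- **The `spec` field of `TheoremE.ChartHyp` for the chart `−`**, with `R' := R'₋`,
`θ := thetaInfG`, `r := rCan`, `InChart P := ¬ IntAt A P (jb N)`. -/
theorem spec_infG (P : Place Qb (Fb N)) (hj : ¬ IntAt A P (jb N)) (g : ↥(RtInfG A N ℓ)) :
    ∃ c : ↥A, (g : Fb N) - algebraMap Qb (Fb N) (c : Qb) ∈ P.toValuationSubring.nonunits ∧
      thetaInfG ℓ Hinf g - algebraMap (Kap A) (Ft A N) (IsLocalRing.residue ↥A c) ∈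
        (rCan Hfin Hinf P).toValuationSubring.nonunits := by
  have hW := chartInf_le_wRing ℓ hj g.2
  exact ⟨valAt hW, valAt_spec hW, rCan_infG ℓ Hfin Hinf P hj g g.2 _ (valAt_spec hW)⟩

end RCanG

end Fermat.Agent.N4F.E.ChartInfTheta

end
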