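/-
N4-FULL, block E: the two degeneracy maps `α, β : FF K N → FF K (N ℓ)` over an ARBITRARY base field `K`
(Setting language: `FF K N = modularFunctionFieldFullC K N ⊆ K((q))`).

* `alphaK K N ℓ` : the inclusion (`x(q) ↦ x(q)`),
* `betaK K N ℓ`  : `x(q) ↦ x(q^ℓ)` (`qExpand K ℓ`).

These are the analogues, for the fields `modularFunctionFieldFullC K N`, of the prelude's
`heckeAlphaBar`, `heckeBetaBar` (which live on `laurentBaseChange L (modularFunctionFieldFull N)`).
-/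
import Fermat.Agent.N4.Setting

set_option autoImplicit false

open ModularCurve Fermat.Agent.N4.Setting

noncomputable section

namespace Fermat.Agent.N4F.E.LevelMapsK

variable (K : Type) [Field K] (N ℓ : ℕ) [NeZero N] [NeZero ℓ]

instance neZero_mul : NeZero (N * ℓ) := ⟨Nat.mul_ne_zero (NeZero.ne N) (NeZero.ne ℓ)⟩

/-- The inclusion `FF K N ⊆ FF K (N ℓ)`. -/
def alphaK : FF K N →ₐ[K] FF K (N * ℓ) :=
  IntermediateField.inclusion (full_degeneracyC_le K (dvd_mul_right N ℓ))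

@[simp]
theorem coe_alphaK (x : FF K N) : ((alphaK K N ℓ x : FF K (N * ℓ)) : LaurentSeries K) = x :=
  IntermediateField.coe_inclusion _ x

theorem alphaK_injective : Function.Injective (alphaK K N ℓ) := (alphaK K N ℓ).injective

omit [NeZero N] in
theorem qExpand_mem_full {x : LaurentSeries K} (hx : x ∈ modularFunctionFieldFullC K N) :
    qExpand K ℓ x ∈ modularFunctionFieldFullC K (N * ℓ) :=
  full_degeneracyC_map_le K N ℓ ⟨x, hx, rfl⟩

/-- The map `x(q) ↦ x(q^ℓ)`, `FF K N → FF K (N ℓ)`. -/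
def betaK : FF K N →ₐ[K] FF K (N * ℓ) where
  toFun x := ⟨qExpand K ℓ (x : LaurentSeries K), qExpand_mem_full K N ℓ x.2⟩
  map_one' := Subtype.ext (map_one (qExpand K ℓ))
  map_mul' _ _ := Subtype.ext (map_mul (qExpand K ℓ) _ _)
  map_zero' := Subtype.ext (map_zero (qExpand K ℓ))
  map_add' _ _ := Subtype.ext (map_add (qExpand K ℓ) _ _)
  commutes' a := Subtype.ext <| by
    show qExpand K ℓ (algebraMap K (LaurentSeries K) a) = algebraMap K (LaurentSeries K) a
    rw [algebraMap_laurentSeries_eq_single, qExpand_single, mul_zero]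

omit [NeZero N] in
@[simp]
theorem coe_betaK (x : FF K N) :
    ((betaK K N ℓ x : FF K (N * ℓ)) : LaurentSeries K) = qExpand K ℓ (x : LaurentSeries K) :=
  rfl

omit [NeZero N] in
theorem betaK_injective : Function.Injective (betaK K N ℓ) := (betaK K N ℓ).injective

/-- `α (j(q^d)) = j(q^d)` as an element of level `N ℓ`. -/
theorem alphaK_jdF {d : ℕ} [NeZero d] (hd : d ∣ N) :
    alphaK K N ℓ (jdF K N hd) = jdF K (N * ℓ) (hd.trans (dvd_mul_right N ℓ)) := by
  apply Subtype.ext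
  rw [coe_alphaK, coe_jdF, coe_jdF]

theorem alphaK_jF : alphaK K N ℓ (jF K N) = jF K (N * ℓ) := by
  apply Subtype.ext
  rw [coe_alphaK, coe_jF, coe_jF]

/-- `β (j(q^d)) = j(q^{ℓ d})`. -/
theorem betaK_jdF {d : ℕ} [NeZero d] (hd : d ∣ N) :
    haveI : NeZero (ℓ * d) := ⟨Nat.mul_ne_zero (NeZero.ne ℓ) (NeZero.ne d)⟩
    betaK K N ℓ (jdF K N hd) =
      jdF K (N * ℓ) (d := ℓ * d) ((mul_dvd_mul_left ℓ hd).trans (dvd_of_eq (mul_comm ℓ N))) := by
  have : NeZero (ℓ * d) := ⟨Nat.mul_ne_zero (NeZero.ne ℓ) (NeZero.ne d)⟩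
  apply Subtype.ext
  rw [coe_betaK, coe_jdF, coe_jdF, qExpand_qExpand]

/-- `β j = j(q^ℓ)`. -/
theorem betaK_jF :
    betaK K N ℓ (jF K N) = jdF K (N * ℓ) (d := ℓ) (dvd_mul_left ℓ N) := by
  apply Subtype.ext
  rw [coe_betaK, coe_jF, coe_jdF]

end Fermat.Agent.N4F.E.LevelMapsK
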