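import Mathlib
import Fermat.Agent.N4F.E.NormReduction
import Fermat.Agent.N4F.E.TorsionCongruenceBar

/-!
# N4-FULL block E: the torsion Eichler–Shimura congruence over `Q̄` from (†α)

Plug of `E/NormReduction.hnorm_of_dagger` into helper3's `E/TorsionCongruence(Bar)`:

* `normReduction_of_dagger` : `TorsionCongruence.NormReduction A (residue A) N ℓ (coeffAut _ N φ)`;
* `hES_of_dagger` : the hypothesis `hES` of `ESAssembly.esCoreTors_of_parts` (clause (iii) of
  `Core.ESCoreTors`) for ANY place map `r` with the prelude's spec, given `(∗)` (`PGI.StarOmegaHyp` = `SmoothModel.starTargetOmega`) and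
  (†α) (`NormReduction.DaggerTarget`) at all good levels.
-/

set_option autoImplicit false
set_option linter.unusedSectionVars false
set_option linter.style.haveILetI false

open AlgebraicCurve ModularCurve

namespace Fermat.Agent.N4F.E.NormReductionBar

open Fermat.Agent.N4.Setting Fermat.Agent.N4F.C.CoeffAut Fermat.Agent.N4F.E.NormReduction
  Fermat.Agent.N4F.E.TorsionCongruence Fermat.Agent.N4F.E.TorsionCongruenceBar

local notation "Qb" => AlgebraicClosure ℚ

/-- **(N)** in helper3's packaging. -/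
theorem normReduction_of_dagger (hStar : Fermat.Agent.N4F.C.PGI.StarOmegaHyp) (hDag : DaggerTarget)
    (A : ValuationSubring Qb) (N : ℕ) [NeZero N] (ℓ : ℕ) [Fact ℓ.Prime]
    (hA : A.LiesOverPrime ℓ) (hℓN : ¬ ℓ ∣ N)
    (φ : IsLocalRing.ResidueField ↥A ≃+* IsLocalRing.ResidueField ↥A) (hφ : ∀ x, φ x = x ^ ℓ) :
    NormReduction A (IsLocalRing.residue ↥A) N ℓ
      (coeffAut (IsLocalRing.ResidueField ↥A) N φ) :=
  fun y hy hyk hne => hnorm_of_dagger A N hStar hDag ℓ hA hℓN φ hφ y hy hyk hne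

/-- **Clause (iii) of `Core.ESCoreTors`** (= `hES` of `ESAssembly.esCoreTors_of_parts`) from `(∗)` and
(†α) at all good levels, for any place map `r` with the prelude's spec. -/
theorem hES_of_dagger (hStar : Fermat.Agent.N4F.C.PGI.StarOmegaHyp) (hDag : DaggerTarget) (N : ℕ) [NeZero N] (ℓ : ℕ)
    (hℓ : ℓ.Prime) (A : ValuationSubring Qb) (hA : A.LiesOverPrime ℓ) (hℓN : ¬ ℓ ∣ N)
    (r : Place Qb (modularFunctionFieldBar N) →
      Place (IsLocalRing.ResidueField ↥A) (modularFunctionFieldFullC (IsLocalRing.ResidueField ↥A) N))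
    (hr : IsPlaceReductionAlong A (IsLocalRing.residue ↥A) N r)
    (hgen : PrincipalGeneratedByIntegral A (IsLocalRing.residue ↥A) N)
    (φ : IsLocalRing.ResidueField ↥A ≃+* IsLocalRing.ResidueField ↥A) (hφ : ∀ x, φ x = x ^ ℓ)
    (x : JZero N) (hx : ∃ m : ℕ, m ≠ 0 ∧ m • x = 0) :
    reductionPic0Along r hr hgen (heckeOperatorBar N ⟨ℓ, hℓ⟩ x) =
      coeffAut (IsLocalRing.ResidueField ↥A) N φ • reductionPic0Along r hr hgen x +
        ℓ • ((coeffAut (IsLocalRing.ResidueField ↥A) N φ)⁻¹ • reductionPic0Along r hr hgen x) := by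
  haveI : Fact ℓ.Prime := ⟨hℓ⟩
  exact reductionPic0Along_heckeOperatorBar_of_torsion N ℓ hℓ r hr hgen _
    (normReduction_of_dagger hStar hDag A N ℓ hA hℓN φ hφ) x hx

end Fermat.Agent.N4F.E.NormReductionBar
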