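import Mathlib
import Fermat.Agent.N4F.E.NormFromCharpoly
import Fermat.Agent.N4F.E.NormReductionBar
import Fermat.Agent.N4F.Res.FromBlocks
import Fermat.Agent.N4.SmoothModel

/-!
# N4-FULL block E-tors: the `normRed` field of `Res.FinalCond.Blocks` from (†α)

`normRed_of_charpolyForm` / `normRed_of_normForm` / `normRed_of_daggerTarget` : the E-tors input
`∀ N ℓ hℓ, ¬ ℓ ∣ N → ∀ A, A.LiesOverPrime ℓ → FromBlocks.NormRedAll N ℓ hℓ A` of helper11's
`Res.FinalCond.Blocks`, from (†α) at all good levels (`(∗)` = `SmoothModel.starTargetOmega`).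
-/

set_option autoImplicit false

namespace Fermat.Agent.N4F.E.NormRedFinal

open Fermat.Agent.N4F.E Fermat.Agent.N4F.Res.FromBlocks Fermat.Agent.N4F.C

/-- `Blocks.normRed` from `NormReduction.DaggerTarget`. -/
theorem normRed_of_daggerTarget (hDag : NormReduction.DaggerTarget) (N : ℕ) [NeZero N] (ℓ : ℕ)
    (hℓ : ℓ.Prime) (hℓN : ¬ ℓ ∣ N) (A : ValuationSubring Qb) (hA : A.LiesOverPrime ℓ) :
    NormRedAll N ℓ hℓ A :=
  fun φ hφ =>
    haveI : Fact ℓ.Prime := ⟨hℓ⟩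
    NormReductionBar.normReduction_of_dagger Fermat.Agent.N4.SmoothModel.starTargetOmega hDag
      A N ℓ hA hℓN φ hφ

/-- `Blocks.normRed` from the NORM FORM of (†α). -/
theorem normRed_of_normForm (h : DaggerAdapter.AlphaNormForm) (N : ℕ) [NeZero N] (ℓ : ℕ)
    (hℓ : ℓ.Prime) (hℓN : ¬ ℓ ∣ N) (A : ValuationSubring Qb) (hA : A.LiesOverPrime ℓ) :
    NormRedAll N ℓ hℓ A :=
  normRed_of_daggerTarget (DaggerAdapter.daggerTarget_of_normForm h) N ℓ hℓ hℓN A hA

/-- `Blocks.normRed` from the characteristic-polynomial form of (†α). -/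
theorem normRed_of_charpolyForm (h : NormFromCharpoly.AlphaCharpolyForm) (N : ℕ) [NeZero N]
    (ℓ : ℕ) (hℓ : ℓ.Prime) (hℓN : ¬ ℓ ∣ N) (A : ValuationSubring Qb) (hA : A.LiesOverPrime ℓ) :
    NormRedAll N ℓ hℓ A :=
  normRed_of_daggerTarget (NormFromCharpoly.daggerTarget_of_charpolyForm h) N ℓ hℓ hℓN A hA

end Fermat.Agent.N4F.E.NormRedFinal
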