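/-
N4-FULL, block E (helper26): THEOREM E FOR `rCan`, FINAL PLUG.

`TheoremEModular.mapDomain_heckeDivBar_rCan` with its inputs discharged:
* the chart-(−) reduction facts `hG1, hG2, hG3` by helper12's `E/ChartInfTheta`;
* the two `ChartFacts` bundles by helper9's `C/ChartFactsProof` (unconditional);
* `DaggerBeta` by `DaggerBetaGlue.daggerBeta_of_target` from (†β) at all good bases (`BetaTarget`)
  and `(∗)` (`SmoothModel.starTargetOmega`).

Remaining hypotheses: `BetaTarget` (helper15's `E/BetaSide`) and `hdegt` (helper25's `C/DegOne`).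
-/
import Mathlib
import Fermat.Agent.N4F.E.TheoremEModular
import Fermat.Agent.N4F.E.DaggerBetaGlue
import Fermat.Agent.N4F.E.ChartInfTheta
import Fermat.Agent.N4F.C.ChartFactsProof
import Fermat.Agent.N4.SmoothModel

set_option autoImplicit false
set_option linter.style.haveILetI false
set_option linter.unusedSectionVars false
set_option synthInstance.maxHeartbeats 400000
set_option maxHeartbeats 1600000

open AlgebraicCurve ModularCurve Polynomial

noncomputable section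

namespace Fermat.Agent.N4F.E.TheoremEFinal

open Fermat.Agent.N4F.C Fermat.Agent.N4F.C.Centre Fermat.Agent.N4F.C.WRing
  Fermat.Agent.N4F.C.CoeffAut Fermat.Agent.N4F.C.ChartFibre
  Fermat.Agent.N4F.E.TheoremEModular Fermat.Agent.N4F.E.DaggerBetaGlue
  Fermat.Agent.N4F.A.LevelMaps

variable {A : ValuationSubring Qb} {N : ℕ} [NeZero N] {ℓ : ℕ} [Fact ℓ.Prime]
  {SgFin SgInf : Subalgebra (Kap A) (Ft A N)}

/-- **Theorem E for `rCan`**, any pair of `ChartFacts` bundles; the chart-(−) facts discharged. -/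
theorem mapDomain_heckeDivBar_rCan_of_dagger (hA : A.LiesOverPrime ℓ) (hℓN : ¬ ℓ ∣ N)
    (hdag : DaggerBeta A N ℓ)
    (Hfin : ChartFacts A N (RtFin A N) SgFin) (Hinf : ChartFacts A N (RtInf A N) SgInf)
    (hdegt : ∀ y : Place (Kap A) (Ft A N), y.deg = 1)
    (φ : Kap A ≃+* Kap A) (hφ : ∀ a, φ a = a ^ ℓ) :
    haveI := hasPrincipalDivisors_bar (N * ℓ)
    ∀ D : Divisor Qb (Fb N),
    Finsupp.mapDomain (rCan Hfin Hinf)
        (heckeDivBar (heckeAlphaBarIntegral N ℓ) (heckeBetaBarIntegral N ℓ) D) =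
      coeffAut (Kap A) N φ • Finsupp.mapDomain (rCan Hfin Hinf) D +
        (ℓ : ℤ) • ((coeffAut (Kap A) N φ)⁻¹ • Finsupp.mapDomain (rCan Hfin Hinf) D) :=
  haveI : NeZero ℓ := ⟨(Fact.out : ℓ.Prime).ne_zero⟩
  mapDomain_heckeDivBar_rCan hA hℓN hdag Hfin Hinf hdegt
    (fun _ hg => Fermat.Agent.N4F.E.ChartInfTheta.mem_gaussSub_of_mem_chartInfG ℓ Hinf hg)
    (fun _ hg => Fermat.Agent.N4F.E.ChartInfTheta.thetaBar_mem_full_of_mem_chartInfG ℓ Hinf hg)
    (fun P hj g hg c hc =>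
      Fermat.Agent.N4F.E.ChartInfTheta.rCan_infG ℓ Hfin Hinf P hj g hg c hc) φ hφ

/-- The canonical place reduction for `(A, N)`, `A` over `ℓ ∤ N`. -/
def rFinal (hA : A.LiesOverPrime ℓ) (hℓN : ¬ ℓ ∣ N) :
    Place Qb (Fb N) → Place (Kap A) (Ft A N) :=
  rCan (ChartFactsProof.chartFacts_fin (Fact.out : ℓ.Prime) hA hℓN)
    (ChartFactsProof.chartFacts_inf (Fact.out : ℓ.Prime) hA hℓN)

/-- **Theorem E for the canonical place reduction**, from (†β) at all good bases. -/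
theorem mapDomain_heckeDivBar_rFinal (hB : BetaTarget) (hA : A.LiesOverPrime ℓ) (hℓN : ¬ ℓ ∣ N)
    (hdegt : ∀ y : Place (Kap A) (Ft A N), y.deg = 1)
    (φ : Kap A ≃+* Kap A) (hφ : ∀ a, φ a = a ^ ℓ) :
    haveI := hasPrincipalDivisors_bar (N * ℓ)
    ∀ D : Divisor Qb (Fb N),
    Finsupp.mapDomain (rFinal hA hℓN)
        (heckeDivBar (heckeAlphaBarIntegral N ℓ) (heckeBetaBarIntegral N ℓ) D) =
      coeffAut (Kap A) N φ • Finsupp.mapDomain (rFinal hA hℓN) D +
        (ℓ : ℤ) • ((coeffAut (Kap A) N φ)⁻¹ • Finsupp.mapDomain (rFinal hA hℓN) D) :=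
  mapDomain_heckeDivBar_rCan_of_dagger hA hℓN
    (daggerBeta_of_target Fermat.Agent.N4.SmoothModel.starTargetOmega hB A N ℓ hA hℓN)
    _ _ hdegt φ hφ

/-- The same in the exact shape of `hdiv` of `ESAssembly.esCore_of_parts` (explicit primality
proof instead of the `Fact` instance). -/
theorem hdiv_rFinal (hB : BetaTarget) (N : ℕ) [NeZero N] {ℓ : ℕ} (hℓ : ℓ.Prime)
    {A : ValuationSubring Qb} (hA : A.LiesOverPrime ℓ) (hℓN : ¬ ℓ ∣ N)
    (hdegt : ∀ y : Place (Kap A) (Ft A N), y.deg = 1) :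
    haveI : Fact ℓ.Prime := ⟨hℓ⟩
    ∀ φ : Kap A ≃+* Kap A, (∀ x, φ x = x ^ ℓ) →
      haveI : NeZero ℓ := ⟨hℓ.ne_zero⟩
      haveI := hasPrincipalDivisors_bar (N * ℓ)
      ∀ D : Divisor Qb (Fb N),
        Finsupp.mapDomain (rFinal hA hℓN)
            (heckeDivBar (heckeAlphaBarIntegral N ℓ) (heckeBetaBarIntegral N ℓ) D) =
          coeffAut (Kap A) N φ • Finsupp.mapDomain (rFinal hA hℓN) D +
            (ℓ : ℤ) • ((coeffAut (Kap A) N φ)⁻¹ • Finsupp.mapDomain (rFinal hA hℓN) D) :=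
  haveI : Fact ℓ.Prime := ⟨hℓ⟩
  fun φ hφ => mapDomain_heckeDivBar_rFinal hB hA hℓN hdegt φ hφ

end Fermat.Agent.N4F.E.TheoremEFinal

end
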