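import Fermat.Agent.N4F.E.TheoremEModular
import Fermat.Agent.N4F.E.ChartInfTheta

/-!
# N4-FULL / block E : `hdiv` for `rCan` with the chart `−` inputs discharged

`TheoremEModular.mapDomain_heckeDivBar_rCan` with its hypotheses `hG1 hG2 hG3` (facts on the ring
`RtInf[1/g(u)]`) supplied by `ChartInfTheta`.  Remaining inputs: `DaggerBeta` (block E core),
the two `ChartFacts` bundles (block C) and `hdegt`.
-/

set_option autoImplicit false
set_option linter.style.haveILetI false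

namespace Fermat.Agent.N4F.E.TheoremEModularPlug

open ModularCurve AlgebraicCurve Fermat.Agent.N4F.C Fermat.Agent.N4F.C.Centre
  Fermat.Agent.N4F.E.TheoremEModular

/-- **`hdiv` of `ESAssembly.esCore_of_parts` for `r := rCan Hfin Hinf`**, from `DaggerBeta`, the two
chart bundles and `hdegt` only. -/
theorem hdiv_rCan {A : ValuationSubring Qb} {N : ℕ} [NeZero N] {ℓ : ℕ} [Fact ℓ.Prime]
    {SgFin SgInf : Subalgebra (Kap A) (Ft A N)}
    (hA : A.LiesOverPrime ℓ) (hℓN : ¬ ℓ ∣ N) (hdag : DaggerBeta A N ℓ)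
    (Hfin : Centre.ChartFacts A N (RtFin A N) SgFin)
    (Hinf : Centre.ChartFacts A N (RtInf A N) SgInf)
    (hdegt : ∀ y : Place (Kap A) (Ft A N), y.deg = 1)
    (φ : Kap A ≃+* Kap A) (hφ : ∀ a, φ a = a ^ ℓ) :
    haveI := Fermat.Agent.N4F.A.LevelMaps.hasPrincipalDivisors_bar (N * ℓ)
    ∀ D : Divisor Qb (Fb N),
      Finsupp.mapDomain (rCan Hfin Hinf)
          (heckeDivBar (Fermat.Agent.N4F.A.LevelMaps.heckeAlphaBarIntegral N ℓ)
            (Fermat.Agent.N4F.A.LevelMaps.heckeBetaBarIntegral N ℓ) D) =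
        Fermat.Agent.N4F.C.CoeffAut.coeffAut (Kap A) N φ • Finsupp.mapDomain (rCan Hfin Hinf) D +
          (ℓ : ℤ) • ((Fermat.Agent.N4F.C.CoeffAut.coeffAut (Kap A) N φ)⁻¹ •
            Finsupp.mapDomain (rCan Hfin Hinf) D) :=
  mapDomain_heckeDivBar_rCan hA hℓN hdag Hfin Hinf hdegt
    (fun _ hg => Fermat.Agent.N4F.E.ChartInfTheta.mem_gaussSub_of_mem_chartInfG ℓ Hinf hg)
    (fun _ hg => Fermat.Agent.N4F.E.ChartInfTheta.thetaBar_mem_full_of_mem_chartInfG ℓ Hinf hg)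
    (Fermat.Agent.N4F.E.ChartInfTheta.rCan_infG ℓ Hfin Hinf) φ hφ

end Fermat.Agent.N4F.E.TheoremEModularPlug
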